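import Fermat.Agent.S34.Core
import Fermat.Agent.S31.Wrap

/-!
# S34 : the input `HasInputU N p q` from `INJ` and the claim (U) on functions

`ClaimU m N A` : for `τ` in the inertia group of `A` and `u ∈ FF N` with `m ∣ div u`,
`τ² u · u / (τ u)²` is an `m`-th power in `FF N`.
-/

set_option autoImplicit false

namespace Fermat.Agent.S34

open CongruenceSubgroup CuspForm Fermat.Agent.S16 Fermat.Agent.S24 Fermat.Agent.ES
open Fermat.Agent.S31

/-- **Claim (U)**, on functions: `(τ - 1) ^ 2` kills the Kummer classes of exponent `m`. -/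
def ClaimU (m N : ℕ) (A : ValuationSubring Kb) : Prop :=
  ∀ τ ∈ A.inertiaSubgroupIn ℚ, ∀ u : FF N, IsPDiv m N u →
    ∃ z : FF N, gal N τ (gal N τ u) * u = (gal N τ u) ^ 2 * z ^ m

/-- claim (U) on the Kummer group. -/
theorem galV_unipotent (m N : ℕ) (A : ValuationSubring Kb) (hU : ClaimU m N A) (τ : GQ)
    (hτ : τ ∈ A.inertiaSubgroupIn ℚ) (x : KV m N) :
    (galV m N τ - 1) ((galV m N τ - 1) x) = 0 := by
  obtain ⟨u, rfl⟩ := KV.mk_surjective x
  obtain ⟨z, hz⟩ := hU τ hτ (u : (FF N)ˣ) (mem_pdivUnits_iff.1 u.2)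
  set u1 : pdivUnits m N := ⟨galU N τ u, galU_mem m N τ u u.2⟩ with hu1
  set u2 : pdivUnits m N := ⟨galU N τ u1, galU_mem m N τ u1 u1.2⟩ with hu2
  have e1 : galV m N τ (KV.mk u) = KV.mk u1 := galV_mk m N τ u
  have e2 : galV m N τ (KV.mk u1) = KV.mk u2 := galV_mk m N τ u1
  have hz' : ((u2 : (FF N)ˣ) : FF N) * ((u : (FF N)ˣ) : FF N)
      = ((u1 : (FF N)ˣ) : FF N) ^ 2 * z ^ m := hz
  have hz0 : z ^ m ≠ 0 := by
    intro h0
    rw [h0, mul_zero] at hz'
    exact mul_ne_zero (u2 : (FF N)ˣ).ne_zero (u : (FF N)ˣ).ne_zero hz'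
  obtain ⟨w, hw⟩ : ∃ w : (FF N)ˣ, (w : FF N) ^ m = z ^ m := by
    rcases eq_or_ne z 0 with rfl | hzz
    · rcases Nat.eq_zero_or_pos m with hm | hm
      · exact ⟨1, by rw [hm, pow_zero, pow_zero]⟩
      · exact absurd (zero_pow hm.ne') hz0
    · exact ⟨Units.mk0 z hzz, rfl⟩
  have key : KV.mk (u2 * u) = KV.mk (u1 * u1) := by
    rw [KV.mk_eq_iff]
    refine ⟨w, ?_⟩
    apply Units.ext
    simp only [Subgroup.coe_mul, Units.val_mul, Units.val_pow_eq_pow_val]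
    rw [hz', hw]
    ring
  rw [KV.mk_mul, KV.mk_mul] at key
  simp only [LinearMap.sub_apply, Module.End.one_apply, map_sub, e1, e2]
  rw [← sub_eq_zero] at key
  rw [← key]
  abel

/-- the ES input with unipotent inertia from `INJ` and claim (U). -/
theorem hasInputU_of (N : ℕ) [NeZero N] (p q : ℕ) (hp : p.Prime)
    (hINJ : ∀ (m ℓ : ℕ), 0 < m → ℓ.Prime → ¬ ℓ ∣ N * m → ∀ A : ValuationSubring Kb,
      A.LiesOverPrime ℓ → INJ m N A)
    (hU : ∀ r : ℕ, ∀ A : ValuationSubring Kb, A.LiesOverPrime q → ClaimU (p ^ r) N A) :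
    HasInputU N p q := by
  intro r
  haveI : NeZero (p ^ r) := ⟨pow_ne_zero _ hp.ne_zero⟩
  exact ⟨ZMod (p ^ r), inferInstance, KV (p ^ r) N, inferInstance, inferInstance, galV (p ^ r) N,
    Wrap.hk (p ^ r) N, Supp.iota (Wrap.hyp N (p ^ r)),
    Wrap.input N (p ^ r) (hINJ (p ^ r) · (pow_pos hp.pos r)),
    fun A hA τ hτ f => galV_unipotent (p ^ r) N A (hU r A hA) τ hτ _⟩

end Fermat.Agent.S34
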