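import Fermat.Agent.S34.UCoord
import Fermat.Agent.S34.Wrap
import Fermat.Agent.ES.HauptL

/-!
# S34 : claim (U) at every level `N` with `q ∥ N`, for the exponents `p ^ k`, `p ≠ q`
-/

set_option autoImplicit false

namespace Fermat.Agent.S34

open ModularCurve AlgebraicCurve
open Fermat.Agent.S24 Fermat.Agent.ES Fermat.Agent.ES.T23

/-- claim (U) at the levels divisible by `r ∈ {2, 3}`, `r ≠ q`. -/
theorem uni_of_aux_dvd {q r : ℕ} (hq : q.Prime) (hr : r = 2 ∨ r = 3) (hrq : r ≠ q) (m : ℕ)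
    (hqm : ¬ q ∣ m) (A : ValuationSubring Kb) (hA : A.LiesOverPrime q)
    (N' : ℕ) (hN' : N' ≠ 0) (hrN : r ∣ N') (hqN : q ∣ N') (hq2 : ¬ q ^ 2 ∣ N') : UNI m N' A := by
  obtain ⟨M0, rfl⟩ := hqN
  rw [mul_comm] at hN' hrN hq2 ⊢
  have hM0 : M0 ≠ 0 := fun h => hN' (by rw [h, zero_mul])
  have : NeZero M0 := ⟨hM0⟩
  have : NeZero q := ⟨hq.ne_zero⟩
  have hqM : ¬ q ∣ M0 := by
    intro h
    apply hq2
    rw [pow_two]
    exact mul_dvd_mul_right h q
  have hrp : r.Prime := by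
    rcases hr with rfl | rfl
    · exact Nat.prime_two
    · exact Nat.prime_three
  have hrM : r ∣ M0 := by
    rcases (Nat.Prime.dvd_mul hrp).1 hrN with h | h
    · exact h
    · exact absurd ((Nat.prime_dvd_prime_iff_eq hrp hq).1 h) hrq
  have hcop : Nat.Coprime r q := (Nat.coprime_primes hrp hq).2 hrq
  rcases hr with rfl | rfl
  · exact claimU_of_coord m M0 q hq hqM hqm A hA
      (zCoord2L M0 q hq (Ne.symm hrq) (tR_two_mem M0 hrM))
      (zCoord2L_unram M0 q hrM hq (Ne.symm hrq)) (wGood_t2F M0 q hrM hcop)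
  · exact claimU_of_coord m M0 q hq hqM hqm A hA
      (zCoord3L M0 q hq (Ne.symm hrq) (tR_three_mem M0 hrM))
      (zCoord3L_unram M0 q hrM hq (Ne.symm hrq)) (wGood_t3F M0 q hrM hcop)

/-- **Claim (U)** for the exponents `p ^ k`. -/
theorem claimU_pow (p r N q : ℕ) [NeZero N] (hp : p.Prime) (hq : q.Prime) (hqp : q ≠ p)
    (hqN : q ∣ N) (hq2 : ¬ q ^ 2 ∣ N) (A : ValuationSubring Kb) (hA : A.LiesOverPrime q) :
    ClaimU (p ^ r) N A := by
  obtain ⟨r0, hr, hr23, hrq, hcop⟩ := exists_aux_level hp hqp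
  have hqm : ¬ q ∣ p ^ r := fun h =>
    hqp ((Nat.prime_dvd_prime_iff_eq hq hp).1 (hq.dvd_of_dvd_pow h))
  exact UNI_of_aux hq hr hrq hcop r A
    (fun N' hN' hrN' hqN' hq2' => uni_of_aux_dvd hq hr23 hrq (p ^ r) hqm A hA N' hN' hrN' hqN' hq2')
    N hqN hq2

end Fermat.Agent.S34
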