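import Mathlib

/-!
# S34, local structure of a two-component arithmetic surface : definitions (Mathlib only)

`B` a noetherian domain (a chart), `ϖ : B`, `p1 p2` the two minimal primes over `ϖ`,
`p1 ⊓ p2 = (ϖ)`, `B/p1`, `B/p2` Dedekind.  No valuation rings: in the application
`p_i = B ∩ ϖ O_i`.
-/

set_option autoImplicit false

namespace Fermat.Agent.S34

variable {B : Type*} [CommRing B]

/-- `x ∈ n` generates `n` locally at `n`, modulo `p`. -/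
def LocGen (n p : Ideal B) (x : B) : Prop :=
  x ∈ n ∧ ∀ b ∈ n, ∃ s, s ∉ n ∧ ∃ c, s * b - c * x ∈ p

/-- `f` is regular on the tube of `n` : `f ∈ B_n[1/ϖ]`. -/
def InTube {F : Type*} [Field F] [Algebra B F] (ϖ : B) (n : Ideal B) (f : F) : Prop :=
  ∃ s, s ∉ n ∧ ∃ (k : ℕ) (b : B), algebraMap B F (s * ϖ ^ k) * f = algebraMap B F b

/-- the data needed at the nodes (maximal ideals containing `p1 + p2`). -/
structure NodeData (ϖ : B) (p1 p2 : Ideal B) : Prop where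
  adm1 : ∀ n : Ideal B, n.IsMaximal → p1 ≤ n → p2 ≤ n → ∃ x, LocGen n p1 x ∧ x ∈ p2
  adm2 : ∀ n : Ideal B, n.IsMaximal → p1 ≤ n → p2 ≤ n → ∃ y, LocGen n p2 y ∧ y ∈ p1
  xy : ∀ n : Ideal B, n.IsMaximal → p1 ≤ n → p2 ≤ n → ∃ (X Y s0 : B) (c : ℕ),
    X * Y = ϖ ^ c * s0 ∧ s0 ∉ n ∧ X ∉ p1 ∧ X ∈ p2

end Fermat.Agent.S34
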