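import Fermat.Agent.S34.SDefs
import Fermat.Agent.S34.LocDefs

/-!
# S34, abstract block : the interface between the abstract and the modular part

`F` a field with two discrete valuation rings `O1 O2` with the same uniformiser `ϖ`,
`R ≤ B` subrings of `F` (`R` the base DVR, `B` a chart).
-/

set_option autoImplicit false

namespace Fermat.Agent.S34

open Fermat.Agent.ES.Model

variable {F : Type*} [Field F]

/-- `O1 ∩ O2`. -/
abbrev OO (O1 O2 : ValuationSubring F) : Subring F := O1.toSubring ⊓ O2.toSubring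

/-- the ideal `B ∩ ϖ O` of `B`. -/
def pId (O : ValuationSubring F) (ϖ : F) (B : Subring F) (h : ∀ x ∈ B, x ∈ O) : Ideal B where
  carrier := {b | DivO O ϖ 1 (b : F)}
  add_mem' := by
    rintro a b ⟨y, hy, hya⟩ ⟨z, hz, hzb⟩
    exact ⟨y + z, O.add_mem _ _ hy hz, by push_cast; rw [hya, hzb]; ring⟩
  zero_mem' := ⟨0, O.zero_mem, by simp⟩
  smul_mem' := by
    rintro c b ⟨y, hy, hyb⟩
    exact ⟨c * y, O.mul_mem _ _ (h _ c.2) hy, by rw [smul_eq_mul]; push_cast; rw [hyb]; ring⟩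

theorem mem_pId {O : ValuationSubring F} {ϖ : F} {B : Subring F} {h : ∀ x ∈ B, x ∈ O} {b : B} :
    b ∈ pId O ϖ B h ↔ DivO O ϖ 1 (b : F) := Iff.rfl

/-- `B[1/ϖ]` as a subring of `F`. -/
def awayS (B : Subring F) (ϖ : F) (hϖ : ϖ ∈ B) : Subring F where
  carrier := {f | ∃ k : ℕ, ϖ ^ k * f ∈ B}
  mul_mem' := by
    rintro a b ⟨k, hk⟩ ⟨l, hl⟩
    exact ⟨k + l, by
      have : ϖ ^ (k + l) * (a * b) = (ϖ ^ k * a) * (ϖ ^ l * b) := by ring
      rw [this]; exact B.mul_mem hk hl⟩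
  one_mem' := ⟨0, by simp⟩
  add_mem' := by
    rintro a b ⟨k, hk⟩ ⟨l, hl⟩
    exact ⟨k + l, by
      have : ϖ ^ (k + l) * (a + b) = ϖ ^ l * (ϖ ^ k * a) + ϖ ^ k * (ϖ ^ l * b) := by ring
      rw [this]
      exact B.add_mem (B.mul_mem (B.pow_mem hϖ l) hk) (B.mul_mem (B.pow_mem hϖ k) hl)⟩
  zero_mem' := ⟨0, by simp⟩
  neg_mem' := by
    rintro a ⟨k, hk⟩
    exact ⟨k, by rw [mul_neg]; exact B.neg_mem hk⟩

theorem mem_awayS {B : Subring F} {ϖ : F} {hϖ : ϖ ∈ B} {f : F} :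
    f ∈ awayS B ϖ hϖ ↔ ∃ k : ℕ, ϖ ^ k * f ∈ B := Iff.rfl

/-- **The data of a chart** (to be supplied by the modular side). -/
structure SChart (O1 O2 : ValuationSubring F) (ϖ : F) (m : ℕ) (B : Subring F) : Prop where
  chart : IsChartS (OO O1 O2) ϖ m B
  noeth : IsNoetherianRing B
  frac : ∀ f : F, ∃ a ∈ B, ∃ b ∈ B, b ≠ 0 ∧ f * b = a
  ded1 : IsDedekindDomain (B ⧸ pId O1 ϖ B (fun x hx => (chart.le x hx).1))
  ded2 : IsDedekindDomain (B ⧸ pId O2 ϖ B (fun x hx => (chart.le x hx).2))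
  node : NodeData (⟨ϖ, chart.unif_mem⟩ : B) (pId O1 ϖ B (fun x hx => (chart.le x hx).1))
    (pId O2 ϖ B (fun x hx => (chart.le x hx).2))
  dedK : IsDedekindDomain (awayS B ϖ chart.unif_mem)

/-- **The action of an element of the inertia group on a discretely valued field.** -/
structure IsInertV (O : ValuationSubring F) (ϖ : F) (τ : F ≃+* F) : Prop where
  unif : IsUnif O ϖ
  disc : ∀ x : F, x ≠ 0 → ∃ a : ℤ, x * ϖ ^ a ∈ O ∧ (x * ϖ ^ a)⁻¹ ∈ O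
  cong : ∀ x ∈ O, DivO O ϖ 1 (τ x - x)
  cong' : ∀ x ∈ O, DivO O ϖ 1 (τ.symm x - x)

/-- **The data of the function `u` on the chart `B`**: the divisor of `u` on the generic fibre of
`B` is divisible by `m` (witnesses), and the zeros and poles of `u` are rational. -/
structure UData (ϖ : F) (m : ℕ) (R B : Subring F) (hRB : R ≤ B) (hϖ : ϖ ∈ B) (u : F) : Prop where
  hdiv : ∃ (ι : Type) (_ : Fintype ι) (g g' : ι → F), (∀ i, g i ^ m * u ∈ awayS B ϖ hϖ) ∧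
    (∀ i, g' i ^ m * u⁻¹ ∈ awayS B ϖ hϖ) ∧ ∑ i, g i * g' i = 1
  hrat : ∀ 𝔮 : Ideal B, 𝔮.IsPrime → (⟨ϖ, hϖ⟩ : B) ∉ 𝔮 →
    (∃ n : Ideal B, n.IsMaximal ∧ (⟨ϖ, hϖ⟩ : B) ∈ n ∧ 𝔮 ≤ n) →
    (¬ ∃ a c : B, a ∉ 𝔮 ∧ c ∉ 𝔮 ∧ (c : F) * u = a) →
    ∃ φ : B →+* R, (∀ r : R, φ (Subring.inclusion hRB r) = r) ∧ RingHom.ker φ = 𝔮

end Fermat.Agent.S34
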