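import Fermat.Agent.S34.Node

/-!
# S34 : the two components of the special fibre, abstractly (RED, Fr)

`C` : the chart of level `M₀`, `B` : the chart of level `M₀ q`, `al be : C → B` the two
degeneracy maps, `r1 r2 : B → Ω` the reductions of the two expansions, `rC : C → Ω` the reduction
at level `M₀`, `V : Ω → Ω` the operator `T ↦ T ^ q`.
-/

set_option autoImplicit false
set_option linter.unusedSectionVars false
set_option linter.unusedVariables false

namespace Fermat.Agent.S34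

/-- Dedekind domains are stable under ring isomorphisms. -/
theorem Adm.isDedekindDomain_of_equiv {A A' : Type*} [CommRing A] [CommRing A']
    [IsDedekindDomain A] (e : A ≃+* A') : IsDedekindDomain A' := by
  have h1 : IsDomain A' := e.symm.toMulEquiv.isDomain A
  have h2 : IsNoetherianRing A' := isNoetherianRing_of_ringEquiv A e
  have h3 : Ring.DimensionLEOne A' := Ring.DimensionLEOne.of_ringEquiv e.symm
  have h4 : IsIntegrallyClosed A' := IsIntegrallyClosed.of_equiv e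
  exact { h1, h2, h3, h4 with }

/-- an integral fraction of an integrally closed domain, inside any field. -/
theorem Adm.exists_of_integral {C Ω : Type*} [CommRing C] [IsDomain C] [IsIntegrallyClosed C]
    [Field Ω] (f : C →+* Ω) (hf : Function.Injective f) (a b : C) (hb : b ≠ 0) (ω : Ω)
    (h : f b * ω = f a) (hω : f.IsIntegralElem ω) : ∃ c, f c = ω := by
  let := f.toAlgebra
  have hinj : Function.Injective (algebraMap C Ω) := hf
  have : FaithfulSMul C Ω := (faithfulSMul_iff_algebraMap_injective C Ω).mpr hinj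
  let g : FractionRing C →ₐ[C] Ω :=
    IsFractionRing.liftAlgHom (K := FractionRing C) (g := Algebra.ofId C Ω) hinj
  have hb' : algebraMap C (FractionRing C) b ≠ 0 := by
    rw [Ne, map_eq_zero_iff _ (IsFractionRing.injective C (FractionRing C))]
    exact hb
  have hfb : f b ≠ 0 := by
    rw [Ne, map_eq_zero_iff _ hf]
    exact hb
  have hg : g (algebraMap C (FractionRing C) a / algebraMap C (FractionRing C) b) = ω := by
    rw [map_div₀, g.commutes, g.commutes]
    show f a / f b = ω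
    rw [← h, mul_div_cancel_left₀ _ hfb]
  have hint : IsIntegral C (algebraMap C (FractionRing C) a / algebraMap C (FractionRing C) b) := by
    rw [← isIntegral_algHom_iff g g.toRingHom.injective, hg]
    exact hω
  obtain ⟨y, hy⟩ := IsIntegrallyClosed.isIntegral_iff.mp hint
  refine ⟨y, ?_⟩
  rw [← hg, ← hy, g.commutes]
  rfl

variable {B C Ω : Type*} [CommRing B] [CommRing C] [Field Ω]

/-- the abstract data of the two reductions. -/
structure RedData (al be : C →+* B) (r1 r2 : B →+* Ω) (rC : C →+* Ω) (V : Ω →+* Ω) (q : ℕ) :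
    Prop where
  r1_al : ∀ c, r1 (al c) = rC c
  r1_be : ∀ c, r1 (be c) = V (rC c)
  r2_al : ∀ c, r2 (al c) = V (rC c)
  r2_be : ∀ c, r2 (be c) = rC c
  frob : ∀ c, ∃ c', V (rC c) = rC c' ^ q
  int : ∀ b, al.IsIntegralElem b
  frac1 : ∀ b, ∃ s a, rC s ≠ 0 ∧ rC s * r1 b = rC a
  frac2 : ∀ b, ∃ s a, rC s ≠ 0 ∧ rC s * r2 b = rC a

namespace RedData

variable {al be : C →+* B} {r1 r2 : B →+* Ω} {rC : C →+* Ω} {V : Ω →+* Ω} {q : ℕ}

/-- an element of `Ω` which is a fraction of, and integral over, `rC C`, is in `rC C`. -/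
theorem exists_of_frac [IsDedekindDomain (C ⧸ RingHom.ker rC)] (ω : Ω)
    (hfrac : ∃ s a, rC s ≠ 0 ∧ rC s * ω = rC a) (hint : rC.IsIntegralElem ω) :
    ∃ c, rC c = ω := by
  obtain ⟨s, a, hs, h⟩ := hfrac
  obtain ⟨P, hP, hroot⟩ := hint
  obtain ⟨c, hc⟩ := Adm.exists_of_integral (RingHom.kerLift rC) (RingHom.kerLift_injective rC)
    (Ideal.Quotient.mk _ a) (Ideal.Quotient.mk _ s)
    (fun h0 => hs (by rw [← RingHom.kerLift_mk rC s, h0, map_zero])) ω
    (by rw [RingHom.kerLift_mk, RingHom.kerLift_mk]; exact h)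
    ⟨P.map (Ideal.Quotient.mk _), hP.map _, by
      rw [Polynomial.eval₂_map]
      have : (RingHom.kerLift rC).comp (Ideal.Quotient.mk (RingHom.ker rC)) = rC := by
        ext x; exact RingHom.kerLift_mk rC x
      rw [this]
      exact hroot⟩
  obtain ⟨c, rfl⟩ := Ideal.Quotient.mk_surjective c
  exact ⟨c, by rw [← hc, RingHom.kerLift_mk]⟩

variable (H : RedData al be r1 r2 rC V q)
include H

theorem isIntegralElem1 (b : B) : rC.IsIntegralElem (r1 b) := by
  obtain ⟨P, hP, hroot⟩ := H.int b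
  refine ⟨P, hP, ?_⟩
  have : rC = r1.comp al := by ext c; exact (H.r1_al c).symm
  rw [this, ← Polynomial.hom_eval₂, hroot, map_zero]

theorem isIntegralElem2 (b : B) : rC.IsIntegralElem (r2 b) := by
  classical
  obtain ⟨P, hP, hroot⟩ := H.int b
  have h1 : Polynomial.eval₂ (r2.comp al) (r2 b) P = 0 := by
    rw [← Polynomial.hom_eval₂, hroot, map_zero]
  have h2 : P.map (r2.comp al) ∈ Polynomial.lifts rC := by
    rw [Polynomial.lifts_iff_coeff_lifts]
    intro i
    rw [Polynomial.coeff_map]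
    obtain ⟨c', hc'⟩ := H.frob (P.coeff i)
    exact ⟨c' ^ q, by rw [map_pow, ← hc']; exact (H.r2_al _).symm⟩
  obtain ⟨P', h3, -, h4⟩ := Polynomial.lifts_and_natDegree_eq_and_monic h2 (hP.map _)
  exact ⟨P', h4, by rw [Polynomial.eval₂_eq_eval_map, h3, ← Polynomial.eval₂_eq_eval_map, h1]⟩

theorem range1 [IsDedekindDomain (C ⧸ RingHom.ker rC)] (b : B) : ∃ c, rC c = r1 b :=
  exists_of_frac _ (H.frac1 b) (H.isIntegralElem1 b)

theorem range2 [IsDedekindDomain (C ⧸ RingHom.ker rC)] (b : B) : ∃ c, rC c = r2 b :=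
  exists_of_frac _ (H.frac2 b) (H.isIntegralElem2 b)

theorem ded1 [IsDedekindDomain (C ⧸ RingHom.ker rC)] :
    IsDedekindDomain (B ⧸ RingHom.ker r1) := by
  have hsurj : Function.Surjective ((Ideal.Quotient.mk (RingHom.ker r1)).comp al) := by
    intro y
    obtain ⟨b, rfl⟩ := Ideal.Quotient.mk_surjective y
    obtain ⟨c, hc⟩ := H.range1 b
    refine ⟨c, ?_⟩
    rw [RingHom.comp_apply, Ideal.Quotient.eq, RingHom.mem_ker, map_sub, H.r1_al, hc, sub_self]
  have hker : RingHom.ker rC = RingHom.ker ((Ideal.Quotient.mk (RingHom.ker r1)).comp al) := by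
    ext c
    rw [RingHom.mem_ker, RingHom.mem_ker, RingHom.comp_apply, Ideal.Quotient.eq_zero_iff_mem,
      RingHom.mem_ker, H.r1_al]
  exact Adm.isDedekindDomain_of_equiv
    ((Ideal.quotEquivOfEq hker).trans (RingHom.quotientKerEquivOfSurjective hsurj))

theorem ded2 [IsDedekindDomain (C ⧸ RingHom.ker rC)] :
    IsDedekindDomain (B ⧸ RingHom.ker r2) := by
  have hsurj : Function.Surjective ((Ideal.Quotient.mk (RingHom.ker r2)).comp be) := by
    intro y
    obtain ⟨b, rfl⟩ := Ideal.Quotient.mk_surjective y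
    obtain ⟨c, hc⟩ := H.range2 b
    refine ⟨c, ?_⟩
    rw [RingHom.comp_apply, Ideal.Quotient.eq, RingHom.mem_ker, map_sub, H.r2_be, hc, sub_self]
  have hker : RingHom.ker rC = RingHom.ker ((Ideal.Quotient.mk (RingHom.ker r2)).comp be) := by
    ext c
    rw [RingHom.mem_ker, RingHom.mem_ker, RingHom.comp_apply, Ideal.Quotient.eq_zero_iff_mem,
      RingHom.mem_ker, H.r2_be]
  exact Adm.isDedekindDomain_of_equiv
    ((Ideal.quotEquivOfEq hker).trans (RingHom.quotientKerEquivOfSurjective hsurj))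

theorem hFr1 [IsDedekindDomain (C ⧸ RingHom.ker rC)] (b : B) :
    ∃ b' : B, ∃ x ∈ RingHom.ker r2, x - (b' ^ (q ^ 2) - b) ∈ RingHom.ker r1 := by
  obtain ⟨b0, hb0⟩ := H.range1 b
  obtain ⟨c1, hc1⟩ := H.frob b0
  obtain ⟨c2, hc2⟩ := H.frob c1
  refine ⟨al c2, be (c1 ^ q) - al b0, ?_, ?_⟩
  · rw [RingHom.mem_ker, map_sub, H.r2_be, H.r2_al, hc1, map_pow, sub_self]
  · rw [RingHom.mem_ker, map_sub, map_sub, map_sub, map_pow r1, H.r1_be, H.r1_al, H.r1_al, map_pow,
      map_pow, hc2, hb0, ← pow_mul, pow_two, sub_self]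

theorem hFr2 [IsDedekindDomain (C ⧸ RingHom.ker rC)] (b : B) :
    ∃ b' : B, ∃ x ∈ RingHom.ker r1, x - (b' ^ (q ^ 2) - b) ∈ RingHom.ker r2 := by
  obtain ⟨b0, hb0⟩ := H.range2 b
  obtain ⟨c1, hc1⟩ := H.frob b0
  obtain ⟨c2, hc2⟩ := H.frob c1
  refine ⟨be c2, al (c1 ^ q) - be b0, ?_, ?_⟩
  · rw [RingHom.mem_ker, map_sub, H.r1_be, H.r1_al, hc1, map_pow, sub_self]
  · rw [RingHom.mem_ker, map_sub, map_sub, map_sub, map_pow r2, H.r2_be, H.r2_al, H.r2_be, map_pow,
      map_pow, hc2, hb0, ← pow_mul, pow_two, sub_self]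

/-- **NodeData** from the two reductions and the `XY`-relations. -/
theorem nodeData [IsDomain B] [IsDedekindDomain (C ⧸ RingHom.ker rC)] (hq : 2 ≤ q) (ϖ : B)
    (hϖ : ϖ ≠ 0) (hp : RingHom.ker r1 ⊓ RingHom.ker r2 = Ideal.span {ϖ})
    (hxy : ∀ n : Ideal B, n.IsMaximal → RingHom.ker r1 ≤ n → RingHom.ker r2 ≤ n →
      ∃ (X Y s0 : B) (c : ℕ), X * Y = ϖ ^ c * s0 ∧ s0 ∉ n ∧ X ∉ RingHom.ker r1 ∧
        X ∈ RingHom.ker r2) :
    NodeData ϖ (RingHom.ker r1) (RingHom.ker r2) := by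
  have hQ : 2 ≤ q ^ 2 := by nlinarith
  have := H.ded1
  have := H.ded2
  have : (RingHom.ker r1).IsPrime := RingHom.ker_isPrime r1
  have : (RingHom.ker r2).IsPrime := RingHom.ker_isPrime r2
  refine ⟨fun n hn h1 h2 => ?_, fun n hn h1 h2 => ?_, hxy⟩
  · obtain ⟨X, Y, s0, c, hXY, hs0, hX1, hX2⟩ := hxy n hn h1 h2
    refine exists_adm _ _ n h1 h2 ?_ (q ^ 2) hQ H.hFr1
    rintro rfl
    exact hX1 (h2 hX2)
  · obtain ⟨X, Y, s0, c, hXY, hs0, hX1, hX2⟩ := hxy n hn h1 h2
    obtain ⟨z, hz, hz2⟩ := Node.exists_notMem ϖ _ _ hϖ hp n h1 h2 X Y s0 c hXY hs0 hX1 hX2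
    refine exists_adm _ _ n h2 h1 ?_ (q ^ 2) hQ H.hFr2
    rintro rfl
    exact hz2 hz

end RedData

end Fermat.Agent.S34
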