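import Fermat.Agent.S34.LocDefs

/-!
# S34, local algebra : (LP) `u = b1 * G ^ m` with `b1` a unit on the tube of `n`
-/

set_option autoImplicit false
set_option linter.unusedSectionVars false

open IsDedekindDomain

namespace Fermat.Agent.S34

namespace LP

section Tube

variable {B : Type*} [CommRing B] [IsDomain B] {F D : Type*} [Field F] [Algebra B F]
  [CommRing D] [Algebra B D] [IsDedekindDomain D]
  [Algebra D F] [IsScalarTower B D F] [IsFractionRing D F]

/-- the primes of `D` in the tube of `n`. -/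
def Tb (n : Ideal B) (Q : HeightOneSpectrum D) : Prop := Q.asIdeal.comap (algebraMap B D) ≤ n

/-- the denominator ideal. -/
def den (D : Type*) {F : Type*} [Field F] [CommRing D] [Algebra D F] (z : F) : Ideal D where
  carrier := {d | ∃ d' : D, algebraMap D F d * z = algebraMap D F d'}
  add_mem' := by
    rintro a b ⟨a', ha⟩ ⟨b', hb⟩
    exact ⟨a' + b', by rw [map_add, map_add, add_mul, ha, hb]⟩
  zero_mem' := ⟨0, by simp⟩
  smul_mem' := by
    rintro c a ⟨a', ha⟩
    exact ⟨c * a', by rw [smul_eq_mul, map_mul, map_mul, mul_assoc, ha]⟩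

theorem tube (ϖ : B) [IsLocalization.Away ϖ D] (n : Ideal B) [n.IsPrime] (z : F)
    (h : ∀ Q : HeightOneSpectrum D, Tb n Q → Q.valuation F z ≤ 1) : InTube ϖ n z := by
  by_cases hdis : Disjoint (den D z : Set D) ((n.primeCompl.map (algebraMap B D) : Submonoid D) : Set D)
  · exfalso
    obtain ⟨P, hP, hle, hPd⟩ := Ideal.exists_le_prime_disjoint _ _ hdis
    have hne : P ≠ ⊥ := by
      obtain ⟨a, b, hb, rfl⟩ := IsFractionRing.div_surjective (A := D) z
      have hb0 : b ≠ 0 := nonZeroDivisors.ne_zero hb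
      have hbF : algebraMap D F b ≠ 0 := by
        rw [Ne, map_eq_zero_iff _ (IsFractionRing.injective D F)]; exact hb0
      have : b ∈ den D (algebraMap D F a / algebraMap D F b) := ⟨a, by field_simp⟩
      intro hbot
      have h2 := hle this
      rw [hbot, Ideal.mem_bot] at h2
      exact hb0 h2
    let Q : HeightOneSpectrum D := ⟨P, hP, hne⟩
    have hQ : Tb n Q := by
      intro b hb
      by_contra hbn
      exact Set.disjoint_left.mp hPd hb ⟨b, hbn, rfl⟩
    obtain ⟨a, d, hd⟩ := Q.exists_primeCompl_mul_eq_of_integer z (h Q hQ)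
    exact d.2 (hle ⟨a, by rw [mul_comm]; exact hd⟩)
  · rw [Set.not_disjoint_iff] at hdis
    obtain ⟨_, ⟨d', hd'⟩, ⟨s, hs, rfl⟩⟩ := hdis
    obtain ⟨⟨b, ⟨_, k, rfl⟩⟩, hb⟩ := IsLocalization.surj (Submonoid.powers ϖ) d'
    refine ⟨s, hs, k, b, ?_⟩
    simp only at hb
    rw [map_mul, IsScalarTower.algebraMap_apply B D F s, mul_right_comm, hd',
      IsScalarTower.algebraMap_apply B D F (ϖ ^ k), ← map_mul, hb,
      ← IsScalarTower.algebraMap_apply]

/-- the witnesses give `m ∣ v_Q(u)`. -/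
theorem exists_root_val (Q : HeightOneSpectrum D) (m : ℕ) (hm : 0 < m) (u : F) (hu : u ≠ 0)
    (hdiv : ∃ (ι : Type) (_ : Fintype ι) (g g' : ι → F),
      (∀ i, ∃ d : D, algebraMap D F d = g i ^ m * u) ∧
      (∀ i, ∃ d : D, algebraMap D F d = g' i ^ m * u⁻¹) ∧ ∑ i, g i * g' i = 1) :
    ∃ y : F, y ≠ 0 ∧ Q.valuation F u * Q.valuation F y ^ m = 1 := by
  obtain ⟨ι, _, g, g', h1, h2, hsum⟩ := hdiv
  have hle1 : ∀ i, Q.valuation F (g i) ^ m * Q.valuation F u ≤ 1 := by
    intro i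
    obtain ⟨d, hd⟩ := h1 i
    rw [← map_pow, ← map_mul, ← hd]
    exact Q.valuation_le_one d
  have hle2 : ∀ i, Q.valuation F (g' i) ^ m * (Q.valuation F u)⁻¹ ≤ 1 := by
    intro i
    obtain ⟨d, hd⟩ := h2 i
    rw [← map_pow, ← map_inv₀, ← map_mul, ← hd]
    exact Q.valuation_le_one d
  have hu0 : Q.valuation F u ≠ 0 := (Valuation.ne_zero_iff _).mpr hu
  have hprod : ∀ i, (Q.valuation F (g i * g' i)) ^ m =
      (Q.valuation F (g i) ^ m * Q.valuation F u) *
        (Q.valuation F (g' i) ^ m * (Q.valuation F u)⁻¹) := by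
    intro i
    rw [map_mul, mul_pow]
    field_simp
  obtain ⟨i, hi⟩ : ∃ i, 1 ≤ Q.valuation F (g i * g' i) := by
    by_contra hcon
    push Not at hcon
    have := Valuation.map_sum_lt (Q.valuation F) (s := Finset.univ) (f := fun i => g i * g' i)
      one_ne_zero (fun i _ => hcon i)
    rw [hsum, map_one] at this
    exact lt_irrefl _ this
  have hi' : 1 ≤ (Q.valuation F (g i * g' i)) ^ m := one_le_pow₀ hi
  rw [hprod i] at hi'
  have h3 : Q.valuation F (g i) ^ m * Q.valuation F u = 1 := by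
    apply le_antisymm (hle1 i)
    calc 1 ≤ _ := hi'
      _ ≤ (Q.valuation F (g i) ^ m * Q.valuation F u) * 1 :=
        mul_le_mul_of_nonneg_left (hle2 i) zero_le
      _ = _ := mul_one _
  refine ⟨g i, ?_, by rw [mul_comm]; exact h3⟩
  rintro h0
  rw [h0, map_zero, zero_pow hm.ne', zero_mul] at h3
  exact zero_ne_one h3

section Gen

variable (ϖ : B) [IsLocalization.Away ϖ D] (n : Ideal B)

theorem val_eq_one_of_notMem {n : Ideal B} {Q : HeightOneSpectrum D} (hQ : Tb n Q) {s : B}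
    (hs : s ∉ n) : Q.valuation F (algebraMap B F s) = 1 := by
  rw [IsScalarTower.algebraMap_apply B D F, HeightOneSpectrum.valuation_eq_one_iff_notMem]
  exact fun h => hs (hQ h)

theorem unif_notMem (Q : HeightOneSpectrum D) (k : ℕ) : algebraMap B D ϖ ^ k ∉ Q.asIdeal := by
  intro h
  exact Q.isPrime.ne_top (Ideal.eq_top_of_isUnit_mem _ h
    ((IsLocalization.Away.algebraMap_isUnit ϖ).pow k))

theorem val_unif (Q : HeightOneSpectrum D) (k : ℕ) :
    Q.valuation F (algebraMap B F (ϖ ^ k)) = 1 := by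
  rw [IsScalarTower.algebraMap_apply B D F, HeightOneSpectrum.valuation_eq_one_iff_notMem, map_pow]
  exact unif_notMem ϖ Q k

theorem val_le_one (Q : HeightOneSpectrum D) (b : B) : Q.valuation F (algebraMap B F b) ≤ 1 := by
  rw [IsScalarTower.algebraMap_apply B D F]
  exact Q.valuation_le_one _

theorem exists_int (d : D) : ∃ (k : ℕ) (b : B), algebraMap B D b = d * algebraMap B D ϖ ^ k := by
  obtain ⟨⟨b, ⟨_, k, rfl⟩⟩, hb⟩ := IsLocalization.surj (Submonoid.powers ϖ) d
  exact ⟨k, b, by rw [← map_pow]; exact hb.symm⟩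

/-- `g` generates `Q` on the tube of `n`. -/
def IsGen (Q : HeightOneSpectrum D) (g : B) : Prop :=
  algebraMap B D g ∈ Q.asIdeal ∧ ∀ b : B, algebraMap B D b ∈ Q.asIdeal →
    ∃ s, s ∉ n ∧ ∃ (k : ℕ) (c : B), s * ϖ ^ k * b = g * c

variable {ϖ n}

theorem val_gen {Q : HeightOneSpectrum D} (hQ : Tb n Q) {g : B} (hg : IsGen ϖ n Q g) :
    Q.valuation F (algebraMap B F g) = WithZero.exp (-1 : ℤ) := by
  obtain ⟨π, hπ⟩ := Q.valuation_exists_uniformizer' F
  obtain ⟨k, b, hb⟩ := exists_int ϖ π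
  have hπQ : π ∈ Q.asIdeal := by
    rw [← Q.valuation_lt_one_iff_mem (K := F), hπ, ← WithZero.exp_zero, WithZero.exp_lt_exp]
    norm_num
  have hbQ : algebraMap B D b ∈ Q.asIdeal := by
    rw [hb]; exact Ideal.mul_mem_right _ _ hπQ
  have hvb : Q.valuation F (algebraMap B F b) = WithZero.exp (-1 : ℤ) := by
    rw [IsScalarTower.algebraMap_apply B D F, hb, map_mul, map_mul, ← map_pow,
      ← IsScalarTower.algebraMap_apply B D F, val_unif, mul_one]
    exact hπ
  obtain ⟨s, hs, k', c, h⟩ := hg.2 b hbQ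
  have h2 := congrArg (fun x => Q.valuation F (algebraMap B F x)) h
  simp only [map_mul] at h2
  rw [val_eq_one_of_notMem hQ hs, val_unif, hvb, one_mul, one_mul] at h2
  apply le_antisymm
  · have hlt : Q.valuation F (algebraMap B F g) < 1 := by
      rw [IsScalarTower.algebraMap_apply B D F, Q.valuation_lt_one_iff_mem]
      exact hg.1
    rw [← WithZero.lt_mul_exp_iff_le (by simp), ← WithZero.exp_add]
    simpa using hlt
  · rw [h2]
    calc _ ≤ Q.valuation F (algebraMap B F g) * 1 :=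
          mul_le_mul_of_nonneg_left (val_le_one Q c) zero_le
      _ = _ := mul_one _

theorem val_gen_other {Q Q' : HeightOneSpectrum D} (hQ' : Tb n Q') (hne : Q' ≠ Q) {g : B}
    (hg : IsGen ϖ n Q g) : Q'.valuation F (algebraMap B F g) = 1 := by
  have hnle : ¬ Q.asIdeal ≤ Q'.asIdeal := by
    intro hle
    apply hne
    ext1
    exact (Q.isMaximal.eq_of_le Q'.isPrime.ne_top hle).symm
  obtain ⟨d, hdQ, hdQ'⟩ := SetLike.not_le_iff_exists.mp hnle
  obtain ⟨k, b, hb⟩ := exists_int ϖ d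
  have hbQ : algebraMap B D b ∈ Q.asIdeal := by
    rw [hb]; exact Ideal.mul_mem_right _ _ hdQ
  have hbQ' : algebraMap B D b ∉ Q'.asIdeal := by
    rw [hb]
    intro h
    rcases Q'.isPrime.mem_or_mem h with h | h
    · exact hdQ' h
    · exact unif_notMem ϖ Q' k h
  have hvb : Q'.valuation F (algebraMap B F b) = 1 := by
    rw [IsScalarTower.algebraMap_apply B D F, HeightOneSpectrum.valuation_eq_one_iff_notMem]
    exact hbQ'
  obtain ⟨s, hs, k', c, h⟩ := hg.2 b hbQ
  have h2 := congrArg (fun x => Q'.valuation F (algebraMap B F x)) h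
  simp only [map_mul] at h2
  rw [val_eq_one_of_notMem hQ' hs, val_unif, hvb, one_mul, one_mul] at h2
  apply le_antisymm (val_le_one Q' g)
  rw [h2]
  calc _ ≤ Q'.valuation F (algebraMap B F g) * 1 :=
        mul_le_mul_of_nonneg_left (val_le_one Q' c) zero_le
    _ = _ := mul_one _

theorem core [n.IsPrime] (m : ℕ) (u : F) (hu : u ≠ 0)
    (hroot : ∀ Q : HeightOneSpectrum D, ∃ y : F, y ≠ 0 ∧
      Q.valuation F u * Q.valuation F y ^ m = 1)
    (hgen : ∀ Q : HeightOneSpectrum D, Q.valuation F u ≠ 1 → Tb n Q → ∃ g, IsGen ϖ n Q g) :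
    ∃ G b1 : F, G ≠ 0 ∧ u = b1 * G ^ m ∧ InTube ϖ n b1 ∧ InTube ϖ n b1⁻¹ := by
  classical
  have hfin : {Q : HeightOneSpectrum D | Q.valuation F u ≠ 1 ∧ Tb n Q}.Finite := by
    apply ((HeightOneSpectrum.Support.finite D u).union
      (HeightOneSpectrum.Support.finite D u⁻¹)).subset
    rintro Q ⟨hQ, -⟩
    rcases lt_or_gt_of_ne hQ with h | h
    · right
      change 1 < Q.valuation F u⁻¹
      rw [map_inv₀]
      exact (one_lt_inv₀ (zero_lt_iff.mpr ((Valuation.ne_zero_iff _).mpr hu))).mpr h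
    · left
      exact h
  have hgen' : ∀ Q : HeightOneSpectrum D, ∃ g, Q ∈ hfin.toFinset → IsGen ϖ n Q g := by
    intro Q
    by_cases hQ : Q ∈ hfin.toFinset
    · have hQ' := (Set.Finite.mem_toFinset hfin).mp hQ
      obtain ⟨g, hg⟩ := hgen Q hQ'.1 hQ'.2
      exact ⟨g, fun _ => hg⟩
    · exact ⟨0, fun h => absurd h hQ⟩
  choose g hg using hgen'
  have ha : ∀ Q : HeightOneSpectrum D, ∃ a : ℤ,
      Q.valuation F u = (WithZero.exp (-1 : ℤ)) ^ (a * (m : ℤ)) := by
    intro Q
    obtain ⟨y, hy, h⟩ := hroot Q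
    have hy0 : Q.valuation F y ≠ 0 := (Valuation.ne_zero_iff _).mpr hy
    refine ⟨WithZero.log (Q.valuation F y), ?_⟩
    rw [zpow_mul, ← WithZero.exp_zsmul, smul_eq_mul, mul_neg, mul_one, WithZero.exp_neg,
      WithZero.exp_log hy0, zpow_natCast, inv_pow]
    exact eq_inv_of_mul_eq_one_left h
  choose a ha using ha
  have hTb : ∀ Q ∈ hfin.toFinset, Tb n Q := fun Q hQ => ((Set.Finite.mem_toFinset hfin).mp hQ).2
  have hG0 : ∏ Q ∈ hfin.toFinset, (algebraMap B F (g Q)) ^ (a Q) ≠ 0 := by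
    rw [Finset.prod_ne_zero_iff]
    intro Q hQ
    apply zpow_ne_zero
    intro h0
    have := val_gen (F := F) (hTb Q hQ) (hg Q hQ)
    rw [h0, map_zero] at this
    exact WithZero.exp_ne_zero this.symm
  have key : ∀ Q0 : HeightOneSpectrum D, Tb n Q0 →
      Q0.valuation F (∏ Q ∈ hfin.toFinset, (algebraMap B F (g Q)) ^ (a Q)) ^ m
        = Q0.valuation F u := by
    intro Q0 hQ0
    rw [map_prod]
    simp only [map_zpow₀]
    by_cases hmem : Q0 ∈ hfin.toFinset
    · rw [Finset.prod_eq_single Q0, val_gen hQ0 (hg Q0 hmem), ha Q0, zpow_mul, zpow_natCast]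
      · intro Q hQ hne
        rw [val_gen_other hQ0 hne.symm (hg Q hQ), one_zpow]
      · intro h; exact absurd hmem h
    · rw [Finset.prod_eq_one, one_pow]
      · by_contra hne
        exact hmem ((Set.Finite.mem_toFinset hfin).mpr ⟨fun h => hne h.symm, hQ0⟩)
      · intro Q hQ
        have hne : Q0 ≠ Q := fun h => hmem (h ▸ hQ)
        rw [val_gen_other hQ0 hne (hg Q hQ), one_zpow]
  refine ⟨_, u / (∏ Q ∈ hfin.toFinset, (algebraMap B F (g Q)) ^ (a Q)) ^ m, hG0,
    (div_mul_cancel₀ _ (pow_ne_zero m hG0)).symm, ?_, ?_⟩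
  · apply tube (D := D)
    intro Q hQ
    rw [map_div₀, map_pow, key Q hQ, div_self ((Valuation.ne_zero_iff _).mpr hu)]
  · apply tube (D := D)
    intro Q hQ
    rw [map_inv₀, map_div₀, map_pow, key Q hQ, div_self ((Valuation.ne_zero_iff _).mpr hu), inv_one]

end Gen

end Tube

end LP

open LP

variable {R B : Type*} [CommRing R] [IsDomain R] [IsDiscreteValuationRing R]
  [CommRing B] [IsDomain B] [IsNoetherianRing B] [Algebra R B]

/-- **S-LP.** -/
theorem lp {F D : Type*} [Field F] [Algebra B F] [IsFractionRing B F]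
    (ϖ : R) (hϖ : Irreducible ϖ)
    [CommRing D] [Algebra B D] [IsLocalization.Away (algebraMap R B ϖ) D] [IsDedekindDomain D]
    [Algebra D F] [IsScalarTower B D F] [IsFractionRing D F]
    (n : Ideal B) [n.IsMaximal] (hn : algebraMap R B ϖ ∈ n)
    (hprinc : ∀ φ : B →ₐ[R] R, (Ideal.span {ϖ}).comap φ.toRingHom = n →
      ∃ g ∈ RingHom.ker φ.toRingHom, g ≠ 0 ∧ ∀ b ∈ RingHom.ker φ.toRingHom,
      ∃ s, s ∉ n ∧ ∃ (k : ℕ) (c : B), s * algebraMap R B ϖ ^ k * b = g * c)
    (m : ℕ) (hm : 0 < m) (u : F) (hu : u ≠ 0)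
    (hdiv : ∃ (ι : Type) (_ : Fintype ι) (g g' : ι → F),
      (∀ i, ∃ d : D, algebraMap D F d = g i ^ m * u) ∧ (∀ i, ∃ d : D, algebraMap D F d = g' i ^ m * u⁻¹) ∧
      ∑ i, g i * g' i = 1)
    (hrat : ∀ Q : HeightOneSpectrum D, Q.valuation F u ≠ 1 → Q.asIdeal.comap (algebraMap B D) ≤ n →
      ∃ φ : B →ₐ[R] R, RingHom.ker φ.toRingHom = Q.asIdeal.comap (algebraMap B D)) :
    ∃ G b1 : F, G ≠ 0 ∧ u = b1 * G ^ m ∧ InTube (algebraMap R B ϖ) n b1 ∧
      InTube (algebraMap R B ϖ) n b1⁻¹ := by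
  refine core (D := D) m u hu (fun Q => exists_root_val Q m hm u hu hdiv) ?_
  intro Q hQ1 hQ
  obtain ⟨φ, hφ⟩ := hrat Q hQ1 hQ
  have hsurj : Function.Surjective φ.toRingHom := fun r => ⟨algebraMap R B r, by simp⟩
  have hcomap : (Ideal.span {ϖ}).comap φ.toRingHom = n := by
    have hmax : (Ideal.span {ϖ}).IsMaximal := by
      rw [← hϖ.maximalIdeal_eq]
      exact IsLocalRing.maximalIdeal.isMaximal R
    have hmax' : ((Ideal.span {ϖ}).comap φ.toRingHom).IsMaximal :=
      Ideal.comap_isMaximal_of_surjective _ hsurj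
    have hker : RingHom.ker φ.toRingHom ≤ n := hφ ▸ hQ
    have hnmap : n.map φ.toRingHom ≠ ⊤ := by
      intro htop
      have h1 : (n.map φ.toRingHom).comap φ.toRingHom = n := by
        rw [Ideal.comap_map_of_surjective _ hsurj]
        apply le_antisymm
        · exact sup_le le_rfl hker
        · exact le_sup_left
      rw [htop, Ideal.comap_top] at h1
      exact (inferInstance : n.IsMaximal).ne_top h1.symm
    have hle : Ideal.span {ϖ} ≤ n.map φ.toRingHom := by
      rw [Ideal.span_singleton_le_iff_mem]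
      have := Ideal.mem_map_of_mem φ.toRingHom hn
      simpa using this
    have heq : Ideal.span {ϖ} = n.map φ.toRingHom := hmax.eq_of_le hnmap hle
    rw [heq, Ideal.comap_map_of_surjective _ hsurj]
    apply le_antisymm
    · exact sup_le le_rfl hker
    · exact le_sup_left
  obtain ⟨g, hg, -, h⟩ := hprinc φ hcomap
  refine ⟨g, ?_, fun b hb => h b ?_⟩
  · rw [hφ] at hg
    exact hg
  · rw [hφ]
    exact hb

end Fermat.Agent.S34
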