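import Fermat.Agent.S34.Node

/-!
# S34, local structure : sections are locally principal on their tube (S-PRINC)
-/

set_option autoImplicit false
set_option linter.unusedSectionVars false
set_option linter.unusedVariables false

namespace Fermat.Agent.S34

section Nak

variable {B : Type*} [CommRing B] [IsDomain B]

/-- Nakayama at a prime `n`, stated without localisations. -/
theorem Princ.nak (n : Ideal B) [n.IsPrime] (I N : Ideal B) (hI : I.FG) (ϖ : B) (hϖ : ϖ ∈ n)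
    (h : ∀ b ∈ I, ∃ s, s ∉ n ∧ ∃ a ∈ N, ∃ d ∈ I, s * b = a + ϖ * d) :
    ∀ b ∈ I, ∃ s, s ∉ n ∧ s * b ∈ N := by
  let Bn := Localization.AtPrime n
  have hloc : IsLocalRing Bn := IsLocalization.AtPrime.isLocalRing Bn n
  have hinj : Function.Injective (algebraMap B Bn) :=
    IsLocalization.injective Bn (Ideal.primeCompl_le_nonZeroDivisors n)
  have key : Ideal.map (algebraMap B Bn) I ≤ Ideal.map (algebraMap B Bn) N := by
    refine Submodule.le_of_le_smul_of_le_jacobson_bot (I := Ideal.span {algebraMap B Bn ϖ})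
      (hI.map _) ?_ ?_
    · rw [IsLocalRing.jacobson_eq_maximalIdeal ⊥ bot_ne_top, Ideal.span_singleton_le_iff_mem]
      exact (IsLocalization.AtPrime.to_map_mem_maximal_iff Bn n ϖ).mpr hϖ
    · rw [Ideal.map_le_iff_le_comap]
      intro b hb
      obtain ⟨s, hs, a, ha, d, hd, e⟩ := h b hb
      obtain ⟨u, hu⟩ := IsLocalization.map_units Bn (⟨s, hs⟩ : n.primeCompl)
      have hu' : (u : Bn) = algebraMap B Bn s := hu
      have e2 : algebraMap B Bn b = (↑u⁻¹ : Bn) * algebraMap B Bn a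
          + algebraMap B Bn ϖ * ((↑u⁻¹ : Bn) * algebraMap B Bn d) := by
        have e3 : algebraMap B Bn s * algebraMap B Bn b
            = algebraMap B Bn a + algebraMap B Bn ϖ * algebraMap B Bn d := by
          rw [← map_mul, e, map_add, map_mul]
        have e4 : (↑u⁻¹ : Bn) * algebraMap B Bn s = 1 := by rw [← hu', Units.inv_mul]
        linear_combination (↑u⁻¹ : Bn) * e3 - algebraMap B Bn b * e4
      rw [Ideal.mem_comap, e2]
      refine Submodule.add_mem_sup (Ideal.mul_mem_left _ _ (Ideal.mem_map_of_mem _ ha)) ?_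
      rw [← smul_eq_mul (a := algebraMap B Bn ϖ)]
      exact Submodule.smul_mem_smul (Ideal.mem_span_singleton_self _)
        (Ideal.mul_mem_left _ _ (Ideal.mem_map_of_mem _ hd))
  intro b hb
  have hb' := key (Ideal.mem_map_of_mem _ hb)
  rw [IsLocalization.mem_map_algebraMap_iff n.primeCompl] at hb'
  obtain ⟨⟨a, s⟩, e⟩ := hb'
  refine ⟨s, s.2, ?_⟩
  have : (s : B) * b = a := by
    apply hinj
    rw [← e, map_mul, mul_comm]
  rw [this]
  exact a.2

end Nak

section Princ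

variable {R B : Type*} [CommRing R] [IsDomain R] [IsDiscreteValuationRing R]
  [CommRing B] [IsDomain B] [IsNoetherianRing B] [Algebra R B]

theorem Princ.isMaximal_span (ϖ : R) (hϖ : Irreducible ϖ) : (Ideal.span {ϖ}).IsMaximal := by
  rw [← (IsDiscreteValuationRing.irreducible_iff_uniformizer ϖ).mp hϖ]
  infer_instance

theorem Princ.comm (φ : B →ₐ[R] R) (r : R) : φ (algebraMap R B r) = r := φ.commutes r

theorem Princ.surjective (φ : B →ₐ[R] R) : Function.Surjective φ.toRingHom :=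
  fun r => ⟨algebraMap R B r, Princ.comm φ r⟩

theorem Princ.isMaximal_comap (ϖ : R) (hϖ : Irreducible ϖ) (φ : B →ₐ[R] R) :
    ((Ideal.span {ϖ}).comap φ.toRingHom).IsMaximal := by
  have := Princ.isMaximal_span ϖ hϖ
  exact Ideal.comap_isMaximal_of_surjective _ (Princ.surjective φ)

theorem Princ.mem_comap_iff (ϖ : R) (φ : B →ₐ[R] R) (b : B) :
    b ∈ (Ideal.span {ϖ}).comap φ.toRingHom ↔ ϖ ∣ φ b := by
  rw [Ideal.mem_comap, Ideal.mem_span_singleton]
  rfl

theorem Princ.mem_ker_iff (φ : B →ₐ[R] R) (b : B) : b ∈ RingHom.ker φ.toRingHom ↔ φ b = 0 := by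
  rw [RingHom.mem_ker]
  rfl

/-- S-PRINC (A). -/
theorem princ_smooth (ϖ : R) (hϖ : Irreducible ϖ) (φ : B →ₐ[R] R) (n : Ideal B)
    (hn : n = (Ideal.span {ϖ}).comap φ.toRingHom) (x : B) (hx : x ∈ n)
    (hloc : ∀ b ∈ n, ∃ s, s ∉ n ∧ ∃ c d, s * b = c * x + d * algebraMap R B ϖ) :
    ∃ g ∈ RingHom.ker φ.toRingHom, ∀ b ∈ RingHom.ker φ.toRingHom, ∃ s, s ∉ n ∧ ∃ (k : ℕ) (c : B),
      s * algebraMap R B ϖ ^ k * b = g * c := by
  subst hn
  have := Princ.isMaximal_comap ϖ hϖ φ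
  have := Ideal.IsMaximal.isPrime (Princ.isMaximal_comap ϖ hϖ φ)
  obtain ⟨z, hz⟩ := (Princ.mem_comap_iff ϖ φ x).mp hx
  have hg : x - algebraMap R B (φ x) ∈ RingHom.ker φ.toRingHom := by
    rw [Princ.mem_ker_iff, map_sub, Princ.comm φ, sub_self]
  refine ⟨x - algebraMap R B (φ x), hg, ?_⟩
  have hϖn : algebraMap R B ϖ ∈ (Ideal.span {ϖ}).comap φ.toRingHom := by
    rw [Princ.mem_comap_iff, Princ.comm φ]
  have key := Princ.nak ((Ideal.span {ϖ}).comap φ.toRingHom) (RingHom.ker φ.toRingHom)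
    (Ideal.span {x - algebraMap R B (φ x)}) (IsNoetherian.noetherian _) (algebraMap R B ϖ) hϖn ?_
  · intro b hb
    obtain ⟨s, hs, h⟩ := key b hb
    obtain ⟨c, hc⟩ := Ideal.mem_span_singleton.mp h
    exact ⟨s, hs, 0, c, by rw [pow_zero, mul_one, hc]⟩
  · intro b hb
    have hbn : b ∈ (Ideal.span {ϖ}).comap φ.toRingHom := by
      rw [Princ.mem_comap_iff, (Princ.mem_ker_iff φ b).mp hb]
      exact dvd_zero ϖ
    obtain ⟨s, hs, c, d, e⟩ := hloc b hbn
    have e2 : s * b = c * (x - algebraMap R B (φ x))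
        + algebraMap R B ϖ * (c * algebraMap R B z + d) := by
      rw [e, hz, map_mul]; ring
    refine ⟨s, hs, c * (x - algebraMap R B (φ x)),
      Ideal.mul_mem_left _ _ (Ideal.mem_span_singleton_self _), c * algebraMap R B z + d, ?_, e2⟩
    rw [Princ.mem_ker_iff]
    have e3 := congrArg φ e2
    rw [map_mul, (Princ.mem_ker_iff φ b).mp hb, mul_zero, map_add, map_mul, map_mul φ (algebraMap R B ϖ),
      (Princ.mem_ker_iff φ _).mp hg, mul_zero, zero_add, Princ.comm φ] at e3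
    exact (mul_eq_zero.mp e3.symm).resolve_left hϖ.ne_zero

/-- S-PRINC (B). -/
theorem princ_node (ϖ : R) (hϖ : Irreducible ϖ) (φ : B →ₐ[R] R) (n : Ideal B)
    (hn : n = (Ideal.span {ϖ}).comap φ.toRingHom) (x y ε : B) (e : ℕ) (hx : x ∈ n) (hy : y ∈ n)
    (hε : ε ∉ n) (hxy : x * y = algebraMap R B ϖ ^ e * ε)
    (hloc : ∀ b ∈ n, ∃ s, s ∉ n ∧ ∃ c d e, s * b = c * x + d * y + e * algebraMap R B ϖ) :
    ∃ g ∈ RingHom.ker φ.toRingHom, ∀ b ∈ RingHom.ker φ.toRingHom, ∃ s, s ∉ n ∧ ∃ (k : ℕ) (c : B),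
      s * algebraMap R B ϖ ^ k * b = g * c := by
  subst hn
  have := Princ.isMaximal_comap ϖ hϖ φ
  have hnp := Ideal.IsMaximal.isPrime (Princ.isMaximal_comap ϖ hϖ φ)
  have hϖn : algebraMap R B ϖ ∈ (Ideal.span {ϖ}).comap φ.toRingHom := by
    rw [Princ.mem_comap_iff, Princ.comm φ]
  have hunit : ∀ b : B, b ∉ (Ideal.span {ϖ}).comap φ.toRingHom → IsUnit (φ b) := by
    intro b hb
    rw [← IsLocalRing.notMem_maximalIdeal,
      (IsDiscreteValuationRing.irreducible_iff_uniformizer ϖ).mp hϖ]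
    exact hb
  obtain ⟨v, hv⟩ := hunit ε hε
  have hprod : φ x * φ y = ↑v * ϖ ^ e := by
    rw [← map_mul, hxy, map_mul, map_pow, Princ.comm φ, hv, mul_comm]
  have hne : φ x * φ y ≠ 0 := by
    rw [hprod]
    exact mul_ne_zero v.ne_zero (pow_ne_zero _ hϖ.ne_zero)
  obtain ⟨r, u, hu⟩ := IsDiscreteValuationRing.eq_unit_mul_pow_irreducible (left_ne_zero_of_mul hne) hϖ
  obtain ⟨r', u', hu'⟩ :=
    IsDiscreteValuationRing.eq_unit_mul_pow_irreducible (right_ne_zero_of_mul hne) hϖ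
  have hprod2 : ((u * u' : Rˣ) : R) * ϖ ^ (r + r') = ↑v * ϖ ^ e := by
    rw [← hprod, hu, hu', Units.val_mul, pow_add]; ring
  have hre : r + r' = e := IsDiscreteValuationRing.unit_mul_pow_congr_pow hϖ hϖ _ _ _ _ hprod2
  have huv : u * u' = v := IsDiscreteValuationRing.unit_mul_pow_congr_unit hϖ _ _ _ _ hprod2
  have hpos : ∀ (w : Rˣ) (k : ℕ), ϖ ∣ ↑w * ϖ ^ k → 0 < k := by
    intro w k hk
    rcases Nat.eq_zero_or_pos k with rfl | h
    · rw [pow_zero, mul_one] at hk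
      exact absurd (isUnit_of_dvd_unit hk w.isUnit) hϖ.not_isUnit
    · exact h
  have hr : 0 < r := hpos u r (hu ▸ (Princ.mem_comap_iff ϖ φ x).mp hx)
  have hr' : 0 < r' := hpos u' r' (hu' ▸ (Princ.mem_comap_iff ϖ φ y).mp hy)
  obtain ⟨r1, rfl⟩ : ∃ k, r = k + 1 := ⟨r - 1, by omega⟩
  obtain ⟨r1', rfl⟩ : ∃ k, r' = k + 1 := ⟨r' - 1, by omega⟩
  set π := algebraMap R B ϖ with hπ
  set g := x - algebraMap R B (φ x) with hgdef
  set t := y - π ^ (r1' + 1) * ε * algebraMap R B (↑u⁻¹ : R) with htdef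
  have hg : g ∈ RingHom.ker φ.toRingHom := by
    rw [Princ.mem_ker_iff, hgdef, map_sub, Princ.comm φ, sub_self]
  have ht : t ∈ RingHom.ker φ.toRingHom := by
    rw [Princ.mem_ker_iff, htdef, map_sub, map_mul, map_mul, map_pow, Princ.comm φ, Princ.comm φ, ← hv,
      ← huv, hu', Units.val_mul]
    have : (u : R) * (↑u⁻¹ : R) = 1 := Units.mul_inv u
    linear_combination (-(ϖ ^ (r1' + 1) * (u' : R))) * this
  have hzt : algebraMap R B (φ x) * t = - (g * y) := by
    have h1 : algebraMap R B (φ x) = algebraMap R B (u : R) * π ^ (r1 + 1) := by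
      rw [hu, map_mul, map_pow]
    have h2 : algebraMap R B (u : R) * algebraMap R B (↑u⁻¹ : R) = 1 := by
      rw [← map_mul, Units.mul_inv, map_one]
    have h3 : π ^ e = π ^ (r1 + 1) * π ^ (r1' + 1) := by rw [← hre, pow_add]
    rw [htdef, hgdef]
    rw [h3] at hxy
    rw [h1]
    linear_combination (-(π ^ (r1 + 1) * π ^ (r1' + 1) * ε)) * h2 + hxy
  refine ⟨g, hg, ?_⟩
  have key := Princ.nak ((Ideal.span {ϖ}).comap φ.toRingHom) (RingHom.ker φ.toRingHom)
    (Ideal.span {g, t}) (IsNoetherian.noetherian _) π hϖn ?_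
  · intro b hb
    obtain ⟨s, hs, h⟩ := key b hb
    obtain ⟨c, d, hcd⟩ := Ideal.mem_span_pair.mp h
    refine ⟨algebraMap R B (u : R) * s, fun hcon => ?_, r1 + 1, c * algebraMap R B (φ x) - d * y, ?_⟩
    · rcases hnp.mem_or_mem hcon with h | h
      · rw [Princ.mem_comap_iff, Princ.comm φ] at h
        exact hϖ.not_isUnit (isUnit_of_dvd_unit h u.isUnit)
      · exact hs h
    · have h1 : algebraMap R B (φ x) = algebraMap R B (u : R) * π ^ (r1 + 1) := by
        rw [hu, map_mul, map_pow]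
      have : algebraMap R B (u : R) * s * π ^ (r1 + 1) * b = algebraMap R B (φ x) * (s * b) := by
        rw [h1]; ring
      rw [this, ← hcd]
      linear_combination d * hzt
  · intro b hb
    have hbn : b ∈ (Ideal.span {ϖ}).comap φ.toRingHom := by
      rw [Princ.mem_comap_iff, (Princ.mem_ker_iff φ b).mp hb]
      exact dvd_zero ϖ
    obtain ⟨s, hs, c, d, e', he'⟩ := hloc b hbn
    have h1 : algebraMap R B (φ x) = algebraMap R B (u : R) * π ^ (r1 + 1) := by
      rw [hu, map_mul, map_pow]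
    have e2 : s * b = (c * g + d * t)
        + π * (c * (algebraMap R B (u : R) * π ^ r1)
          + d * (π ^ r1' * ε * algebraMap R B (↑u⁻¹ : R)) + e') := by
      rw [he', hgdef, htdef, h1]; ring
    refine ⟨s, hs, c * g + d * t, Ideal.mem_span_pair.mpr ⟨c, d, rfl⟩, _, ?_, e2⟩
    rw [Princ.mem_ker_iff]
    have e3 := congrArg φ e2
    rw [map_mul, (Princ.mem_ker_iff φ b).mp hb, mul_zero, map_add, map_add, map_mul, map_mul φ d,
      (Princ.mem_ker_iff φ _).mp hg, (Princ.mem_ker_iff φ _).mp ht, mul_zero, mul_zero, zero_add,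
      zero_add, map_mul φ π, hπ, Princ.comm φ] at e3
    exact (mul_eq_zero.mp e3.symm).resolve_left hϖ.ne_zero

/-- S-PRINC : every section is locally principal on its tube. -/
theorem princ (ϖ : R) (hϖ : Irreducible ϖ) (p1 p2 : Ideal B) [p1.IsPrime] [p2.IsPrime]
    (hp : p1 ⊓ p2 = Ideal.span {algebraMap R B ϖ})
    [IsDedekindDomain (B ⧸ p1)] [IsDedekindDomain (B ⧸ p2)] (hN : NodeData (algebraMap R B ϖ) p1 p2)
    (φ : B →ₐ[R] R) :
    ∃ g ∈ RingHom.ker φ.toRingHom, g ≠ 0 ∧ ∀ b ∈ RingHom.ker φ.toRingHom,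
      ∃ s, s ∉ (Ideal.span {ϖ}).comap φ.toRingHom ∧ ∃ (k : ℕ) (c : B),
      s * algebraMap R B ϖ ^ k * b = g * c := by
  have hmax := Princ.isMaximal_comap ϖ hϖ φ
  have hnp := Ideal.IsMaximal.isPrime hmax
  have hϖn : algebraMap R B ϖ ∈ (Ideal.span {ϖ}).comap φ.toRingHom := by
    rw [Princ.mem_comap_iff, Princ.comm φ]
  have hπ0 : algebraMap R B ϖ ≠ 0 := by
    intro h
    have := Princ.comm φ ϖ
    rw [h, map_zero] at this
    exact hϖ.ne_zero this.symm
  have hle : p1 ⊓ p2 ≤ (Ideal.span {ϖ}).comap φ.toRingHom := by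
    rw [hp, Ideal.span_singleton_le_iff_mem]
    exact hϖn
  -- the kernel is not zero
  have hker : ∃ b ∈ RingHom.ker φ.toRingHom, b ≠ 0 := by
    by_contra hcon
    push Not at hcon
    have hn : (Ideal.span {ϖ}).comap φ.toRingHom ≤ p1 ⊓ p2 := by
      intro b hb
      obtain ⟨r, hr⟩ := (Princ.mem_comap_iff ϖ φ b).mp hb
      have : b - algebraMap R B ϖ * algebraMap R B r = 0 := by
        apply hcon
        rw [Princ.mem_ker_iff, map_sub, map_mul, Princ.comm φ, Princ.comm φ, hr, sub_self]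
      rw [hp, Ideal.mem_span_singleton]
      exact ⟨algebraMap R B r, sub_eq_zero.mp this⟩
    have hp1 : (Ideal.span {ϖ}).comap φ.toRingHom = p1 :=
      hmax.eq_of_le (Ideal.IsPrime.ne_top ‹_›) (hn.trans inf_le_left)
    have hp2 : (Ideal.span {ϖ}).comap φ.toRingHom = p2 :=
      hmax.eq_of_le (Ideal.IsPrime.ne_top ‹_›) (hn.trans inf_le_right)
    obtain ⟨X, Y, s0, c, -, -, hX1, hX2⟩ := hN.xy _ hmax hp1.ge hp2.ge
    exact hX1 (hp1 ▸ hp2.symm ▸ hX2)
  have main : ∃ g ∈ RingHom.ker φ.toRingHom, ∀ b ∈ RingHom.ker φ.toRingHom,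
      ∃ s, s ∉ (Ideal.span {ϖ}).comap φ.toRingHom ∧ ∃ (k : ℕ) (c : B),
      s * algebraMap R B ϖ ^ k * b = g * c := by
    by_cases h1 : p1 ≤ (Ideal.span {ϖ}).comap φ.toRingHom
    · by_cases h2 : p2 ≤ (Ideal.span {ϖ}).comap φ.toRingHom
      · obtain ⟨X, Y, s0, c, hXY, hs0, hX1, hX2⟩ := hN.xy _ hmax h1 h2
        obtain ⟨x, y, ε, e, hx, hx2, hy, hy1, hε, he, hxy⟩ :=
          node (algebraMap R B ϖ) p1 p2 hπ0 hp _ h1 h2 (hN.adm1 _ hmax h1 h2) (hN.adm2 _ hmax h1 h2)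
            X Y s0 c hXY hs0 hX1 hX2
        exact princ_node ϖ hϖ φ _ rfl x y ε e hx.1 hy.1 hε hxy
          (loc_node (algebraMap R B ϖ) p1 p2 hp _ x y hx hy hy1)
      · obtain ⟨x, hx⟩ := exists_locGen p1 _ h1
        exact princ_smooth ϖ hϖ φ _ rfl x hx.1 (loc_smooth (algebraMap R B ϖ) p1 p2 hp _ h2 x hx)
    · have h2 : p2 ≤ (Ideal.span {ϖ}).comap φ.toRingHom :=
        ((Ideal.IsPrime.inf_le hnp).mp hle).resolve_left h1
      obtain ⟨x, hx⟩ := exists_locGen p2 _ h2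
      exact princ_smooth ϖ hϖ φ _ rfl x hx.1
        (loc_smooth (algebraMap R B ϖ) p2 p1 (by rw [inf_comm, hp]) _ h1 x hx)
  obtain ⟨g, hg, hgen⟩ := main
  refine ⟨g, hg, ?_, hgen⟩
  rintro rfl
  obtain ⟨b, hb, hb0⟩ := hker
  obtain ⟨s, hs, k, c, e⟩ := hgen b hb
  rw [zero_mul] at e
  have hs0 : s ≠ 0 := by
    rintro rfl
    exact hs (Ideal.zero_mem _)
  exact mul_ne_zero (mul_ne_zero hs0 (pow_ne_zero k hπ0)) hb0 e

end Princ

end Fermat.Agent.S34
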