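import Fermat.Agent.S34.SAbs
import Fermat.Agent.S34.Princ
import Fermat.Agent.S34.LP

/-!
# S34, abstract block : the assembly `uni_asm` of S-ABS (`uni_abs`), S-PRINC (`princ`), S-LP (`lp`)

This is the interface for the modular side: all hypotheses are ring theoretic statements on the two
charts.
-/

set_option autoImplicit false

namespace Fermat.Agent.S34

open IsDedekindDomain

/-- **(LP) at all maximal ideals of one chart.** -/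
theorem lp_chart {R B : Type*} [CommRing R] [IsDomain R] [IsDiscreteValuationRing R]
    [CommRing B] [IsDomain B] [IsNoetherianRing B] [Algebra R B]
    {F D : Type*} [Field F] [Algebra B F] [IsFractionRing B F]
    (ϖ : R) (hϖ : Irreducible ϖ)
    (p1 p2 : Ideal B) [p1.IsPrime] [p2.IsPrime] (hp : p1 ⊓ p2 = Ideal.span {algebraMap R B ϖ})
    [IsDedekindDomain (B ⧸ p1)] [IsDedekindDomain (B ⧸ p2)]
    (hN : NodeData (algebraMap R B ϖ) p1 p2)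
    [CommRing D] [Algebra B D] [IsLocalization.Away (algebraMap R B ϖ) D] [IsDedekindDomain D]
    [Algebra D F] [IsScalarTower B D F] [IsFractionRing D F]
    (m : ℕ) (hm : 0 < m) (u : F) (hu : u ≠ 0)
    (hdiv : ∃ (ι : Type) (_ : Fintype ι) (g g' : ι → F),
      (∀ i, ∃ d : D, algebraMap D F d = g i ^ m * u) ∧
      (∀ i, ∃ d : D, algebraMap D F d = g' i ^ m * u⁻¹) ∧ ∑ i, g i * g' i = 1)
    (hrat : ∀ n : Ideal B, n ≠ ⊤ → algebraMap R B ϖ ∈ n →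
      ∀ Q : HeightOneSpectrum D, Q.valuation F u ≠ 1 → Q.asIdeal.comap (algebraMap B D) ≤ n →
      ∃ φ : B →ₐ[R] R, RingHom.ker φ.toRingHom = Q.asIdeal.comap (algebraMap B D))
    (n : Ideal B) (hn : n.IsMaximal) (hϖn : algebraMap R B ϖ ∈ n) :
    ∃ G b1 : F, G ≠ 0 ∧ u = b1 * G ^ m ∧ InTube (algebraMap R B ϖ) n b1 ∧
      InTube (algebraMap R B ϖ) n b1⁻¹ := by
  have := hn
  refine lp (D := D) ϖ hϖ n hϖn ?_ m hm u hu hdiv (hrat n hn.ne_top hϖn)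
  intro φ hφ
  have := princ ϖ hϖ p1 p2 hp hN φ
  rwa [hφ] at this

variable {F : Type*} [Field F]

/-- **S-ASM** : claim (U), abstractly, from ring theoretic data on the two charts.
`R` (a subring of `F`) and `R'` (a DVR acting on the charts) are two incarnations of the base. -/
theorem uni_asm (O : Subring F) (ϖ : F) (hO : IsSemi O ϖ) (m : ℕ) (hm : 0 < m)
    (R B1 B2 B12 : Subring F) [IsNoetherianRing R] (hR1 : R ≤ B1) (hR2 : R ≤ B2) (hϖR : ϖ ∈ R)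
    (h1 : IsChartS O ϖ m B1) (h2 : IsChartS O ϖ m B2)
    (h12 : IsChartS O ϖ m B12) (h1le : B1 ≤ B12) (h2le : B2 ≤ B12)
    (t : F) (ht : t ≠ 0) (ht1 : t ∈ B1) (ht2 : t⁻¹ ∈ B2)
    (h12a : ∀ x ∈ B12, ∃ n : ℕ, t ^ n * x ∈ B1) (h12b : ∀ x ∈ B12, ∃ n : ℕ, t⁻¹ ^ n * x ∈ B2)
    (hfin : ∃ S : Finset F, ∀ x ∈ B1,
      x ∈ Submodule.span (Subring.closure ((R : Set F) ∪ {t})) (S : Set F))
    (τ : F ≃+* F) (hτ : IsInert O ϖ τ) (hτB1 : ∀ x ∈ B1, τ x ∈ B1) (hτB2 : ∀ x ∈ B2, τ x ∈ B2)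
    (hτϖ : ∃ c ∈ R, c⁻¹ ∈ R ∧ τ ϖ = c * ϖ)
    -- the base DVR
    {R' : Type*} [CommRing R'] [IsDomain R'] [IsDiscreteValuationRing R']
    (ϖ' : R') (hϖ' : Irreducible ϖ')
    -- the first chart
    [IsNoetherianRing B1] [Algebra R' B1] [IsFractionRing B1 F]
    (hϖ1 : ((algebraMap R' B1 ϖ' : B1) : F) = ϖ)
    (p1 p2 : Ideal B1) [p1.IsPrime] [p2.IsPrime]
    (hp : p1 ⊓ p2 = Ideal.span {algebraMap R' B1 ϖ'})
    [IsDedekindDomain (B1 ⧸ p1)] [IsDedekindDomain (B1 ⧸ p2)]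
    (hN1 : NodeData (algebraMap R' B1 ϖ') p1 p2)
    {D1 : Type*} [CommRing D1] [Algebra B1 D1] [IsLocalization.Away (algebraMap R' B1 ϖ') D1]
    [IsDedekindDomain D1] [Algebra D1 F] [IsScalarTower B1 D1 F] [IsFractionRing D1 F]
    -- the second chart
    [IsNoetherianRing B2] [Algebra R' B2] [IsFractionRing B2 F]
    (hϖ2 : ((algebraMap R' B2 ϖ' : B2) : F) = ϖ)
    (q1 q2 : Ideal B2) [q1.IsPrime] [q2.IsPrime]
    (hq : q1 ⊓ q2 = Ideal.span {algebraMap R' B2 ϖ'})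
    [IsDedekindDomain (B2 ⧸ q1)] [IsDedekindDomain (B2 ⧸ q2)]
    (hN2 : NodeData (algebraMap R' B2 ϖ') q1 q2)
    {D2 : Type*} [CommRing D2] [Algebra B2 D2] [IsLocalization.Away (algebraMap R' B2 ϖ') D2]
    [IsDedekindDomain D2] [Algebra D2 F] [IsScalarTower B2 D2 F] [IsFractionRing D2 F]
    -- the function
    (u : F) (hu : u ≠ 0)
    (hdiv1 : ∃ (ι : Type) (_ : Fintype ι) (g g' : ι → F),
      (∀ i, ∃ d : D1, algebraMap D1 F d = g i ^ m * u) ∧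
      (∀ i, ∃ d : D1, algebraMap D1 F d = g' i ^ m * u⁻¹) ∧ ∑ i, g i * g' i = 1)
    (hrat1 : ∀ n : Ideal B1, n ≠ ⊤ → algebraMap R' B1 ϖ' ∈ n →
      ∀ Q : HeightOneSpectrum D1, Q.valuation F u ≠ 1 → Q.asIdeal.comap (algebraMap B1 D1) ≤ n →
      ∃ φ : B1 →ₐ[R'] R', RingHom.ker φ.toRingHom = Q.asIdeal.comap (algebraMap B1 D1))
    (hdiv2 : ∃ (ι : Type) (_ : Fintype ι) (g g' : ι → F),
      (∀ i, ∃ d : D2, algebraMap D2 F d = g i ^ m * u) ∧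
      (∀ i, ∃ d : D2, algebraMap D2 F d = g' i ^ m * u⁻¹) ∧ ∑ i, g i * g' i = 1)
    (hrat2 : ∀ n : Ideal B2, n ≠ ⊤ → algebraMap R' B2 ϖ' ∈ n →
      ∀ Q : HeightOneSpectrum D2, Q.valuation F u ≠ 1 → Q.asIdeal.comap (algebraMap B2 D2) ≤ n →
      ∃ φ : B2 →ₐ[R'] R', RingHom.ker φ.toRingHom = Q.asIdeal.comap (algebraMap B2 D2)) :
    ∃ z : F, z ≠ 0 ∧ z ^ m * (τ (τ u) * u / (τ u) ^ 2) ∈ B1 ∧
      z ^ m * (τ (τ u) * u / (τ u) ^ 2) ∈ B2 ∧ DivS O ϖ 1 (z - 1) := by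
  have e1 : (⟨ϖ, h1.unif_mem⟩ : B1) = algebraMap R' B1 ϖ' := Subtype.ext hϖ1.symm
  have e2 : (⟨ϖ, h2.unif_mem⟩ : B2) = algebraMap R' B2 ϖ' := Subtype.ext hϖ2.symm
  have hfrac : ∀ x : F, ∃ s ∈ B1, s ≠ 0 ∧ s * x ∈ B1 := by
    intro x
    obtain ⟨a, s, hs, h⟩ := IsFractionRing.div_surjective (A := B1) x
    have hs0 : (s : F) ≠ 0 := by
      intro h0
      exact nonZeroDivisors.ne_zero hs (Subtype.ext h0)
    refine ⟨s, s.2, hs0, ?_⟩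
    have : (s : F) * x = a := by
      rw [← h]
      change (s : F) * ((a : F) / (s : F)) = a
      field_simp
    rw [this]
    exact a.2
  refine uni_abs O ϖ hO m hm R B1 B2 B12 hR1 hR2 hϖR h1 h2 h12 h1le h2le t ht ht1 ht2 h12a h12b
    hfin hfrac τ hτ hτB1 hτB2 hτϖ u hu ?_ ?_
  · intro n hn hϖn
    rw [e1] at hϖn ⊢
    exact lp_chart (D := D1) ϖ' hϖ' p1 p2 hp hN1 m hm u hu hdiv1 hrat1 n hn hϖn
  · intro n hn hϖn
    rw [e2] at hϖn ⊢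
    exact lp_chart (D := D2) ϖ' hϖ' q1 q2 hq hN2 m hm u hu hdiv2 hrat2 n hn hϖn

end Fermat.Agent.S34
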