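import Fermat.Agent.S31.Core
import Fermat.Prelude.Def_GaloisRep_LocalConditions

/-!
# S34 : unipotent inertia at `q ∥ N`, reduction to the claim (U)

Claim (U): `(τ - 1) ^ 2 = 0` on the Kummer groups `KV (p ^ r) N` for `τ` in an inertia group
above `q`.  With the ES input of S31 (`Input`), weak Chebotarev and the saturation of the Hecke
algebra this gives `tr ρ(τ) = 2` and `det ρ(τ) = 1` modulo all powers of the maximal ideal.
-/

set_option autoImplicit false

namespace Fermat.Agent.S34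

open CongruenceSubgroup CuspForm Fermat.Agent.S16 Fermat.Agent.S24 Fermat.Agent.ES Module
open Fermat.Agent.S31 Fermat.Agent.S31.Core

namespace Core

/-! ### determinants modulo an ideal -/

section Det

variable {T : Type*} [CommRing T] {V : Type*} [AddCommGroup V] [Module T V]
  [Module.Free T V] [Module.Finite T V]

theorem det_sub_one_mem (I : Ideal T) (f : End T V)
    (h : ∀ v, f v - v ∈ I • (⊤ : Submodule T V)) : LinearMap.det f - 1 ∈ I := by
  classical
  let b := Module.Free.chooseBasis T V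
  rw [← LinearMap.det_toMatrix b, ← Ideal.Quotient.eq, map_one, RingHom.map_det]
  have e : (Ideal.Quotient.mk I).mapMatrix (LinearMap.toMatrix b b f) = 1 := by
    ext i j
    rw [RingHom.mapMatrix_apply, Matrix.map_apply, LinearMap.toMatrix_apply]
    have h1 := repr_mem b I (h (b j)) i
    rw [map_sub, Finsupp.sub_apply, Basis.repr_self, ← Ideal.Quotient.eq] at h1
    rw [h1, Matrix.one_apply, Finsupp.single_apply]
    by_cases hij : i = j
    · rw [if_pos hij, if_pos hij.symm, map_one]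
    · rw [if_neg hij, if_neg (Ne.symm hij), map_zero]
  rw [e, Matrix.det_one]

end Det

/-- congruence of determinants for elements agreeing on the level `n` field. -/
theorem det_sub_mem {T : Type} [CommRing T] [IsLocalRing T] (ρ : GaloisRepAdic T) (n : ℕ)
    (L : IntermediateField ℚ Kb)
    (hL : ∀ σ : GQ, (∀ x ∈ L, σ x = x) →
      ∀ v : ρ.V, ρ.ρ σ v - v ∈ (IsLocalRing.maximalIdeal T ^ n) • (⊤ : Submodule T ρ.V))
    {g h : GQ} (H : Agree L g h) :
    LinearMap.det (ρ.ρ g) - LinearMap.det (ρ.ρ h) ∈ IsLocalRing.maximalIdeal T ^ n := by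
  have e : ρ.ρ g = ρ.ρ h * ρ.ρ (h⁻¹ * g) := by rw [← map_mul, mul_inv_cancel_left]
  have h1 := det_sub_one_mem _ _ (hL _ H.fixes)
  have e2 : LinearMap.det (ρ.ρ g) - LinearMap.det (ρ.ρ h)
      = LinearMap.det (ρ.ρ h) * (LinearMap.det (ρ.ρ (h⁻¹ * g)) - 1) := by
    rw [e, map_mul]
    ring
  rw [e2]
  exact Ideal.mul_mem_left _ _ h1

end Core

open Core

/-- the ES input at all the exponents `p ^ r`, with unipotent inertia above `q`. -/
def HasInputU (N : ℕ) [NeZero N] (p q : ℕ) : Prop :=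
  ∀ r : ℕ, ∃ (Rg : Type) (_ : CommRing Rg) (X : Type) (_ : AddCommGroup X) (_ : Module Rg X)
    (gal : GQ →* Module.End Rg X) (hk : ℕ → Module.End Rg X) (iota : LamM N 1 →+ X),
    Input N (p ^ r) X gal hk iota ∧
      ∀ A : ValuationSubring Kb, A.LiesOverPrime q → ∀ τ ∈ A.inertiaSubgroupIn ℚ,
        ∀ f : LamM N 1, (gal τ - 1) ((gal τ - 1) (iota f)) = 0

section Final

variable {p : ℕ} {N : ℕ} [NeZero N] {S : Finset ℕ}
  {𝒪 : Type} [CommRing 𝒪] [IsDomain 𝒪] [IsDiscreteValuationRing 𝒪]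
  [IsAdicComplete (IsLocalRing.maximalIdeal 𝒪) 𝒪]
  {θ : CuspForm.heckeAlgebra N 2 (↑S : Set ℕ) →+* IsLocalRing.ResidueField 𝒪}
  {T : Type} [CommRing T] [IsLocalRing T] [IsNoetherianRing T]
  [IsAdicComplete (IsLocalRing.maximalIdeal T) T] [Algebra 𝒪 T] [IsLocalHom (algebraMap 𝒪 T)]
  [Module.Finite 𝒪 T] [Module.Free 𝒪 T]

/-- **S34**, with the ES input and the claim (U) as hypotheses. -/
theorem isUnipotentOnInertiaAt_of_input (hp : p.Prime)
    (hp𝒪 : (p : 𝒪) ∈ IsLocalRing.maximalIdeal 𝒪) (hpS : p ∈ S)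
    (hNS : ∀ q : ℕ, q.Prime → q ∣ N → q ∈ S)
    (H : CuspForm.HeckeGaloisRepDatum N (↑S : Set ℕ) 𝒪 θ T)
    (q : ℕ) (hq : q.Prime) (hqp : q ≠ p) (hin : HasInputU N p q) :
    H.ρ.IsUnipotentOnInertiaAt q := by
  intro P hP τ hτ
  have hpT : (p : T) ∈ IsLocalRing.maximalIdeal T := by
    rw [IsLocalRing.mem_maximalIdeal, mem_nonunits_iff] at hp𝒪 ⊢
    intro hu
    apply hp𝒪
    have : algebraMap 𝒪 T (p : 𝒪) = (p : T) := map_natCast _ _
    rw [← this] at hu
    exact (isUnit_map_iff (algebraMap 𝒪 T) _).1 hu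
  have key : ∀ n : ℕ, LinearMap.trace T H.ρ.V (H.ρ.ρ τ) - 2 ∈ IsLocalRing.maximalIdeal T ^ n ∧
      LinearMap.det (H.ρ.ρ τ) - 1 ∈ IsLocalRing.maximalIdeal T ^ n := by
    intro n
    obtain ⟨c, d, hd, hsat⟩ := sat N (↑S : Set ℕ) p hp
    obtain ⟨Rg, _, X, _, _, gal, hk, iota, hI, hU⟩ := hin (n + c)
    set M : ℕ := p ^ (n + c) with hM
    haveI : NeZero M := ⟨pow_ne_zero _ hp.ne_zero⟩
    have hqM : ¬ q ∣ M := fun h =>
      hqp ((Nat.prime_dvd_prime_iff_eq hq hp).1 (hq.dvd_of_dvd_pow h))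
    have hnd : ∀ ℓ : ℕ, ℓ.Prime → ℓ ∉ S → ¬ ℓ ∣ N ∧ ¬ ℓ ∣ M ∧ ¬ ℓ ∣ N * M := by
      intro ℓ hℓ hℓS
      have h1 : ¬ ℓ ∣ N := fun h => hℓS (hNS ℓ hℓ h)
      have h2 : ¬ ℓ ∣ M := fun h => by
        have := (Nat.prime_dvd_prime_iff_eq hℓ hp).1 (hℓ.dvd_of_dvd_pow h)
        exact hℓS (this ▸ hpS)
      exact ⟨h1, h2, fun h => (hℓ.dvd_mul.1 h).elim h1 h2⟩
    -- the field `E`
    obtain ⟨L1, hL1, h1⟩ := exists_level hI
    obtain ⟨L2, hL2, h2⟩ := H.ρ.isAdicContinuous n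
    obtain ⟨ζ, hζ⟩ := ECyc.exists_primitiveRoot M
    have hL3 : FiniteDimensional ℚ (IntermediateField.adjoin ℚ {ζ}) :=
      IntermediateField.adjoin.finiteDimensional
        (hζ.isIntegral (Nat.pos_of_ne_zero (NeZero.ne M))).tower_top
    obtain ⟨E0, hE0, -, h10, h20⟩ := EGlue.exists_galois L1 L2 hL1 hL2
    obtain ⟨E, hE, hG, h0E, h3E⟩ := EGlue.exists_galois E0 _ hE0 hL3
    have hζE : ζ ∈ E := h3E (IntermediateField.mem_adjoin_simple_self ℚ ζ)
    have hNor : Normal ℚ E := hG.to_normal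
    -- Chebotarev
    obtain ⟨ℓ, A, σ, -, k, hℓ, hℓS, hA, hσ, -, hg⟩ := Cheb.weak_chebotarev E S τ
    obtain ⟨hℓN, hℓM, hℓNM⟩ := hnd ℓ hℓ hℓS
    have hag : Agree E τ (σ ^ k) := hg
    -- the cyclotomic congruence
    have hmod : ℓ ^ k ≡ 1 [MOD M] := by
      have e1 : τ ζ = ζ ^ (ℓ ^ k) := by
        rw [hg ζ hζE, CycM.pow_apply_zeta σ (CycM.frobenius_zeta hζ hℓ hℓM hA σ hσ) k]
      have e3 : τ ζ = ζ ^ 1 := by
        rw [pow_one, CycM.inertia_zeta hζ hq hqM hP τ hτ]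
      have hfin : IsOfFinOrder ζ :=
        isOfFinOrder_iff_pow_eq_one.mpr ⟨M, Nat.pos_of_ne_zero (NeZero.ne M), hζ.pow_eq_one⟩
      have := hfin.pow_eq_pow_iff_modEq.mp (e1.symm.trans e3)
      rwa [← hζ.eq_orderOf] at this
    have hℓS2 : ℓ ∉ (↑S : Set ℕ) := fun h => hℓS (Finset.mem_coe.1 h)
    set V : heckeAlgebra N 2 (↑S : Set ℕ) :=
      Lucas.lucasV (heckeAlgebra.T hℓ hℓN hℓS2) (ℓ : heckeAlgebra N 2 (↑S : Set ℕ)) k with hV
    set V' : heckeAlgebra N 2 (↑S : Set ℕ) :=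
      Lucas.lucasV (heckeAlgebra.T hℓ hℓN hℓS2) (ℓ : heckeAlgebra N 2 (↑S : Set ℕ)) 0 with hV'
    have hV2 : V' = 2 := Lucas.lucasV_zero _ _
    -- `V - 2` maps the lattice into `M` times the lattice
    have hDlt : ∀ f ∈ LamM N 1, ((V - V' : heckeAlgebra N 2 (↑S : Set ℕ)) :
        Module.End ℂ (CuspForm (Gamma0 N) 2)) f ∈ LamM N ((p ^ (n + c) : ℕ) : ℤ) := by
      intro f hf
      refine hI.ker (actL N (↑S : Set ℕ) (V - V') ⟨f, hf⟩) ?_
      set x : X := iota ⟨f, hf⟩ with hx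
      have hfix : ∀ s : GQ, (∀ a ∈ E, s a = a) → gal s x = x := fun s hs =>
        h1 _ s fun a ha => hs a (h0E (h10 ha))
      have hu := hU P hP τ hτ ⟨f, hf⟩
      rw [← hx] at hu
      have hu2 : gal τ x + gal τ⁻¹ x = x + x := by
        have h3 := congrArg (gal τ⁻¹) hu
        simp only [LinearMap.sub_apply, Module.End.one_apply, map_sub, map_zero] at h3
        have e1 : gal τ⁻¹ (gal τ (gal τ x)) = gal τ x := by
          rw [← Module.End.mul_apply, ← map_mul, inv_mul_cancel, map_one, Module.End.one_apply]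
        have e2 : gal τ⁻¹ (gal τ x) = x := by
          rw [← Module.End.mul_apply, ← map_mul, inv_mul_cancel, map_one, Module.End.one_apply]
        rw [e1, e2] at h3
        rw [← sub_eq_zero, ← h3]
        abel
      rw [map_sub, LinearMap.sub_apply, map_sub, hV, hV', ← lucas_iota hI hℓ hℓN hℓS2 k,
        ← lucas_iota hI hℓ hℓN hℓS2 0, ← hx, lucas_apply hI hℓ hℓNM hA hσ k,
        lucas_apply hI hℓ hℓNM hA hσ 0, ← gal_eq_of_agree hfix hag,
        ← gal_eq_of_agree hfix hag.inv, nsmul_eq_of_modEq hI hmod, one_smul, hu2]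
      simp
    obtain ⟨t', ht'⟩ := hsat n (V - V') hDlt
    -- consequences in `T`
    have hdT : IsUnit (d : T) := by
      by_contra hcon
      have hdm : (d : T) ∈ IsLocalRing.maximalIdeal T := (IsLocalRing.mem_maximalIdeal _).2 hcon
      have hcop : Nat.Coprime p d := (Nat.Prime.coprime_iff_not_dvd hp).2 hd
      have h1m : ((Nat.gcd p d : ℤ) : T) ∈ IsLocalRing.maximalIdeal T := by
        rw [Nat.gcd_eq_gcd_ab]
        push_cast
        exact Ideal.add_mem _ (Ideal.mul_mem_right _ _ hpT) (Ideal.mul_mem_right _ _ hdm)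
      rw [hcop] at h1m
      simp only [Nat.cast_one, Int.cast_one] at h1m
      exact (Ideal.ne_top_iff_one _).1 (IsLocalRing.maximalIdeal.isMaximal T).ne_top h1m
    have hπ : H.π (V - V') ∈ IsLocalRing.maximalIdeal T ^ n := by
      have e := congrArg H.π ht'
      rw [map_mul, map_mul, map_pow, map_natCast, map_natCast] at e
      obtain ⟨u, hu⟩ := hdT
      have e2 : H.π (V - V') = (p : T) ^ n * (↑u⁻¹ * H.π t') := by
        rw [← hu] at e
        calc H.π (V - V') = ↑u⁻¹ * (↑u * H.π (V - V')) := by rw [Units.inv_mul_cancel_left]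
          _ = (p : T) ^ n * (↑u⁻¹ * H.π t') := by rw [e]; ring
      rw [e2]
      exact Ideal.mul_mem_right _ _ (Ideal.pow_mem_pow hpT n)
    have tσ : LinearMap.trace T H.ρ.V (H.ρ.ρ (σ ^ k)) = H.π V := by
      rw [map_pow, Lucas.trace_pow H.ρ.finrank_eq (H.charpoly_frob ℓ hℓ hℓN hℓS2 A hA σ hσ) k, hV,
        Lucas.map_lucasV, map_natCast]
    have dσ : LinearMap.det (H.ρ.ρ (σ ^ k)) = ((ℓ ^ k : ℕ) : T) := by
      rw [map_pow, map_pow,
        Lucas.det_eq_of_charpoly H.ρ.finrank_eq (H.charpoly_frob ℓ hℓ hℓN hℓS2 A hA σ hσ),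
        Nat.cast_pow]
    have c1 := trace_sub_mem H.ρ n L2 h2 (hag.mono (h20.trans h0E))
    have c2 := det_sub_mem H.ρ n L2 h2 (hag.mono (h20.trans h0E))
    rw [tσ] at c1
    rw [dσ] at c2
    constructor
    · have : LinearMap.trace T H.ρ.V (H.ρ.ρ τ) - 2
          = (LinearMap.trace T H.ρ.V (H.ρ.ρ τ) - H.π V) + H.π (V - V') := by
        rw [map_sub, hV2, map_ofNat]; ring
      rw [this]
      exact Ideal.add_mem _ c1 hπ
    · have h3 : ((ℓ ^ k : ℕ) : T) - 1 ∈ IsLocalRing.maximalIdeal T ^ n := by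
        have h4 : (M : ℤ) ∣ (1 : ℤ) - ((ℓ ^ k : ℕ) : ℤ) := by
          have := (Nat.modEq_iff_dvd).1 hmod
          simpa using this
        obtain ⟨e, he⟩ := h4
        have h5 : ((ℓ ^ k : ℕ) : T) - 1 = (p : T) ^ n * ((p : T) ^ c * (-(e : T))) := by
          have h6 := congrArg (Int.cast : ℤ → T) he
          rw [hM] at h6
          push_cast at h6
          push_cast
          rw [pow_add] at h6
          linear_combination -h6
        rw [h5]
        exact Ideal.mul_mem_right _ _ (Ideal.pow_mem_pow hpT n)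
      have : LinearMap.det (H.ρ.ρ τ) - 1
          = (LinearMap.det (H.ρ.ρ τ) - ((ℓ ^ k : ℕ) : T)) + (((ℓ ^ k : ℕ) : T) - 1) := by ring
      rw [this]
      exact Ideal.add_mem _ c2 h3
  have haus : ∀ x : T, (∀ n, x ∈ IsLocalRing.maximalIdeal T ^ n) → x = 0 := by
    intro x hx
    refine IsHausdorff.haus' (I := IsLocalRing.maximalIdeal T) _ fun n => ?_
    rw [SModEq.zero, smul_eq_mul, Ideal.mul_top]
    exact hx n
  have ht : LinearMap.trace T H.ρ.V (H.ρ.ρ τ) = 2 :=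
    sub_eq_zero.1 (haus _ fun n => (key n).1)
  have hdet : LinearMap.det (H.ρ.ρ τ) = 1 :=
    sub_eq_zero.1 (haus _ fun n => (key n).2)
  rw [Lucas.charpoly_eq_of_finrank_two H.ρ.finrank_eq, ht, hdet]
  simp only [map_ofNat, map_one]
  ring

end Final

end Fermat.Agent.S34
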