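import Mathlib

/-!
# S34 : generalities on the subring of integral elements of a finite extension (Mathlib only)

`A` a domain, `φ : A →+* L` an injective ring homomorphism into a field of characteristic zero,
`L` spanned over `Frac φ(A)` by a finite family, `S : Subring L` the subring of `φ`-integral
elements.
-/

set_option autoImplicit false
set_option linter.unusedSectionVars false
set_option linter.style.haveILetI false
set_option linter.overlappingInstances false

noncomputable section

namespace Fermat.Agent.S34.GenInt

variable {A L : Type*} [CommRing A] [IsDomain A] [Field L] [CharZero L] (φ : A →+* L)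
  (hφ : Function.Injective φ) {ι : Type*} [Fintype ι] (b : ι → L)
  (hspan : ∀ f : L, ∃ (c : ι → A) (d : A), d ≠ 0 ∧ φ d * f = ∑ i, φ (c i) * b i)
  (S : Subring L) (hS : ∀ f, f ∈ S ↔ φ.IsIntegralElem f)

include hφ hspan hS

/-- the common set-up. -/
theorem setup : ∃ (_ : Algebra A L) (_ : Algebra (FractionRing A) L) (_ : Algebra A S),
    IsScalarTower A (FractionRing A) L ∧ FiniteDimensional (FractionRing A) L ∧
    Algebra.IsSeparable (FractionRing A) L ∧ IsScalarTower A S L ∧ IsIntegralClosure S A L ∧
    (∀ a, algebraMap A L a = φ a) := by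
  classical
  letI a1 : Algebra A L := φ.toAlgebra
  have hinj : Function.Injective (algebraMap A L) := hφ
  letI a2 : Algebra (FractionRing A) L := (IsFractionRing.lift hinj).toAlgebra
  haveI t1 : IsScalarTower A (FractionRing A) L :=
    IsScalarTower.of_algebraMap_eq' (RingHom.ext fun a =>
      (IsFractionRing.lift_algebraMap hinj a).symm)
  haveI : CharZero A := φ.charZero
  haveI : CharZero (FractionRing A) :=
    charZero_of_injective_algebraMap (IsFractionRing.injective A (FractionRing A))
  haveI fd : FiniteDimensional (FractionRing A) L := by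
    refine ⟨⟨Finset.univ.image b, ?_⟩⟩
    rw [eq_top_iff]
    intro f _
    obtain ⟨c, d, hd, h⟩ := hspan f
    have hd' : φ d ≠ 0 := by rwa [Ne, map_eq_zero_iff _ hφ]
    have hf : f = ∑ i, (algebraMap A (FractionRing A) (c i) / algebraMap A (FractionRing A) d) •
        b i := by
      apply mul_left_cancel₀ hd'
      rw [h, Finset.mul_sum]
      refine Finset.sum_congr rfl fun i _ => ?_
      rw [Algebra.smul_def, map_div₀, ← IsScalarTower.algebraMap_apply,
        ← IsScalarTower.algebraMap_apply]
      show φ (c i) * b i = φ d * (φ (c i) / φ d * b i)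
      field_simp
    rw [hf]
    refine Submodule.sum_mem _ fun i _ => Submodule.smul_mem _ _ (Submodule.subset_span ?_)
    simp
  have hmem : ∀ a, φ a ∈ S := fun a => (hS _).2 (φ.isIntegralElem_map)
  letI a3 : Algebra A S := (φ.codRestrict S hmem).toAlgebra
  haveI t2 : IsScalarTower A S L := IsScalarTower.of_algebraMap_eq fun _ => rfl
  have ic : IsIntegralClosure S A L :=
    { algebraMap_injective := Subtype.val_injective
      isIntegral_iff := fun {f} =>
        ⟨fun h => ⟨⟨f, (hS f).2 h⟩, rfl⟩, by rintro ⟨y, rfl⟩; exact (hS _).1 y.2⟩ }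
  exact ⟨a1, a2, a3, t1, fd, inferInstance, t2, ic, fun _ => rfl⟩

theorem isFractionRing : IsFractionRing S L := by
  obtain ⟨a1, a2, a3, t1, fd, sep, t2, ic, -⟩ := setup φ hφ b hspan S hS
  exact IsIntegralClosure.isFractionRing_of_finite_extension A (FractionRing A) L S

theorem isNoetherianRing [IsNoetherianRing A] [IsIntegrallyClosed A] : IsNoetherianRing S := by
  obtain ⟨a1, a2, a3, t1, fd, sep, t2, ic, -⟩ := setup φ hφ b hspan S hS
  exact IsIntegralClosure.isNoetherianRing A (FractionRing A) L S

theorem isDedekindDomain [IsDedekindDomain A] : IsDedekindDomain S := by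
  obtain ⟨a1, a2, a3, t1, fd, sep, t2, ic, -⟩ := setup φ hφ b hspan S hS
  exact IsIntegralClosure.isDedekindDomain A (FractionRing A) L S

/-- finiteness, in the shape of `inj_abs`. -/
theorem hfin [IsNoetherianRing A] [IsIntegrallyClosed A] (T : Subring L) (hT : ∀ a, φ a ∈ T) :
    ∃ Z : Finset L, ∀ f ∈ S, f ∈ Submodule.span T (Z : Set L) := by
  classical
  obtain ⟨a1, a2, a3, t1, fd, sep, t2, ic, hmap⟩ := setup φ hφ b hspan S hS
  have hfin : Module.Finite A S := IsIntegralClosure.finite A (FractionRing A) L S
  obtain ⟨Z, hZ⟩ := hfin.fg_top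
  refine ⟨Z.image Subtype.val, fun f hf => ?_⟩
  have key : ∀ c : S, c ∈ Submodule.span A (Z : Set S) →
      (c : L) ∈ Submodule.span T ((Z.image Subtype.val : Finset L) : Set L) := by
    intro c hc
    induction hc using Submodule.span_induction with
    | mem x hx =>
      refine Submodule.subset_span ?_
      rw [Finset.coe_image]
      exact ⟨x, hx, rfl⟩
    | zero => exact Submodule.zero_mem _
    | add x y _ _ hx hy => exact Submodule.add_mem _ hx hy
    | smul a x _ hx =>
      have : ((a • x : S) : L) = (⟨φ a, hT a⟩ : T) • (x : L) := by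
        rw [Subring.smul_def, smul_eq_mul]
        change algebraMap S L (a • x) = φ a * algebraMap S L x
        rw [Algebra.smul_def, map_mul, ← IsScalarTower.algebraMap_apply, hmap]
      rw [this]
      exact Submodule.smul_mem _ _ hx
  exact key ⟨f, hf⟩ (by rw [hZ]; trivial)

end Fermat.Agent.S34.GenInt
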