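import Fermat.Agent.S37.RatSec
import Fermat.Agent.ES.InstPl
import Fermat.Agent.S24.FFNorm

/-!
# S34, package RAT (R4) + `hrat`

* `Hrat.exists_place_over` : a place of a function field over every nonzero prime of a ring `D`
  over which the integral closure of `K[y]` is integral (lying over),
* `Hrat.hrat` : the hypothesis `hrat` of `S34.lp` : the primes of `D = B[1/ϖ]` in the support of
  `u` are kernels of sections `B → R`.
-/

set_option autoImplicit false
set_option linter.style.haveILetI false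

noncomputable section

namespace Fermat.Agent.S34.Hrat

open AlgebraicCurve ModularCurve Polynomial IsDedekindDomain IntermediateField
  Fermat.Agent.S24 Fermat.Agent.ES Fermat.Agent.ES.IDvr Fermat.Agent.ES.Inst Fermat.Agent.S37.Rat

section General

variable {K F : Type*} [Field K] [Field F] [Algebra K F]

/-- transitivity of integrality: `K[y]` integral over `j(D)` ⟹ the integral closure of `K[y]` is
integral over `j(D)`. -/
theorem isIntegralElem_of_isIntegral_adjoin {y : F} {D : Type*} [CommRing D] (j : D →+* F)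
    (h2 : ∀ c : K, j.IsIntegralElem (algebraMap K F c)) (h3 : j.IsIntegralElem y) {f : F}
    (hf : IsIntegral (Algebra.adjoin K {y}) f) : j.IsIntegralElem f := by
  letI := j.toAlgebra
  have hle0 : ∀ a ∈ Algebra.adjoin K {y}, a ∈ integralClosure D F := by
    intro a ha
    induction ha using Algebra.adjoin_induction with
    | mem x hx =>
      rw [Set.mem_singleton_iff] at hx
      rw [hx]
      exact h3
    | algebraMap c => exact h2 c
    | add x z _ _ hx hz => exact add_mem hx hz
    | mul x z _ _ hx hz => exact mul_mem hx hz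
  have hle : ∀ a : Algebra.adjoin K {y}, (a : F) ∈ integralClosure D F := fun a => hle0 a a.2
  let g : Algebra.adjoin K {y} →+* integralClosure D F :=
    (algebraMap (Algebra.adjoin K {y}) F).codRestrict (integralClosure D F).toSubring hle
  obtain ⟨p, hp, hpf⟩ := hf
  have h4 : IsIntegral (integralClosure D F) f := by
    refine ⟨p.map g, hp.map _, ?_⟩
    rw [eval₂_map]
    exact hpf
  exact isIntegral_trans f h4

open scoped IntermediateField.algebraAdjoinAdjoin

/-- **RAT (R4)** : lying over. -/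
theorem exists_place_over {y : F} (hy : Transcendental K y)
    [FiniteDimensional K⟮y⟯ F] [Algebra.IsSeparable K⟮y⟯ F]
    {D : Type*} [CommRing D] (j : D →+* F)
    (h1 : ∀ d, IsIntegral (Algebra.adjoin K {y}) (j d))
    (h2 : ∀ c : K, j.IsIntegralElem (algebraMap K F c)) (h3 : j.IsIntegralElem y)
    (Q : Ideal D) [Q.IsPrime] (hker : RingHom.ker j ≤ Q) (hQ : ∃ a ∈ Q, j a ≠ 0) :
    ∃ P : Place K F, 0 ≤ P.ord y ∧ (∀ d, 0 ≤ P.ord (j d)) ∧
      ∀ d, d ∈ Q ↔ (j d = 0 ∨ 0 < P.ord (j d)) := by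
  have := ConstAbs.isPrincipalIdealRing_adjoin hy
  have : IsDedekindDomain (integralClosure (Algebra.adjoin K {y}) F) :=
    integralClosure.isDedekindDomain (Algebra.adjoin K {y}) K⟮y⟯ F
  have : IsFractionRing (integralClosure (Algebra.adjoin K {y}) F) F :=
    integralClosure.isFractionRing_of_finite_extension K⟮y⟯ F
  set C := integralClosure (Algebra.adjoin K {y}) F with hC
  let j' : D →+* C := j.codRestrict C.toSubring h1
  have hj' : ∀ d, ((j' d : C) : F) = j d := fun _ => rfl
  letI := j'.toAlgebra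
  haveI : Algebra.IsIntegral D C := by
    constructor
    intro c
    obtain ⟨p, hp, hpc⟩ := isIntegralElem_of_isIntegral_adjoin j h2 h3 c.2
    refine ⟨p, hp, ?_⟩
    apply Subtype.ext
    have h5 := hom_eval₂ p j' (algebraMap C F) c
    exact h5.trans hpc
  have hker' : RingHom.ker (algebraMap D C) ≤ Q := by
    intro d hd
    apply hker
    rw [RingHom.mem_ker] at hd ⊢
    rw [← hj']
    have : j' d = 0 := hd
    rw [this]
    rfl
  obtain ⟨𝔓, h𝔓, hcomap⟩ := Ideal.exists_ideal_over_prime_of_isIntegral_of_isDomain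
    (S := C) Q hker'
  have hmem : ∀ d, d ∈ Q ↔ j' d ∈ 𝔓 := by
    intro d
    rw [← hcomap]
    rfl
  have hbot : 𝔓 ≠ ⊥ := by
    obtain ⟨a, ha, ha0⟩ := hQ
    intro h
    have h6 := (hmem a).1 ha
    rw [h, Ideal.mem_bot] at h6
    apply ha0
    rw [← hj', h6]
    rfl
  let w : HeightOneSpectrum C := ⟨𝔓, h𝔓, hbot⟩
  refine ⟨Place.ofHeightOneSpectrum (K := K) (F := F) w, ?_, ?_, ?_⟩
  · have hyB : y ∈ C :=
      isIntegral_algebraMap (x := (⟨y, Algebra.self_mem_adjoin_singleton K y⟩ : Algebra.adjoin K {y}))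
    exact FF.ord_nonneg_algebraMap (K := K) (F := F) w ⟨y, hyB⟩
  · intro d
    exact FF.ord_nonneg_algebraMap (K := K) (F := F) w (j' d)
  · intro d
    rw [hmem]
    by_cases h0 : j' d = 0
    · rw [h0]
      have : j d = 0 := by rw [← hj', h0]; rfl
      exact ⟨fun _ => Or.inl this, fun _ => zero_mem _⟩
    · have h7 := FF.ord_pos_iff_mem (K := K) (F := F) w h0
      have h8 : j d ≠ 0 := fun h => h0 (Subtype.ext h)
      constructor
      · intro h
        exact Or.inr (h7.2 h)
      · rintro (h | h)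
        · exact absurd h h8
        · exact h7.1 h

end General

section Modular

variable {K₀ : IntermediateField ℚ Kb} {A : ValuationSubring Kb}
  {N : ℕ} [NeZero N]

omit [NeZero N] in
/-- integral over `R[y]` ⟹ integral over `ℚ̄[y]` -/
theorem isIntegral_adjoin_of_evR {y f : FF N} (h : (evR K₀ A y).IsIntegralElem f) :
    IsIntegral (Algebra.adjoin Kb {y}) f := by
  have hmem : ∀ s, evR K₀ A y s ∈ (Algebra.adjoin Kb {y}).toSubring := by
    intro s
    induction s using Polynomial.induction_on' with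
    | add p q hp hq => rw [map_add]; exact add_mem hp hq
    | monomial n a =>
      have h1 : evR K₀ A y (monomial n a)
          = algebraMap Kb (FF N) (((a : R0 K₀ A) : K₀) : Kb) * y ^ n := by
        rw [evR, coe_eval₂RingHom, eval₂_monomial]
        rfl
      rw [h1]
      exact mul_mem (Subalgebra.algebraMap_mem _ _)
        (pow_mem (Algebra.self_mem_adjoin_singleton Kb y) n)
  obtain ⟨p, hp, hpf⟩ := h
  refine ⟨p.map ((evR K₀ A y).codRestrict (Algebra.adjoin Kb {y}).toSubring hmem), hp.map _, ?_⟩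
  rw [eval₂_map]
  exact hpf

/-- integral over `ℤ` ⟹ integral with respect to any ring hom -/
theorem isIntegralElem_of_isIntegral_int {D L : Type*} [CommRing D] [CommRing L] (j : D →+* L)
    {z : L} (h : IsIntegral ℤ z) : j.IsIntegralElem z := by
  obtain ⟨p, hp, hpz⟩ := h
  refine ⟨p.map (Int.castRingHom D), hp.map _, ?_⟩
  rw [eval₂_map]
  have : j.comp (Int.castRingHom D) = algebraMap ℤ L := RingHom.ext_int _ _
  rw [this]
  exact hpz

/-- the zeros and poles of a function are rational over a number field -/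
theorem exists_field_rational (w : FF N) (hw : w ≠ 0) :
    ∃ L : IntermediateField ℚ Kb, FiniteDimensional ℚ L ∧
      ∀ P : Place Kb (FF N), P.ord w ≠ 0 →
        ∀ σ : GQ, (∀ x ∈ L, σ x = x) → galP N σ P = P := by
  obtain ⟨E, hE, -⟩ := (Fermat.Agent.S37.hasPrincipalDivisors_FF N).exists_divisor w hw
  obtain ⟨L, hL, hfix⟩ := exists_finite_fixing_support N E
  refine ⟨L, hL, fun P hP σ hσ => hfix σ hσ P ?_⟩
  rw [Finsupp.mem_support_iff, hE]
  exact hP

variable [IsDiscreteValuationRing (R0 K₀ A)]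
  {B : Type*} [CommRing B] [Algebra (R0 K₀ A) B]
  {F D : Type*} [Field F] [Algebra B F] [CommRing D] [Algebra B D] [IsDedekindDomain D]
  [Algebra D F] [IsScalarTower B D F] [IsFractionRing D F]

omit [IsDedekindDomain D] in
theorem isUnit_algebraMap (ϖ : R0 K₀ A) (hϖ : Irreducible ϖ)
    [IsLocalization.Away (algebraMap (R0 K₀ A) B ϖ) D] {r : R0 K₀ A} (hr : r ≠ 0) :
    IsUnit (algebraMap B D (algebraMap (R0 K₀ A) B r)) := by
  obtain ⟨k, e, rfl⟩ := IsDiscreteValuationRing.eq_unit_mul_pow_irreducible hr hϖ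
  rw [map_mul, map_mul, map_pow, map_pow]
  exact ((e.isUnit.map _).map _).mul
    (IsLocalization.Away.algebraMap_pow_isUnit (algebraMap (R0 K₀ A) B ϖ) k)

/-- **S34 `hrat`** (the shape of `S34.lp`). -/
theorem hrat (ι : F →+* FF N)
    (hfix : ∀ (f : F) (σ : GQ), (∀ x ∈ K₀, σ x = x) → gal N σ (ι f) = ι f)
    (hconst : ∀ r : R0 K₀ A, ι (algebraMap B F (algebraMap (R0 K₀ A) B r)) = cstR N K₀ A r)
    (x : B) (hx : Transcendental Kb (ι (algebraMap B F x)))
    [FiniteDimensional Kb⟮ι (algebraMap B F x)⟯ (FF N)]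
    (hint : ∀ b : B, (evR K₀ A (ι (algebraMap B F x))).IsIntegralElem (ι (algebraMap B F b)))
    (ϖ : R0 K₀ A) (hϖ : Irreducible ϖ)
    [IsLocalization.Away (algebraMap (R0 K₀ A) B ϖ) D]
    (n : Ideal B) (hn : n ≠ ⊤) (hϖn : algebraMap (R0 K₀ A) B ϖ ∈ n)
    (u : F) (hu : u ≠ 0)
    (hK : ∀ P : Place Kb (FF N), P.ord (ι u) ≠ 0 →
      ∀ σ : GQ, (∀ x ∈ K₀, σ x = x) → galP N σ P = P) :
    ∀ Q : HeightOneSpectrum D, Q.valuation F u ≠ 1 → Q.asIdeal.comap (algebraMap B D) ≤ n →
      ∃ φ : B →ₐ[R0 K₀ A] R0 K₀ A,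
        RingHom.ker φ.toRingHom = Q.asIdeal.comap (algebraMap B D) := by
  intro Q hQu hQn
  set y : FF N := ι (algebraMap B F x) with hy
  set j : D →+* FF N := ι.comp (algebraMap D F) with hj
  have hjB : ∀ b : B, j (algebraMap B D b) = ι (algebraMap B F b) := by
    intro b
    rw [hj, RingHom.comp_apply, ← IsScalarTower.algebraMap_apply]
  have hjinj : Function.Injective j := ι.injective.comp (IsFractionRing.injective D F)
  have hj0 : ∀ d, j d = 0 ↔ d = 0 := fun d => map_eq_zero_iff j hjinj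
  -- integrality of `j d` over `ℚ̄[y]`
  have h1 : ∀ d, IsIntegral (Algebra.adjoin Kb {y}) (j d) := by
    intro d
    have hs := IsLocalization.Away.sec_spec (algebraMap (R0 K₀ A) B ϖ) d
    set b := (IsLocalization.Away.sec (algebraMap (R0 K₀ A) B ϖ) d).1
    set k := (IsLocalization.Away.sec (algebraMap (R0 K₀ A) B ϖ) d).2
    have h2 := congrArg j hs
    rw [map_mul, hjB, hjB, map_pow, map_pow, hconst] at h2
    have hϖ0 : (((ϖ : R0 K₀ A) : K₀) : Kb) ≠ 0 := by
      intro h
      apply hϖ.ne_zero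
      apply Subtype.ext
      apply Subtype.ext
      exact h
    have h3 : cstR N K₀ A ϖ = algebraMap Kb (FF N) (((ϖ : R0 K₀ A) : K₀) : Kb) := rfl
    have h4 : j d = ι (algebraMap B F b)
        * algebraMap Kb (FF N) ((((ϖ : R0 K₀ A) : K₀) : Kb) ^ k)⁻¹ := by
      rw [← h2, h3, ← map_pow, mul_assoc, ← map_mul, mul_inv_cancel₀ (pow_ne_zero _ hϖ0), map_one,
        mul_one]
    rw [h4]
    refine (isIntegral_adjoin_of_evR (hint b)).mul ?_
    exact isIntegral_algebraMap (x := (⟨_, Subalgebra.algebraMap_mem _ _⟩ : Algebra.adjoin Kb {y}))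
  -- constants are integral over `j D`
  have h2 : ∀ c : Kb, j.IsIntegralElem (algebraMap Kb (FF N) c) := by
    intro c
    have halg : IsAlgebraic ℤ c :=
      (IsFractionRing.isAlgebraic_iff ℤ ℚ Kb).2 ((AlgebraicClosure.isAlgebraic ℚ).isAlgebraic c)
    obtain ⟨d', hd', hint'⟩ := halg.exists_integral_multiple
    have hR : ((d' : ℤ) : R0 K₀ A) ≠ 0 := Int.cast_ne_zero.2 hd'
    obtain ⟨e, he⟩ := isUnit_algebraMap (B := B) (D := D) ϖ hϖ hR
    have he1 : j (e : D) = ((d' : ℤ) : FF N) := by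
      rw [he, map_intCast, map_intCast, map_intCast]
    have he2 : j ((e⁻¹ : Dˣ) : D) * ((d' : ℤ) : FF N) = 1 := by
      rw [← he1, ← map_mul, Units.inv_mul, map_one]
    have h5 : algebraMap Kb (FF N) c = algebraMap Kb (FF N) (d' • c) * j ((e⁻¹ : Dˣ) : D) := by
      rw [zsmul_eq_mul, map_mul, map_intCast]
      calc algebraMap Kb (FF N) c = algebraMap Kb (FF N) c * (j ((e⁻¹ : Dˣ) : D) * ((d' : ℤ) : FF N)) := by
            rw [he2, mul_one]
        _ = _ := by ring
    rw [h5]
    refine RingHom.IsIntegralElem.mul _ ?_ (j.isIntegralElem_map)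
    exact isIntegralElem_of_isIntegral_int j (hint'.map (Algebra.ofId Kb (FF N)).toIntAlgHom)
  have h3 : j.IsIntegralElem y := by
    rw [hy, ← hjB]
    exact j.isIntegralElem_map
  have hker : RingHom.ker j ≤ Q.asIdeal := by
    intro d hd
    rw [RingHom.mem_ker, hj0] at hd
    rw [hd]
    exact zero_mem _
  have hQ0 : ∃ a ∈ Q.asIdeal, j a ≠ 0 := by
    obtain ⟨a, ha, ha0⟩ := Submodule.exists_mem_ne_zero_of_ne_bot Q.ne_bot
    exact ⟨a, ha, fun h => ha0 ((hj0 a).1 h)⟩
  haveI := Q.isPrime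
  obtain ⟨P, hPy, hPD, hPQ⟩ := exists_place_over hx j h1 h2 h3 Q.asIdeal hker hQ0
  -- orders
  have hpos : ∀ f : F, f ≠ 0 → Q.valuation F f < 1 → 0 < P.ord (ι f) := by
    intro f hf hlt
    obtain ⟨n', d', hnd⟩ := Q.exists_primeCompl_mul_eq_of_integer f hlt.le
    have hd1 : Q.valuation F (algebraMap D F d') = 1 := by
      refine le_antisymm (Q.valuation_le_one _) (not_lt.1 fun h => d'.2 ?_)
      exact (HeightOneSpectrum.valuation_lt_one_iff_mem Q _).1 h
    have hn1 : n' ∈ Q.asIdeal := by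
      apply (HeightOneSpectrum.valuation_lt_one_iff_mem (K := F) Q n').1
      show Q.valuation F (algebraMap D F n') < 1
      rw [← hnd, map_mul, hd1, mul_one]
      exact hlt
    have hd0 : (d' : D) ≠ 0 := fun h => d'.2 (h ▸ zero_mem _)
    have hjd0 : j d' ≠ 0 := fun h => hd0 ((hj0 _).1 h)
    have hιf : ι f ≠ 0 := (map_ne_zero ι).2 hf
    have h6 : j n' = ι f * j d' := by
      rw [hj, RingHom.comp_apply, ← hnd, map_mul]
      rfl
    have h7 : 0 < P.ord (j n') := by
      rcases (hPQ n').1 hn1 with h | h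
      · rw [h6] at h
        exact absurd h (mul_ne_zero hιf hjd0)
      · exact h
    have h8 : P.ord (j d') = 0 := by
      have h9 := hPD d'
      have h10 : ¬ 0 < P.ord (j d') := fun h => d'.2 ((hPQ d').2 (Or.inr h))
      omega
    rw [h6, P.ord_mul hιf hjd0, h8, add_zero] at h7
    exact h7
  have hne : P.ord (ι u) ≠ 0 := by
    rcases lt_or_gt_of_ne hQu with h | h
    · exact (hpos u hu h).ne'
    · have h11 : Q.valuation F u⁻¹ < 1 := by
        rw [map_inv₀]
        exact inv_lt_one_of_one_lt₀ h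
      have := hpos u⁻¹ (inv_ne_zero hu) h11
      rw [map_inv₀, P.ord_inv] at this
      omega
  have hP := hK P hne
  have hy0 : y ≠ 0 := fun h => hx (h ▸ isAlgebraic_zero)
  have hyO : y ∈ P.toValuationSubring := (FF.mem_iff_ord_nonneg P hy0).2 hPy
  have hcK : val P y ∈ K₀ := val_mem N K₀ P hP y (hfix _)
  -- the value of `x` lies in `A`
  have hcA : val P y ∈ A := by
    by_contra hc
    have hc0 : val P y ≠ 0 := fun h => hc (h ▸ zero_mem _)
    have hinv : (val P y)⁻¹ ∈ A := (A.mem_or_inv_mem _).resolve_left hc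
    let r : R0 K₀ A := ⟨⟨(val P y)⁻¹, K₀.inv_mem hcK⟩, hinv⟩
    have hr : r ∈ IsLocalRing.maximalIdeal (R0 K₀ A) := by
      rw [IsLocalRing.mem_maximalIdeal, mem_nonunits_iff]
      rintro ⟨e, he⟩
      apply hc
      have h12 : (((r * ((e⁻¹ : (R0 K₀ A)ˣ) : R0 K₀ A) : R0 K₀ A) : K₀) : Kb) = 1 := by
        rw [← he, Units.mul_inv]
        rfl
      have h13 : (val P y)⁻¹ * (((((e⁻¹ : (R0 K₀ A)ˣ) : R0 K₀ A) : K₀) : Kb)) = 1 := h12
      have h14 : val P y = (((((e⁻¹ : (R0 K₀ A)ˣ) : R0 K₀ A) : K₀) : Kb)) := by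
        field_simp at h13
        exact h13.symm
      rw [h14]
      exact ((e⁻¹ : (R0 K₀ A)ˣ) : R0 K₀ A).2
    rw [(IsDiscreteValuationRing.irreducible_iff_uniformizer ϖ).1 hϖ,
      Ideal.mem_span_singleton] at hr
    obtain ⟨r', hr'⟩ := hr
    have hrn : algebraMap (R0 K₀ A) B r ∈ n := by
      rw [hr', map_mul]
      exact n.mul_mem_right _ hϖn
    have hb0 : algebraMap (R0 K₀ A) B r * x - 1 ∈ n := by
      apply hQn
      rw [Ideal.mem_comap, hPQ, hjB, map_sub, map_sub, map_mul, map_mul, hconst, map_one, map_one]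
      have h15 : cstR N K₀ A r = algebraMap Kb (FF N) (val P y)⁻¹ := rfl
      rw [h15, ← hy]
      have hmem : algebraMap Kb (FF N) (val P y)⁻¹ * y - 1 ∈ P.toValuationSubring :=
        sub_mem (mul_mem (P.algebraMap_mem' _) hyO) (one_mem _)
      rw [← val_eq_zero_iff P hmem]
      have h16 : algebraMap Kb (FF N) (val P y)⁻¹ * y - 1
          = algebraMap Kb (FF N) (val P y)⁻¹ * y + algebraMap Kb (FF N) (-1) := by
        rw [map_neg, map_one, sub_eq_add_neg]
      rw [h16, val_add P (mul_mem (P.algebraMap_mem' _) hyO) (P.algebraMap_mem' _),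
        val_mul P (P.algebraMap_mem' _) hyO, val_algebraMap, val_algebraMap,
        inv_mul_cancel₀ hc0]
      ring
    apply hn
    rw [Ideal.eq_top_iff_one]
    have h17 : (1 : B) = algebraMap (R0 K₀ A) B r * x - (algebraMap (R0 K₀ A) B r * x - 1) := by
      ring
    rw [h17]
    exact sub_mem (n.mul_mem_right _ hrn) hb0
  obtain ⟨φ, hφ⟩ := exists_section_of_integral K₀ A P hP hyO hcA (ι.comp (algebraMap B F))
    (fun b σ hσ => hfix _ σ hσ) hint
  refine ⟨{ φ with commutes' := ?_ }, ?_⟩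
  · intro r
    apply Subtype.ext
    apply Subtype.ext
    have h18 := (hφ (algebraMap (R0 K₀ A) B r)).2
    rw [RingHom.comp_apply, hconst] at h18
    have h19 : cstR N K₀ A r = algebraMap Kb (FF N) (((r : R0 K₀ A) : K₀) : Kb) := rfl
    rw [h19, val_algebraMap] at h18
    exact h18
  · ext b
    rw [Ideal.mem_comap, hPQ, hjB, RingHom.mem_ker]
    exact section_eq_zero_iff hφ b

end Modular

end Fermat.Agent.S34.Hrat
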