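import Fermat.Agent.ES.LevelChange
import Fermat.Agent.ES.KGal

/-!
# S34 : the claim (U) on functions and the change of level

* `UNI m N A` : for `τ` in the inertia group of `A` and `u ∈ FF N` with `m ∣ div u` the second
  difference `τ²(u) u / τ(u)²` is an `m`-th power (syntactically the `ClaimU` of `S34/Wrap.lean`);
* `UNI_of_mul_prime` : `UNI m (N * r) A → UNI m N A` if `r ∤ N` is a prime with `gcd (r + 1, m) = 1`.
-/

set_option autoImplicit false

namespace Fermat.Agent.S34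

open ModularCurve AlgebraicCurve Fermat.Agent.S24 Fermat.Agent.ES

/-- The claim (U), on functions. -/
def UNI (m N : ℕ) (A : ValuationSubring Kb) : Prop :=
  ∀ τ ∈ A.inertiaSubgroupIn ℚ, ∀ u : FF N, IsPDiv m N u →
    ∃ z : FF N, gal N τ (gal N τ u) * u = (gal N τ u) ^ 2 * z ^ m

theorem gal_heckeAlpha (N r : ℕ) [NeZero N] [NeZero r] (σ : GQ) (u : FF N) :
    gal (N * r) σ (heckeAlphaBar Kb N r u) = heckeAlphaBar Kb N r (gal N σ u) := by
  apply Subtype.ext
  rw [coe_heckeAlphaBar, coe_arithmeticRingAut_apply, coe_arithmeticRingAut_apply,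
    coe_heckeAlphaBar]

/-- **Level raise** for (U), general form. -/
theorem UNI_of_heckeAlpha (m N r : ℕ) [NeZero N] [NeZero r] (A : ValuationSubring Kb)
    (hcop : Nat.Coprime (finrankAlong Kb (heckeAlphaBar Kb N r)) m) (h : UNI m (N * r) A) :
    UNI m N A := by
  intro τ hτ u hu
  obtain ⟨z, hz⟩ := h τ hτ _ (LevelChange.isPDiv_heckeAlpha m N r hu)
  have hu1 : gal N τ u ≠ 0 := (map_ne_zero _).2 hu.1
  have hu2 : gal N τ (gal N τ u) ≠ 0 := (map_ne_zero _).2 hu1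
  obtain ⟨w, hw⟩ : ∃ w : FF N, w = gal N τ (gal N τ u) * u / (gal N τ u) ^ 2 := ⟨_, rfl⟩
  have hw0 : w ≠ 0 := by
    rw [hw]
    exact div_ne_zero (mul_ne_zero hu2 hu.1) (pow_ne_zero _ hu1)
  have hwz : heckeAlphaBar Kb N r w = z ^ m := by
    rw [gal_heckeAlpha, gal_heckeAlpha] at hz
    rw [hw, map_div₀, map_mul, map_pow, hz, mul_div_cancel_left₀]
    exact pow_ne_zero _ ((map_ne_zero _).2 hu1)
  let _ := algebraAlong (heckeAlphaBar Kb N r)
  have h1 : Algebra.norm (FF N) (algebraMap (FF N) (FF (N * r)) w)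
      = w ^ Module.finrank (FF N) (FF (N * r)) := Algebra.norm_algebraMap w
  have h2 : algebraMap (FF N) (FF (N * r)) w = z ^ m := hwz
  rw [h2, map_pow] at h1
  obtain ⟨y, hy⟩ := LevelChange.exists_pow_eq_of_coprime hcop hw0 h1.symm
  refine ⟨y, ?_⟩
  rw [← hy, hw, mul_div_cancel₀]
  exact pow_ne_zero _ hu1

/-- **Level raise** for (U) at an auxiliary prime `r ∤ N`: the degree is `r + 1`. -/
theorem UNI_of_mul_prime (m N r : ℕ) [NeZero N] [Fact r.Prime] (hr : ¬ r ∣ N)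
    (A : ValuationSubring Kb) (hcop : Nat.Coprime (r + 1) m) (h : UNI m (N * r) A) :
    UNI m N A := by
  have : NeZero r := ⟨(Fact.out : r.Prime).ne_zero⟩
  refine UNI_of_heckeAlpha m N r A ?_ h
  rw [finrank_heckeAlpha N r hr]
  exact hcop

/-- Choice of the auxiliary prime: for primes `p ≠ q` there is `r ∈ {2, 3}` with `r ≠ q` and
`gcd (r + 1, p) = 1`. -/
theorem exists_aux_level {p q : ℕ} (hp : p.Prime) (hqp : q ≠ p) :
    ∃ r : ℕ, r.Prime ∧ (r = 2 ∨ r = 3) ∧ r ≠ q ∧ Nat.Coprime (r + 1) p := by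
  by_cases h2 : p = 2
  · subst h2
    exact ⟨2, Nat.prime_two, Or.inl rfl, fun h => hqp h.symm, by norm_num⟩
  by_cases h3 : p = 3
  · subst h3
    exact ⟨3, Nat.prime_three, Or.inr rfl, fun h => hqp h.symm, by norm_num⟩
  by_cases hq2 : q = 2
  · subst hq2
    refine ⟨3, Nat.prime_three, Or.inr rfl, by norm_num, ?_⟩
    have : Nat.Coprime 2 p := (Nat.coprime_primes Nat.prime_two hp).2 (Ne.symm h2)
    exact Nat.Coprime.pow_left 2 this
  · exact ⟨2, Nat.prime_two, Or.inl rfl, Ne.symm hq2,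
      (Nat.coprime_primes Nat.prime_three hp).2 (Ne.symm h3)⟩

/-- **Reduction of (U) to levels divisible by the auxiliary prime `r`**: if (U) holds (for the
exponent `p ^ k`, at `A`) at all levels `N'` with `r ∣ N'`, `q ∣ N'`, `q² ∤ N'`, then it holds at all
levels `N` with `q ∣ N`, `q² ∤ N`. -/
theorem UNI_of_aux {p q r : ℕ} (hq : q.Prime) (hr : r.Prime) (hrq : r ≠ q)
    (hcop : Nat.Coprime (r + 1) p) (k : ℕ) (A : ValuationSubring Kb)
    (h : ∀ N' : ℕ, N' ≠ 0 → r ∣ N' → q ∣ N' → ¬ q ^ 2 ∣ N' → UNI (p ^ k) N' A)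
    (N : ℕ) [NeZero N] (hqN : q ∣ N) (hq2 : ¬ q ^ 2 ∣ N) : UNI (p ^ k) N A := by
  by_cases hrN : r ∣ N
  · exact h N (NeZero.ne N) hrN hqN hq2
  · have : Fact r.Prime := ⟨hr⟩
    refine UNI_of_mul_prime (p ^ k) N r hrN A (Nat.Coprime.pow_right k hcop) ?_
    refine h (N * r) (mul_ne_zero (NeZero.ne N) hr.ne_zero) (Dvd.intro_left N rfl)
      (Dvd.dvd.mul_right hqN r) ?_
    intro hd
    have hc : Nat.Coprime (q ^ 2) r := Nat.Coprime.pow_left 2 ((Nat.coprime_primes hq hr).2 hrq.symm)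
    exact hq2 (hc.dvd_of_dvd_mul_right hd)

end Fermat.Agent.S34
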