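import Fermat.Agent.S34.LocDefs

/-!
# S34, local structure : local generators of the maximal ideals (S-LOC)
-/

set_option autoImplicit false
set_option linter.unusedSectionVars false
set_option linter.unusedVariables false

namespace Fermat.Agent.S34

section Ded

variable {C : Type*} [CommRing C] [IsDedekindDomain C]

/-- in a Dedekind domain an element of `m \ m ^ 2` generates `m` locally at `m`. -/
theorem Loc.exists_mul_eq (m : Ideal C) (x : C) (hx : x ∈ m) (hx2 : x ∉ m ^ 2) :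
    ∀ b ∈ m, ∃ s, s ∉ m ∧ ∃ c, s * b = c * x := by
  obtain ⟨𝔟, h𝔟⟩ := Ideal.dvd_span_singleton.mpr hx
  have hnot : ¬ 𝔟 ≤ m := by
    intro hle
    apply hx2
    have : Ideal.span {x} ≤ m ^ 2 := by
      rw [h𝔟, pow_two]
      exact Ideal.mul_mono_right hle
    exact this (Ideal.mem_span_singleton_self x)
  obtain ⟨s, hs, hsm⟩ := SetLike.not_le_iff_exists.mp hnot
  intro b hb
  have h1 : b * s ∈ Ideal.span {x} := by
    rw [h𝔟]
    exact Ideal.mul_mem_mul hb hs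
  obtain ⟨c, hc⟩ := Ideal.mem_span_singleton'.mp h1
  exact ⟨s, hsm, c, by rw [hc, mul_comm]⟩

end Ded

variable {B : Type*} [CommRing B]

/-- transfer from the quotient. -/
theorem Loc.locGen_of_quotient (p n : Ideal B) (hpn : p ≤ n) (x : B) (hx : x ∈ n)
    (h : ∀ b ∈ n.map (Ideal.Quotient.mk p), ∃ s, s ∉ n.map (Ideal.Quotient.mk p) ∧
      ∃ c, s * b = c * Ideal.Quotient.mk p x) : LocGen n p x := by
  refine ⟨hx, fun b hb => ?_⟩
  obtain ⟨s, hs, c, hc⟩ := h (Ideal.Quotient.mk p b) (Ideal.mem_map_of_mem _ hb)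
  obtain ⟨s, rfl⟩ := Ideal.Quotient.mk_surjective s
  obtain ⟨c, rfl⟩ := Ideal.Quotient.mk_surjective c
  refine ⟨s, fun hsn => hs (Ideal.mem_map_of_mem _ hsn), c, ?_⟩
  rw [← Ideal.Quotient.eq, map_mul, map_mul, hc]

theorem Loc.locGen_of_not_mem_sq (p : Ideal B) [p.IsPrime] [IsDedekindDomain (B ⧸ p)]
    (n : Ideal B) (hpn : p ≤ n) (x : B) (hx : x ∈ n)
    (hx2 : Ideal.Quotient.mk p x ∉ (n.map (Ideal.Quotient.mk p)) ^ 2) : LocGen n p x :=
  Loc.locGen_of_quotient p n hpn x hx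
    (Loc.exists_mul_eq _ _ (Ideal.mem_map_of_mem _ hx) hx2)

theorem Loc.map_ne_top (p n : Ideal B) [n.IsMaximal] (hpn : p ≤ n) :
    n.map (Ideal.Quotient.mk p) ≠ ⊤ := by
  intro h
  have h1 : (1 : B ⧸ p) ∈ n.map (Ideal.Quotient.mk p) := h ▸ Submodule.mem_top
  rw [← map_one (Ideal.Quotient.mk p), Ideal.mem_quotient_iff_mem hpn] at h1
  exact (Ideal.IsMaximal.ne_top ‹_›) ((Ideal.eq_top_iff_one n).mpr h1)

theorem Loc.map_ne_bot (p n : Ideal B) (hpn : p ≤ n) (hne : p ≠ n) :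
    n.map (Ideal.Quotient.mk p) ≠ ⊥ := by
  intro h
  apply hne
  refine le_antisymm hpn fun b hb => ?_
  have : Ideal.Quotient.mk p b ∈ n.map (Ideal.Quotient.mk p) := Ideal.mem_map_of_mem _ hb
  rw [h, Ideal.mem_bot, Ideal.Quotient.eq_zero_iff_mem] at this
  exact this

/-- S-LOC (1): local generator of a maximal ideal of a Dedekind quotient. -/
theorem exists_locGen (p : Ideal B) [p.IsPrime] [IsDedekindDomain (B ⧸ p)] (n : Ideal B)
    [n.IsMaximal] (hpn : p ≤ n) : ∃ x, LocGen n p x := by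
  by_cases hne : p = n
  · refine ⟨0, n.zero_mem, fun b hb => ⟨1, (Ideal.ne_top_iff_one n).mp (Ideal.IsMaximal.ne_top ‹_›),
      0, ?_⟩⟩
    rw [one_mul, zero_mul, sub_zero, hne]
    exact hb
  · obtain ⟨c, hc, hc2⟩ := Ideal.exists_mem_pow_notMem_pow_succ (n.map (Ideal.Quotient.mk p))
      (Loc.map_ne_bot p n hpn hne) (Loc.map_ne_top p n hpn) 1
    obtain ⟨x, rfl⟩ := Ideal.Quotient.mk_surjective c
    rw [pow_one, Ideal.mem_quotient_iff_mem hpn] at hc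
    exact ⟨x, Loc.locGen_of_not_mem_sq p n hpn x hc hc2⟩

variable (ϖ : B) (p1 p2 : Ideal B) [p1.IsPrime] [p2.IsPrime]

/-- S-LOC (0): unmixedness. -/
theorem dvd_of_mul_dvd [IsDomain B] (hϖ : ϖ ≠ 0) (hp : p1 ⊓ p2 = Ideal.span {ϖ}) (k : ℕ) (s b : B)
    (h1 : s ∉ p1) (h2 : s ∉ p2) (h : ϖ ^ k ∣ s * b) : ϖ ^ k ∣ b := by
  induction k generalizing b with
  | zero => simp
  | succ k ih =>
    have h3 : s * b ∈ p1 ⊓ p2 := by
      rw [hp, Ideal.mem_span_singleton]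
      exact (dvd_pow_self ϖ (Nat.succ_ne_zero k)).trans h
    have h4 : b ∈ p1 ⊓ p2 :=
      ⟨(Ideal.IsPrime.mem_or_mem ‹p1.IsPrime› h3.1).resolve_left h1,
        (Ideal.IsPrime.mem_or_mem ‹p2.IsPrime› h3.2).resolve_left h2⟩
    rw [hp, Ideal.mem_span_singleton] at h4
    obtain ⟨b', rfl⟩ := h4
    rw [pow_succ', mul_left_comm] at h
    rw [pow_succ']
    exact mul_dvd_mul_left ϖ (ih b' ((mul_dvd_mul_iff_left hϖ).mp h))

/-- S-LOC (A): smooth point. -/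
theorem loc_smooth (hp : p1 ⊓ p2 = Ideal.span {ϖ}) (n : Ideal B) [n.IsMaximal]
    (h2 : ¬ p2 ≤ n) (x : B) (hx : LocGen n p1 x) :
    ∀ b ∈ n, ∃ s, s ∉ n ∧ ∃ c d, s * b = c * x + d * ϖ := by
  obtain ⟨θ, hθ, hθn⟩ := SetLike.not_le_iff_exists.mp h2
  intro b hb
  obtain ⟨s, hs, c, hc⟩ := hx.2 b hb
  have h3 : θ * (s * b - c * x) ∈ p1 ⊓ p2 := ⟨p1.mul_mem_left _ hc, p2.mul_mem_right _ hθ⟩
  rw [hp] at h3
  obtain ⟨d, hd⟩ := Ideal.mem_span_singleton'.mp h3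
  refine ⟨θ * s, fun h => ?_, θ * c, d, ?_⟩
  · rcases (Ideal.IsMaximal.isPrime ‹n.IsMaximal›).mem_or_mem h with h | h
    · exact hθn h
    · exact hs h
  · linear_combination -hd

/-- S-LOC (B): node. -/
theorem loc_node (hp : p1 ⊓ p2 = Ideal.span {ϖ}) (n : Ideal B) [n.IsMaximal] (x y : B)
    (hx : LocGen n p1 x) (hy : LocGen n p2 y) (hy1 : y ∈ p1) :
    ∀ b ∈ n, ∃ s, s ∉ n ∧ ∃ c d e, s * b = c * x + d * y + e * ϖ := by
  intro b hb
  obtain ⟨s, hs, c, hc⟩ := hx.2 b hb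
  have hb1 : s * b - c * x ∈ n := n.sub_mem (n.mul_mem_left _ hb) (n.mul_mem_left _ hx.1)
  obtain ⟨s', hs', d, hd⟩ := hy.2 _ hb1
  have h3 : s' * (s * b - c * x) - d * y ∈ p1 ⊓ p2 :=
    ⟨p1.sub_mem (p1.mul_mem_left _ hc) (p1.mul_mem_left _ hy1), hd⟩
  rw [hp] at h3
  obtain ⟨e, he⟩ := Ideal.mem_span_singleton'.mp h3
  refine ⟨s' * s, fun h => ?_, s' * c, d, e, ?_⟩
  · rcases (Ideal.IsMaximal.isPrime ‹n.IsMaximal›).mem_or_mem h with h | h
    · exact hs' h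
    · exact hs h
  · linear_combination -he

/-- S-LOC (Fr): admissible elements from a Frobenius-like relation. -/
theorem exists_adm [IsDedekindDomain (B ⧸ p1)] (n : Ideal B) [n.IsMaximal] (h1 : p1 ≤ n)
    (h2 : p2 ≤ n) (hne : p1 ≠ n) (Q : ℕ) (hQ : 2 ≤ Q)
    (hFr : ∀ b : B, ∃ b' : B, ∃ x ∈ p2, x - (b' ^ Q - b) ∈ p1) :
    ∃ x, LocGen n p1 x ∧ x ∈ p2 := by
  obtain ⟨c, hc, hc2⟩ := Ideal.exists_mem_pow_notMem_pow_succ (n.map (Ideal.Quotient.mk p1))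
    (Loc.map_ne_bot p1 n h1 hne) (Loc.map_ne_top p1 n h1) 1
  obtain ⟨b, rfl⟩ := Ideal.Quotient.mk_surjective c
  rw [pow_one, Ideal.mem_quotient_iff_mem h1] at hc
  obtain ⟨b', x, hx2, hx⟩ := hFr b
  have hxn : x ∈ n := h2 hx2
  have hb'Q : b' ^ Q ∈ n := by
    have : b' ^ Q = x - (x - (b' ^ Q - b)) + b := by ring
    rw [this]
    exact n.add_mem (n.sub_mem hxn (h1 hx)) hc
  have hb' : b' ∈ n := (Ideal.IsMaximal.isPrime ‹n.IsMaximal›).mem_of_pow_mem Q hb'Q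
  refine ⟨x, Loc.locGen_of_not_mem_sq p1 n h1 x hxn ?_, hx2⟩
  intro hcon
  apply hc2
  have e1 : Ideal.Quotient.mk p1 x = Ideal.Quotient.mk p1 b' ^ Q - Ideal.Quotient.mk p1 b := by
    rw [← map_pow, ← map_sub, Ideal.Quotient.eq]
    exact hx
  have e2 : Ideal.Quotient.mk p1 b = Ideal.Quotient.mk p1 b' ^ Q - Ideal.Quotient.mk p1 x := by
    rw [e1]; ring
  rw [e2]
  refine Ideal.sub_mem _ ?_ hcon
  exact Ideal.pow_le_pow_right hQ (Ideal.pow_mem_pow (Ideal.mem_map_of_mem _ hb') Q)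

end Fermat.Agent.S34
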