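import Fermat.Agent.S34.Loc

/-!
# S34, local structure : the equation `x y = ϖ ^ e * unit` at a node (S-XY)
-/

set_option autoImplicit false
set_option linter.unusedSectionVars false
set_option linter.unusedVariables false

namespace Fermat.Agent.S34

variable {B : Type*} [CommRing B]

/-- a local generator modulo `p` is not in `p` as soon as `n ≠ p`. -/
theorem Node.notMem_of_locGen (n p : Ideal B) [p.IsPrime] (hpn : p ≤ n) (x : B) (hx : LocGen n p x)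
    (z : B) (hz : z ∈ n) (hzp : z ∉ p) : x ∉ p := by
  intro hxp
  obtain ⟨s, hs, c, hc⟩ := hx.2 z hz
  have h1 : s * z ∈ p := by
    have : s * z = (s * z - c * x) + c * x := by ring
    rw [this]
    exact p.add_mem hc (p.mul_mem_left _ hxp)
  rcases Ideal.IsPrime.mem_or_mem ‹p.IsPrime› h1 with h | h
  · exact hs (hpn h)
  · exact hzp h

/-- local generators are stable under `x ↦ s x - δ`, `s ∉ n`, `δ ∈ p`. -/
theorem Node.locGen_smul_sub (n p : Ideal B) [n.IsMaximal] (hpn : p ≤ n) (x : B)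
    (hx : LocGen n p x) (s δ : B) (hs : s ∉ n) (hδ : δ ∈ p) : LocGen n p (s * x - δ) := by
  refine ⟨n.sub_mem (n.mul_mem_left _ hx.1) (hpn hδ), fun b hb => ?_⟩
  obtain ⟨s1, hs1, c1, hc1⟩ := hx.2 b hb
  refine ⟨s * s1, fun h => ?_, c1, ?_⟩
  · rcases (Ideal.IsMaximal.isPrime ‹n.IsMaximal›).mem_or_mem h with h | h
    · exact hs h
    · exact hs1 h
  · have : s * s1 * b - c1 * (s * x - δ) = s * (s1 * b - c1 * x) + c1 * δ := by ring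
    rw [this]
    exact p.add_mem (p.mul_mem_left _ hc1) (p.mul_mem_left _ hδ)

variable [IsDomain B] (ϖ : B) (p1 p2 : Ideal B) [p1.IsPrime] [p2.IsPrime]

/-- `n ≠ p2` at a node carrying an `XY`-relation. -/
theorem Node.exists_notMem (hϖ : ϖ ≠ 0) (hp : p1 ⊓ p2 = Ideal.span {ϖ}) (n : Ideal B)
    (h1 : p1 ≤ n) (h2 : p2 ≤ n)
    (X Y s0 : B) (c : ℕ) (hXY : X * Y = ϖ ^ c * s0) (hs0 : s0 ∉ n) (hX1 : X ∉ p1) (hX2 : X ∈ p2) :
    ∃ z ∈ n, z ∉ p2 := by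
  by_contra hcon
  push Not at hcon
  have h12 : p1 ≤ p2 := fun z hz => hcon z (h1 hz)
  have hp1 : p1 = Ideal.span {ϖ} := by rw [← hp, inf_eq_left.mpr h12]
  have hprime : Prime ϖ := by
    rw [← Ideal.span_singleton_prime hϖ, ← hp1]
    infer_instance
  have hX : ¬ ϖ ∣ X := by
    rw [← Ideal.mem_span_singleton, ← hp1]
    exact hX1
  obtain ⟨Y', rfl⟩ := hprime.pow_dvd_of_dvd_mul_left c hX ⟨s0, hXY⟩
  have h3 : X * Y' = s0 := by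
    apply mul_left_cancel₀ (pow_ne_zero c hϖ)
    rw [← hXY]; ring
  exact hs0 (h3 ▸ n.mul_mem_right _ (h2 hX2))

/-- the exponent of an admissible pair is bounded by the exponent of the `XY`-relation. -/
theorem Node.le_of_dvd (hϖ : ϖ ≠ 0) (hp : p1 ⊓ p2 = Ideal.span {ϖ}) (n : Ideal B) [n.IsMaximal]
    (h1 : p1 ≤ n) (h2 : p2 ≤ n)
    (X Y s0 : B) (c : ℕ) (hXY : X * Y = ϖ ^ c * s0) (hs0 : s0 ∉ n) (hX1 : X ∉ p1) (hX2 : X ∈ p2)
    (x y : B) (hx : LocGen n p1 x) (hx2 : x ∈ p2) (hy : LocGen n p2 y) (hy1 : y ∈ p1) (e : ℕ)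
    (he : ϖ ^ e ∣ x * y) : e ≤ c := by
  by_contra hec
  push Not at hec
  have hnp := Ideal.IsMaximal.isPrime ‹n.IsMaximal›
  have hϖ2 : ϖ ∈ p2 := by
    have : ϖ ∈ p1 ⊓ p2 := by rw [hp]; exact Ideal.mem_span_singleton_self ϖ
    exact this.2
  have hxp1 : x ∉ p1 := Node.notMem_of_locGen n p1 h1 x hx X (h2 hX2) hX1
  obtain ⟨z, hzn, hz2⟩ := Node.exists_notMem ϖ p1 p2 hϖ hp n h1 h2 X Y s0 c hXY hs0 hX1 hX2
  have hyp2 : y ∉ p2 := Node.notMem_of_locGen n p2 h2 y hy z hzn hz2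
  obtain ⟨w, hw⟩ := (pow_dvd_pow ϖ (show c + 1 ≤ e from hec)).trans he
  have hσ1 : X + y ∉ p1 := fun h => hX1 (by simpa using p1.sub_mem h hy1)
  have hσ2 : X + y ∉ p2 := fun h => hyp2 (by simpa using p2.sub_mem h hX2)
  have e1 : (X + y) * (x * Y) = ϖ ^ c * (s0 * x + ϖ * w * Y) := by
    linear_combination x * hXY + Y * hw
  obtain ⟨z1, hz1⟩ := dvd_of_mul_dvd ϖ p1 p2 hϖ hp c (X + y) (x * Y) hσ1 hσ2 ⟨_, e1⟩
  have e2 : (X + y) * z1 = s0 * x + ϖ * w * Y := by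
    apply mul_left_cancel₀ (pow_ne_zero c hϖ)
    rw [← e1, hz1]; ring
  have hz1p : z1 ∈ p2 := by
    have : (X + y) * z1 ∈ p2 := by
      rw [e2]
      exact p2.add_mem (p2.mul_mem_left _ hx2) (p2.mul_mem_right _ (p2.mul_mem_right _ hϖ2))
    exact (Ideal.IsPrime.mem_or_mem ‹p2.IsPrime› this).resolve_left hσ2
  have e3 : X * z1 = s0 * x := by
    apply mul_left_cancel₀ (pow_ne_zero c hϖ)
    linear_combination (-X) * hz1 + x * hXY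
  obtain ⟨s, hs, a, ha⟩ := hx.2 X (h2 hX2)
  obtain ⟨s', hs', a', ha'⟩ := hx.2 z1 (h2 hz1p)
  have h5 : x * (s * s' * s0 - a * a' * x) ∈ p1 := by
    have : x * (s * s' * s0 - a * a' * x)
        = (s * X - a * x) * (s' * z1) + (a * x) * (s' * z1 - a' * x) := by
      linear_combination (-(s * s')) * e3
    rw [this]
    exact p1.add_mem (p1.mul_mem_right _ ha) (p1.mul_mem_left _ ha')
  have h6 : s * s' * s0 - a * a' * x ∈ p1 :=
    (Ideal.IsPrime.mem_or_mem ‹p1.IsPrime› h5).resolve_left hxp1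
  have h7 : s * s' * s0 ∈ n := by
    have : s * s' * s0 = (s * s' * s0 - a * a' * x) + a * a' * x := by ring
    rw [this]
    exact n.add_mem (h1 h6) (n.mul_mem_left _ hx.1)
  rcases hnp.mem_or_mem h7 with h | h
  · rcases hnp.mem_or_mem h with h | h
    · exact hs h
    · exact hs' h
  · exact hs0 h

/-- improving an admissible pair whose `ε` is not a unit at `n`. -/
theorem Node.improve (hp : p1 ⊓ p2 = Ideal.span {ϖ}) (n : Ideal B) [n.IsMaximal]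
    (h1 : p1 ≤ n) (h2 : p2 ≤ n)
    (x y : B) (hx : LocGen n p1 x) (hx2 : x ∈ p2) (hy : LocGen n p2 y) (hy1 : y ∈ p1) (e : ℕ)
    (he : 0 < e) (ε : B) (hε : ε ∈ n) (hxy : x * y = ϖ ^ e * ε) :
    ∃ x' y', LocGen n p1 x' ∧ x' ∈ p2 ∧ LocGen n p2 y' ∧ y' ∈ p1 ∧ ϖ ^ (e + 1) ∣ x' * y' := by
  have hϖ12 : ϖ ∈ p1 ⊓ p2 := by rw [hp]; exact Ideal.mem_span_singleton_self ϖ
  have hϖe1 : ϖ ^ e ∈ p1 := Ideal.pow_mem_of_mem _ hϖ12.1 e he
  have hϖe2 : ϖ ^ e ∈ p2 := Ideal.pow_mem_of_mem _ hϖ12.2 e he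
  obtain ⟨s, hs, c, d, b, hb⟩ := loc_node ϖ p1 p2 hp n x y hx hy hy1 ε hε
  refine ⟨s * x - ϖ ^ e * d, s * y - ϖ ^ e * c,
    Node.locGen_smul_sub n p1 h1 x hx s _ hs (p1.mul_mem_right _ hϖe1),
    p2.sub_mem (p2.mul_mem_left _ hx2) (p2.mul_mem_right _ hϖe2),
    Node.locGen_smul_sub n p2 h2 y hy s _ hs (p2.mul_mem_right _ hϖe2),
    p1.sub_mem (p1.mul_mem_left _ hy1) (p1.mul_mem_right _ hϖe1), ?_⟩
  obtain ⟨e', rfl⟩ : ∃ e', e = e' + 1 := ⟨e - 1, by omega⟩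
  refine ⟨s * b + ϖ ^ e' * c * d, ?_⟩
  linear_combination s ^ 2 * hxy + s * ϖ ^ (e' + 1) * hb

/-- S-XY (NODE): `x y = ϖ ^ e * unit`. -/
theorem node (hϖ : ϖ ≠ 0) (hp : p1 ⊓ p2 = Ideal.span {ϖ}) (n : Ideal B) [n.IsMaximal]
    (h1 : p1 ≤ n) (h2 : p2 ≤ n)
    (hx : ∃ x, LocGen n p1 x ∧ x ∈ p2) (hy : ∃ y, LocGen n p2 y ∧ y ∈ p1)
    (X Y s0 : B) (c : ℕ) (hXY : X * Y = ϖ ^ c * s0) (hs0 : s0 ∉ n) (hX1 : X ∉ p1) (hX2 : X ∈ p2) :
    ∃ (x y ε : B) (e : ℕ), LocGen n p1 x ∧ x ∈ p2 ∧ LocGen n p2 y ∧ y ∈ p1 ∧ ε ∉ n ∧ 0 < e ∧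
      x * y = ϖ ^ e * ε := by
  classical
  let P : ℕ → Prop := fun e =>
    ∃ x y, LocGen n p1 x ∧ x ∈ p2 ∧ LocGen n p2 y ∧ y ∈ p1 ∧ ϖ ^ e ∣ x * y
  have hbound : ∀ e, P e → e ≤ c := by
    rintro e ⟨x, y, hx, hx2, hy, hy1, he⟩
    exact Node.le_of_dvd ϖ p1 p2 hϖ hp n h1 h2 X Y s0 c hXY hs0 hX1 hX2 x y hx hx2 hy hy1 e he
  have hP1 : P 1 := by
    obtain ⟨x, hx, hx2⟩ := hx
    obtain ⟨y, hy, hy1⟩ := hy
    refine ⟨x, y, hx, hx2, hy, hy1, ?_⟩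
    rw [pow_one, ← Ideal.mem_span_singleton, ← hp]
    exact ⟨p1.mul_mem_left _ hy1, p2.mul_mem_right _ hx2⟩
  have hspec : P (Nat.findGreatest P c) := Nat.findGreatest_spec (hbound 1 hP1) hP1
  have hpos : 1 ≤ Nat.findGreatest P c := Nat.le_findGreatest (hbound 1 hP1) hP1
  obtain ⟨x, y, hx, hx2, hy, hy1, ε, hε⟩ := hspec
  refine ⟨x, y, ε, Nat.findGreatest P c, hx, hx2, hy, hy1, fun hεn => ?_, hpos, hε⟩
  have hP' : P (Nat.findGreatest P c + 1) :=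
    Node.improve ϖ p1 p2 hp n h1 h2 x y hx hx2 hy hy1 _ hpos ε hεn hε
  have := Nat.le_findGreatest (hbound _ hP') hP'
  omega

end Fermat.Agent.S34
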