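import Fermat.Agent.S34.NRed
import Fermat.Agent.S34.Node

/-!
# S34, modular block : admissible elements at the nodes (package N-ADM, [C5].adm)

`B = T.chart X`.  From `red1`, `red2` (N-RED) and the Frobenius formula
`c(T^q) = (c')^q` on the special fibre of the chart of level `M₀` we get the relations `hFr1`,
`hFr2`, hence (S-LOC `exists_adm`) the admissible elements, hence `NodeData`.
-/

set_option autoImplicit false
set_option linter.unusedSectionVars false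
set_option linter.unusedVariables false

noncomputable section

namespace Fermat.Agent.S34

open ModularCurve Polynomial
open Fermat.Agent.ES.QE Fermat.Agent.ES.Model

variable {R K k : Type*} [CommRing R] [IsDomain R] [IsNoetherianRing R] [IsIntegrallyClosed R]
  [Field K] [Algebra R K] [IsFractionRing R K] [Field k]

namespace NAdm

open NRed

variable {D : QData R K k} (X : D.Coord) {q : ℕ} [NeZero q] (T : Two D q)

/-- the Frobenius formula on the special fibre of the chart of level `M₀`. -/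
def HFrob (X : D.Coord) (q : ℕ) [NeZero q] : Prop :=
  ∀ c : X.chart, ∃ c' : X.chart, qExpand k q (X.rhoB c) = X.rhoB c' ^ q

/-- `c` as an element of `Λ`. -/
def lam (c : X.chart) : D.LamRing := ⟨((c : D.F0) : LaurentSeries K), X.chart_le_gaussO c.2⟩

lemma rho_lam (c : X.chart) : D.rho (lam X c) = X.rhoB c := rfl

/-- `c(T^q)` as an element of `Λ`. -/
def lamV (q : ℕ) [NeZero q] (c : X.chart) : D.LamRing :=
  ⟨qExpand K q ((c : D.F0) : LaurentSeries K), V_mem q (X.chart_le_gaussO c.2)⟩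

lemma rho_lamV (c : X.chart) : D.rho (lamV X q c) = qExpand k q (X.rhoB c) := rho_V q (lam X c)

/-- `β(c1 ^ q) - α(b0) ∈ ϖ O₂` if `b0(T^q) = c1 ^ q` modulo `ϖ`. -/
lemma divS_O2_be_sub_al (b0 c1 : X.chart) (h : qExpand k q (X.rhoB b0) = X.rhoB c1 ^ q) :
    DivS T.O2 T.ϖF 1 (T.be ((c1 : D.F0) ^ q) - T.al (b0 : D.F0)) := by
  rw [divS_O2_iff]
  obtain ⟨z, hz, e⟩ := exists_of_rho_eq (g := lam X c1 ^ q) (h := lamV X q b0)
    (by rw [map_pow, rho_lam, rho_lamV, h])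
  refine ⟨z, hz, ?_⟩
  rw [map_sub, T.e2_be, T.e2_al, ← e]
  rfl

/-- `α(c1 ^ q) - β(b0) ∈ ϖ O₁` if `b0(T^q) = c1 ^ q` modulo `ϖ`. -/
lemma divS_O1_al_sub_be (b0 c1 : X.chart) (h : qExpand k q (X.rhoB b0) = X.rhoB c1 ^ q) :
    DivS T.O1 T.ϖF 1 (T.al ((c1 : D.F0) ^ q) - T.be (b0 : D.F0)) := by
  rw [divS_O1_iff]
  obtain ⟨z, hz, e⟩ := exists_of_rho_eq (g := lam X c1 ^ q) (h := lamV X q b0)
    (by rw [map_pow, rho_lam, rho_lamV, h])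
  refine ⟨z, hz, ?_⟩
  rw [map_sub, ← e]
  rfl

/-- `β(c1 ^ q) - α(c2 ^ (q^2)) ∈ ϖ O₁` if `c1(T^q) = c2 ^ q` modulo `ϖ`. -/
lemma divS_O1_be_sub_al (c1 c2 : X.chart) (h : qExpand k q (X.rhoB c1) = X.rhoB c2 ^ q) :
    DivS T.O1 T.ϖF 1 (T.be ((c1 : D.F0) ^ q) - T.al (c2 : D.F0) ^ (q ^ 2)) := by
  rw [divS_O1_iff]
  obtain ⟨z, hz, e⟩ := exists_of_rho_eq (g := lamV X q c1 ^ q) (h := lam X c2 ^ (q ^ 2))
    (by rw [map_pow, map_pow, rho_lam, rho_lamV, h, ← pow_mul, pow_two])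
  refine ⟨z, hz, ?_⟩
  rw [map_sub, ← e, map_pow, map_pow, map_pow]
  rfl

/-- `α(c1 ^ q) - β(c2 ^ (q^2)) ∈ ϖ O₂` if `c1(T^q) = c2 ^ q` modulo `ϖ`. -/
lemma divS_O2_al_sub_be (c1 c2 : X.chart) (h : qExpand k q (X.rhoB c1) = X.rhoB c2 ^ q) :
    DivS T.O2 T.ϖF 1 (T.al ((c1 : D.F0) ^ q) - T.be (c2 : D.F0) ^ (q ^ 2)) := by
  rw [divS_O2_iff]
  obtain ⟨z, hz, e⟩ := exists_of_rho_eq (g := lamV X q c1 ^ q) (h := lam X c2 ^ (q ^ 2))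
    (by rw [map_pow, map_pow, rho_lam, rho_lamV, h, ← pow_mul, pow_two])
  refine ⟨z, hz, ?_⟩
  rw [map_sub, ← e, map_pow, map_pow, map_pow, T.e2_al, T.e2_be]
  rfl

/-- **hFr1**. -/
theorem hFr1 (hle : ∀ b ∈ T.chart X, b ∈ T.O) (hbe : ∀ a ∈ X.chart, T.be a ∈ T.chart X)
    (hred1 : ∀ b ∈ T.chart X, ∃ c : X.chart, DivS T.O1 T.ϖF 1 (b - T.al c))
    (hfrob : HFrob X q) :
    ∀ b : T.chart X, ∃ b' : T.chart X, ∃ x ∈ T.p2 X, x - (b' ^ (q ^ 2) - b) ∈ T.p1 X := by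
  intro b
  obtain ⟨b0, hb0⟩ := hred1 b b.2
  obtain ⟨c1, hc1⟩ := hfrob b0
  obtain ⟨c2, hc2⟩ := hfrob c1
  refine ⟨alC X T c2, beC X T hbe (c1 ^ q) - alC X T b0, ?_, ?_⟩
  · rw [mem_p2 X T hle]
    exact divS_O2_be_sub_al X T b0 c1 hc1
  · rw [mem_p1 X T hle]
    have e : ((beC X T hbe (c1 ^ q) - alC X T b0 - (alC X T c2 ^ (q ^ 2) - b) : T.chart X) : T.F)
        = (T.be ((c1 : D.F0) ^ q) - T.al (c2 : D.F0) ^ (q ^ 2)) + ((b : T.F) - T.al (b0 : D.F0)) := by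
      have : ((beC X T hbe (c1 ^ q) - alC X T b0 - (alC X T c2 ^ (q ^ 2) - b) : T.chart X) : T.F)
        = T.be ((c1 : D.F0) ^ q) - T.al (b0 : D.F0) - (T.al (c2 : D.F0) ^ (q ^ 2) - (b : T.F)) := rfl
      rw [this]; ring
    rw [e]
    exact (divS_O1_be_sub_al X T c1 c2 hc2).add hb0

/-- **hFr2**. -/
theorem hFr2 (hle : ∀ b ∈ T.chart X, b ∈ T.O) (hbe : ∀ a ∈ X.chart, T.be a ∈ T.chart X)
    (hred2 : ∀ b ∈ T.chart X, ∃ c : X.chart, DivS T.O2 T.ϖF 1 (b - T.be c))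
    (hfrob : HFrob X q) :
    ∀ b : T.chart X, ∃ b' : T.chart X, ∃ x ∈ T.p1 X, x - (b' ^ (q ^ 2) - b) ∈ T.p2 X := by
  intro b
  obtain ⟨b0, hb0⟩ := hred2 b b.2
  obtain ⟨c1, hc1⟩ := hfrob b0
  obtain ⟨c2, hc2⟩ := hfrob c1
  refine ⟨beC X T hbe c2, alC X T (c1 ^ q) - beC X T hbe b0, ?_, ?_⟩
  · rw [mem_p1 X T hle]
    exact divS_O1_al_sub_be X T b0 c1 hc1
  · rw [mem_p2 X T hle]
    have e : ((alC X T (c1 ^ q) - beC X T hbe b0 - (beC X T hbe c2 ^ (q ^ 2) - b) : T.chart X) : T.F)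
        = (T.al ((c1 : D.F0) ^ q) - T.be (c2 : D.F0) ^ (q ^ 2)) + ((b : T.F) - T.be (b0 : D.F0)) := by
      have : ((alC X T (c1 ^ q) - beC X T hbe b0 - (beC X T hbe c2 ^ (q ^ 2) - b) : T.chart X) : T.F)
        = T.al ((c1 : D.F0) ^ q) - T.be (b0 : D.F0) - (T.be (c2 : D.F0) ^ (q ^ 2) - (b : T.F)) := rfl
      rw [this]; ring
    rw [e]
    exact (divS_O2_al_sub_be X T c1 c2 hc2).add hb0

/-- **adm1**. -/
theorem adm1 [IsDedekindDomain (T.chart X ⧸ T.p1 X)] [(T.p1 X).IsPrime] [(T.p2 X).IsPrime]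
    (hq : 2 ≤ q) (hle : ∀ b ∈ T.chart X, b ∈ T.O) (hbe : ∀ a ∈ X.chart, T.be a ∈ T.chart X)
    (hred1 : ∀ b ∈ T.chart X, ∃ c : X.chart, DivS T.O1 T.ϖF 1 (b - T.al c))
    (hfrob : HFrob X q) (n : Ideal (T.chart X)) [n.IsMaximal] (h1 : T.p1 X ≤ n) (h2 : T.p2 X ≤ n)
    (hne : T.p1 X ≠ n) : ∃ x, LocGen n (T.p1 X) x ∧ x ∈ T.p2 X :=
  exists_adm _ _ n h1 h2 hne (q ^ 2) (by nlinarith) (hFr1 X T hle hbe hred1 hfrob)

/-- **adm2**. -/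
theorem adm2 [IsDedekindDomain (T.chart X ⧸ T.p2 X)] [(T.p1 X).IsPrime] [(T.p2 X).IsPrime]
    (hq : 2 ≤ q) (hle : ∀ b ∈ T.chart X, b ∈ T.O) (hbe : ∀ a ∈ X.chart, T.be a ∈ T.chart X)
    (hred2 : ∀ b ∈ T.chart X, ∃ c : X.chart, DivS T.O2 T.ϖF 1 (b - T.be c))
    (hfrob : HFrob X q) (n : Ideal (T.chart X)) [n.IsMaximal] (h1 : T.p1 X ≤ n) (h2 : T.p2 X ≤ n)
    (hne : T.p2 X ≠ n) : ∃ y, LocGen n (T.p2 X) y ∧ y ∈ T.p1 X :=
  exists_adm _ _ n h2 h1 hne (q ^ 2) (by nlinarith) (hFr2 X T hle hbe hred2 hfrob)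

lemma ϖB_ne_zero : T.ϖB X ≠ 0 := fun h => ϖF_ne_zero T (congrArg Subtype.val h)

/-- **[C5]** : `NodeData` of the chart `T.chart X`, from the `XY`-relations (Q-NODE `xy_of`). -/
theorem nodeData [IsDedekindDomain (X.chart ⧸ Ideal.span {X.ϖC})] (hq : 2 ≤ q) (hO : HOrth T)
    (hjq : qExpand k q (jqModC k) = jqModC k ^ q)
    (hxq : qExpand k q (D.red X.xW) = D.red X.xW ^ q) (hle : ∀ b ∈ T.chart X, b ∈ T.O)
    (hsat : ∀ x ∈ T.chart X, DivS T.O T.ϖF 1 x → ∃ y ∈ T.chart X, x = T.ϖF * y)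
    (hbx : T.be X.x ∈ T.chart X) (hfrob : HFrob X q)
    (hxy : ∀ n : Ideal (T.chart X), n.IsMaximal → T.p1 X ≤ n → T.p2 X ≤ n →
      ∃ (X' Y' s0 : T.chart X) (c : ℕ), X' * Y' = T.ϖB X ^ c * s0 ∧ s0 ∉ n ∧ X' ∉ T.p1 X ∧
        X' ∈ T.p2 X) :
    NodeData (T.ϖB X) (T.p1 X) (T.p2 X) := by
  have hbe := be_mem_chart X T hbx
  obtain ⟨d1, pr1⟩ := dedekind1 X T hO hjq hle
  obtain ⟨d2, pr2⟩ := dedekind2 X T hO hjq hxq hle hbe
  have hp := p1_inf_p2 X T hle hsat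
  refine ⟨fun n hn h1 h2 => ?_, fun n hn h1 h2 => ?_, hxy⟩
  · obtain ⟨X', Y', s0, c, hXY, hs0, hX1, hX2⟩ := hxy n hn h1 h2
    refine adm1 X T hq hle hbe (red1 X T hO hjq hle) hfrob n h1 h2 ?_
    intro h
    exact hX1 (h ▸ h2 hX2)
  · obtain ⟨X', Y', s0, c, hXY, hs0, hX1, hX2⟩ := hxy n hn h1 h2
    obtain ⟨z, hz, hz2⟩ := Node.exists_notMem (T.ϖB X) _ _ (ϖB_ne_zero X T) hp n h1 h2 X' Y' s0 c
      hXY hs0 hX1 hX2
    refine adm2 X T hq hle hbe (red2 X T hO hjq hxq hle) hfrob n h1 h2 ?_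
    intro h
    exact hz2 (h ▸ hz)

end NAdm

end Fermat.Agent.S34
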