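import Fermat.Agent.ES.MDefs

/-!
# S34, abstract block : shared definitions (Mathlib + `ES/MDefs` only)

Semilocal variant of `ES/MDefs`: the "Gauss ring" `O` is a subring of `F` (in the application the
intersection of two discrete valuation rings with the same uniformiser `ϖ`).
-/

set_option autoImplicit false

namespace Fermat.Agent.S34

open Fermat.Agent.ES.Model

variable {F : Type*} [Field F]

/-- `x ∈ ϖ ^ n O`. -/
def DivS (O : Subring F) (ϖ : F) (n : ℕ) (x : F) : Prop := ∃ y ∈ O, x = ϖ ^ n * y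

/-- `ϖ` lies in the Jacobson radical of `O`, is not a unit, and `O` is closed under roots. -/
structure IsSemi (O : Subring F) (ϖ : F) : Prop where
  ne_zero : ϖ ≠ 0
  mem : ϖ ∈ O
  inv_notMem : ϖ⁻¹ ∉ O
  unit : ∀ y ∈ O, (1 + ϖ * y)⁻¹ ∈ O
  root : ∀ (x : F) (n : ℕ), 0 < n → x ^ n ∈ O → x ∈ O

/-- `B` is a chart: contained in `O`, saturated (`B ∩ ϖ O = ϖ B`), closed under `m`-th roots,
`m` invertible. -/
structure IsChartS (O : Subring F) (ϖ : F) (m : ℕ) (B : Subring F) : Prop where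
  le : ∀ x ∈ B, x ∈ O
  unif_mem : ϖ ∈ B
  m_ne : (m : F) ≠ 0
  inv_mem : (m : F)⁻¹ ∈ B
  sat : ∀ x ∈ B, DivS O ϖ 1 x → ∃ y ∈ B, x = ϖ * y
  root : ∀ x : F, x ^ m ∈ B → x ∈ B

/-- a valuation ring is closed under roots -/
theorem valuationSubring_root (O : ValuationSubring F) {x : F} {n : ℕ} (hn : 0 < n)
    (h : x ^ n ∈ O) : x ∈ O := by
  rw [← O.valuation_le_one_iff] at h ⊢
  rw [map_pow] at h
  exact (pow_le_one_iff_of_nonneg zero_le hn.ne').mp h

/-- one-units of a valuation ring with uniformiser `ϖ` are units -/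
theorem isUnif_unit {O : ValuationSubring F} {ϖ : F} (hO : IsUnif O ϖ) {y : F} (hy : y ∈ O) :
    (1 + ϖ * y)⁻¹ ∈ O := by
  by_contra hc
  have hx : 1 + ϖ * y ∈ O := O.add_mem _ _ O.one_mem (O.mul_mem _ _ hO.mem hy)
  obtain ⟨z, hz, h⟩ := hO.gen _ hx hc
  apply hO.inv_notMem
  have h0 := hO.ne_zero
  have : ϖ⁻¹ = z - y := by
    rw [pow_one] at h
    field_simp
    linear_combination h
  rw [this]
  exact O.sub_mem hz hy

/-- the intersection of two valuation rings with the same uniformiser -/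
theorem IsSemi.inf {O1 O2 : ValuationSubring F} {ϖ : F} (h1 : IsUnif O1 ϖ) (h2 : IsUnif O2 ϖ) :
    IsSemi (O1.toSubring ⊓ O2.toSubring) ϖ where
  ne_zero := h1.ne_zero
  mem := ⟨h1.mem, h2.mem⟩
  inv_notMem := fun h => h1.inv_notMem h.1
  unit := fun _ hy => ⟨isUnif_unit h1 hy.1, isUnif_unit h2 hy.2⟩
  root := fun _ _ hn h => ⟨valuationSubring_root O1 hn h.1, valuationSubring_root O2 hn h.2⟩

/-- a single valuation ring -/
theorem IsSemi.of_isUnif {O : ValuationSubring F} {ϖ : F} (h : IsUnif O ϖ) :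
    IsSemi O.toSubring ϖ where
  ne_zero := h.ne_zero
  mem := h.mem
  inv_notMem := h.inv_notMem
  unit := fun _ hy => isUnif_unit h hy
  root := fun _ _ hn hx => valuationSubring_root O hn hx

theorem divS_inf_iff {O1 O2 : ValuationSubring F} {ϖ : F} (hϖ : ϖ ≠ 0) (n : ℕ) (x : F) :
    DivS (O1.toSubring ⊓ O2.toSubring) ϖ n x ↔ DivO O1 ϖ n x ∧ DivO O2 ϖ n x := by
  constructor
  · rintro ⟨y, hy, rfl⟩
    exact ⟨⟨y, hy.1, rfl⟩, ⟨y, hy.2, rfl⟩⟩
  · rintro ⟨⟨y, hy, rfl⟩, ⟨z, hz, h⟩⟩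
    have : y = z := mul_left_cancel₀ (pow_ne_zero n hϖ) h
    exact ⟨y, ⟨hy, this ▸ hz⟩, rfl⟩

end Fermat.Agent.S34
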