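import Fermat.Agent.ES.InstDefs
import Fermat.Agent.S34.SDefs
import Fermat.Agent.S34.LocDefs
import Fermat.Prelude.Thm_ModularCurve_coeffMap_qExpand

/-!
# S34, modular block : shared definitions

`D : QData R K k` : the `q`-expansion data of level `M₀` (prime to `q = char k`).
`T : Two D q`     : the function field `T.F` of level `N = M₀ q`, as a subfield of `K((T))`
  (expansion at `∞`), with the second expansion `T.e2` (at the cusp `0` of `X₀(q)`):
  `α u = u`, `β u = u(T^q)`, `e2 (α u) = u(T^q)`, `e2 (β u) = u`.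
`T.O1`, `T.O2`    : the two Gauss rings, `T.O = T.O1 ⊓ T.O2`.
`T.chart X`       : the integral closure of `R[x]` in `T.F` (`X : D.Coord`, level `M₀`).
`T.p1 X`, `T.p2 X`: the two components of the special fibre.
`TAut T`          : a coefficientwise automorphism (Galois action).
-/

set_option autoImplicit false
set_option linter.unusedSectionVars false

noncomputable section

namespace Fermat.Agent.S34

open ModularCurve Polynomial
open Fermat.Agent.ES.QE Fermat.Agent.ES.Model

variable {R K k : Type*} [CommRing R] [IsDomain R] [IsNoetherianRing R] [IsIntegrallyClosed R]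
  [Field K] [Algebra R K] [IsFractionRing R K] [Field k]

/-- The data of level `M₀ q` over the data `D` of level `M₀`. -/
structure Two (D : QData R K k) (q : ℕ) [NeZero q] where
  /-- the function field of level `M₀ q` -/
  F : IntermediateField K (LaurentSeries K)
  le : D.F0 ≤ F
  V_mem : ∀ u ∈ D.F0, qExpand K q u ∈ F
  /-- the expansion at the second cusp -/
  e2 : F →+* LaurentSeries K
  e2_alpha : ∀ (u : LaurentSeries K) (hu : u ∈ D.F0), e2 ⟨u, le hu⟩ = qExpand K q u
  e2_beta : ∀ (u : LaurentSeries K) (hu : u ∈ D.F0), e2 ⟨qExpand K q u, V_mem u hu⟩ = u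
  span : ∀ f ∈ F, ∃ a : Fin (q + 1) → LaurentSeries K, (∀ i, a i ∈ D.F0) ∧
    f = ∑ i, a i * qExpand K q (jqModC K) ^ (i : ℕ)
  jq_int : ((coeffMap (algebraMap R K)).comp (evS (jqModC R))).IsIntegralElem
    (qExpand K q (jqModC K))

namespace Two

variable {D : QData R K k} {q : ℕ} [NeZero q] (T : Two D q)

/-- `α : F_{M₀} → F_N`, `u ↦ u`. -/
def al : D.F0 →+* T.F := (IntermediateField.inclusion T.le).toRingHom

/-- `β : F_{M₀} → F_N`, `u ↦ u(T^q)`. -/
def be : D.F0 →+* T.F :=
  ((qExpand K q).comp (algebraMap D.F0 (LaurentSeries K))).codRestrict T.F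
    (fun u => T.V_mem u u.2)

@[simp] lemma coe_al (u : D.F0) : ((T.al u : T.F) : LaurentSeries K) = u := rfl

@[simp] lemma coe_be (u : D.F0) :
    ((T.be u : T.F) : LaurentSeries K) = qExpand K q (u : LaurentSeries K) := rfl

lemma e2_al (u : D.F0) : T.e2 (T.al u) = qExpand K q (u : LaurentSeries K) := T.e2_alpha u u.2

lemma e2_be (u : D.F0) : T.e2 (T.be u) = (u : LaurentSeries K) := T.e2_beta u u.2

/-- the expansion at `∞`. -/
def e1 : T.F →+* LaurentSeries K := algebraMap T.F (LaurentSeries K)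

/-- the uniformiser. -/
def ϖF : T.F := algebraMap K T.F (algebraMap R K D.ϖ)

/-- the constants `R ⊆ F`. -/
def RF : Subring T.F := ((algebraMap K T.F).comp (algebraMap R K)).range

/-- the Gauss ring at `∞`. -/
def O1 : Subring T.F := D.LamRing.comap T.e1

/-- the Gauss ring at the second cusp. -/
def O2 : Subring T.F := D.LamRing.comap T.e2

/-- the semilocal Gauss ring. -/
def O : Subring T.F := T.O1 ⊓ T.O2

open Classical in
/-- `T.O1` as a valuation subring (`mem_V1 : f ∈ T.V1 ↔ f ∈ T.O1` is proved in `QVal.lean`). -/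
def V1 : ValuationSubring T.F :=
  if h : ∀ f : T.F, f ∈ T.O1 ∨ f⁻¹ ∈ T.O1 then { T.O1 with mem_or_inv_mem' := h } else ⊤

open Classical in
/-- `T.O2` as a valuation subring (`mem_V2 : f ∈ T.V2 ↔ f ∈ T.O2` is proved in `QVal.lean`). -/
def V2 : ValuationSubring T.F :=
  if h : ∀ f : T.F, f ∈ T.O2 ∨ f⁻¹ ∈ T.O2 then { T.O2 with mem_or_inv_mem' := h } else ⊤

/-- reduction of the expansion at `∞`. -/
def rho1 : T.O1 →+* LaurentSeries k :=
  D.rho.comp ((T.e1.comp T.O1.subtype).codRestrict D.LamRing (fun f => f.2))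

/-- reduction of the expansion at the second cusp. -/
def rho2 : T.O2 →+* LaurentSeries k :=
  D.rho.comp ((T.e2.comp T.O2.subtype).codRestrict D.LamRing (fun f => f.2))

variable (X : D.Coord)

/-- the chart: the integral closure of `R[x]` in `T.F`. -/
def chart : Subring T.F where
  carrier := {f | X.phi.IsIntegralElem (f : LaurentSeries K)}
  mul_mem' := fun {a b} ha hb => by
    show X.phi.IsIntegralElem ((a * b : T.F) : LaurentSeries K)
    rw [IntermediateField.coe_mul]
    exact RingHom.IsIntegralElem.mul _ ha hb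
  one_mem' := by
    show X.phi.IsIntegralElem ((1 : T.F) : LaurentSeries K)
    rw [IntermediateField.coe_one]
    exact X.phi.isIntegralElem_one
  add_mem' := fun {a b} ha hb => by
    show X.phi.IsIntegralElem ((a + b : T.F) : LaurentSeries K)
    rw [IntermediateField.coe_add]
    exact RingHom.IsIntegralElem.add _ ha hb
  zero_mem' := by
    show X.phi.IsIntegralElem ((0 : T.F) : LaurentSeries K)
    rw [IntermediateField.coe_zero]
    exact X.phi.isIntegralElem_zero
  neg_mem' := fun {a} ha => by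
    show X.phi.IsIntegralElem ((-a : T.F) : LaurentSeries K)
    rw [IntermediateField.coe_neg]
    exact RingHom.IsIntegralElem.neg _ ha

lemma mem_chart {f : T.F} : f ∈ T.chart X ↔ X.phi.IsIntegralElem (f : LaurentSeries K) := Iff.rfl

/-- the coordinate in `T.F`. -/
def x : T.F := T.al X.x

/-- the overlap of the charts `R[x]`, `R[1/x]`. -/
def chart12 : Subring T.F where
  carrier := {f | ∃ n : ℕ, T.x X ^ n * f ∈ T.chart X}
  mul_mem' := by
    rintro a b ⟨n, hn⟩ ⟨m, hm⟩
    refine ⟨n + m, ?_⟩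
    have : T.x X ^ (n + m) * (a * b) = (T.x X ^ n * a) * (T.x X ^ m * b) := by ring
    rw [this]
    exact mul_mem hn hm
  one_mem' := ⟨0, by rw [pow_zero, one_mul]; exact one_mem _⟩
  add_mem' := by
    rintro a b ⟨n, hn⟩ ⟨m, hm⟩
    refine ⟨n + m, ?_⟩
    have hx : T.x X ∈ T.chart X := X.x_mem_chart
    have : T.x X ^ (n + m) * (a + b)
        = T.x X ^ m * (T.x X ^ n * a) + T.x X ^ n * (T.x X ^ m * b) := by ring
    rw [this]
    exact add_mem (mul_mem (pow_mem hx _) hn) (mul_mem (pow_mem hx _) hm)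
  zero_mem' := ⟨0, by rw [mul_zero]; exact zero_mem _⟩
  neg_mem' := by
    rintro a ⟨n, hn⟩
    exact ⟨n, by rw [mul_neg]; exact neg_mem hn⟩

lemma al_mem_chart {b : D.F0} (hb : b ∈ X.chart) : T.al b ∈ T.chart X := hb

lemma ϖF_mem_chart : T.ϖF ∈ T.chart X := by
  have h : (⟨D.ϖF, by rw [← X.phiF_C_ϖ]; exact X.phiF_mem_chart _⟩ : X.chart).1 ∈ X.chart :=
    Subtype.property _
  exact h

/-- `ϖ` as an element of the chart. -/
def ϖB : T.chart X := ⟨T.ϖF, T.ϖF_mem_chart X⟩

/-- the first component of the special fibre: `B ∩ ϖ O₁`. -/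
def p1 : Ideal (T.chart X) := Ideal.span {b | DivS T.O1 T.ϖF 1 (b : T.F)}

/-- the second component of the special fibre: `B ∩ ϖ O₂`. -/
def p2 : Ideal (T.chart X) := Ideal.span {b | DivS T.O2 T.ϖF 1 (b : T.F)}

end Two

/-- A coefficientwise automorphism of the whole situation (Galois action of the decomposition
group). -/
structure TAut {D : QData R K k} {q : ℕ} [NeZero q] (T : Two D q) where
  sK : K ≃+* K
  sR : R ≃+* R
  sk : k ≃+* k
  hK : ∀ r, sK (algebraMap R K r) = algebraMap R K (sR r)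
  hk : ∀ r, sk (D.res r) = D.res (sR r)
  map_F0 : ∀ f, f ∈ D.F0 ↔ coeffMap (sK : K →+* K) f ∈ D.F0
  map_F : ∀ f, f ∈ T.F ↔ coeffMap (sK : K →+* K) f ∈ T.F

namespace TAut

variable {D : QData R K k} {q : ℕ} [NeZero q] {T : Two D q} (S : TAut T)

lemma coeffMap_symm_apply (f : LaurentSeries K) :
    coeffMap (S.sK : K →+* K) (coeffMap (S.sK.symm : K →+* K) f) = f := by
  ext n
  simp [coeffMap_coeff]

lemma coeffMap_apply_symm (f : LaurentSeries K) :
    coeffMap (S.sK.symm : K →+* K) (coeffMap (S.sK : K →+* K) f) = f := by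
  ext n
  simp [coeffMap_coeff]

/-- the action on `T.F`. -/
def toF : T.F ≃+* T.F where
  toFun f := ⟨coeffMap (S.sK : K →+* K) f, (S.map_F f).1 f.2⟩
  invFun f := ⟨coeffMap (S.sK.symm : K →+* K) f,
    (S.map_F _).2 (by rw [S.coeffMap_symm_apply]; exact f.2)⟩
  left_inv f := Subtype.ext (S.coeffMap_apply_symm f)
  right_inv f := Subtype.ext (S.coeffMap_symm_apply f)
  map_mul' f g := Subtype.ext (map_mul _ _ _)
  map_add' f g := Subtype.ext (map_add _ _ _)

@[simp] lemma coe_toF (f : T.F) :
    ((S.toF f : T.F) : LaurentSeries K) = coeffMap (S.sK : K →+* K) (f : LaurentSeries K) := rfl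

/-- the action on `D.F0`. -/
def toF0 : D.F0 ≃+* D.F0 where
  toFun f := ⟨coeffMap (S.sK : K →+* K) f, (S.map_F0 f).1 f.2⟩
  invFun f := ⟨coeffMap (S.sK.symm : K →+* K) f,
    (S.map_F0 _).2 (by rw [S.coeffMap_symm_apply]; exact f.2)⟩
  left_inv f := Subtype.ext (S.coeffMap_apply_symm f)
  right_inv f := Subtype.ext (S.coeffMap_symm_apply f)
  map_mul' f g := Subtype.ext (map_mul _ _ _)
  map_add' f g := Subtype.ext (map_add _ _ _)

@[simp] lemma coe_toF0 (f : D.F0) :
    ((S.toF0 f : D.F0) : LaurentSeries K) = coeffMap (S.sK : K →+* K) (f : LaurentSeries K) := rfl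

end TAut

end Fermat.Agent.S34
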