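import Fermat.Agent.S34.NAdm
import Fermat.Agent.ES.KCong

/-!
# S34, modular block : the Frobenius formula `c(T^q) = (Φ⁻¹ c)^q` on the special fibre of a chart
-/

set_option autoImplicit false
set_option linter.unusedSectionVars false
set_option linter.unusedVariables false

noncomputable section

namespace Fermat.Agent.S34

open ModularCurve Polynomial
open Fermat.Agent.ES.QE Fermat.Agent.ES.Model

variable {R K k : Type*} [CommRing R] [IsDomain R] [IsNoetherianRing R] [IsIntegrallyClosed R]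
  [Field K] [Algebra R K] [IsFractionRing R K] [Field k]

namespace NFrob

/-- a compatible triple of coefficient maps. -/
structure Tri (D : QData R K k) (sK : K →+* K) (sR : R →+* R) (sk : k →+* k) : Prop where
  hK : ∀ r, sK (algebraMap R K r) = algebraMap R K (sR r)
  hk : ∀ r, sk (D.res r) = D.res (sR r)

variable {D : QData R K k} {sK : K →+* K} {sR : R →+* R} {sk : k →+* k}

lemma inc_map (h : Tri D sK sR sk) (w : LaurentSeries R) :
    D.inc (coeffMap sR w) = coeffMap sK (D.inc w) := by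
  ext n
  change (coeffMap (algebraMap R K) (coeffMap sR w)).coeff n
    = (coeffMap sK (coeffMap (algebraMap R K) w)).coeff n
  rw [coeffMap_coeff, coeffMap_coeff, coeffMap_coeff, coeffMap_coeff, h.hK]

lemma red_map (h : Tri D sK sR sk) (w : LaurentSeries R) :
    D.red (coeffMap sR w) = coeffMap sk (D.red w) := by
  ext n
  change (coeffMap D.res (coeffMap sR w)).coeff n = (coeffMap sk (coeffMap D.res w)).coeff n
  rw [coeffMap_coeff, coeffMap_coeff, coeffMap_coeff, coeffMap_coeff, h.hk]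

lemma isFrac_map (h : Tri D sK sR sk) {f : LaurentSeries K} {t w : LaurentSeries R}
    (hf : D.IsFrac f t w) : D.IsFrac (coeffMap sK f) (coeffMap sR t) (coeffMap sR w) := by
  refine ⟨?_, ?_⟩
  · rw [red_map h, Ne, map_eq_zero_iff _ (coeffMap_injective sk.injective)]
    exact hf.1
  · rw [inc_map h, inc_map h, ← hf.2, map_mul]

lemma map_mem_LamRing (h : Tri D sK sR sk) {f : LaurentSeries K} (hf : f ∈ D.LamRing) :
    coeffMap sK f ∈ D.LamRing := by
  obtain ⟨t, w, hf⟩ := hf
  exact ⟨_, _, isFrac_map h hf⟩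

lemma rho_map (h : Tri D sK sR sk) (f : D.LamRing) :
    D.rho ⟨coeffMap sK (f : LaurentSeries K), map_mem_LamRing h f.2⟩ = coeffMap sk (D.rho f) := by
  obtain ⟨t, w, hf⟩ := f.2
  rw [QData.rho_eq (f := ⟨coeffMap sK (f : LaurentSeries K), map_mem_LamRing h f.2⟩)
    (isFrac_map h hf), QData.rho_eq hf, map_div₀, red_map h, red_map h]

lemma phi_map (h : Tri D sK sR sk) (X : D.Coord) (hx : coeffMap sR X.xW = X.xW) (σ : R[X]) :
    X.phi (σ.map sR) = coeffMap sK (X.phi σ) := by
  rw [X.phi_apply, X.phi_apply, ← inc_map h, coeffMap_evS, hx]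

lemma isIntegralElem_map (h : Tri D sK sR sk) (X : D.Coord) (hx : coeffMap sR X.xW = X.xW)
    {f : LaurentSeries K} (hf : X.phi.IsIntegralElem f) : X.phi.IsIntegralElem (coeffMap sK f) := by
  obtain ⟨P, hP, hroot⟩ := hf
  refine ⟨P.map (mapRingHom sR), hP.map _, ?_⟩
  have e : X.phi.comp (mapRingHom sR) = (coeffMap sK).comp X.phi :=
    RingHom.ext fun σ => phi_map h X hx σ
  rw [eval₂_map, e, ← hom_eval₂, hroot, map_zero]

variable {q : ℕ} [NeZero q] {T : Two D q}

/-- the triple of the inverse of a coefficientwise automorphism. -/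
lemma tri_symm (Φ : TAut T) :
    Tri D (Φ.sK.symm : K →+* K) (Φ.sR.symm : R →+* R) (Φ.sk.symm : k →+* k) where
  hK := fun r => by
    apply Φ.sK.injective
    change Φ.sK (Φ.sK.symm (algebraMap R K r)) = Φ.sK (algebraMap R K (Φ.sR.symm r))
    rw [Φ.hK, RingEquiv.apply_symm_apply, RingEquiv.apply_symm_apply]
  hk := fun r => by
    apply Φ.sk.injective
    change Φ.sk (Φ.sk.symm (D.res r)) = Φ.sk (D.res (Φ.sR.symm r))
    rw [Φ.hk, RingEquiv.apply_symm_apply, RingEquiv.apply_symm_apply]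

lemma fix_symm (Φ : TAut T) (w : LaurentSeries R) (hw : coeffMap (Φ.sR : R →+* R) w = w) :
    coeffMap (Φ.sR.symm : R →+* R) w = w := by
  conv_lhs => rw [← hw]
  ext n
  rw [coeffMap_coeff, coeffMap_coeff]
  exact Φ.sR.symm_apply_apply _

/-- **the Frobenius formula** : `c(T^q) = (Φ⁻¹ c)^q` modulo `ϖ`. -/
theorem hFrob_of_tAut [Fact q.Prime] [CharP k q] (X : D.Coord) (Φ : TAut T)
    (hΦ : ∀ c, Φ.sk c = c ^ q) (hx : coeffMap (Φ.sR : R →+* R) X.xW = X.xW) :
    NAdm.HFrob X q := by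
  intro c
  have htri := tri_symm Φ
  have hc' : Φ.toF0.symm (c : D.F0) ∈ X.chart :=
    isIntegralElem_map htri X (fix_symm Φ _ hx) c.2
  refine ⟨⟨Φ.toF0.symm (c : D.F0), hc'⟩, ?_⟩
  have e1 : X.rhoB ⟨Φ.toF0.symm (c : D.F0), hc'⟩
      = coeffMap (Φ.sk.symm : k →+* k) (X.rhoB c) := rho_map htri (NAdm.lam X c)
  rw [e1, Fermat.Agent.ES.KCong.pow_char q, coeffMap_coeffMap]
  congr 1
  have : (frobenius k q).comp (Φ.sk.symm : k →+* k) = RingHom.id k := by
    ext a
    change (Φ.sk.symm a) ^ q = a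
    rw [← hΦ, RingEquiv.apply_symm_apply]
  rw [this, coeffMap_id]

end NFrob

end Fermat.Agent.S34
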