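import Fermat.Agent.S34.NDefs
import Fermat.Agent.ES.InstUp
import Fermat.Agent.S28.Ord

/-!
# S34, modular block : [N-GAL] the Galois action of the decomposition group

`exists_tAut`, `sk_of_inertia`, `sk_of_frobenius`, `sR_zS`, `bc_toF` (verbatim `NPlan`).
-/

set_option autoImplicit false
set_option linter.unusedSectionVars false
set_option linter.unusedVariables false

noncomputable section

namespace Fermat.Agent.S34

open ModularCurve AlgebraicCurve Polynomial
open Fermat.Agent.S24 Fermat.Agent.S28 Fermat.Agent.ES Fermat.Agent.ES.QE Fermat.Agent.ES.Model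
  Fermat.Agent.ES.IDvr Fermat.Agent.ES.Inst

namespace NGal

open Pointwise in
theorem map_mem {A : ValuationSubring Kb} {σ : GQ} (hσ : σ ∈ A.decompositionSubgroup ℚ)
    {x : Kb} (hx : x ∈ A) : σ x ∈ A := by
  have h : σ • A = A := hσ
  have h2 : σ • x ∈ σ • A := ValuationSubring.smul_mem_pointwise_smul σ x A hx
  rw [h] at h2
  exact h2

/-- coefficientwise ring endomorphisms preserve `F0 K N`. -/
theorem coeffMap_mem_F0 {K : Type*} [Field K] (s : K →+* K) (N : ℕ) {f : LaurentSeries K}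
    (hf : f ∈ F0 K N) : coeffMap s f ∈ F0 K N := by
  induction hf using IntermediateField.adjoin_induction with
  | mem y hy =>
    obtain ⟨x, rfl⟩ := hy
    rw [coeffMap_gen]
    exact IntermediateField.subset_adjoin _ _ ⟨x, rfl⟩
  | algebraMap c =>
    have : coeffMap s (algebraMap K (LaurentSeries K) c)
        = algebraMap K (LaurentSeries K) (s c) := by
      rw [algebraMap_laurentSeries_eq_single, algebraMap_laurentSeries_eq_single,
        coeffMap_single]
    rw [this]
    exact (F0 K N).algebraMap_mem _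
  | add a b _ _ ha hb => rw [map_add]; exact add_mem ha hb
  | inv a _ ha => rw [map_inv₀]; exact inv_mem ha
  | mul a b _ _ ha hb => rw [map_mul]; exact mul_mem ha hb

theorem coeffMap_mem_F0_iff {K : Type*} [Field K] (s : K ≃+* K) (N : ℕ) (f : LaurentSeries K) :
    f ∈ F0 K N ↔ coeffMap (s : K →+* K) f ∈ F0 K N := by
  refine ⟨coeffMap_mem_F0 _ N, fun h => ?_⟩
  have h2 := coeffMap_mem_F0 (s.symm : K →+* K) N h
  have e : coeffMap (s.symm : K →+* K) (coeffMap (s : K →+* K) f) = f := by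
    ext n
    simp [coeffMap_coeff]
  rwa [e] at h2

/-- `σ` restricted to `K0`. -/
def sK (K0 : IntermediateField ℚ Kb) [Normal ℚ K0] (σ : GQ) : K0 ≃+* K0 :=
  (AlgEquiv.restrictNormal σ K0).toRingEquiv

theorem coe_sK (K0 : IntermediateField ℚ Kb) [Normal ℚ K0] (σ : GQ) (x : K0) :
    ((sK K0 σ x : K0) : Kb) = σ (x : Kb) :=
  AlgEquiv.restrictNormal_commutes σ K0 x

theorem coe_sK_symm (K0 : IntermediateField ℚ Kb) [Normal ℚ K0] (σ : GQ) (x : K0) :
    (((sK K0 σ).symm x : K0) : Kb) = σ⁻¹ (x : Kb) := by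
  have h := coe_sK K0 σ ((sK K0 σ).symm x)
  rw [RingEquiv.apply_symm_apply] at h
  rw [h]
  exact (σ.symm_apply_apply _).symm

/-- `σ` restricted to `R0 K0 A`. -/
def sR (K0 : IntermediateField ℚ Kb) [Normal ℚ K0] (A : ValuationSubring Kb) (σ : GQ)
    (hσ : σ ∈ A.decompositionSubgroup ℚ) : R0 K0 A ≃+* R0 K0 A where
  toFun r := ⟨sK K0 σ r, by
    rw [mem_R0, coe_sK]
    exact map_mem hσ r.2⟩
  invFun r := ⟨(sK K0 σ).symm r, by
    rw [mem_R0, coe_sK_symm]
    exact map_mem (inv_mem hσ) r.2⟩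
  left_inv r := Subtype.ext ((sK K0 σ).symm_apply_apply _)
  right_inv r := Subtype.ext ((sK K0 σ).apply_symm_apply _)
  map_mul' a b := Subtype.ext (map_mul (sK K0 σ) _ _)
  map_add' a b := Subtype.ext (map_add (sK K0 σ) _ _)

/-- the automorphism of the residue field induced by `σ`. -/
def sk (A : ValuationSubring Kb) (σ : GQ) (hσ : σ ∈ A.decompositionSubgroup ℚ) :
    kA A ≃+* kA A :=
  MulSemiringAction.toRingEquiv (A.decompositionSubgroup ℚ) (kA A) ⟨σ, hσ⟩

theorem sk_residue (A : ValuationSubring Kb) (σ : GQ) (hσ : σ ∈ A.decompositionSubgroup ℚ)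
    (a : A) (ha : σ (a : Kb) ∈ A) :
    sk A σ hσ (IsLocalRing.residue A a) = IsLocalRing.residue A ⟨σ (a : Kb), ha⟩ :=
  (IsLocalRing.ResidueField.residue_smul (G := A.decompositionSubgroup ℚ) ⟨σ, hσ⟩ a).symm

end NGal

open NGal

variable {M0 q : ℕ} [NeZero M0] [NeZero q]

theorem exists_tAut {K0 : IntermediateField ℚ Kb} [Normal ℚ K0] {A : ValuationSubring Kb}
    [IsDiscreteValuationRing (R0 K0 A)]
    (σ : GQ) (hσ : σ ∈ A.decompositionSubgroup ℚ)
    (D : QData (R0 K0 A) K0 (kA A)) (hF : D.F0 = F0 K0 M0) (hres : D.res = res0 K0 A)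
    (T : Two D q) (hT : T.F = F0 K0 (M0 * q)) :
    ∃ S : TAut T, (∀ x : K0, ((S.sK x : K0) : Kb) = σ (x : Kb)) ∧
      (∀ (a : A) (ha : σ (a : Kb) ∈ A),
        S.sk (IsLocalRing.residue A a) = IsLocalRing.residue A ⟨σ (a : Kb), ha⟩) := by
  refine ⟨{ sK := sK K0 σ
            sR := sR K0 A σ hσ
            sk := sk A σ hσ
            hK := fun r => rfl
            hk := fun r => ?_
            map_F0 := fun f => ?_
            map_F := fun f => ?_ }, coe_sK K0 σ, sk_residue A σ hσ⟩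
  · rw [hres]
    have h := sk_residue A σ hσ (incl K0 A r) (map_mem hσ (incl K0 A r).2)
    refine h.trans ?_
    refine congrArg (IsLocalRing.residue A) (Subtype.ext ?_)
    exact (coe_sK K0 σ r).symm
  · rw [hF]
    exact coeffMap_mem_F0_iff _ _ f
  · rw [hT]
    exact coeffMap_mem_F0_iff _ _ f

theorem sk_of_inertia {K0 : IntermediateField ℚ Kb} {A : ValuationSubring Kb}
    [IsDiscreteValuationRing (R0 K0 A)]
    (σ : GQ) (hσ : σ ∈ A.inertiaSubgroupIn ℚ) {D : QData (R0 K0 A) K0 (kA A)} {T : Two D q}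
    (S : TAut T) (hS : ∀ (a : A) (ha : σ (a : Kb) ∈ A),
        S.sk (IsLocalRing.residue A a) = IsLocalRing.residue A ⟨σ (a : Kb), ha⟩) :
    ∀ c, S.sk c = c := by
  intro c
  obtain ⟨a, rfl⟩ := IsLocalRing.residue_surjective c
  obtain ⟨t, ht, rfl⟩ := hσ
  rw [hS a (map_mem t.2 a.2)]
  have h1 : t • IsLocalRing.residue A a = IsLocalRing.residue A a := by
    have := RingEquiv.congr_fun (MonoidHom.mem_ker.1 ht) (IsLocalRing.residue A a)
    exact this
  have h2 := IsLocalRing.ResidueField.residue_smul (G := A.decompositionSubgroup ℚ) t a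
  exact h2.trans h1

theorem sk_of_frobenius {K0 : IntermediateField ℚ Kb} {A : ValuationSubring Kb}
    [IsDiscreteValuationRing (R0 K0 A)]
    (σ : GQ) (hσ : A.IsFrobeniusAt σ q) {D : QData (R0 K0 A) K0 (kA A)} {T : Two D q}
    (S : TAut T) (hS : ∀ (a : A) (ha : σ (a : Kb) ∈ A),
        S.sk (IsLocalRing.residue A a) = IsLocalRing.residue A ⟨σ (a : Kb), ha⟩) :
    ∀ c, S.sk c = c ^ q := by
  intro c
  obtain ⟨a, rfl⟩ := IsLocalRing.residue_surjective c
  rw [hS a (map_mem hσ.mem_decompositionSubgroup a.2)]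
  have h1 := hσ.smul_residue_eq (IsLocalRing.residue A a)
  have h2 := IsLocalRing.ResidueField.residue_smul (G := A.decompositionSubgroup ℚ)
    ⟨σ, hσ.mem_decompositionSubgroup⟩ a
  exact h2.trans h1

/-- integral series are fixed. -/
theorem sR_zS {K0 : IntermediateField ℚ Kb} {A : ValuationSubring Kb}
    [IsDiscreteValuationRing (R0 K0 A)]
    {D : QData (R0 K0 A) K0 (kA A)} {T : Two D q} (S : TAut T) (x : LaurentSeries ℤ) :
    coeffMap (S.sR : R0 K0 A →+* R0 K0 A) (zS (R0 K0 A) x) = zS (R0 K0 A) x := by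
  refine HahnSeries.ext (funext fun n => ?_)
  rw [zS, coeffMap_coeff, coeffMap_coeff]
  exact map_intCast (S.sR : R0 K0 A →+* R0 K0 A) _

/-- compatibility with `gal`. -/
theorem bc_toF {K0 : IntermediateField ℚ Kb} {A : ValuationSubring Kb}
    [IsDiscreteValuationRing (R0 K0 A)] (σ : GQ)
    {D : QData (R0 K0 A) K0 (kA A)} {T : Two D q} (S : TAut T)
    (hS : ∀ x : K0, ((S.sK x : K0) : Kb) = σ (x : Kb)) (f : T.F)
    (hf : bc K0 (f : LaurentSeries K0) ∈ modularFunctionFieldBar (M0 * q)) :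
    bc K0 ((S.toF f : T.F) : LaurentSeries K0)
      = ((gal (M0 * q) σ ⟨_, hf⟩ : FF (M0 * q)) : LaurentSeries Kb) := by
  rw [coe_arithmeticRingAut_apply, TAut.coe_toF]
  refine HahnSeries.ext (funext fun n => ?_)
  change (coeffMap (algebraMap K0 Kb) (coeffMap (S.sK : K0 →+* K0) (f : LaurentSeries K0))).coeff n
    = (coeffMap (σ : Kb →+* Kb) (coeffMap (algebraMap K0 Kb) (f : LaurentSeries K0))).coeff n
  rw [coeffMap_coeff, coeffMap_coeff, coeffMap_coeff, coeffMap_coeff]
  exact hS _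

end Fermat.Agent.S34
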