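import Fermat.Agent.S34.NDefs
import Fermat.Agent.S34.ADefs
import Fermat.Agent.S34.GenInt
import Fermat.Agent.ES.HDivDesc
import Fermat.Agent.ES.QEPurDefs

/-!
# S34, modular block : general properties of the chart `T.chart X` of level `M₀ q`

noetherian, fraction field, finiteness over `R[x]`, and the generic fibre `B[1/ϖ]`
(a Dedekind domain, the integral closure of `K[x]`).
-/

set_option autoImplicit false
set_option linter.unusedSectionVars false
set_option linter.style.haveILetI false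

noncomputable section

namespace Fermat.Agent.S34

open ModularCurve Polynomial
open Fermat.Agent.ES.QE Fermat.Agent.ES.Model Fermat.Agent.ES.HDivDesc

/-! ### `awayS` is a localisation -/

section Away

variable {F : Type*} [Field F] (B : Subring F) (ϖ : F) (hϖ : ϖ ∈ B)

theorem le_awayS : B ≤ awayS B ϖ hϖ := fun x hx => ⟨0, by rw [pow_zero, one_mul]; exact hx⟩

/-- `B → B[1/ϖ]`. -/
@[reducible] def algAwayS : Algebra B (awayS B ϖ hϖ) :=
  (Subring.inclusion (le_awayS B ϖ hϖ)).toAlgebra

theorem tower_awayS :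
    letI := algAwayS B ϖ hϖ
    IsScalarTower B (awayS B ϖ hϖ) F :=
  letI := algAwayS B ϖ hϖ
  IsScalarTower.of_algebraMap_eq fun _ => rfl

theorem isLocalization_awayS (h0 : ϖ ≠ 0) :
    letI := algAwayS B ϖ hϖ
    IsLocalization.Away (⟨ϖ, hϖ⟩ : B) (awayS B ϖ hϖ) := by
  letI := algAwayS B ϖ hϖ
  refine ⟨?_, ?_, ?_⟩
  · rintro ⟨_, k, rfl⟩
    have hinv : (ϖ ^ k)⁻¹ ∈ awayS B ϖ hϖ :=
      ⟨k, by rw [mul_inv_cancel₀ (pow_ne_zero k h0)]; exact B.one_mem⟩
    refine IsUnit.of_mul_eq_one ⟨(ϖ ^ k)⁻¹, hinv⟩ (Subtype.ext ?_)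
    change ((⟨ϖ, hϖ⟩ : B) ^ k : B).1 * (ϖ ^ k)⁻¹ = 1
    rw [SubmonoidClass.coe_pow]
    exact mul_inv_cancel₀ (pow_ne_zero k h0)
  · rintro ⟨z, k, hk⟩
    refine ⟨(⟨ϖ ^ k * z, hk⟩, ⟨(⟨ϖ, hϖ⟩ : B) ^ k, k, rfl⟩), Subtype.ext ?_⟩
    change z * ((⟨ϖ, hϖ⟩ : B) ^ k : B).1 = ϖ ^ k * z
    rw [SubmonoidClass.coe_pow, mul_comm]
  · intro a b h
    refine ⟨1, ?_⟩
    have : (a : F) = b := congrArg (fun z : awayS B ϖ hϖ => (z : F)) h
    rw [Subtype.ext this]

end Away

variable {R K k : Type*} [CommRing R] [IsDomain R] [IsNoetherianRing R] [IsIntegrallyClosed R]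
  [Field K] [Algebra R K] [IsFractionRing R K] [Field k]
  {D : QData R K k} {q : ℕ} [NeZero q] (T : Two D q) (X : D.Coord)

namespace Two

/-- `R[X] → T.F`, `X ↦ x`. -/
def phiT : R[X] →+* T.F := T.al.comp X.phiF

lemma coe_phiT (σ : R[X]) : ((T.phiT X σ : T.F) : LaurentSeries K) = X.phi σ := rfl

lemma phiT_injective : Function.Injective (T.phiT X) :=
  T.al.injective.comp X.phiF_injective

lemma e1_comp_phiT : (algebraMap T.F (LaurentSeries K)).comp (T.phiT X) = X.phi := rfl

lemma mem_chart_iff (f : T.F) : f ∈ T.chart X ↔ (T.phiT X).IsIntegralElem f := by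
  rw [T.mem_chart]
  constructor
  · intro h
    exact isIntegralElem_of_injective (T.phiT X) (algebraMap T.F (LaurentSeries K))
      (algebraMap T.F (LaurentSeries K)).injective h
  · rintro ⟨p, hp, h⟩
    refine ⟨p, hp, ?_⟩
    have := congrArg (algebraMap T.F (LaurentSeries K)) h
    rw [map_zero, hom_eval₂] at this
    exact this

/-- the spanning family. -/
def bT (p : Fin D.n × Fin (q + 1)) : T.F := T.al (D.bF p.1) * T.be D.jF ^ (p.2 : ℕ)

theorem exists_span (f : T.F) :
    ∃ (c : Fin D.n × Fin (q + 1) → R[X]) (d : R[X]), d ≠ 0 ∧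
      T.phiT X d * f = ∑ p, T.phiT X (c p) * T.bT p := by
  classical
  obtain ⟨a, ha, hf⟩ := T.span f f.2
  choose c d hd h using fun l => X.exists_span ⟨a l, ha l⟩
  refine ⟨fun p => c p.2 p.1 * ∏ l ∈ Finset.univ.erase p.2, d l, ∏ l, d l,
    Finset.prod_ne_zero_iff.mpr fun l _ => hd l, ?_⟩
  have hf' : f = ∑ l, T.al ⟨a l, ha l⟩ * T.be D.jF ^ (l : ℕ) := by
    apply Subtype.ext
    rw [hf, IntermediateField.coe_sum]
    refine Finset.sum_congr rfl fun l _ => ?_
    rw [IntermediateField.coe_mul, IntermediateField.coe_pow]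
    rfl
  rw [Fintype.sum_prod_type_right, hf', Finset.mul_sum]
  refine Finset.sum_congr rfl fun l _ => ?_
  have h1 : T.phiT X (d l) * T.al ⟨a l, ha l⟩ = ∑ i, T.phiT X (c l i) * T.al (D.bF i) := by
    have := congrArg T.al (h l)
    rw [map_mul, map_sum] at this
    simp only [map_mul] at this
    exact this
  rw [← Finset.mul_prod_erase Finset.univ d (Finset.mem_univ l), map_mul]
  calc T.phiT X (d l) * T.phiT X (∏ x ∈ Finset.univ.erase l, d x) *
        (T.al ⟨a l, ha l⟩ * T.be D.jF ^ (l : ℕ))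
      = T.phiT X (∏ x ∈ Finset.univ.erase l, d x) * T.be D.jF ^ (l : ℕ) *
          (T.phiT X (d l) * T.al ⟨a l, ha l⟩) := by ring
    _ = _ := by
      rw [h1, Finset.mul_sum]
      refine Finset.sum_congr rfl fun i _ => ?_
      rw [map_mul, bT]
      ring

variable [CharZero K]

instance charZero_F : CharZero T.F := charZero_of_injective_algebraMap (algebraMap K T.F).injective

/-- **[C1]** -/
theorem isNoetherianRing_chart : IsNoetherianRing (T.chart X) :=
  GenInt.isNoetherianRing (T.phiT X) (T.phiT_injective X) T.bT (T.exists_span X) (T.chart X)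
    (T.mem_chart_iff X)

/-- **[C2]** -/
theorem isFractionRing_chart : IsFractionRing (T.chart X) T.F :=
  GenInt.isFractionRing (T.phiT X) (T.phiT_injective X) T.bT (T.exists_span X) (T.chart X)
    (T.mem_chart_iff X)

lemma phiT_mem_closure (σ : R[X]) :
    T.phiT X σ ∈ Subring.closure ((T.RF : Set T.F) ∪ {T.x X}) := by
  induction σ using Polynomial.induction_on' with
  | add p q hp hq => rw [map_add]; exact add_mem hp hq
  | monomial n a =>
    rw [← C_mul_X_pow_eq_monomial, map_mul, map_pow]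
    have e1 : T.phiT X (C a) = algebraMap K T.F (algebraMap R K a) := by
      rw [phiT, RingHom.comp_apply, X.phiF_C]
      rfl
    have e2 : T.phiT X Polynomial.X = T.x X := by
      rw [phiT, RingHom.comp_apply, X.phiF_X]
      rfl
    rw [e1, e2]
    have h1 : algebraMap K T.F (algebraMap R K a) ∈
        Subring.closure ((T.RF : Set T.F) ∪ {T.x X}) :=
      Subring.subset_closure (Set.mem_union_left _ ⟨a, rfl⟩)
    have h2 : T.x X ∈ Subring.closure ((T.RF : Set T.F) ∪ {T.x X}) :=
      Subring.subset_closure (Set.mem_union_right _ (Set.mem_singleton _))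
    exact mul_mem h1 (pow_mem h2 n)

/-- **hfin**, in the shape of `inj_abs` / `uni_asm`. -/
theorem hfin_chart : ∃ S : Finset T.F, ∀ f ∈ T.chart X,
    f ∈ Submodule.span (Subring.closure ((T.RF : Set T.F) ∪ {T.x X})) (S : Set T.F) :=
  GenInt.hfin (T.phiT X) (T.phiT_injective X) T.bT (T.exists_span X) (T.chart X)
    (T.mem_chart_iff X) _ (T.phiT_mem_closure X)

/-! ### the generic fibre -/

/-- `K[X] → T.F`, `X ↦ x`. -/
def psiT : K[X] →+* T.F := ((aeval (T.x X) : K[X] →ₐ[K] T.F) : K[X] →+* T.F)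

omit [CharZero K] in
lemma psiT_eq (p : K[X]) : T.psiT X p = T.al (aeval X.x p) := by
  change aeval (T.x X) p = (IntermediateField.inclusion T.le) (aeval X.x p)
  rw [← Polynomial.aeval_algHom_apply]
  rfl

omit [CharZero K] in
lemma psiT_map (σ : R[X]) : T.psiT X (σ.map (algebraMap R K)) = T.phiT X σ := by
  rw [psiT_eq, ← X.phiF_eq_aeval]
  rfl

omit [CharZero K] in
lemma psiT_injective : Function.Injective (T.psiT X) := by
  intro a b h
  rw [psiT_eq, psiT_eq] at h
  exact X.aeval_x_injective (T.al.injective h)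

omit [CharZero K] in
theorem exists_spanK (f : T.F) :
    ∃ (c : Fin D.n × Fin (q + 1) → K[X]) (d : K[X]), d ≠ 0 ∧
      T.psiT X d * f = ∑ p, T.psiT X (c p) * T.bT p := by
  obtain ⟨c, d, hd, h⟩ := T.exists_span X f
  refine ⟨fun p => (c p).map (algebraMap R K), d.map (algebraMap R K), ?_, ?_⟩
  · rw [Ne, Polynomial.map_eq_zero_iff (IsFractionRing.injective R K)]
    exact hd
  · simp only [psiT_map]
    exact h

omit [CharZero K] in
lemma coe_psiT (p : K[X]) : ((T.psiT X p : T.F) : LaurentSeries K) = evS (D.inc X.xW) p := by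
  have : (algebraMap T.F (LaurentSeries K)).comp (T.psiT X) = evS (D.inc X.xW) := by
    apply Polynomial.ringHom_ext
    · intro a
      rw [RingHom.comp_apply, evS_C, ← algebraMap_eq_C]
      change algebraMap T.F (LaurentSeries K) (aeval (T.x X) (C a)) = _
      rw [aeval_C]
      rfl
    · rw [RingHom.comp_apply, evS_X]
      change algebraMap T.F (LaurentSeries K) (aeval (T.x X) Polynomial.X) = _
      rw [aeval_X]
      rfl
  exact congrArg (fun g => g p) this

omit [CharZero K] in
private lemma coe_ϖF : (T.ϖF : LaurentSeries K) = D.ϖE := algebraMap_eq_C _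

omit [CharZero K] in
private lemma ϖF_ne_zero : T.ϖF ≠ 0 := by
  intro h
  apply D.ϖE_ne_zero
  rw [← T.coe_ϖF, h]
  rfl

/-- the generic fibre `B[1/ϖ]`. -/
def away : Subring T.F := awayS (T.chart X) T.ϖF (T.ϖF_mem_chart X)

omit [CharZero K] in
theorem mem_away_iff (hK : IsAway D) (f : T.F) :
    f ∈ T.away X ↔ (T.psiT X).IsIntegralElem f := by
  constructor
  · rintro ⟨c, hc⟩
    rw [T.mem_chart_iff] at hc
    obtain ⟨p, hp, h⟩ := hc
    have h1 : (T.psiT X).IsIntegralElem (T.ϖF ^ c * f) := by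
      refine ⟨p.map (mapRingHom (algebraMap R K)), hp.map _, ?_⟩
      rw [eval₂_map]
      have : (T.psiT X).comp (mapRingHom (algebraMap R K)) = T.phiT X :=
        RingHom.ext fun σ => T.psiT_map X σ
      rw [this]
      exact h
    have h2 : (T.psiT X).IsIntegralElem ((T.ϖF ^ c)⁻¹) := by
      have : (T.ϖF ^ c)⁻¹ = T.psiT X (C ((algebraMap R K D.ϖ ^ c)⁻¹)) := by
        change _ = aeval (T.x X) (C ((algebraMap R K D.ϖ ^ c)⁻¹))
        rw [aeval_C, map_inv₀, map_pow]
        rfl
      rw [this]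
      exact (T.psiT X).isIntegralElem_map
    have h3 := RingHom.IsIntegralElem.mul _ h2 h1
    rwa [inv_mul_cancel_left₀ (pow_ne_zero c T.ϖF_ne_zero)] at h3
  · rintro ⟨p, hp, h⟩
    have h1 : (evS (D.inc X.xW)).IsIntegralElem (f : LaurentSeries K) := by
      refine ⟨p, hp, ?_⟩
      have := congrArg (algebraMap T.F (LaurentSeries K)) h
      rw [map_zero, hom_eval₂] at this
      have e : (algebraMap T.F (LaurentSeries K)).comp (T.psiT X) = evS (D.inc X.xW) :=
        RingHom.ext fun σ => T.coe_psiT X σ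
      rw [e] at this
      exact this
    obtain ⟨c, hc⟩ := exists_pow_mul_isIntegralElem X.phi (evS (D.inc X.xW)) D.ϖE
      (exists_pow_mul_mem_range X hK) h1
    refine ⟨c, ?_⟩
    rw [T.mem_chart, IntermediateField.coe_mul, IntermediateField.coe_pow, T.coe_ϖF]
    exact hc

/-- **[C6]** : `B[1/ϖ]` is a Dedekind domain. -/
theorem isDedekindDomain_away (hK : IsAway D) : IsDedekindDomain (T.away X) :=
  GenInt.isDedekindDomain (T.psiT X) (T.psiT_injective X) T.bT (T.exists_spanK X) (T.away X)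
    (T.mem_away_iff X hK)

/-- **[C6]** : `Frac B[1/ϖ] = F`. -/
theorem isFractionRing_away (hK : IsAway D) : IsFractionRing (T.away X) T.F :=
  GenInt.isFractionRing (T.psiT X) (T.psiT_injective X) T.bT (T.exists_spanK X) (T.away X)
    (T.mem_away_iff X hK)

omit [CharZero K] in
/-- the constants lie in the chart. -/
lemma RF_le_chart : T.RF ≤ T.chart X := by
  rintro _ ⟨r, rfl⟩
  have : ((algebraMap K T.F).comp (algebraMap R K)) r = T.phiT X (C r) := by
    rw [phiT, RingHom.comp_apply, RingHom.comp_apply, X.phiF_C]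
    rfl
  rw [this, T.mem_chart_iff]
  exact (T.phiT X).isIntegralElem_map

/-- `R → B`. -/
@[reducible] def algRB : Algebra R (T.chart X) :=
  (((algebraMap K T.F).comp (algebraMap R K)).codRestrict (T.chart X)
    (fun r => T.RF_le_chart X ⟨r, rfl⟩)).toAlgebra

omit [CharZero K] in
lemma algebraMap_ϖ :
    letI := T.algRB X
    algebraMap R (T.chart X) D.ϖ = T.ϖB X := rfl

/-- `B → B[1/ϖ]`. -/
@[reducible] def algBD : Algebra (T.chart X) (T.away X) :=
  algAwayS (T.chart X) T.ϖF (T.ϖF_mem_chart X)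

omit [CharZero K] in
theorem tower_away :
    letI := T.algBD X
    IsScalarTower (T.chart X) (T.away X) T.F :=
  tower_awayS (T.chart X) T.ϖF (T.ϖF_mem_chart X)

omit [CharZero K] in
/-- **[C6]** : `B[1/ϖ]` is the localisation of `B` away from `ϖ`. -/
theorem isLocalization_away :
    letI := T.algRB X
    letI := T.algBD X
    IsLocalization.Away (algebraMap R (T.chart X) D.ϖ) (T.away X) :=
  isLocalization_awayS (T.chart X) T.ϖF (T.ϖF_mem_chart X) T.ϖF_ne_zero

omit [CharZero K] in
/-- the chart is closed under roots. -/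
theorem root_chart (m : ℕ) (hm : 0 < m) (f : T.F) (h : f ^ m ∈ T.chart X) : f ∈ T.chart X := by
  rw [T.mem_chart_iff] at h ⊢
  letI := (T.phiT X).toAlgebra
  exact IsIntegral.of_pow (R := R[X]) hm h

end Two

end Fermat.Agent.S34
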