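import Fermat.Agent.ES.InstGY
import Fermat.Agent.S34.NDefs

/-!
# S34, modular block, package N-INCL : the two degeneracy maps on `F0 K M₀`
-/

set_option autoImplicit false

noncomputable section

namespace Fermat.Agent.S34

open ModularCurve AlgebraicCurve Polynomial
open Fermat.Agent.S24 Fermat.Agent.S28 Fermat.Agent.ES Fermat.Agent.ES.QE Fermat.Agent.ES.Inst

variable (M0 q : ℕ) [NeZero M0] [NeZero q]

theorem gen_mem_F0 (K : Type*) [Field K] (N : ℕ) (b : Bool) (d : ℕ) (hd : d ∈ N.divisors) :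
    gen K N (b, ⟨d, hd⟩) ∈ F0 K N := IntermediateField.subset_adjoin _ _ ⟨_, rfl⟩

theorem F0_le (K : Type*) [Field K] : F0 K M0 ≤ F0 K (M0 * q) := by
  apply IntermediateField.adjoin.mono
  rintro _ ⟨⟨b, d, hd⟩, rfl⟩
  have hd' : d ∈ (M0 * q).divisors :=
    Nat.mem_divisors.2 ⟨(Nat.dvd_of_mem_divisors hd).mul_right q,
      mul_ne_zero (NeZero.ne M0) (NeZero.ne q)⟩
  exact ⟨(b, ⟨d, hd'⟩), rfl⟩

theorem V_mem_F0 (K : Type*) [Field K] (hqK : (q : K) ≠ 0) {u : LaurentSeries K}
    (hu : u ∈ F0 K M0) : qExpand K q u ∈ F0 K (M0 * q) := by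
  have hq0 : q ≠ 0 := NeZero.ne q
  induction hu using IntermediateField.adjoin_induction with
  | mem y hy =>
    obtain ⟨⟨b, d, hd⟩, rfl⟩ := hy
    have hdM : d ∣ M0 := Nat.dvd_of_mem_divisors hd
    have hd0 : d ≠ 0 := by
      rintro rfl
      exact NeZero.ne M0 (zero_dvd_iff.1 hdM)
    have hd' : q * d ∈ (M0 * q).divisors :=
      Nat.mem_divisors.2 ⟨by rw [mul_comm]; exact mul_dvd_mul_right hdM q,
        mul_ne_zero (NeZero.ne M0) hq0⟩
    have hq' : q ∈ (M0 * q).divisors :=
      Nat.mem_divisors.2 ⟨dvd_mul_left q M0, mul_ne_zero (NeZero.ne M0) hq0⟩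
    cases b with
    | false =>
      have e : qExpand K q (gen K M0 (false, ⟨d, hd⟩)) = gen K (M0 * q) (false, ⟨q * d, hd'⟩) := by
        show qExpand K q (qExp K d (jqModC K)) = qExp K (q * d) (jqModC K)
        rw [← qExp_eq, Ord.qExp_qExp q d hq0 hd0]
      rw [e]
      exact gen_mem_F0 K _ _ _ _
    | true =>
      have h1 : qExpand K q (gen K M0 (true, ⟨d, hd⟩)) * gen K (M0 * q) (true, ⟨q, hq'⟩)
          = gen K (M0 * q) (true, ⟨q * d, hd'⟩) := by
        show qExpand K q ((d : LaurentSeries K) ^ 12 * qExp K d (deltaS K) * deltaInvS K)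
            * ((q : LaurentSeries K) ^ 12 * qExp K q (deltaS K) * deltaInvS K)
          = ((q * d : ℕ) : LaurentSeries K) ^ 12 * qExp K (q * d) (deltaS K) * deltaInvS K
        have h2 : qExp K q (deltaInvS K) * qExp K q (deltaS K) = 1 := by
          rw [← map_mul, mul_comm, InstGY.deltaS_mul_deltaInvS, map_one]
        rw [← qExp_eq, map_mul, map_mul, map_pow, map_natCast, Ord.qExp_qExp q d hq0 hd0]
        push_cast
        linear_combination ((d : LaurentSeries K) ^ 12 * qExp K (q * d) (deltaS K)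
          * (q : LaurentSeries K) ^ 12 * deltaInvS K) * h2
      have h0 : gen K (M0 * q) (true, ⟨q, hq'⟩) ≠ 0 := by
        show (q : LaurentSeries K) ^ 12 * qExp K q (deltaS K) * deltaInvS K ≠ 0
        have hΔ : deltaS K ≠ 0 := by
          intro h
          have := InstGY.deltaS_mul_deltaInvS K
          rw [h, zero_mul] at this
          exact zero_ne_one this
        have hΔ' : deltaInvS K ≠ 0 := by
          intro h
          have := InstGY.deltaS_mul_deltaInvS K
          rw [h, mul_zero] at this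
          exact zero_ne_one this
        have hqL : (q : LaurentSeries K) ≠ 0 := by
          rw [← map_natCast (algebraMap K (LaurentSeries K)) q]
          exact (_root_.map_ne_zero _).2 hqK
        exact mul_ne_zero (mul_ne_zero (pow_ne_zero 12 hqL) ((_root_.map_ne_zero _).2 hΔ)) hΔ'
      rw [eq_div_of_mul_eq h0 h1]
      exact div_mem (gen_mem_F0 K _ _ _ _) (gen_mem_F0 K _ _ _ _)
  | algebraMap c =>
    have : qExpand K q (algebraMap K (LaurentSeries K) c) = algebraMap K (LaurentSeries K) c := by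
      rw [algebraMap_eq_C, HahnSeries.C_apply, qExpand_single, mul_zero]
    rw [this]
    exact (F0 K (M0 * q)).algebraMap_mem _
  | add a b _ _ ha hb => rw [map_add]; exact add_mem ha hb
  | inv a _ ha => rw [map_inv₀]; exact inv_mem ha
  | mul a b _ _ ha hb => rw [map_mul]; exact mul_mem ha hb

/-- `bc` versus the degeneracy maps. -/
theorem bc_alpha (K0 : IntermediateField ℚ Kb) {u : LaurentSeries K0} (hu : u ∈ F0 K0 M0) :
    ((heckeAlphaBar Kb M0 q ⟨bc K0 u, bc_mem K0 M0 hu⟩ : FF (M0 * q)) : LaurentSeries Kb)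
      = bc K0 u := coe_heckeAlphaBar _ _ _

theorem bc_beta (K0 : IntermediateField ℚ Kb) {u : LaurentSeries K0} (hu : u ∈ F0 K0 M0) :
    ((heckeBetaBar Kb M0 q ⟨bc K0 u, bc_mem K0 M0 hu⟩ : FF (M0 * q)) : LaurentSeries Kb)
      = bc K0 (qExpand K0 q u) := by
  rw [coe_heckeBetaBar]
  exact (coeffMap_qExpand _ q u).symm

end Fermat.Agent.S34
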