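import Fermat.Agent.ES.InstQD

/-!
# S34, modular block, package N-JQ : `j(T^q)` is integral over `R[j]`
-/

set_option autoImplicit false

noncomputable section

namespace Fermat.Agent.S34

open ModularCurve AlgebraicCurve Polynomial
open Fermat.Agent.S24 Fermat.Agent.S28 Fermat.Agent.ES Fermat.Agent.ES.QE Fermat.Agent.ES.Inst
  Fermat.Agent.ES.IDvr

theorem exists_K1_jq (q : ℕ) [NeZero q] (A : ValuationSubring Kb) :
    ∃ K1 : IntermediateField ℚ Kb, FiniteDimensional ℚ K1 ∧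
      ∀ K0 : IntermediateField ℚ Kb, FiniteDimensional ℚ K0 → K1 ≤ K0 →
        ((coeffMap (algebraMap (R0 K0 A) K0)).comp (evS (jqModC (R0 K0 A)))).IsIntegralElem
          (qExpand K0 q (jqModC K0)) := by
  have hN : q ≠ 0 := NeZero.ne q
  obtain ⟨ζ₁, hζ₁⟩ := ResField.exists_zetaQ q
  have hpow : ζ₁ ^ q = 1 := by
    apply ResField.iot.injective
    rw [map_pow, hζ₁, map_one]
    exact (IsPrimitiveRoot.coe_units_iff.mpr (Degree.isPrimitiveRoot_zetaC q)).pow_eq_one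
  have hζ₁0 : ζ₁ ≠ 0 := by
    rintro rfl
    rw [zero_pow hN] at hpow
    exact zero_ne_one hpow
  have halg : Algebra.IsAlgebraic ℚ Kb := AlgebraicClosure.isAlgebraic ℚ
  obtain ⟨K1, hK1, hζK1⟩ := exists_numberField ({ζ₁} : Finset Kb)
  refine ⟨K1, hK1, fun K0 hK0 hle => ?_⟩
  have hζK0 : ζ₁ ∈ K0 := hle (hζK1 ζ₁ (Finset.mem_singleton_self _))
  have hmem : ζ₁ ∈ A := ResField.mem_of_pow_eq_one (A := A) hN hpow
  have hmem' : ζ₁⁻¹ ∈ A := ResField.mem_of_pow_eq_one (A := A) hN (by rw [inv_pow, hpow, inv_one])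
  obtain ⟨ζR, hζR⟩ : ∃ ζR : (R0 K0 A)ˣ, (((ζR : R0 K0 A) : K0) : Kb) = ζ₁ := by
    refine ⟨⟨⟨⟨ζ₁, hζK0⟩, hmem⟩, ⟨⟨ζ₁⁻¹, K0.inv_mem hζK0⟩, hmem'⟩, ?_, ?_⟩, rfl⟩
    · apply Subtype.val_injective
      apply Subtype.val_injective
      exact mul_inv_cancel₀ hζ₁0
    · apply Subtype.val_injective
      apply Subtype.val_injective
      exact inv_mul_cancel₀ hζ₁0
  have hζRpow : ζR ^ q = 1 := by
    ext
    rw [Units.val_pow_eq_pow_val, Units.val_one]
    change (((ζR : R0 K0 A) : K0) : Kb) ^ q = 1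
    rw [hζR, hpow]
  have hR := ResField.transfer
    ((ResField.iot.comp (algebraMap K0 Kb)).comp (R0 K0 A).subtype)
    ((ResField.iot.injective.comp (algebraMap K0 Kb).injective).comp Subtype.val_injective) q ζR (by
      ext
      change ResField.iot (((ζR : R0 K0 A) : K0) : Kb) = _
      rw [hζR, hζ₁])
  have key := modB_int (R := R0 K0 A) (K := K0) q ζR hζRpow hR.1
    (MvPolynomial.X (false, ⟨q, Nat.mem_divisors_self q hN⟩))
  have e : coeffMap (algebraMap (R0 K0 A) K0)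
      (ev0 (R0 K0 A) q (MvPolynomial.X (false, ⟨q, Nat.mem_divisors_self q hN⟩)))
      = qExpand K0 q (jqModC K0) := by
    rw [ev0, MvPolynomial.aeval_X]
    show coeffMap (algebraMap (R0 K0 A) K0) (qExp (R0 K0 A) q (jqModC (R0 K0 A))) = _
    rw [qExp_eq, coeffMap_qExpand, coeffMap_jqModC]
  rw [e] at key
  exact key

end Fermat.Agent.S34
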