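import Fermat.Agent.ES.InstUp

/-!
# S34, modular block, [N-K0] : large normal number fields
-/

set_option autoImplicit false

namespace Fermat.Agent.S34

open ModularCurve
open Fermat.Agent.S24 Fermat.Agent.ES Fermat.Agent.ES.Inst

/-- **I-DEF** with a normal number field. -/
theorem exists_K0_normal (N : ℕ) [NeZero N] (K1 : IntermediateField ℚ Kb) [FiniteDimensional ℚ K1]
    (S : Finset (FF N)) :
    ∃ K0 : IntermediateField ℚ Kb, FiniteDimensional ℚ K0 ∧ Normal ℚ K0 ∧ K1 ≤ K0 ∧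
      ∀ f ∈ S, ∃ f0 ∈ F0 K0 N, bc K0 f0 = (f : LaurentSeries Kb) := by
  obtain ⟨K0, h0, h1, hS⟩ := exists_K0 N K1 S
  have h1' : Algebra.IsAlgebraic ℚ Kb := AlgebraicClosure.isAlgebraic ℚ
  have h2' : IsAlgClosure ℚ Kb := ⟨inferInstance, inferInstance⟩
  have h3' : Normal ℚ Kb := IsAlgClosure.normal ℚ Kb
  have h4' : Normal ℚ (IntermediateField.normalClosure ℚ K0 Kb) := by
    convert normalClosure.normal ℚ K0 Kb
    exact Subsingleton.elim _ _
  refine ⟨IntermediateField.normalClosure ℚ K0 Kb, inferInstance, h4',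
    h1.trans K0.le_normalClosure, fun f hf => ?_⟩
  exact InstUp.IsDef.mono K0.le_normalClosure (hS f hf)

end Fermat.Agent.S34
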