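import Mathlib
import Fermat.Prelude.Def_ModularCurve_X0

set_option autoImplicit false

/-!
# S34, package ORTH, the Laurent series lemma

`1, jb, …, jb ^ (q - 1)` are linearly independent over the image of `T ↦ T ^ q`, and the two
reductions of a relation `∑ a i * j_q ^ i = 0` force `a i = 0`.
-/

namespace Fermat.Agent.S34

open ModularCurve HahnSeries Finset

namespace OrthL

variable {k : Type*} [Field k]

theorem order_qExpand (q : ℕ) [NeZero q] (x : LaurentSeries k) :
    (qExpand k q x).order = q * x.order := by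
  rcases eq_or_ne x 0 with rfl | hx
  · rw [map_zero, HahnSeries.order_zero, mul_zero]
  · have hq : (0 : ℤ) < q := by exact_mod_cast Nat.pos_of_ne_zero (NeZero.ne q)
    have h1 : (qExpand k q x).coeff (q * x.order) ≠ 0 := by
      rw [qExpand_coeff_mul]
      exact HahnSeries.coeff_order_eq_zero.not.2 hx
    apply le_antisymm (HahnSeries.order_le_of_coeff_ne_zero h1)
    by_contra h
    push Not at h
    have h0 : qExpand k q x ≠ 0 := HahnSeries.ne_zero_of_coeff_ne_zero h1
    apply HahnSeries.coeff_order_eq_zero.not.2 h0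
    by_cases hd : (q : ℤ) ∣ (qExpand k q x).order
    · obtain ⟨c, hc⟩ := hd
      rw [hc, qExpand_coeff_mul]
      apply HahnSeries.coeff_eq_zero_of_lt_order
      rw [hc] at h
      exact lt_of_mul_lt_mul_left h hq.le
    · exact qExpand_coeff_of_not_dvd q _ hd

/-- a finite sum of series, the nonzero ones having pairwise distinct orders, vanishes only if all
terms vanish -/
theorem eq_zero_of_sum_eq_zero {ι : Type*} (s : Finset ι) (f : ι → LaurentSeries k)
    (hinj : ∀ i ∈ s, ∀ j ∈ s, f i ≠ 0 → f j ≠ 0 → (f i).order = (f j).order → i = j)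
    (h : ∑ i ∈ s, f i = 0) : ∀ i ∈ s, f i = 0 := by
  classical
  by_contra hne
  push Not at hne
  obtain ⟨i1, hi1, hf1⟩ := hne
  have hne' : (s.filter fun i => f i ≠ 0).Nonempty := ⟨i1, mem_filter.mpr ⟨hi1, hf1⟩⟩
  obtain ⟨i0, hi0, hmin⟩ := exists_min_image _ (fun i => (f i).order) hne'
  rw [mem_filter] at hi0
  have hc := congrArg (fun x : LaurentSeries k => x.coeff (f i0).order) h
  simp only [HahnSeries.coeff_sum, HahnSeries.coeff_zero] at hc
  rw [Finset.sum_eq_single_of_mem i0 hi0.1] at hc
  · exact HahnSeries.coeff_order_eq_zero.not.2 hi0.2 hc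
  · intro j hj hji
    by_cases hfj : f j = 0
    · rw [hfj, HahnSeries.coeff_zero]
    · apply HahnSeries.coeff_eq_zero_of_lt_order
      refine lt_of_le_of_ne (hmin j (mem_filter.mpr ⟨hj, hfj⟩)) fun he => hji ?_
      exact (hinj i0 hi0.1 j hj hi0.2 hfj he).symm

/-- `1, jb, …, jb ^ (q - 1)` are linearly independent over the image of `qExpand q` -/
theorem indep (q : ℕ) [NeZero q] (jb : LaurentSeries k) (hord : jb.order = -1)
    (b : ℕ → LaurentSeries k) (h : ∑ i ∈ range q, qExpand k q (b i) * jb ^ i = 0) :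
    ∀ i < q, b i = 0 := by
  have hjb : jb ≠ 0 := by
    rintro rfl
    simp at hord
  have hordi : ∀ i, b i ≠ 0 → (qExpand k q (b i) * jb ^ i).order = q * (b i).order - i := by
    intro i hi
    have h1 : qExpand k q (b i) ≠ 0 := fun h0 => hi (qExpand_injective q (by rw [h0, map_zero]))
    rw [HahnSeries.order_mul h1 (pow_ne_zero _ hjb), order_qExpand, HahnSeries.order_pow, hord]
    simp
    ring
  have h2 := eq_zero_of_sum_eq_zero (range q) (fun i => qExpand k q (b i) * jb ^ i) ?_ h
  · intro i hi
    have h3 := h2 i (mem_range.mpr hi)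
    rcases mul_eq_zero.mp h3 with h4 | h4
    · exact qExpand_injective q (by rw [h4, map_zero])
    · exact absurd h4 (pow_ne_zero _ hjb)
  · intro i hi j hj hfi hfj he
    have hbi : b i ≠ 0 := by
      rintro h0
      simp [h0] at hfi
    have hbj : b j ≠ 0 := by
      rintro h0
      simp [h0] at hfj
    rw [hordi i hbi, hordi j hbj] at he
    rw [mem_range] at hi hj
    have h5 : (q : ℤ) ∣ (i : ℤ) - j := ⟨(b i).order - (b j).order, by linarith⟩
    have h6 : ((i : ℤ) - j) = 0 := by
      apply Int.eq_zero_of_abs_lt_dvd h5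
      rw [abs_lt]
      constructor <;> omega
    omega

end OrthL

/-- **ORTH**, Laurent series form. -/
theorem orth_laurent {k : Type*} [Field k] (q : ℕ) [NeZero q] (hq : 2 ≤ q)
    (jb : LaurentSeries k) (hord : jb.order = -1) (hjb : qExpand k q jb = jb ^ q)
    (a : ℕ → LaurentSeries k) (h1 : ∑ i ∈ range (q + 1), a i * jb ^ (q * i) = 0)
    (h2 : ∑ i ∈ range (q + 1), qExpand k q (a i) * jb ^ i = 0) : ∀ i ≤ q, a i = 0 := by
  have hjb0 : jb ≠ 0 := by
    rintro rfl
    simp at hord
  -- rewrite the second relation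
  let b : ℕ → LaurentSeries k := fun i => if i = 0 then a 0 + a q * jb else a i
  have h3 : ∑ i ∈ range q, qExpand k q (b i) * jb ^ i = 0 := by
    rw [Finset.sum_range_succ] at h2
    obtain ⟨q', rfl⟩ : ∃ q', q = q' + 1 := ⟨q - 1, by omega⟩
    rw [Finset.sum_range_succ'] at h2 ⊢
    rw [← h2]
    simp only [b, if_true, Nat.add_eq_zero_iff, one_ne_zero, and_false, if_false, map_add, map_mul,
      hjb, pow_zero, mul_one]
    ring
  have h4 := OrthL.indep q jb hord b h3
  have h5 : ∀ i, 0 < i → i < q → a i = 0 := by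
    intro i hi hiq
    have := h4 i hiq
    simpa [b, hi.ne'] using this
  have h6 : a 0 + a q * jb = 0 := by
    have := h4 0 (by omega)
    simpa [b] using this
  -- the first relation
  have h7 : a 0 + a q * jb ^ (q * q) = 0 := by
    rw [Finset.sum_range_succ, Finset.sum_eq_single_of_mem 0 (mem_range.mpr (by omega))] at h1
    · simpa using h1
    · intro i hi hi0
      rw [h5 i (Nat.pos_of_ne_zero hi0) (mem_range.mp hi), zero_mul]
  have h8 : a q * (jb ^ (q * q) - jb) = 0 := by
    linear_combination h7 - h6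
  have h9 : jb ^ (q * q) - jb ≠ 0 := by
    intro h0
    have h10 := congrArg HahnSeries.order (sub_eq_zero.mp h0)
    rw [HahnSeries.order_pow, hord] at h10
    have : (4 : ℤ) ≤ (q * q : ℕ) := by
      have : 4 ≤ q * q := by nlinarith
      exact_mod_cast this
    simp at h10
    push_cast at this
    omega
  have h10 : a q = 0 := (mul_eq_zero.mp h8).resolve_right h9
  have h11 : a 0 = 0 := by simpa [h10] using h6
  intro i hi
  rcases Nat.eq_zero_or_pos i with rfl | hi0
  · exact h11
  · rcases Nat.lt_or_ge i q with hlt | hge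
    · exact h5 i hi0 hlt
    · obtain rfl : i = q := le_antisymm hi hge
      exact h10

end Fermat.Agent.S34
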