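import Fermat.Agent.S34.NDefs
import Fermat.Agent.S34.OrthL
import Fermat.Agent.ES.KCong
import Fermat.Agent.S28.Ord

/-!
# S34, modular block, package ORTH

`1, j_q, …, j_q ^ q` is an orthogonal basis of `F_N` over `F_{M₀}` for `min (v₁, v₂)`.
-/

set_option autoImplicit false
set_option linter.unusedSectionVars false

noncomputable section

namespace Fermat.Agent.S34

open ModularCurve Polynomial Finset
open Fermat.Agent.ES.QE Fermat.Agent.ES.Model

variable {R K k : Type*} [CommRing R] [IsDomain R] [IsNoetherianRing R] [IsIntegrallyClosed R]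
  [Field K] [Algebra R K] [IsFractionRing R K] [Field k]

namespace NOrth

variable {D : QData R K k} (q : ℕ) [NeZero q]

lemma inc_qExpand (w : LaurentSeries R) : D.inc (qExpand R q w) = qExpand K q (D.inc w) :=
  coeffMap_qExpand _ _ _

lemma red_qExpand (w : LaurentSeries R) : D.red (qExpand R q w) = qExpand k q (D.red w) :=
  coeffMap_qExpand _ _ _

lemma isFrac_qExpand {f : LaurentSeries K} {t w : LaurentSeries R} (h : D.IsFrac f t w) :
    D.IsFrac (qExpand K q f) (qExpand R q t) (qExpand R q w) := by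
  refine ⟨?_, ?_⟩
  · rw [red_qExpand]
    intro h0
    exact h.1 (qExpand_injective q (by rw [h0, map_zero]))
  · rw [inc_qExpand, inc_qExpand, ← map_mul, h.2]

/-- `T ↦ T ^ q` preserves the Gauss ring. -/
theorem qExpand_mem_LamRing {f : LaurentSeries K} (hf : f ∈ D.LamRing) :
    qExpand K q f ∈ D.LamRing := by
  obtain ⟨t, w, h⟩ := hf
  exact ⟨_, _, isFrac_qExpand q h⟩

/-- reduction commutes with `T ↦ T ^ q`. -/
theorem rho_qExpand {f : LaurentSeries K} (hf : f ∈ D.LamRing) :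
    D.rho ⟨qExpand K q f, qExpand_mem_LamRing q hf⟩ = qExpand k q (D.rho ⟨f, hf⟩) := by
  obtain ⟨t, w, h⟩ := hf
  rw [QData.rho_eq (f := ⟨qExpand K q f, _⟩) (isFrac_qExpand q h),
    QData.rho_eq (f := ⟨f, _⟩) h, red_qExpand, red_qExpand, map_div₀]

/-- conversely. -/
theorem mem_LamRing_of_qExpand_inc (w : LaurentSeries R) : qExpand K q (D.inc w) ∈ D.LamRing :=
  qExpand_mem_LamRing q (QData.inc_mem_LamRing w)

theorem j_mem_LamRing : jqModC K ∈ D.LamRing := by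
  rw [← D.inc_j]
  exact QData.inc_mem_LamRing _

theorem rho_j : D.rho ⟨jqModC K, j_mem_LamRing⟩ = jqModC k := by
  have h : D.IsFrac (jqModC K) 1 (jqModC R) := by
    rw [← D.inc_j]
    exact QData.isFrac_inc _
  rw [QData.rho_eq (f := ⟨jqModC K, _⟩) h, map_one, div_one, D.red_j]

/-- `j̄(T ^ q) = j̄(T) ^ q` in characteristic `q`. -/
theorem qExpand_jq_char (q : ℕ) (κ : Type*) [CommRing κ] [Fact q.Prime] [CharP κ q] :
    qExpand κ q (jqModC κ) = jqModC κ ^ q := by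
  rw [Fermat.Agent.ES.KCong.pow_char q, coeffMap_jqModC]

end NOrth

open NOrth

/-- **ORTH**, core. -/
theorem orth_core (D : QData R K k) (q : ℕ) [Fact q.Prime] [CharP k q]
    (a : Fin (q + 1) → D.F0) (ha : ∀ i, a i ∈ D.gaussO)
    (h1 : ∃ g ∈ D.LamRing,
      ∑ i, (a i : LaurentSeries K) * qExpand K q (jqModC K) ^ (i : ℕ) = D.ϖE * g)
    (h2 : ∃ g ∈ D.LamRing, ∑ i, qExpand K q (a i) * jqModC K ^ (i : ℕ) = D.ϖE * g) :
    ∀ i, DivO D.gaussO D.ϖF 1 (a i) := by
  have hq2 : 2 ≤ q := (Fact.out : q.Prime).two_le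
  -- the elements of `Λ`
  let A : Fin (q + 1) → D.LamRing := fun i => ⟨(a i : LaurentSeries K), ha i⟩
  let A' : Fin (q + 1) → D.LamRing := fun i => ⟨qExpand K q (a i), qExpand_mem_LamRing q (ha i)⟩
  let J : D.LamRing := ⟨jqModC K, j_mem_LamRing⟩
  let J' : D.LamRing := ⟨qExpand K q (jqModC K), qExpand_mem_LamRing q j_mem_LamRing⟩
  have hJ : D.rho J = jqModC k := rho_j
  have hJ' : D.rho J' = jqModC k ^ q := by
    rw [← qExpand_jq_char q k, ← rho_j (D := D)]
    exact rho_qExpand q j_mem_LamRing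
  have hA' : ∀ i, D.rho (A' i) = qExpand k q (D.rho (A i)) := fun i => rho_qExpand q (ha i)
  have e1 : D.rho (∑ i, A i * J' ^ (i : ℕ)) = 0 := by
    rw [QData.rho_eq_zero_iff_exists]
    obtain ⟨g, hg, h⟩ := h1
    refine ⟨g, hg, ?_⟩
    rw [← h]
    simp [A, J']
  have e2 : D.rho (∑ i, A' i * J ^ (i : ℕ)) = 0 := by
    rw [QData.rho_eq_zero_iff_exists]
    obtain ⟨g, hg, h⟩ := h2
    refine ⟨g, hg, ?_⟩
    rw [← h]
    simp [A', J]
  rw [map_sum] at e1 e2
  simp only [map_mul, map_pow, hJ, hJ', hA'] at e1 e2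
  -- pass to `ℕ`-indexed families
  let b : ℕ → LaurentSeries k := fun i => if h : i < q + 1 then D.rho (A ⟨i, h⟩) else 0
  have hb : ∀ i : Fin (q + 1), b i = D.rho (A i) := fun i => by
    simp only [b, dif_pos i.2, Fin.eta]
  have r1 : ∑ i ∈ range (q + 1), b i * jqModC k ^ (q * i) = 0 := by
    rw [← Fin.sum_univ_eq_sum_range (fun i => b i * jqModC k ^ (q * i)), ← e1]
    exact Finset.sum_congr rfl fun i _ => by rw [hb, pow_mul]
  have r2 : ∑ i ∈ range (q + 1), qExpand k q (b i) * jqModC k ^ i = 0 := by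
    rw [← Fin.sum_univ_eq_sum_range (fun i => qExpand k q (b i) * jqModC k ^ i), ← e2]
    exact Finset.sum_congr rfl fun i _ => by rw [hb]
  have key := orth_laurent q hq2 (jqModC k) (Fermat.Agent.S28.Ord.order_jqModC k) (qExpand_jq_char q k) b r1 r2
  intro i
  have h0 : D.rho (A i) = 0 := by
    rw [← hb]
    exact key i (Nat.lt_succ_iff.mp i.2)
  exact (D.rhoO_eq_zero_iff ⟨a i, ha i⟩).1 h0

namespace NOrth

/-- a family with a nonzero member has a member of maximal valuation. -/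
theorem exists_max (D : QData R K k) {n : ℕ} (a : Fin n → D.F0) (h : ∃ i, a i ≠ 0) :
    ∃ i0, a i0 ≠ 0 ∧ ∀ i, a i / a i0 ∈ D.gaussO := by
  obtain ⟨i1, hi1⟩ := h
  obtain ⟨i0, -, hmax⟩ := Finset.exists_max_image Finset.univ (fun i => D.gaussO.valuation (a i))
    ⟨i1, Finset.mem_univ _⟩
  have h0 : a i0 ≠ 0 := by
    intro h0
    have := hmax i1 (Finset.mem_univ _)
    simp only [h0, map_zero, le_zero_iff, map_eq_zero] at this
    exact hi1 this
  refine ⟨i0, h0, fun i => ?_⟩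
  rw [← D.gaussO.valuation_le_one_iff, map_div₀]
  exact div_le_one_of_le₀ (hmax i (Finset.mem_univ _)) zero_le

theorem not_divO_one (D : QData R K k) : ¬ DivO D.gaussO D.ϖF 1 (1 : D.F0) := by
  rintro ⟨y, hy, h⟩
  apply D.isUnif.inv_notMem
  have : D.ϖF⁻¹ = y := by
    rw [pow_one] at h
    exact inv_eq_of_mul_eq_one_right h.symm
  rwa [this]

end NOrth

/-- **ORTH**, normalised form: a family with `a i0 = 1`-normalisation cannot reduce to zero. -/
theorem orth_false (D : QData R K k) (q : ℕ) [Fact q.Prime] [CharP k q]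
    (a : Fin (q + 1) → D.F0) (i0 : Fin (q + 1)) (h0 : a i0 ≠ 0)
    (hmax : ∀ i, a i / a i0 ∈ D.gaussO)
    (h1 : ∃ g ∈ D.LamRing,
      ∑ i, (a i : LaurentSeries K) * qExpand K q (jqModC K) ^ (i : ℕ)
        = D.ϖE * g * (a i0 : LaurentSeries K))
    (h2 : ∃ g ∈ D.LamRing, ∑ i, qExpand K q (a i) * jqModC K ^ (i : ℕ)
        = D.ϖE * g * qExpand K q (a i0)) : False := by
  have h0' : (a i0 : LaurentSeries K) ≠ 0 := fun h => h0 (Subtype.ext h)
  have h0'' : qExpand K q (a i0 : LaurentSeries K) ≠ 0 := fun h =>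
    h0' (qExpand_injective q (by rw [h, map_zero]))
  have key := orth_core D q (fun i => a i / a i0) hmax ?_ ?_ i0
  · rw [div_self h0] at key
    exact not_divO_one D key
  · obtain ⟨g, hg, h⟩ := h1
    refine ⟨g, hg, ?_⟩
    rw [← mul_left_inj' h0', ← h, Finset.sum_mul]
    refine Finset.sum_congr rfl fun i _ => ?_
    rw [IntermediateField.coe_div]
    field_simp
  · obtain ⟨g, hg, h⟩ := h2
    refine ⟨g, hg, ?_⟩
    rw [← mul_left_inj' h0'', ← h, Finset.sum_mul]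
    refine Finset.sum_congr rfl fun i _ => ?_
    rw [IntermediateField.coe_div, map_div₀]
    field_simp

/-- **ORTH**, independence. -/
theorem orth_indep (D : QData R K k) (q : ℕ) [Fact q.Prime] [CharP k q]
    (a : Fin (q + 1) → D.F0)
    (h1 : ∑ i, (a i : LaurentSeries K) * qExpand K q (jqModC K) ^ (i : ℕ) = 0)
    (h2 : ∑ i, qExpand K q (a i) * jqModC K ^ (i : ℕ) = 0) : ∀ i, a i = 0 := by
  by_contra hne
  push Not at hne
  obtain ⟨i0, h0, hmax⟩ := exists_max D a hne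
  exact orth_false D q a i0 h0 hmax ⟨0, zero_mem _, by rw [h1]; ring⟩
    ⟨0, zero_mem _, by rw [h2]; ring⟩

namespace Two

variable {D : QData R K k} {q : ℕ}

section basic

variable [NeZero q] (T : Two D q)

lemma mem_O1 {f : T.F} : f ∈ T.O1 ↔ (f : LaurentSeries K) ∈ D.LamRing := Iff.rfl

lemma mem_O2 {f : T.F} : f ∈ T.O2 ↔ T.e2 f ∈ D.LamRing := Iff.rfl

lemma mem_O {f : T.F} : f ∈ T.O ↔ (f : LaurentSeries K) ∈ D.LamRing ∧ T.e2 f ∈ D.LamRing :=
  Iff.rfl

lemma al_mem_O {a : D.F0} (ha : a ∈ D.gaussO) : T.al a ∈ T.O :=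
  ⟨ha, by
    show T.e2 (T.al a) ∈ D.LamRing
    rw [e2_al]; exact qExpand_mem_LamRing q ha⟩

lemma be_mem_O {a : D.F0} (ha : a ∈ D.gaussO) : T.be a ∈ T.O :=
  ⟨qExpand_mem_LamRing q ha, by
    show T.e2 (T.be a) ∈ D.LamRing
    rw [e2_be]; exact ha⟩

lemma jF_mem_gaussO : D.jF ∈ D.gaussO := j_mem_LamRing

lemma coe_sum (a : Fin (q + 1) → D.F0) :
    ((∑ i, T.al (a i) * T.be D.jF ^ (i : ℕ) : T.F) : LaurentSeries K)
      = ∑ i, (a i : LaurentSeries K) * qExpand K q (jqModC K) ^ (i : ℕ) := by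
  have : ((∑ i, T.al (a i) * T.be D.jF ^ (i : ℕ) : T.F) : LaurentSeries K)
      = T.e1 (∑ i, T.al (a i) * T.be D.jF ^ (i : ℕ)) := rfl
  rw [this, map_sum]
  refine Finset.sum_congr rfl fun i _ => ?_
  rw [map_mul, map_pow]
  rfl

lemma e2_sum (a : Fin (q + 1) → D.F0) :
    T.e2 (∑ i, T.al (a i) * T.be D.jF ^ (i : ℕ))
      = ∑ i, qExpand K q (a i : LaurentSeries K) * jqModC K ^ (i : ℕ) := by
  rw [map_sum]
  refine Finset.sum_congr rfl fun i _ => ?_
  rw [map_mul, map_pow, e2_al, e2_be]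
  rfl

/-- every element of `F_N` is a combination of `1, j_q, …, j_q ^ q`. -/
theorem exists_rep (f : T.F) :
    ∃ a : Fin (q + 1) → D.F0, f = ∑ i, T.al (a i) * T.be D.jF ^ (i : ℕ) := by
  obtain ⟨a, ha, h⟩ := T.span f f.2
  refine ⟨fun i => ⟨a i, ha i⟩, Subtype.ext ?_⟩
  rw [coe_sum, h]

lemma qExpand_ϖE : qExpand K q D.ϖE = D.ϖE := qExpand_C q _

lemma coe_ϖF : (T.ϖF : LaurentSeries K) = D.ϖE := algebraMap_eq_C _

lemma al_ϖF : T.al D.ϖF = T.ϖF := rfl

lemma e2_ϖF : T.e2 T.ϖF = D.ϖE := by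
  rw [← al_ϖF, e2_al, D.coe_ϖF, qExpand_ϖE]

lemma ϖF_ne_zero : T.ϖF ≠ 0 := by
  intro h
  apply D.ϖE_ne_zero
  rw [← T.coe_ϖF, h]
  rfl

end basic

variable [Fact q.Prime] [CharP k q] (T : Two D q)

/-- **ORTH** : `O = ⊕ O_{M₀} j_q ^ i`. -/
theorem mem_O_iff (a : Fin (q + 1) → D.F0) :
    ∑ i, T.al (a i) * T.be D.jF ^ (i : ℕ) ∈ T.O ↔ ∀ i, a i ∈ D.gaussO := by
  constructor
  · intro hf
    by_contra hne
    push Not at hne
    obtain ⟨i1, hi1⟩ := hne
    have hi1' : a i1 ≠ 0 := by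
      intro h
      rw [h] at hi1
      exact hi1 (zero_mem _)
    obtain ⟨i0, h0, hmax⟩ := exists_max D a ⟨i1, hi1'⟩
    have hn : a i0 ∉ D.gaussO := by
      intro h
      apply hi1
      have := D.gaussO.mul_mem _ _ (hmax i1) h
      rwa [div_mul_cancel₀ _ h0] at this
    have hinv : (a i0)⁻¹ ∈ D.gaussO := (D.gaussO.mem_or_inv_mem (a i0)).resolve_left hn
    obtain ⟨z, hz, hz'⟩ := D.isUnif.gen _ hinv (by rwa [inv_inv])
    rw [pow_one] at hz'
    have h0' : (a i0 : LaurentSeries K) ≠ 0 := fun h => h0 (Subtype.ext h)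
    have hone : D.ϖE * (z : LaurentSeries K) * (a i0 : LaurentSeries K) = 1 := by
      rw [← D.coe_ϖF, ← IntermediateField.coe_mul, ← hz', IntermediateField.coe_inv,
        inv_mul_cancel₀ h0']
    have hone' : D.ϖE * qExpand K q (z : LaurentSeries K) * qExpand K q (a i0 : LaurentSeries K)
        = 1 := by
      rw [← qExpand_ϖE (D := D) (q := q), ← map_mul, ← map_mul, hone, map_one]
    refine orth_false D q a i0 h0 hmax ⟨_, mul_mem hf.1 hz, ?_⟩
      ⟨T.e2 (∑ i, T.al (a i) * T.be D.jF ^ (i : ℕ)) * qExpand K q (z : LaurentSeries K),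
        mul_mem hf.2 (qExpand_mem_LamRing q hz), ?_⟩
    · show _ = D.ϖE * (((∑ i, T.al (a i) * T.be D.jF ^ (i : ℕ) : T.F) : LaurentSeries K)
        * (z : LaurentSeries K)) * _
      rw [coe_sum]
      linear_combination (-(∑ i, (a i : LaurentSeries K) * qExpand K q (jqModC K) ^ (i : ℕ))) * hone
    · rw [e2_sum]
      linear_combination
        (-(∑ i, qExpand K q (a i : LaurentSeries K) * jqModC K ^ (i : ℕ))) * hone'
  · intro ha
    exact sum_mem fun i _ => mul_mem (T.al_mem_O (ha i)) (pow_mem (T.be_mem_O jF_mem_gaussO) _)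

/-- **ORTH** : independence. -/
theorem sum_eq_zero_iff (a : Fin (q + 1) → D.F0) :
    ∑ i, T.al (a i) * T.be D.jF ^ (i : ℕ) = 0 ↔ ∀ i, a i = 0 := by
  constructor
  · intro h
    apply orth_indep D q a
    · rw [← coe_sum, h]
      rfl
    · rw [← e2_sum, h, map_zero]
  · intro h
    exact Finset.sum_eq_zero fun i _ => by rw [h i, map_zero, zero_mul]

/-- **ORTH** : `ϖ ^ n O = ⊕ ϖ ^ n O_{M₀} j_q ^ i`. -/
theorem divS_O_iff (n : ℕ) (a : Fin (q + 1) → D.F0) :
    DivS T.O T.ϖF n (∑ i, T.al (a i) * T.be D.jF ^ (i : ℕ)) ↔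
      ∀ i, DivO D.gaussO D.ϖF n (a i) := by
  constructor
  · rintro ⟨y, hy, h⟩
    obtain ⟨b, rfl⟩ := T.exists_rep y
    rw [mem_O_iff] at hy
    have h2 : ∑ i, T.al (a i - D.ϖF ^ n * b i) * T.be D.jF ^ (i : ℕ) = 0 := by
      simp only [map_sub, map_mul, map_pow, sub_mul, Finset.sum_sub_distrib, al_ϖF]
      rw [h, Finset.mul_sum, sub_eq_zero]
      exact Finset.sum_congr rfl fun i _ => by ring
    rw [sum_eq_zero_iff] at h2
    exact fun i => ⟨b i, hy i, sub_eq_zero.mp (h2 i)⟩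
  · intro h
    choose b hb hab using h
    refine ⟨∑ i, T.al (b i) * T.be D.jF ^ (i : ℕ), (T.mem_O_iff b).2 hb, ?_⟩
    rw [Finset.mul_sum]
    refine Finset.sum_congr rfl fun i _ => ?_
    rw [hab i, map_mul, map_pow, al_ϖF]
    ring

/-- elements of `O` have coordinates in `O_{M₀}`. -/
theorem exists_rep_of_mem_O {f : T.F} (hf : f ∈ T.O) :
    ∃ a : Fin (q + 1) → D.F0, (∀ i, a i ∈ D.gaussO) ∧
      f = ∑ i, T.al (a i) * T.be D.jF ^ (i : ℕ) := by
  obtain ⟨a, rfl⟩ := T.exists_rep f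
  exact ⟨a, (T.mem_O_iff a).1 hf, rfl⟩

end Two

end Fermat.Agent.S34
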