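import Fermat.Agent.S34.NDefs
import Fermat.Agent.S34.ADefs
import Fermat.Agent.ES.QEPur
import Fermat.Agent.ES.InstUp
import Fermat.Agent.S37.KT
import Fermat.Agent.ES.InstGY

/-!
# S34, modular block : THE PLAN (typechecked statements, all proofs are stubs)

Every statement lives in `Fermat.Agent.S34.NPlan`; the real files restate them VERBATIM in
`Fermat.Agent.S34`.
-/

set_option autoImplicit false
set_option linter.unusedSectionVars false
set_option linter.unusedVariables false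

noncomputable section

namespace Fermat.Agent.S34.NPlan

open ModularCurve AlgebraicCurve Polynomial
open Fermat.Agent.S24 Fermat.Agent.S28 Fermat.Agent.ES Fermat.Agent.ES.QE Fermat.Agent.ES.Model
  Fermat.Agent.ES.IDvr Fermat.Agent.ES.Inst

section Abstract

variable {R K k : Type*} [CommRing R] [IsDomain R] [IsNoetherianRing R] [IsIntegrallyClosed R]
  [Field K] [Algebra R K] [IsFractionRing R K] [Field k]
  {D : QData R K k} {q : ℕ} [NeZero q]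

/-! ### [Q-LAM] `S34/QLam.lean` : `qExpand`, coefficientwise maps and `LamRing` (no `Two`) -/

theorem exists_prim (D : QData R K k) (w : LaurentSeries R) (hw : w ≠ 0) :
    ∃ (a : ℕ) (w' : LaurentSeries R), w = D.ϖW ^ a * w' ∧ D.red w' ≠ 0 := sorry

/-- series with bounded denominators -/
def Bdd (D : QData R K k) : Subring (LaurentSeries K) where
  carrier := {f | ∃ (c : ℕ) (t w : LaurentSeries R), D.red t ≠ 0 ∧
    D.ϖE ^ c * D.inc t * f = D.inc w}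
  mul_mem' := sorry
  one_mem' := sorry
  add_mem' := sorry
  zero_mem' := sorry
  neg_mem' := sorry

theorem mem_Bdd_of_mem_F0 {f : LaurentSeries K} (hf : f ∈ D.F0) : f ∈ Bdd D := sorry

theorem qExpand_mem_Bdd {f : LaurentSeries K} (hf : f ∈ Bdd D) : qExpand K q f ∈ Bdd D := sorry

/-- normal form: `f = ϖ ^ a * (unit of Λ)`. -/
theorem Bdd_normal {f : LaurentSeries K} (hf : f ∈ Bdd D) (hf0 : f ≠ 0) :
    ∃ (a : ℤ) (g : LaurentSeries K), g ∈ D.LamRing ∧ g⁻¹ ∈ D.LamRing ∧ f = D.ϖE ^ a * g := sorry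

theorem qExpand_mem_LamRing {f : LaurentSeries K} (hf : f ∈ D.LamRing) :
    qExpand K q f ∈ D.LamRing := sorry

theorem rho_qExpand (f : D.LamRing) :
    D.rho ⟨qExpand K q (f : LaurentSeries K), qExpand_mem_LamRing f.2⟩ = qExpand k q (D.rho f) :=
  sorry

theorem qExpand_jqModC_eq_pow (hq : q.Prime) [CharP k q] :
    qExpand k q (jqModC k) = jqModC k ^ q := sorry

/-! ### [Q-ORTH] `S34/Orth.lean` (helper20) -/

theorem orth_core (D : QData R K k) (hq : q.Prime) [CharP k q] (a : Fin (q + 1) → D.F0)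
    (ha : ∀ i, a i ∈ D.gaussO)
    (h1 : ∃ g ∈ D.LamRing,
      ∑ i, (a i : LaurentSeries K) * qExpand K q (jqModC K) ^ (i : ℕ) = D.ϖE * g)
    (h2 : ∃ g ∈ D.LamRing,
      ∑ i, qExpand K q (a i : LaurentSeries K) * jqModC K ^ (i : ℕ) = D.ϖE * g) :
    ∀ i, DivO D.gaussO D.ϖF 1 (a i) := sorry

theorem orth_indep (D : QData R K k) (hq : q.Prime) [CharP k q] (a : Fin (q + 1) → D.F0)
    (h1 : ∑ i, (a i : LaurentSeries K) * qExpand K q (jqModC K) ^ (i : ℕ) = 0)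
    (h2 : ∑ i, qExpand K q (a i : LaurentSeries K) * jqModC K ^ (i : ℕ) = 0) : a = 0 := sorry

variable (T : Two D q)

theorem exists_rep (f : T.F) : ∃ a : Fin (q + 1) → D.F0, f = ∑ i, T.al (a i) * T.be D.jF ^ (i : ℕ) :=
  sorry

theorem mem_O_iff (hq : q.Prime) [CharP k q] (a : Fin (q + 1) → D.F0) :
    ∑ i, T.al (a i) * T.be D.jF ^ (i : ℕ) ∈ T.O ↔ ∀ i, a i ∈ D.gaussO := sorry

/-! ### [Q-VAL] `S34/QVal.lean` : the two valuations -/

theorem e1_mem_Bdd (f : T.F) : T.e1 f ∈ Bdd D := sorry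
theorem e2_mem_Bdd (f : T.F) : T.e2 f ∈ Bdd D := sorry
theorem mem_V1 {f : T.F} : f ∈ T.V1 ↔ f ∈ T.O1 := sorry
theorem mem_V2 {f : T.F} : f ∈ T.V2 ↔ f ∈ T.O2 := sorry
theorem OO_eq : OO T.V1 T.V2 = T.O := sorry
theorem isUnif_V1 : IsUnif T.V1 T.ϖF := sorry
theorem isUnif_V2 : IsUnif T.V2 T.ϖF := sorry
theorem disc_V1 (x : T.F) (hx : x ≠ 0) :
    ∃ a : ℤ, x * T.ϖF ^ a ∈ T.V1 ∧ (x * T.ϖF ^ a)⁻¹ ∈ T.V1 := sorry
theorem disc_V2 (x : T.F) (hx : x ≠ 0) :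
    ∃ a : ℤ, x * T.ϖF ^ a ∈ T.V2 ∧ (x * T.ϖF ^ a)⁻¹ ∈ T.V2 := sorry
theorem rho1_eq_zero_iff (f : T.O1) : T.rho1 f = 0 ↔ DivO T.V1 T.ϖF 1 (f : T.F) := sorry
theorem rho2_eq_zero_iff (f : T.O2) : T.rho2 f = 0 ↔ DivO T.V2 T.ϖF 1 (f : T.F) := sorry
theorem al_mem_O {u : D.F0} (hu : u ∈ D.gaussO) : T.al u ∈ T.O := sorry
theorem be_mem_O {u : D.F0} (hu : u ∈ D.gaussO) : T.be u ∈ T.O := sorry
theorem rho1_al (u : D.gaussO) : T.rho1 ⟨T.al u, (al_mem_O T u.2).1⟩ = D.rhoO u := sorry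
theorem rho2_al (u : D.gaussO) : T.rho2 ⟨T.al u, (al_mem_O T u.2).2⟩ = qExpand k q (D.rhoO u) :=
  sorry
theorem rho1_be (u : D.gaussO) : T.rho1 ⟨T.be u, (be_mem_O T u.2).1⟩ = qExpand k q (D.rhoO u) :=
  sorry
theorem rho2_be (u : D.gaussO) : T.rho2 ⟨T.be u, (be_mem_O T u.2).2⟩ = D.rhoO u := sorry

/-! ### [Q-CHART] `S34/QChart.lean` : the chart `T.chart X` (copy of `QEChart`, `QEFin`) -/

variable (X : D.Coord)

theorem chart_le_V1 : ∀ f ∈ T.chart X, f ∈ T.V1 := sorry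
theorem chart_le_V2 : ∀ f ∈ T.chart X, f ∈ T.V2 := sorry

/-- every element of `O` has a primitive denominator. -/
theorem exists_mul_mem_chart (hq : q.Prime) [CharP k q] {g : T.F} (hg : g ∈ T.O) :
    ∃ σ : R[X], ¬ C D.ϖ ∣ σ ∧ T.al (X.phiF σ) * g ∈ T.chart X := sorry

theorem isChartS (hq : q.Prime) [CharP k q] {m : ℕ} (hm : IsUnit (m : R)) :
    IsChartS (OO T.V1 T.V2) T.ϖF m (T.chart X) := sorry

theorem frac (f : T.F) : ∃ a ∈ T.chart X, ∃ b ∈ T.chart X, b ≠ 0 ∧ f * b = a := sorry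

theorem RF_le_chart : T.RF ≤ T.chart X := sorry
theorem ϖF_mem_RF : T.ϖF ∈ T.RF := sorry
theorem isNoetherianRing_RF : IsNoetherianRing T.RF := sorry

set_option synthInstance.maxHeartbeats 400000 in
theorem hfin [CharZero K] : ∃ S : Finset T.F, ∀ f ∈ T.chart X,
    f ∈ Submodule.span (Subring.closure ((T.RF : Set T.F) ∪ {T.x X})) (S : Set T.F) := sorry

/-- `β` maps the chart of level `M₀` to the chart of level `N` (W-stability). -/
theorem be_mem_chart (hVx : X.phi.IsIntegralElem (qExpand K q (D.inc X.xW))) {b : D.F0}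
    (hb : b ∈ X.chart) : T.be b ∈ T.chart X := sorry

/-! ### [Q-CHART2] `S34/QChart2.lean` : the two charts (copy of `QEChart2`, `InstConst`) -/

variable (y : LaurentSeries R) (hy : X.xW * y = 1)

theorem x_ne_zero : T.x X ≠ 0 := sorry
theorem x_inv : T.x (X.inv y hy) = (T.x X)⁻¹ := sorry
theorem x_mem_chart : T.x X ∈ T.chart X := sorry
theorem chart_le_chart12 : T.chart X ≤ T.chart12 X := sorry
theorem inv_chart_le_chart12 : T.chart (X.inv y hy) ≤ T.chart12 X := sorry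
theorem h12b {f : T.F} (hf : f ∈ T.chart12 X) :
    ∃ n : ℕ, (T.x X)⁻¹ ^ n * f ∈ T.chart (X.inv y hy) := sorry
theorem isChartS12 (hq : q.Prime) [CharP k q] {m : ℕ} (hm : IsUnit (m : R)) :
    IsChartS (OO T.V1 T.V2) T.ϖF m (T.chart12 X) := sorry
theorem const_of_mem_charts (f : T.F) (h1 : f ∈ T.chart X) (h2 : f ∈ T.chart (X.inv y hy)) :
    ∃ c : K, f = algebraMap K T.F c := sorry

/-! ### [Q-NOETH] `S34/QNoeth.lean` : noetherian, generic fibre Dedekind (helper8) -/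

theorem isNoetherianRing_chart [CharZero K] : IsNoetherianRing (T.chart X) := sorry

theorem isDedekindDomain_awayS [CharZero K] [IsDiscreteValuationRing R] :
    IsDedekindDomain (awayS (T.chart X) T.ϖF (T.ϖF_mem_chart X)) := sorry

/-! ### [Q-GAL] `S34/QGal.lean` : coefficientwise automorphisms -/

variable (S : TAut T)

theorem coeffMap_mem_LamRing {f : LaurentSeries K} (hf : f ∈ D.LamRing) :
    coeffMap (S.sK : K →+* K) f ∈ D.LamRing := sorry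
theorem rho_coeffMap (f : D.LamRing) :
    D.rho ⟨coeffMap (S.sK : K →+* K) (f : LaurentSeries K), coeffMap_mem_LamRing T S f.2⟩
      = coeffMap (S.sk : k →+* k) (D.rho f) := sorry
/-- the inverse automorphism -/
def TAut.symm (S : TAut T) : TAut T where
  sK := S.sK.symm
  sR := S.sR.symm
  sk := S.sk.symm
  hK := sorry
  hk := sorry
  map_F0 := sorry
  map_F := sorry
theorem symm_toF (f : T.F) : (TAut.symm T S).toF f = S.toF.symm f := sorry
theorem symm_toF0 (f : D.F0) : (TAut.symm T S).toF0 f = S.toF0.symm f := sorry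
theorem e2_toF (f : T.F) : T.e2 (S.toF f) = coeffMap (S.sK : K →+* K) (T.e2 f) := sorry
theorem toF_al (u : D.F0) : S.toF (T.al u) = T.al (S.toF0 u) := sorry
theorem toF_be (u : D.F0) : S.toF (T.be u) = T.be (S.toF0 u) := sorry
theorem toF_mem_V1 {f : T.F} (hf : f ∈ T.V1) : S.toF f ∈ T.V1 := sorry
theorem toF_mem_V2 {f : T.F} (hf : f ∈ T.V2) : S.toF f ∈ T.V2 := sorry
theorem toF0_mem_gaussO {f : D.F0} (hf : f ∈ D.gaussO) : S.toF0 f ∈ D.gaussO := sorry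
theorem rhoO_toF0 (f : D.gaussO) :
    D.rhoO ⟨S.toF0 f, toF0_mem_gaussO T S f.2⟩ = coeffMap (S.sk : k →+* k) (D.rhoO f) := sorry
theorem toF_mem_chart (hx : coeffMap (S.sR : R →+* R) X.xW = X.xW) {f : T.F}
    (hf : f ∈ T.chart X) : S.toF f ∈ T.chart X := sorry
theorem toF0_mem_chart (hx : coeffMap (S.sR : R →+* R) X.xW = X.xW) {f : D.F0}
    (hf : f ∈ X.chart) : S.toF0 f ∈ X.chart := sorry
theorem toF_ϖF : ∃ c ∈ T.RF, c⁻¹ ∈ T.RF ∧ S.toF T.ϖF = c * T.ϖF := sorry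
/-- inertia -/
theorem isInert_V1 (hS : ∀ c, S.sk c = c) : IsInertV T.V1 T.ϖF S.toF := sorry
theorem isInert_V2 (hS : ∀ c, S.sk c = c) : IsInertV T.V2 T.ϖF S.toF := sorry
/-- Frobenius: `c(T^q) = (Φ⁻¹ c)^q`. -/
theorem qExpand_rhoO (hq : q.Prime) [CharP k q] (hS : ∀ c, S.sk c = c ^ q) (f : D.gaussO) :
    qExpand k q (D.rhoO f)
      = D.rhoO ⟨S.toF0.symm f, by
          rw [← symm_toF0]; exact toF0_mem_gaussO T (TAut.symm T S) f.2⟩ ^ q := sorry

/-! ### [Q-RED] `S34/QRed.lean` : the two components of the special fibre -/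

/-- level `M₀`: the special fibre of the chart is integrally closed in the residue field. -/
theorem red_core (hded : IsDedekindDomain (X.chart ⧸ Ideal.span {Inst.ϖB X})) (g : D.gaussO)
    (hg : IsIntegral X.rhoB.range (D.rhoO g)) : ∃ b : X.chart, X.rhoB b = D.rhoO g := sorry

/-- the hypotheses on the coordinate at level `N`. -/
structure Good (T : Two D q) (X : D.Coord) (Φ : TAut T) : Prop where
  prime : q.Prime
  char : CharP k q
  ded : IsDedekindDomain (X.chart ⧸ Ideal.span {Inst.ϖB X})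
  frob : ∀ c, Φ.sk c = c ^ q
  fix : coeffMap (Φ.sR : R →+* R) X.xW = X.xW
  Vx : X.phi.IsIntegralElem (qExpand K q (D.inc X.xW))

variable (Φ : TAut T)

/-- `B ∩ ϖ O₁`. -/
abbrev P1 : Ideal (T.chart X) := pId T.V1 T.ϖF (T.chart X) (chart_le_V1 T X)
/-- `B ∩ ϖ O₂`. -/
abbrev P2 : Ideal (T.chart X) := pId T.V2 T.ϖF (T.chart X) (chart_le_V2 T X)

/-- reduction of the chart along the first component. -/
def r1 : T.chart X →+* LaurentSeries k :=
  T.rho1.comp (Subring.inclusion (fun f hf => (mem_V1 T).1 (chart_le_V1 T X f hf)))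
/-- reduction of the chart along the second component. -/
def r2 : T.chart X →+* LaurentSeries k :=
  T.rho2.comp (Subring.inclusion (fun f hf => (mem_V2 T).1 (chart_le_V2 T X f hf)))

theorem ker_r1 : RingHom.ker (r1 T X) = P1 T X := sorry
theorem ker_r2 : RingHom.ker (r2 T X) = P2 T X := sorry
theorem range_r1 (h : Good T X Φ) : (r1 T X).range = X.rhoB.range := sorry
theorem range_r2 (h : Good T X Φ) : (r2 T X).range = X.rhoB.range := sorry
theorem isDedekindDomain_P1 (h : Good T X Φ) : IsDedekindDomain (T.chart X ⧸ P1 T X) := sorry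
theorem isDedekindDomain_P2 (h : Good T X Φ) : IsDedekindDomain (T.chart X ⧸ P2 T X) := sorry
theorem P1_ne (h : Good T X Φ) (n : Ideal (T.chart X)) (hn : n.IsMaximal) : P1 T X ≠ n := sorry
theorem P2_ne (h : Good T X Φ) (n : Ideal (T.chart X)) (hn : n.IsMaximal) : P2 T X ≠ n := sorry
theorem hFr1 (h : Good T X Φ) : ∀ b : T.chart X, ∃ b' : T.chart X, ∃ x ∈ P2 T X,
    x - (b' ^ (q ^ 2) - b) ∈ P1 T X := sorry
theorem hFr2 (h : Good T X Φ) : ∀ b : T.chart X, ∃ b' : T.chart X, ∃ x ∈ P1 T X,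
    x - (b' ^ (q ^ 2) - b) ∈ P2 T X := sorry

/-! ### [Q-NODE] `S34/QNode.lean` : `NodeData`, `SChart` -/

/-- nodes are not cusps. -/
theorem x_notMem_of_node (h : Good T X Φ) (θ : T.F) (hθ : θ ∈ T.chart X)
    (hθx : θ * T.x X = T.be X.x ^ q) (n : Ideal (T.chart X)) (hn : n.IsMaximal)
    (h1 : P1 T X ≤ n) (h2 : P2 T X ≤ n) : (⟨T.x X, x_mem_chart T X⟩ : T.chart X) ∉ n := sorry

/-- **OUTPUT of the abstract modular block** : the chart data of `ADefs`. -/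
theorem sChart [CharZero K] [IsDiscreteValuationRing R] (h : Good T X Φ) {m : ℕ}
    (hm : IsUnit (m : R)) (θ : T.F) (hθ : θ ∈ T.chart X) (hθx : θ * T.x X = T.be X.x ^ q)
    (Xu Yu : T.F) (hXu : Xu ∈ T.chart X) (hYu : Yu ∈ T.chart X) (c e : ℕ)
    (hXY : Xu * Yu = T.ϖF ^ c * T.x X ^ e) (hX1 : ¬ DivO T.V1 T.ϖF 1 Xu)
    (hX2 : DivO T.V2 T.ϖF 1 Xu) : SChart T.V1 T.V2 T.ϖF m (T.chart X) := sorry

/-- [Q-NODE], final shape (`T.p1`, `T.p2` of `NDefs`): the field `xy` of `NodeData`. -/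
theorem xy_of (hq : q.Prime) [CharP k q]
    (hxq : qExpand k q (D.red X.xW) = D.red X.xW ^ q)
    (θ : T.chart X) (hθx : (θ : T.F) * T.x X = T.be X.x ^ q)
    (Xu Yu : T.chart X) (c e : ℕ) (hXY : (Xu : T.F) * Yu = T.ϖF ^ c * T.x X ^ e)
    (hX1 : ¬ DivS T.O1 T.ϖF 1 (Xu : T.F)) (hX2 : DivS T.O2 T.ϖF 1 (Xu : T.F)) :
    ∀ n : Ideal (T.chart X), n.IsMaximal → T.p1 X ≤ n → T.p2 X ≤ n →
      ∃ (X' Y' s0 : T.chart X) (c : ℕ), X' * Y' = T.ϖB X ^ c * s0 ∧ s0 ∉ n ∧ X' ∉ T.p1 X ∧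
        X' ∈ T.p2 X := sorry

/-- saturation, iterated. -/
theorem mem_chart_of_pow_mul (hq : q.Prime) [CharP k q] {f : T.F} (hf : f ∈ T.O) (c : ℕ)
    (h : T.ϖF ^ c * f ∈ T.chart X) : f ∈ T.chart X := sorry

end Abstract

/-! ## Instantiation : `N = M₀ q`, `R = R0 K0 A`, `K = K0`, `k = kA A` -/

section Inst

variable (M0 q : ℕ) [NeZero M0] [NeZero q]

instance : NeZero (M0 * q) := ⟨mul_ne_zero (NeZero.ne M0) (NeZero.ne q)⟩

/-! ### [N-INCL] `S34/NIncl.lean` -/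

theorem F0_le (K : Type*) [Field K] : F0 K M0 ≤ F0 K (M0 * q) := sorry

theorem V_mem_F0 (K : Type*) [Field K] {u : LaurentSeries K} (hu : u ∈ F0 K M0) :
    qExpand K q u ∈ F0 K (M0 * q) := sorry

/-- `bc` versus the degeneracy maps. -/
theorem bc_alpha (K0 : IntermediateField ℚ Kb) {u : LaurentSeries K0} (hu : u ∈ F0 K0 M0) :
    ((heckeAlphaBar Kb M0 q ⟨bc K0 u, bc_mem K0 M0 hu⟩ : FF (M0 * q)) : LaurentSeries Kb)
      = bc K0 u := sorry

theorem bc_beta (K0 : IntermediateField ℚ Kb) {u : LaurentSeries K0} (hu : u ∈ F0 K0 M0) :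
    ((heckeBetaBar Kb M0 q ⟨bc K0 u, bc_mem K0 M0 hu⟩ : FF (M0 * q)) : LaurentSeries Kb)
      = bc K0 (qExpand K0 q u) := sorry

/-! ### [N-JQ] `S34/NJq.lean` : `j(T^q)` is integral over `R[j]` (ModEq over `R ∋ ζ_q`) -/

theorem exists_K1_jq (A : ValuationSubring Kb) :
    ∃ K1 : IntermediateField ℚ Kb, FiniteDimensional ℚ K1 ∧
      ∀ K0 : IntermediateField ℚ Kb, FiniteDimensional ℚ K0 → K1 ≤ K0 →
        ((coeffMap (algebraMap (R0 K0 A) K0)).comp (evS (jqModC (R0 K0 A)))).IsIntegralElem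
          (qExpand K0 q (jqModC K0)) := sorry

/-! ### [N-SPAN] `S34/NSpan.lean` : `FF (M₀ q) = ⊕_{i ≤ q} α(FF M₀) (β j)^i` -/

theorem span_Kb (hq : q.Prime) (hqM : ¬ q ∣ M0) (f : FF (M0 * q)) :
    ∃ a : Fin (q + 1) → FF M0,
      f = ∑ i, heckeAlphaBar Kb M0 q (a i) * heckeBetaBar Kb M0 q (jF M0) ^ (i : ℕ) := sorry

/-! ### [N-TWO] `S34/NTwo.lean` : the structure `Two` -/

theorem exists_two (hq : q.Prime) (hqM : ¬ q ∣ M0) (A : ValuationSubring Kb)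
    (W : FF (M0 * q) ≃ₐ[Kb] FF (M0 * q))
    (hWα : ∀ y : FF M0, W (heckeAlphaBar Kb M0 q y) = heckeBetaBar Kb M0 q y)
    (hWβ : ∀ y : FF M0, W (heckeBetaBar Kb M0 q y) = heckeAlphaBar Kb M0 q y) :
    ∃ K1 : IntermediateField ℚ Kb, FiniteDimensional ℚ K1 ∧
      ∀ K0 : IntermediateField ℚ Kb, FiniteDimensional ℚ K0 → K1 ≤ K0 →
        ∀ [IsDiscreteValuationRing (R0 K0 A)] (D : QData (R0 K0 A) K0 (kA A)), D.F0 = F0 K0 M0 →
          ∃ T : Two D q, T.F = F0 K0 (M0 * q) ∧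
            ∀ (f : T.F) (hf : bc K0 (f : LaurentSeries K0) ∈ modularFunctionFieldBar (M0 * q)),
              bc K0 (T.e2 f) = ((W ⟨_, hf⟩ : FF (M0 * q)) : LaurentSeries Kb) := sorry

/-! ### [N-K0] `S34/NK0.lean` : large NORMAL number fields -/

theorem exists_K0_normal (N : ℕ) [NeZero N] (K1 : IntermediateField ℚ Kb) [FiniteDimensional ℚ K1]
    (S : Finset (FF N)) :
    ∃ K0 : IntermediateField ℚ Kb, FiniteDimensional ℚ K0 ∧ Normal ℚ K0 ∧ K1 ≤ K0 ∧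
      ∀ f ∈ S, ∃ f0 ∈ F0 K0 N, bc K0 f0 = (f : LaurentSeries Kb) := sorry

/-! ### [N-GAL] `S34/NGal.lean` : the Galois action -/

variable {M0 q}

theorem exists_tAut {K0 : IntermediateField ℚ Kb} [Normal ℚ K0] {A : ValuationSubring Kb}
    [IsDiscreteValuationRing (R0 K0 A)]
    (σ : GQ) (hσ : σ ∈ A.decompositionSubgroup ℚ)
    (D : QData (R0 K0 A) K0 (kA A)) (hF : D.F0 = F0 K0 M0) (hres : D.res = res0 K0 A)
    (T : Two D q) (hT : T.F = F0 K0 (M0 * q)) :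
    ∃ S : TAut T, (∀ x : K0, ((S.sK x : K0) : Kb) = σ (x : Kb)) ∧
      (∀ (a : A) (ha : σ (a : Kb) ∈ A),
        S.sk (IsLocalRing.residue A a) = IsLocalRing.residue A ⟨σ (a : Kb), ha⟩) := sorry

theorem sk_of_inertia {K0 : IntermediateField ℚ Kb} {A : ValuationSubring Kb}
    [IsDiscreteValuationRing (R0 K0 A)]
    (σ : GQ) (hσ : σ ∈ A.inertiaSubgroupIn ℚ) {D : QData (R0 K0 A) K0 (kA A)} {T : Two D q}
    (S : TAut T) (hS : ∀ (a : A) (ha : σ (a : Kb) ∈ A),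
        S.sk (IsLocalRing.residue A a) = IsLocalRing.residue A ⟨σ (a : Kb), ha⟩) :
    ∀ c, S.sk c = c := sorry

theorem sk_of_frobenius {K0 : IntermediateField ℚ Kb} {A : ValuationSubring Kb}
    [IsDiscreteValuationRing (R0 K0 A)]
    (σ : GQ) (hσ : A.IsFrobeniusAt σ q) {D : QData (R0 K0 A) K0 (kA A)} {T : Two D q}
    (S : TAut T) (hS : ∀ (a : A) (ha : σ (a : Kb) ∈ A),
        S.sk (IsLocalRing.residue A a) = IsLocalRing.residue A ⟨σ (a : Kb), ha⟩) :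
    ∀ c, S.sk c = c ^ q := sorry

/-- integral series are fixed. -/
theorem sR_zS {K0 : IntermediateField ℚ Kb} {A : ValuationSubring Kb}
    [IsDiscreteValuationRing (R0 K0 A)]
    {D : QData (R0 K0 A) K0 (kA A)} {T : Two D q} (S : TAut T) (x : LaurentSeries ℤ) :
    coeffMap (S.sR : R0 K0 A →+* R0 K0 A) (zS (R0 K0 A) x) = zS (R0 K0 A) x := sorry

/-- compatibility with `gal`. -/
theorem bc_toF {K0 : IntermediateField ℚ Kb} {A : ValuationSubring Kb}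
    [IsDiscreteValuationRing (R0 K0 A)] (σ : GQ)
    {D : QData (R0 K0 A) K0 (kA A)} {T : Two D q} (S : TAut T)
    (hS : ∀ x : K0, ((S.sK x : K0) : Kb) = σ (x : Kb)) (f : T.F)
    (hf : bc K0 (f : LaurentSeries K0) ∈ modularFunctionFieldBar (M0 * q)) :
    bc K0 ((S.toF f : T.F) : LaurentSeries K0)
      = ((gal (M0 * q) σ ⟨_, hf⟩ : FF (M0 * q)) : LaurentSeries Kb) := sorry

/-! ### [N-DESC] `S34/NDesc.lean` : integrality over `K0[x]` versus `Kb[x]` (copy of `InstDesc`) -/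

theorem isIntK_iff_series {K0 : IntermediateField ℚ Kb} {A : ValuationSubring Kb}
    [IsDiscreteValuationRing (R0 K0 A)] (N : ℕ)
    (D : QData (R0 K0 A) K0 (kA A)) (X : D.Coord) (f : LaurentSeries K0)
    (hx : bc K0 (X.x : LaurentSeries K0) ∈ modularFunctionFieldBar N)
    (hf : bc K0 f ∈ modularFunctionFieldBar N) :
    (∃ c : ℕ, X.phi.IsIntegralElem (D.ϖE ^ c * f)) ↔
      IsIntegral (Algebra.adjoin Kb {(⟨_, hx⟩ : FF N)}) (⟨_, hf⟩ : FF N) := sorry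

/-! ### [N-WX], [N-XU] `ES/HauptW.lean`, `S34/NXu.lean` (helper25, helper3) : `Kb`-level -/

/-- the properties of the coordinate `x = t_r` of level `M₀` (`r ∣ M₀`) at level `M₀ q`. -/
structure WGood (M0 q : ℕ) [NeZero M0] [NeZero q] (x : FF M0) : Prop where
  /-- same sign, and comparison of the orders, at every place -/
  pos : ∀ v : Place Kb (FF (M0 * q)), 0 ≤ v.ord (heckeAlphaBar Kb M0 q x) →
    0 ≤ v.ord (heckeBetaBar Kb M0 q x) ∧
      v.ord (heckeAlphaBar Kb M0 q x) ≤ q * v.ord (heckeBetaBar Kb M0 q x)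
  neg : ∀ v : Place Kb (FF (M0 * q)), v.ord (heckeAlphaBar Kb M0 q x) ≤ 0 →
    v.ord (heckeBetaBar Kb M0 q x) ≤ 0 ∧
      q * v.ord (heckeBetaBar Kb M0 q x) ≤ v.ord (heckeAlphaBar Kb M0 q x)
  /-- the cusps are the zeros and poles of `x` -/
  cusp : ∀ v : Place Kb (FF (M0 * q)), v.ord (jF (M0 * q)) < 0 →
    v.ord (heckeAlphaBar Kb M0 q x) ≠ 0

/-- `H_q = q^12 Δ(q z) / Δ(z)`. -/
def HqF (M0 q : ℕ) [NeZero M0] [NeZero q] : FF (M0 * q) :=
  ⟨gen Kb (M0 * q) (true, ⟨q, Nat.mem_divisors.2 ⟨dvd_mul_left q M0, NeZero.ne _⟩⟩),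
    gen_mem_FF _ _⟩

theorem W_HqF (hq : q.Prime) (hqM : ¬ q ∣ M0) (W : FF (M0 * q) ≃ₐ[Kb] FF (M0 * q))
    (hWα : ∀ y : FF M0, W (heckeAlphaBar Kb M0 q y) = heckeBetaBar Kb M0 q y)
    (hWβ : ∀ y : FF M0, W (heckeBetaBar Kb M0 q y) = heckeAlphaBar Kb M0 q y) :
    W (HqF M0 q) * HqF M0 q = (q : FF (M0 * q)) ^ 12 := sorry

theorem ord_HqF (v : Place Kb (FF (M0 * q))) (hv : 0 ≤ v.ord (jF (M0 * q))) :
    v.ord (HqF M0 q) = 0 := sorry

open IntermediateField in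
/-- [N-XY] `S34/NXy.lean`. -/
theorem exists_xy {M0 q : ℕ} [NeZero M0] [NeZero q] (hq : q.Prime) (hqM : ¬ q ∣ M0)
    {K0 : IntermediateField ℚ Kb} {A : ValuationSubring Kb} (hA : A.LiesOverPrime q)
    [IsDiscreteValuationRing (R0 K0 A)]
    (D : QData (R0 K0 A) K0 (kA A)) (hF : D.F0 = F0 K0 M0) (hres : D.res = res0 K0 A)
    (T : Two D q) (hT : T.F = F0 K0 (M0 * q))
    (W : FF (M0 * q) ≃ₐ[Kb] FF (M0 * q))
    (hWα : ∀ y : FF M0, W (heckeAlphaBar Kb M0 q y) = heckeBetaBar Kb M0 q y)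
    (hWβ : ∀ y : FF M0, W (heckeBetaBar Kb M0 q y) = heckeAlphaBar Kb M0 q y)
    (hTW : ∀ (f : T.F) (hf : bc K0 (f : LaurentSeries K0) ∈ modularFunctionFieldBar (M0 * q)),
      bc K0 (T.e2 f) = ((W ⟨_, hf⟩ : FF (M0 * q)) : LaurentSeries Kb))
    (X : D.Coord) (y : LaurentSeries (R0 K0 A)) (hy : X.xW * y = 1)
    (xF : FF M0) (hx : bc K0 (X.x : LaurentSeries K0) = (xF : LaurentSeries Kb))
    (htr : Transcendental Kb (heckeAlphaBar Kb M0 q xF))
    [FiniteDimensional Kb⟮heckeAlphaBar Kb M0 q xF⟯ (FF (M0 * q))]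
    (hpos : ∀ v : Place Kb (FF (M0 * q)), 0 ≤ v.ord (heckeAlphaBar Kb M0 q xF) →
      0 ≤ v.ord (heckeBetaBar Kb M0 q xF) ∧
        v.ord (heckeAlphaBar Kb M0 q xF) ≤ q * v.ord (heckeBetaBar Kb M0 q xF))
    (hcusp : ∀ v : Place Kb (FF (M0 * q)), v.ord (jF (M0 * q)) < 0 →
      v.ord (heckeAlphaBar Kb M0 q xF) ≠ 0) :
    X.phi.IsIntegralElem (qExpand K0 q (D.inc X.xW)) ∧
    (∃ θ : T.chart X, (θ : T.F) * T.x X = T.be X.x ^ q) ∧
    ∃ (Xu Yu : T.chart X) (c e : ℕ), (Xu : T.F) * Yu = T.ϖF ^ c * T.x X ^ e ∧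
      ¬ DivS T.O1 T.ϖF 1 (Xu : T.F) ∧ DivS T.O2 T.ϖF 1 (Xu : T.F) := sorry

end Inst

end Fermat.Agent.S34.NPlan
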