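import Mathlib

/-!
# S34 : abstract lemmas for the reduction maps (Mathlib only)
-/

set_option autoImplicit false

namespace Fermat.Agent.S34.RedAbs

/-- Dedekind domains are stable under ring isomorphisms. -/
theorem isDedekindDomain_of_ringEquiv {A B : Type*} [CommRing A] [CommRing B] (e : A ≃+* B)
    [IsDedekindDomain A] : IsDedekindDomain B := by
  let _ : Algebra A B := e.toRingHom.toAlgebra
  have : IsDomain B := e.symm.injective.isDomain e.symm.toRingHom
  have : IsLocalization (⊥ : Submonoid A) B := by
    refine IsLocalization.of_le_isUnit_of_bijective ?_ e.bijective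
    rintro _ ⟨x, hx, rfl⟩
    rw [SetLike.mem_coe, Submonoid.mem_bot] at hx
    rw [hx, map_one]
    exact isUnit_one
  exact IsLocalization.isDedekindDomain A (M := ⊥) bot_le B

/-- An element of a field which is a fraction of, and integral over, the image of an integrally
closed domain lies in the image. -/
theorem mem_range_of_isIntegralElem {C L : Type*} [CommRing C] [IsDomain C] [IsIntegrallyClosed C]
    [Field L] (ρ : C →+* L) (hρ : Function.Injective ρ) (z : L) (s c : C) (hs : s ≠ 0)
    (h : ρ s * z = ρ c) (hint : ρ.IsIntegralElem z) : ∃ a : C, ρ a = z := by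
  let _ : Algebra C L := ρ.toAlgebra
  have : FaithfulSMul C L := (faithfulSMul_iff_algebraMap_injective C L).2 hρ
  let φ : FractionRing C →ₐ[C] L := IsFractionRing.liftAlgHom (K := FractionRing C) (g := Algebra.ofId C L) hρ
  have hs' : algebraMap C (FractionRing C) s ≠ 0 := by
    rw [Ne, map_eq_zero_iff _ (IsFractionRing.injective C (FractionRing C))]
    exact hs
  set y : FractionRing C := algebraMap C (FractionRing C) c / algebraMap C (FractionRing C) s with hy
  have hφy : φ y = z := by
    have h1 : φ (algebraMap C (FractionRing C) s) = ρ s := φ.commutes s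
    have h2 : φ (algebraMap C (FractionRing C) c) = ρ c := φ.commutes c
    have h3 : ρ s ≠ 0 := by rw [Ne, map_eq_zero_iff _ hρ]; exact hs
    rw [hy, map_div₀, h1, h2, ← h]
    field_simp
  have hyint : IsIntegral C y := by
    have : IsIntegral C (φ y) := by rw [hφy]; exact hint
    exact (isIntegral_algHom_iff φ φ.toRingHom.injective).mp this
  obtain ⟨a, ha⟩ := IsIntegrallyClosed.isIntegral_iff.mp hyint
  exact ⟨a, by rw [← hφy, ← ha]; exact (φ.commutes a).symm⟩

/-- The isomorphism `A / I ≃ B / p` induced by `f : A → B` which is onto modulo `p` and with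
`f ⁻¹ p = I`. -/
noncomputable def quotEquiv {A B : Type*} [CommRing A] [CommRing B] (f : A →+* B) (I : Ideal A)
    (p : Ideal B) (hsurj : ∀ b : B, ∃ a : A, b - f a ∈ p) (hker : ∀ a : A, f a ∈ p ↔ a ∈ I) :
    (A ⧸ I) ≃+* (B ⧸ p) :=
  RingEquiv.ofBijective
    (Ideal.Quotient.lift I ((Ideal.Quotient.mk p).comp f) (fun a ha => by
      rw [RingHom.comp_apply, Ideal.Quotient.eq_zero_iff_mem]
      exact (hker a).2 ha))
    (by
      constructor
      · rw [injective_iff_map_eq_zero]
        intro x hx
        obtain ⟨a, rfl⟩ := Ideal.Quotient.mk_surjective x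
        rw [Ideal.Quotient.lift_mk, RingHom.comp_apply, Ideal.Quotient.eq_zero_iff_mem] at hx
        rw [Ideal.Quotient.eq_zero_iff_mem]
        exact (hker a).1 hx
      · intro y
        obtain ⟨b, rfl⟩ := Ideal.Quotient.mk_surjective y
        obtain ⟨a, ha⟩ := hsurj b
        refine ⟨Ideal.Quotient.mk I a, ?_⟩
        rw [Ideal.Quotient.lift_mk, RingHom.comp_apply]
        exact ((Ideal.Quotient.mk_eq_mk_iff_sub_mem _ _).2 ha).symm)

/-- transfer of "Dedekind" and "prime" along `quotEquiv`. -/
theorem dedekind_of_quot {A B : Type*} [CommRing A] [CommRing B] (f : A →+* B) (I : Ideal A)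
    (p : Ideal B) (hsurj : ∀ b : B, ∃ a : A, b - f a ∈ p) (hker : ∀ a : A, f a ∈ p ↔ a ∈ I)
    [IsDedekindDomain (A ⧸ I)] : IsDedekindDomain (B ⧸ p) ∧ p.IsPrime := by
  have h := isDedekindDomain_of_ringEquiv (quotEquiv f I p hsurj hker)
  exact ⟨h, (Ideal.Quotient.isDomain_iff_prime p).mp h.toIsDomain⟩

end Fermat.Agent.S34.RedAbs
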