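import Fermat.Agent.S34.NDefs
import Fermat.Agent.S34.RedAbs
import Fermat.Agent.S34.SMod
import Fermat.Agent.ES.QEPur

/-!
# S34, modular block : the reduction maps `B → C` (package N-RED)

`B = T.chart X` (level `M₀ q`), `C = X.chart / ϖ` (level `M₀`).
* `B / p₁ ≃ C` via `α`, `B / p₂ ≃ C` via `β`;
* hence `p₁`, `p₂` are prime and `B / pᵢ` is a Dedekind domain.
-/

set_option autoImplicit false
set_option linter.unusedSectionVars false

noncomputable section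

namespace Fermat.Agent.S34

open ModularCurve Polynomial
open Fermat.Agent.ES.QE Fermat.Agent.ES.Model

variable {R K k : Type*} [CommRing R] [IsDomain R] [IsNoetherianRing R] [IsIntegrallyClosed R]
  [Field K] [Algebra R K] [IsFractionRing R K] [Field k]

namespace NRed

variable {D : QData R K k}

/-! ### `V = qExpand q` on `Λ` -/

lemma qExpand_injective (S : Type*) [CommRing S] (q : ℕ) [NeZero q] :
    Function.Injective (qExpand S q) := by
  intro f g h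
  ext n
  rw [← qExpand_coeff_mul q f n, ← qExpand_coeff_mul q g n, h]

lemma isFrac_V (q : ℕ) [NeZero q] {f : LaurentSeries K} {t w : LaurentSeries R}
    (h : D.IsFrac f t w) : D.IsFrac (qExpand K q f) (qExpand R q t) (qExpand R q w) := by
  refine ⟨?_, ?_⟩
  · have : D.red (qExpand R q t) = qExpand k q (D.red t) := coeffMap_qExpand _ _ _
    rw [this, Ne, map_eq_zero_iff _ (qExpand_injective k q)]
    exact h.1
  · have h1 : D.inc (qExpand R q t) = qExpand K q (D.inc t) := coeffMap_qExpand _ _ _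
    have h2 : D.inc (qExpand R q w) = qExpand K q (D.inc w) := coeffMap_qExpand _ _ _
    rw [h1, h2, ← h.2, map_mul]

lemma V_mem (q : ℕ) [NeZero q] {f : LaurentSeries K} (hf : f ∈ D.LamRing) :
    qExpand K q f ∈ D.LamRing := by
  obtain ⟨t, w, h⟩ := hf
  exact ⟨_, _, isFrac_V q h⟩

lemma rho_V (q : ℕ) [NeZero q] (f : D.LamRing) :
    D.rho ⟨qExpand K q f, V_mem q f.2⟩ = qExpand k q (D.rho f) := by
  obtain ⟨t, w, h⟩ := f.2
  rw [QData.rho_eq (f := ⟨qExpand K q f, V_mem q f.2⟩) (isFrac_V q h), QData.rho_eq h, map_div₀]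
  congr 1
  · exact coeffMap_qExpand _ _ _
  · exact coeffMap_qExpand _ _ _

/-! ### integrality passes to the reduction -/

lemma rho_isIntegralElem (ψ : R[X] →+* LaurentSeries R) (g : D.LamRing)
    (h : (D.inc.comp ψ).IsIntegralElem (g : LaurentSeries K)) :
    (D.red.comp ψ).IsIntegralElem (D.rho g) := by
  obtain ⟨P, hP, hroot⟩ := h
  refine ⟨P, hP, ?_⟩
  let ψ' : R[X] →+* D.LamRing :=
    (D.inc.comp ψ).codRestrict D.LamRing (fun σ => QData.inc_mem_LamRing (ψ σ))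
  have h1 : eval₂ ψ' g P = 0 := by
    apply Subtype.val_injective
    have := hom_eval₂ P ψ' D.LamRing.subtype g
    rw [Subring.coe_zero]
    change D.LamRing.subtype (eval₂ ψ' g P) = 0
    rw [this]
    exact hroot
  have h2 : D.rho.comp ψ' = D.red.comp ψ :=
    RingHom.ext fun σ => QData.rho_inc (ψ σ)
  have h3 := hom_eval₂ P ψ' D.rho g
  rw [h1, map_zero, h2] at h3
  exact h3.symm

/-! ### (LIFT) at level `M₀` -/

variable (X : D.Coord)

/-- `R[X] → B₀`. -/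
def phiC : R[X] →+* X.chart := X.phiF.codRestrict X.chart X.phiF_mem_chart

lemma rhoB_phiC (σ : R[X]) : X.rhoB (phiC X σ) = D.red (evS X.xW σ) :=
  QData.rho_inc (evS X.xW σ)

lemma rhoB_comp_phiC : X.rhoB.comp (phiC X) = D.red.comp (evS X.xW) :=
  RingHom.ext fun σ => rhoB_phiC X σ

/-- an element of the Gauss ring whose reduction is integral over the reduction of the chart is
congruent to an element of the chart. -/
theorem exists_chart_of_integral [IsDedekindDomain (X.chart ⧸ Ideal.span {X.ϖC})] (a : D.gaussO)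
    (hint : X.rhoB.IsIntegralElem (D.rhoO a)) : ∃ c : X.chart, X.rhoB c = D.rhoO a := by
  obtain ⟨s, hs, hs0, hsi, hsa⟩ := X.hloc a.2
  let ρ : (X.chart ⧸ Ideal.span {X.ϖC}) →+* LaurentSeries k :=
    Ideal.Quotient.lift _ X.rhoB (fun b hb => by
      rw [X.rhoB_eq_zero_iff]
      exact Ideal.mem_span_singleton.mp hb)
  have hρ : Function.Injective ρ := by
    rw [injective_iff_map_eq_zero]
    intro x hx
    obtain ⟨b, rfl⟩ := Ideal.Quotient.mk_surjective x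
    rw [Ideal.Quotient.lift_mk, X.rhoB_eq_zero_iff] at hx
    rw [Ideal.Quotient.eq_zero_iff_mem]
    exact Ideal.mem_span_singleton.mpr hx
  have hcomp : ρ.comp (Ideal.Quotient.mk _) = X.rhoB := RingHom.ext fun b => rfl
  have hint' : ρ.IsIntegralElem (D.rhoO a) := by
    rw [← hcomp] at hint
    exact RingHom.IsIntegralElem.of_comp hint
  have hmul : X.rhoB ⟨s, hs⟩ * D.rhoO a = X.rhoB ⟨s * a, hsa⟩ := by
    change D.rhoO ⟨s, X.chart_le_gaussO hs⟩ * D.rhoO a = D.rhoO ⟨s * a, X.chart_le_gaussO hsa⟩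
    rw [← map_mul]
    rfl
  have hs1 : X.rhoB ⟨s, hs⟩ ≠ 0 := by
    intro h0
    have h1 : D.rhoO ⟨s, X.chart_le_gaussO hs⟩ * D.rhoO ⟨s⁻¹, hsi⟩ = 1 := by
      rw [← map_mul, ← map_one D.rhoO]
      congr 1
      exact Subtype.ext (mul_inv_cancel₀ hs0)
    have h2 : D.rhoO ⟨s, X.chart_le_gaussO hs⟩ = 0 := h0
    rw [h2, zero_mul] at h1
    exact zero_ne_one h1
  have hs2 : (Ideal.Quotient.mk (Ideal.span {X.ϖC}) ⟨s, hs⟩) ≠ 0 := by
    intro h0
    apply hs1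
    have : ρ (Ideal.Quotient.mk (Ideal.span {X.ϖC}) ⟨s, hs⟩) = 0 := by rw [h0, map_zero]
    exact this
  obtain ⟨c, hc⟩ := RedAbs.mem_range_of_isIntegralElem ρ hρ (D.rhoO a) _
    (Ideal.Quotient.mk (Ideal.span {X.ϖC}) ⟨s * a, hsa⟩) hs2 hmul hint'
  obtain ⟨c, rfl⟩ := Ideal.Quotient.mk_surjective c
  exact ⟨c, hc⟩

/-! ### the two expansions -/

variable {q : ℕ} [NeZero q] (T : Two D q)

lemma e1_ϖF : T.e1 T.ϖF = D.ϖE := algebraMap_eq_C _

lemma ϖF_eq_al : T.ϖF = T.al D.ϖF := rfl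

lemma e2_ϖF : T.e2 T.ϖF = D.ϖE := by
  rw [ϖF_eq_al, T.e2_al, D.coe_ϖF, QData.ϖE, qExpand_C]

lemma ϖF_ne_zero : T.ϖF ≠ 0 := by
  intro h
  apply D.ϖE_ne_zero
  rw [← e1_ϖF T, h, map_zero]

lemma divS_comap_iff (e : T.F →+* LaurentSeries K) (he : e T.ϖF = D.ϖE) (y : T.F) :
    DivS (D.LamRing.comap e) T.ϖF 1 y ↔ ∃ g ∈ D.LamRing, e y = D.ϖE * g := by
  constructor
  · rintro ⟨z, hz, rfl⟩
    exact ⟨e z, hz, by rw [pow_one, map_mul, he]⟩
  · rintro ⟨g, hg, h⟩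
    refine ⟨(T.ϖF)⁻¹ * y, ?_, by rw [pow_one, mul_inv_cancel_left₀ (ϖF_ne_zero T)]⟩
    rw [Subring.mem_comap, map_mul, map_inv₀, he, h, inv_mul_cancel_left₀ D.ϖE_ne_zero]
    exact hg

lemma divS_O1_iff (y : T.F) :
    DivS T.O1 T.ϖF 1 y ↔ ∃ g ∈ D.LamRing, T.e1 y = D.ϖE * g := divS_comap_iff T T.e1 (e1_ϖF T) y

lemma divS_O2_iff (y : T.F) :
    DivS T.O2 T.ϖF 1 y ↔ ∃ g ∈ D.LamRing, T.e2 y = D.ϖE * g := divS_comap_iff T T.e2 (e2_ϖF T) y

/-- two elements of `Λ` with the same reduction are congruent. -/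
lemma exists_of_rho_eq {g h : D.LamRing} (e : D.rho g = D.rho h) :
    ∃ z ∈ D.LamRing, (g : LaurentSeries K) - h = D.ϖE * z := by
  have : D.rho (g - h) = 0 := by rw [map_sub, e, sub_self]
  exact QData.rho_eq_zero_iff_exists.mp this

lemma rho_eq_of_exists {g h : D.LamRing}
    (e : ∃ z ∈ D.LamRing, (g : LaurentSeries K) - h = D.ϖE * z) : D.rho g = D.rho h := by
  have : D.rho (g - h) = 0 := QData.rho_eq_zero_iff_exists.mpr e
  rwa [map_sub, sub_eq_zero] at this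

lemma jK_mem : jqModC K ∈ D.LamRing := by
  rw [← D.inc_j]
  exact QData.inc_mem_LamRing _

lemma rho_jK : D.rho ⟨jqModC K, jK_mem⟩ = jqModC k := by
  have : (⟨jqModC K, jK_mem⟩ : D.LamRing) = ⟨D.inc (jqModC R), QData.inc_mem_LamRing _⟩ :=
    Subtype.ext D.inc_j.symm
  rw [this, QData.rho_inc, D.red_j]

lemma divS_sum {O : Subring T.F} {ι : Type*} (s : Finset ι) (f : ι → T.F)
    (h : ∀ i ∈ s, DivS O T.ϖF 1 (f i)) : DivS O T.ϖF 1 (∑ i ∈ s, f i) :=
  Finset.sum_induction f (DivS O T.ϖF 1) (fun _ _ ha hb => ha.add hb)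
    ⟨0, O.zero_mem, by simp⟩ h

/-- the decomposition given by [ORTH]. -/
def HOrth : Prop := ∀ f ∈ T.O, ∃ a : Fin (q + 1) → D.F0, (∀ i, a i ∈ D.gaussO) ∧
  f = ∑ i, T.al (a i) * T.be D.jF ^ (i : ℕ)

/-- (R1O) every element of `O` is congruent modulo `ϖ O₁` to an element of `α(gaussO)`. -/
theorem exists_gauss_congr1 (hO : HOrth T) (hjq : qExpand k q (jqModC k) = jqModC k ^ q)
    (f : T.F) (hf : f ∈ T.O) : ∃ a ∈ D.gaussO, DivS T.O1 T.ϖF 1 (f - T.al a) := by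
  obtain ⟨a, ha, rfl⟩ := hO f hf
  have hj : D.jF ∈ D.gaussO := jK_mem
  refine ⟨∑ i, a i * D.jF ^ (q * (i : ℕ)), ?_, ?_⟩
  · exact sum_mem fun i _ => mul_mem (ha i) (pow_mem hj _)
  · rw [divS_O1_iff]
    let A : Fin (q + 1) → D.LamRing := fun i => ⟨(a i : LaurentSeries K), ha i⟩
    let J : D.LamRing := ⟨jqModC K, jK_mem⟩
    let VJ : D.LamRing := ⟨qExpand K q (jqModC K), V_mem q jK_mem⟩
    have hρ : D.rho (∑ i, A i * VJ ^ (i : ℕ)) = D.rho (∑ i, A i * J ^ (q * (i : ℕ))) := by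
      rw [map_sum, map_sum]
      refine Finset.sum_congr rfl fun i _ => ?_
      have h1 : D.rho VJ = qExpand k q (D.rho J) := rho_V q J
      rw [map_mul, map_mul, map_pow, map_pow, h1, rho_jK, hjq, ← pow_mul]
    obtain ⟨z, hz, h⟩ := exists_of_rho_eq hρ
    refine ⟨z, hz, ?_⟩
    have e1 : T.e1 (∑ i, T.al (a i) * T.be D.jF ^ (i : ℕ))
        = ((∑ i, A i * VJ ^ (i : ℕ) : D.LamRing) : LaurentSeries K) := by
      have h1 : ((∑ i, A i * VJ ^ (i : ℕ) : D.LamRing) : LaurentSeries K)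
          = ∑ i, ((A i * VJ ^ (i : ℕ) : D.LamRing) : LaurentSeries K) :=
        map_sum D.LamRing.subtype _ _
      rw [h1, map_sum]
      refine Finset.sum_congr rfl fun i _ => ?_
      rw [map_mul, map_pow]
      rfl
    have e2 : T.e1 (T.al (∑ i, a i * D.jF ^ (q * (i : ℕ))))
        = ((∑ i, A i * J ^ (q * (i : ℕ)) : D.LamRing) : LaurentSeries K) := by
      have h1 : ((∑ i, A i * J ^ (q * (i : ℕ)) : D.LamRing) : LaurentSeries K)
          = ∑ i, ((A i * J ^ (q * (i : ℕ)) : D.LamRing) : LaurentSeries K) :=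
        map_sum D.LamRing.subtype _ _
      rw [h1, map_sum, map_sum]
      refine Finset.sum_congr rfl fun i _ => ?_
      rw [map_mul, map_pow, map_mul, map_pow]
      rfl
    rw [map_sub, e1, e2, h]

lemma be_mem_O {a : D.F0} (ha : a ∈ D.gaussO) : T.be a ∈ T.O :=
  ⟨V_mem q ha, by
    change T.e2 (T.be a) ∈ D.LamRing
    rw [T.e2_be]
    exact ha⟩

lemma al_mem_O {a : D.F0} (ha : a ∈ D.gaussO) : T.al a ∈ T.O :=
  ⟨ha, by
    change T.e2 (T.al a) ∈ D.LamRing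
    rw [T.e2_al]
    exact V_mem q ha⟩

/-- (R2O) every element of `O` is congruent modulo `ϖ O₂` to an element of `β(gaussO)`. -/
theorem exists_gauss_congr2 (hO : HOrth T) (hjq : qExpand k q (jqModC k) = jqModC k ^ q)
    (f : T.F) (hf : f ∈ T.O) : ∃ a ∈ D.gaussO, DivS T.O2 T.ϖF 1 (f - T.be a) := by
  obtain ⟨a, ha, rfl⟩ := hO f hf
  have hj : D.jF ∈ D.gaussO := jK_mem
  have key : ∀ i, ∃ c ∈ D.gaussO, DivS T.O2 T.ϖF 1 (T.al (a i) - T.be c) := by
    intro i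
    obtain ⟨c, hc, h⟩ := exists_gauss_congr1 T hO hjq (T.be (a i)) (be_mem_O T (ha i))
    refine ⟨c, hc, ?_⟩
    rw [divS_O1_iff] at h
    rw [divS_O2_iff]
    obtain ⟨g, hg, h⟩ := h
    refine ⟨g, hg, ?_⟩
    rw [← h, map_sub, map_sub, T.e2_al, T.e2_be]
    rfl
  choose c hc hcd using key
  refine ⟨∑ i, c i * D.jF ^ (i : ℕ), ?_, ?_⟩
  · exact sum_mem fun i _ => mul_mem (hc i) (pow_mem hj _)
  · rw [map_sum, ← Finset.sum_sub_distrib]
    refine divS_sum T _ _ fun i _ => ?_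
    have : T.al (a i) * T.be D.jF ^ (i : ℕ) - T.be (c i * D.jF ^ (i : ℕ))
        = (T.al (a i) - T.be (c i)) * T.be D.jF ^ (i : ℕ) := by
      rw [map_mul, map_pow]; ring
    rw [this]
    exact (hcd i).mul_right (pow_mem (be_mem_O T hj).2 _)

/-! ### the reduction maps on the chart -/

lemma V_evS (S : Type*) [CommRing S] (x : LaurentSeries S) (σ : S[X]) :
    qExpand S q (evS x σ) = evS (qExpand S q x) σ := by
  rw [evS_apply, evS_apply, hom_eval₂]
  congr 1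
  exact RingHom.ext fun a => qExpand_C q a

lemma evS_pow (S : Type*) [CommRing S] (x : LaurentSeries S) (n : ℕ) (σ : S[X]) :
    evS (x ^ n) σ = evS x (σ.comp (Polynomial.X ^ n)) := by
  rw [evS_apply, evS_apply, eval₂_comp, eval₂_pow, eval₂_X]

lemma divS_O1_al {a c : D.F0} (ha : a ∈ D.gaussO) (hc : c ∈ D.gaussO)
    (h : D.rhoO ⟨c, hc⟩ = D.rhoO ⟨a, ha⟩) : DivS T.O1 T.ϖF 1 (T.al (a - c)) := by
  rw [divS_O1_iff]
  obtain ⟨z, hz, e⟩ := exists_of_rho_eq (g := ⟨(a : LaurentSeries K), ha⟩)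
    (h := ⟨(c : LaurentSeries K), hc⟩) h.symm
  exact ⟨z, hz, e⟩

lemma divS_O2_be {a c : D.F0} (ha : a ∈ D.gaussO) (hc : c ∈ D.gaussO)
    (h : D.rhoO ⟨c, hc⟩ = D.rhoO ⟨a, ha⟩) : DivS T.O2 T.ϖF 1 (T.be (a - c)) := by
  rw [divS_O2_iff, T.e2_be]
  obtain ⟨z, hz, e⟩ := exists_of_rho_eq (g := ⟨(a : LaurentSeries K), ha⟩)
    (h := ⟨(c : LaurentSeries K), hc⟩) h.symm
  exact ⟨z, hz, e⟩

/-- **RED1** -/
theorem red1 [IsDedekindDomain (X.chart ⧸ Ideal.span {X.ϖC})] (hO : HOrth T)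
    (hjq : qExpand k q (jqModC k) = jqModC k ^ q) (hle : ∀ b ∈ T.chart X, b ∈ T.O)
    (b : T.F) (hb : b ∈ T.chart X) : ∃ c : X.chart, DivS T.O1 T.ϖF 1 (b - T.al c) := by
  obtain ⟨a, ha, h⟩ := exists_gauss_congr1 T hO hjq b (hle b hb)
  have hb1 : T.e1 b ∈ D.LamRing := (hle b hb).1
  have hρ : D.rho ⟨T.e1 b, hb1⟩ = D.rhoO ⟨a, ha⟩ := by
    refine rho_eq_of_exists (h := ⟨(a : LaurentSeries K), ha⟩) ?_
    obtain ⟨z, hz, e⟩ := (divS_O1_iff T _).mp h
    exact ⟨z, hz, by rw [← e, map_sub]; rfl⟩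
  have hint : X.rhoB.IsIntegralElem (D.rhoO ⟨a, ha⟩) := by
    rw [← hρ]
    have := rho_isIntegralElem (evS X.xW) ⟨T.e1 b, hb1⟩ hb
    rw [← rhoB_comp_phiC] at this
    exact RingHom.IsIntegralElem.of_comp this
  obtain ⟨c, hc⟩ := exists_chart_of_integral X ⟨a, ha⟩ hint
  refine ⟨c, ?_⟩
  have e : b - T.al c = (b - T.al a) + T.al (a - c) := by rw [map_sub]; ring
  rw [e]
  exact h.add (divS_O1_al T ha (X.chart_le_gaussO c.2) hc)

lemma e2_isIntegralElem {b : T.F} (hb : b ∈ T.chart X) :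
    (D.inc.comp (evS (qExpand R q X.xW))).IsIntegralElem (T.e2 b) := by
  obtain ⟨P, hP, hroot⟩ := hb
  refine ⟨P, hP, ?_⟩
  let φF : R[X] →+* T.F := T.al.comp X.phiF
  have h0 : T.e1.comp φF = X.phi := RingHom.ext fun _ => rfl
  have h1 : eval₂ φF b P = 0 := by
    apply T.e1.injective
    rw [map_zero, hom_eval₂, h0]
    exact hroot
  have h2 : T.e2.comp φF = D.inc.comp (evS (qExpand R q X.xW)) := by
    refine RingHom.ext fun σ => ?_
    change T.e2 (T.al (X.phiF σ)) = D.inc (evS (qExpand R q X.xW) σ)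
    rw [T.e2_al, X.coe_phiF, X.phi_apply, ← V_evS]
    exact (coeffMap_qExpand _ _ _).symm
  have h3 := hom_eval₂ P φF T.e2 b
  rw [h1, map_zero, h2] at h3
  exact h3.symm

lemma red_comp_evS_V (hxq : qExpand k q (D.red X.xW) = D.red X.xW ^ q) :
    D.red.comp (evS (qExpand R q X.xW))
      = X.rhoB.comp ((phiC X).comp (compRingHom (Polynomial.X ^ q))) := by
  refine RingHom.ext fun σ => ?_
  change D.red (evS (qExpand R q X.xW) σ) = X.rhoB (phiC X (σ.comp (Polynomial.X ^ q)))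
  rw [rhoB_phiC, ← evS_pow, D.red_evS, D.red_evS, map_pow, ← hxq]
  congr 2
  exact coeffMap_qExpand _ _ _

/-- **RED2** -/
theorem red2 [IsDedekindDomain (X.chart ⧸ Ideal.span {X.ϖC})] (hO : HOrth T)
    (hjq : qExpand k q (jqModC k) = jqModC k ^ q)
    (hxq : qExpand k q (D.red X.xW) = D.red X.xW ^ q) (hle : ∀ b ∈ T.chart X, b ∈ T.O)
    (b : T.F) (hb : b ∈ T.chart X) : ∃ c : X.chart, DivS T.O2 T.ϖF 1 (b - T.be c) := by
  obtain ⟨a, ha, h⟩ := exists_gauss_congr2 T hO hjq b (hle b hb)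
  have hb1 : T.e2 b ∈ D.LamRing := (hle b hb).2
  have hρ : D.rho ⟨T.e2 b, hb1⟩ = D.rhoO ⟨a, ha⟩ := by
    refine rho_eq_of_exists (h := ⟨(a : LaurentSeries K), ha⟩) ?_
    obtain ⟨z, hz, e⟩ := (divS_O2_iff T _).mp h
    exact ⟨z, hz, by rw [← e, map_sub, T.e2_be]⟩
  have hint : X.rhoB.IsIntegralElem (D.rhoO ⟨a, ha⟩) := by
    rw [← hρ]
    have := rho_isIntegralElem (evS (qExpand R q X.xW)) ⟨T.e2 b, hb1⟩ (e2_isIntegralElem X T hb)
    rw [red_comp_evS_V X hxq] at this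
    exact RingHom.IsIntegralElem.of_comp this
  obtain ⟨c, hc⟩ := exists_chart_of_integral X ⟨a, ha⟩ hint
  refine ⟨c, ?_⟩
  have e : b - T.be c = (b - T.be a) + T.be (a - c) := by rw [map_sub]; ring
  rw [e]
  exact h.add (divS_O2_be T ha (X.chart_le_gaussO c.2) hc)

/-! ### the two components of the special fibre -/

lemma mem_span_divS {O : Subring T.F} (hle : ∀ b ∈ T.chart X, b ∈ O) (b : T.chart X) :
    b ∈ Ideal.span {b : T.chart X | DivS O T.ϖF 1 (b : T.F)} ↔ DivS O T.ϖF 1 (b : T.F) := by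
  constructor
  · intro h
    induction h using Submodule.span_induction with
    | mem x hx => exact hx
    | zero => exact ⟨0, O.zero_mem, by simp⟩
    | add x y _ _ hx hy => exact hx.add hy
    | smul c x _ hx => exact hx.mul_left (hle _ c.2)
  · intro h
    exact Ideal.subset_span h

lemma mem_p1 (hle : ∀ b ∈ T.chart X, b ∈ T.O) (b : T.chart X) :
    b ∈ T.p1 X ↔ DivS T.O1 T.ϖF 1 (b : T.F) :=
  mem_span_divS X T (fun b hb => (hle b hb).1) b

lemma mem_p2 (hle : ∀ b ∈ T.chart X, b ∈ T.O) (b : T.chart X) :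
    b ∈ T.p2 X ↔ DivS T.O2 T.ϖF 1 (b : T.F) :=
  mem_span_divS X T (fun b hb => (hle b hb).2) b

/-- [C3] `p₁ ∩ p₂ = (ϖ)`. -/
theorem p1_inf_p2 (hle : ∀ b ∈ T.chart X, b ∈ T.O)
    (hsat : ∀ x ∈ T.chart X, DivS T.O T.ϖF 1 x → ∃ y ∈ T.chart X, x = T.ϖF * y) :
    T.p1 X ⊓ T.p2 X = Ideal.span {T.ϖB X} := by
  apply le_antisymm
  · rintro b ⟨h1, h2⟩
    obtain ⟨z1, hz1, e1⟩ := (mem_p1 X T hle b).mp h1
    obtain ⟨z2, hz2, e2⟩ := (mem_p2 X T hle b).mp h2
    have : z1 = z2 := mul_left_cancel₀ (pow_ne_zero 1 (ϖF_ne_zero T)) (e1.symm.trans e2)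
    obtain ⟨y, hy, e⟩ := hsat b b.2 ⟨z1, ⟨hz1, this ▸ hz2⟩, e1⟩
    rw [Ideal.mem_span_singleton]
    exact ⟨⟨y, hy⟩, Subtype.ext e⟩
  · rw [Ideal.span_singleton_le_iff_mem]
    exact ⟨(mem_p1 X T hle _).mpr ⟨1, T.O1.one_mem, by rw [pow_one, mul_one]; rfl⟩,
      (mem_p2 X T hle _).mpr ⟨1, T.O2.one_mem, by rw [pow_one, mul_one]; rfl⟩⟩

/-- `α : B₀ → B`. -/
def alC : X.chart →+* T.chart X :=
  (T.al.comp X.chart.subtype).codRestrict (T.chart X) (fun a => T.al_mem_chart X a.2)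

/-- `β : B₀ → B`. -/
def beC (hbe : ∀ a ∈ X.chart, T.be a ∈ T.chart X) : X.chart →+* T.chart X :=
  (T.be.comp X.chart.subtype).codRestrict (T.chart X) (fun a => hbe a a.2)

lemma mem_span_ϖC_iff (a : X.chart) :
    a ∈ Ideal.span {X.ϖC} ↔ ∃ g ∈ D.LamRing, ((a : D.F0) : LaurentSeries K) = D.ϖE * g := by
  rw [Ideal.mem_span_singleton, ← X.rhoB_eq_zero_iff]
  exact QData.rho_eq_zero_iff_exists (f := ⟨((a : D.F0) : LaurentSeries K), X.chart_le_gaussO a.2⟩)

/-- [C3]+[C4] for the first component. -/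
theorem dedekind1 [IsDedekindDomain (X.chart ⧸ Ideal.span {X.ϖC})] (hO : HOrth T)
    (hjq : qExpand k q (jqModC k) = jqModC k ^ q) (hle : ∀ b ∈ T.chart X, b ∈ T.O) :
    IsDedekindDomain (T.chart X ⧸ T.p1 X) ∧ (T.p1 X).IsPrime := by
  refine RedAbs.dedekind_of_quot (alC X T) (Ideal.span {X.ϖC}) (T.p1 X) ?_ ?_
  · intro b
    obtain ⟨c, hc⟩ := red1 X T hO hjq hle b b.2
    exact ⟨c, (mem_p1 X T hle _).mpr hc⟩
  · intro a
    rw [mem_p1 X T hle, divS_O1_iff, mem_span_ϖC_iff]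
    rfl

/-- [C3]+[C4] for the second component. -/
theorem dedekind2 [IsDedekindDomain (X.chart ⧸ Ideal.span {X.ϖC})] (hO : HOrth T)
    (hjq : qExpand k q (jqModC k) = jqModC k ^ q)
    (hxq : qExpand k q (D.red X.xW) = D.red X.xW ^ q) (hle : ∀ b ∈ T.chart X, b ∈ T.O)
    (hbe : ∀ a ∈ X.chart, T.be a ∈ T.chart X) :
    IsDedekindDomain (T.chart X ⧸ T.p2 X) ∧ (T.p2 X).IsPrime := by
  refine RedAbs.dedekind_of_quot (beC X T hbe) (Ideal.span {X.ϖC}) (T.p2 X) ?_ ?_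
  · intro b
    obtain ⟨c, hc⟩ := red2 X T hO hjq hxq hle b b.2
    exact ⟨c, (mem_p2 X T hle _).mpr hc⟩
  · intro a
    rw [mem_p2 X T hle, divS_O2_iff, mem_span_ϖC_iff]
    change (∃ g ∈ D.LamRing, T.e2 (T.be a) = D.ϖE * g) ↔ _
    rw [T.e2_be]

/-! ### `β(B₀) ⊆ B` from `β(x) ∈ B` -/

/-- a root of a monic polynomial with integral coefficients is integral. -/
lemma isIntegralElem_of_coeff {A E : Type*} [CommRing A] [CommRing E] (φ : A →+* E)
    {A' : Type*} [CommRing A'] (ψ : A' →+* E) (hψ : ∀ a, φ.IsIntegralElem (ψ a)) {y : E}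
    (hy : ψ.IsIntegralElem y) : φ.IsIntegralElem y := by
  let _ := φ.toAlgebra
  let ψ' : A' →+* integralClosure A E := ψ.codRestrict (integralClosure A E) hψ
  obtain ⟨P, hP, hroot⟩ := hy
  have h1 : IsIntegral (integralClosure A E) y := by
    refine ⟨P.map ψ', hP.map _, ?_⟩
    rw [eval₂_map]
    exact hroot
  exact isIntegral_trans (R := A) (A := integralClosure A E) y h1

theorem be_mem_chart (hbx : T.be X.x ∈ T.chart X) : ∀ a ∈ X.chart, T.be a ∈ T.chart X := by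
  intro a ha
  obtain ⟨P, hP, hroot⟩ := ha
  refine isIntegralElem_of_coeff X.phi ((qExpand K q).comp X.phi) ?_ ⟨P, hP, ?_⟩
  · intro σ
    induction σ using Polynomial.induction_on' with
    | add p r hp hr => rw [map_add]; exact hp.add _ hr
    | monomial n c =>
      rw [← C_mul_X_pow_eq_monomial, map_mul, map_pow]
      have hpow : ∀ {y : LaurentSeries K}, X.phi.IsIntegralElem y → X.phi.IsIntegralElem (y ^ n) := by
        intro y hy
        induction n with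
        | zero => rw [pow_zero]; exact X.phi.isIntegralElem_one
        | succ n ih => rw [pow_succ]; exact ih.mul _ hy
      refine RingHom.IsIntegralElem.mul _ ?_ (hpow ?_)
      · have : ((qExpand K q).comp X.phi) (C c) = X.phi (C c) := by
          change qExpand K q (X.phi (C c)) = X.phi (C c)
          rw [X.phi_apply, evS_C]
          have : D.inc (HahnSeries.C c) = HahnSeries.C (algebraMap R K c) := coeffMap_C _ _
          rw [this, qExpand_C]
        rw [this]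
        exact X.phi.isIntegralElem_map
      · have : ((qExpand K q).comp X.phi) Polynomial.X = ((T.be X.x : T.F) : LaurentSeries K) := by
          change qExpand K q (X.phi Polynomial.X) = qExpand K q (D.inc X.xW)
          rw [X.phi_apply, evS_X]
        rw [this]
        exact hbx
  · rw [T.coe_be, ← hom_eval₂, hroot, map_zero]

end NRed

end Fermat.Agent.S34
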