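import Fermat.Agent.S34.NOrth
import Fermat.Agent.S34.NIncl
import Fermat.Agent.S37.KT
import Fermat.Agent.ES.InstQD
import Fermat.Agent.Lib.Frobenius

/-!
# S34, modular block, package N-SPAN : `FF (M₀ q) = ⊕_{i ≤ q} α(FF M₀) (β j)^i`
-/

set_option autoImplicit false

noncomputable section

namespace Fermat.Agent.S34

open ModularCurve AlgebraicCurve Polynomial
open Fermat.Agent.S24 Fermat.Agent.S28 Fermat.Agent.ES Fermat.Agent.ES.QE Fermat.Agent.ES.Inst
  Fermat.Agent.ES.IDvr

variable (M0 q : ℕ) [NeZero M0] [NeZero q]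

theorem bc_injective (K0 : IntermediateField ℚ Kb) : Function.Injective (bc K0) :=
  QE.coeffMap_injective (algebraMap K0 Kb).injective

theorem bc_jq (K0 : IntermediateField ℚ Kb) : bc K0 (jqModC K0) = jqModC Kb := coeffMap_jqModC _

theorem bc_qExpand (K0 : IntermediateField ℚ Kb) (u : LaurentSeries K0) :
    bc K0 (qExpand K0 q u) = qExpand Kb q (bc K0 u) := coeffMap_qExpand _ q u

theorem indep_Kb (hq : q.Prime) (hqM : ¬ q ∣ M0) (a : Fin (q + 1) → FF M0)
    (h : ∑ i, heckeAlphaBar Kb M0 q (a i) * heckeBetaBar Kb M0 q (jF M0) ^ (i : ℕ) = 0) :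
    ∀ i, a i = 0 := by
  classical
  have : Fact q.Prime := ⟨hq⟩
  obtain ⟨W, hWα, hWβ⟩ := S37.KT.exists_W M0 q hqM
  have h2 : ∑ i, heckeBetaBar Kb M0 q (a i) * heckeAlphaBar Kb M0 q (jF M0) ^ (i : ℕ) = 0 := by
    have := congrArg W h
    rw [map_sum, map_zero] at this
    rw [← this]
    refine Finset.sum_congr rfl fun i _ => ?_
    rw [map_mul, map_pow, hWα, hWβ]
  obtain ⟨A, hA⟩ := Lib.Frobenius.exists_liesOverPrime hq
  obtain ⟨K1, hK1, hQD⟩ := exists_QData M0 q hq hqM A hA
  obtain ⟨K0, hK0, hle, hS⟩ := exists_K0 M0 K1 (Finset.univ.image a)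
  obtain ⟨D, hF, hres⟩ := hQD K0 hK0 hle
  have hdvr := isDVR K0 A hq hA
  have hchar : CharP (kA A) q := ResField.charP hq hA
  have hS' : ∀ i, ∃ f0 ∈ F0 K0 M0, bc K0 f0 = (a i : LaurentSeries Kb) :=
    fun i => hS (a i) (Finset.mem_image_of_mem a (Finset.mem_univ i))
  choose a0 ha0 hbc using hS'
  have key := orth_indep D q (fun i => ⟨a0 i, hF ▸ ha0 i⟩) ?_ ?_
  · intro i
    apply Subtype.ext
    rw [← hbc i]
    have := congrArg Subtype.val (key i)
    change a0 i = 0 at this
    rw [this, map_zero]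
    rfl
  · apply bc_injective K0
    rw [map_sum, map_zero]
    have := congrArg Subtype.val h
    rw [IntermediateField.coe_sum, IntermediateField.coe_zero] at this
    rw [← this]
    refine Finset.sum_congr rfl fun i _ => ?_
    rw [map_mul, map_pow, bc_qExpand, bc_jq, IntermediateField.coe_mul, IntermediateField.coe_pow,
      coe_heckeAlphaBar, coe_heckeBetaBar, coe_jF']
    exact congrArg (· * _) (hbc i)
  · apply bc_injective K0
    rw [map_sum, map_zero]
    have := congrArg Subtype.val h2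
    rw [IntermediateField.coe_sum, IntermediateField.coe_zero] at this
    rw [← this]
    refine Finset.sum_congr rfl fun i _ => ?_
    rw [map_mul, map_pow, bc_qExpand, bc_jq, IntermediateField.coe_mul, IntermediateField.coe_pow,
      coe_heckeAlphaBar, coe_heckeBetaBar, coe_jF']
    exact congrArg (fun z => qExpand Kb q z * _) (hbc i)

theorem span_Kb (hq : q.Prime) (hqM : ¬ q ∣ M0) (f : FF (M0 * q)) :
    ∃ a : Fin (q + 1) → FF M0,
      f = ∑ i, heckeAlphaBar Kb M0 q (a i) * heckeBetaBar Kb M0 q (jF M0) ^ (i : ℕ) := by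
  have : Fact q.Prime := ⟨hq⟩
  let _ := algebraAlong (heckeAlphaBar Kb M0 q)
  have hfin : Module.finrank (FF M0) (FF (M0 * q)) = q + 1 := finrank_heckeAlpha M0 q hqM
  have : FiniteDimensional (FF M0) (FF (M0 * q)) := heckeAlpha_finite M0 q
  have hli : LinearIndependent (FF M0)
      (fun i : Fin (q + 1) => heckeBetaBar Kb M0 q (jF M0) ^ (i : ℕ)) := by
    rw [Fintype.linearIndependent_iff]
    intro g hg
    exact indep_Kb M0 q hq hqM g hg
  have hspan := hli.span_eq_top_of_card_eq_finrank' (by rw [Fintype.card_fin, hfin])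
  have hf : f ∈ Submodule.span (FF M0)
      (Set.range fun i : Fin (q + 1) => heckeBetaBar Kb M0 q (jF M0) ^ (i : ℕ)) := by
    rw [hspan]; trivial
  obtain ⟨c, hc⟩ := (Submodule.mem_span_range_iff_exists_fun _).1 hf
  exact ⟨c, hc.symm⟩

end Fermat.Agent.S34
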