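import Fermat.Agent.S34.NOrth

/-!
# S34, modular block : N-VAL : the two Gauss valuation rings of `T.F`

`IsBdd f` : the series `f ∈ K((T))` has bounded denominators (up to a primitive series).  On such
series `Λ = D.LamRing` behaves as a discrete valuation ring with uniformiser `ϖ`.
-/

set_option autoImplicit false
set_option linter.unusedSectionVars false

noncomputable section

namespace Fermat.Agent.S34

open ModularCurve Polynomial
open Fermat.Agent.ES.QE Fermat.Agent.ES.Model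

variable {R K k : Type*} [CommRing R] [IsDomain R] [IsNoetherianRing R] [IsIntegrallyClosed R]
  [Field K] [Algebra R K] [IsFractionRing R K] [Field k]

namespace NVal

variable (D : QData R K k)

lemma ϖW_ne_zero : D.ϖW ≠ 0 := by
  intro h0
  apply D.ϖE_ne_zero
  rw [← D.inc_ϖW, h0, map_zero]

/-- auxiliary induction for `exists_prim`. -/
lemma exists_prim_aux (n : ℤ) (e : ℕ) : ∀ (w : LaurentSeries R) (u : R), ¬ D.ϖ ∣ u →
    w.coeff n = D.ϖ ^ e * u → ∃ (a : ℕ) (w' : LaurentSeries R), D.red w' ≠ 0 ∧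
      w = D.ϖW ^ a * w' := by
  induction e with
  | zero =>
    intro w u hu h
    refine ⟨0, w, fun h0 => hu ?_, by rw [pow_zero, one_mul]⟩
    have h1 := congrArg (fun z => HahnSeries.coeff z n) h0
    simp only [QData.red, coeffMap_coeff, HahnSeries.coeff_zero] at h1
    rw [h, pow_zero, one_mul] at h1
    exact (D.res_eq_zero_iff _).1 h1
  | succ e ih =>
    intro w u hu h
    by_cases hw : D.red w = 0
    · obtain ⟨w1, rfl⟩ := (D.red_eq_zero_iff w).1 hw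
      have h1 : w1.coeff n = D.ϖ ^ e * u := by
        apply mul_left_cancel₀ D.ϖ_ne
        rw [QData.ϖW, C_mul_coeff] at h
        rw [h, pow_succ']
        ring
      obtain ⟨a, w', hw', e1⟩ := ih w1 u hu h1
      exact ⟨a + 1, w', hw', by rw [e1, pow_succ']; ring⟩
    · exact ⟨0, w, hw, by rw [pow_zero, one_mul]⟩

/-- every nonzero series over `R` is a power of `ϖ` times a primitive series. -/
lemma exists_prim {w : LaurentSeries R} (hw : w ≠ 0) :
    ∃ (a : ℕ) (w' : LaurentSeries R), D.red w' ≠ 0 ∧ w = D.ϖW ^ a * w' := by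
  obtain ⟨n, hn⟩ : ∃ n, w.coeff n ≠ 0 := by
    by_contra h
    push Not at h
    exact hw (HahnSeries.ext (funext h))
  obtain ⟨e, u, hu, h⟩ := WfDvdMonoid.max_power_factor' hn D.prime_ϖ.not_isUnit
  exact exists_prim_aux D n e w u hu h

/-- bounded denominators. -/
def IsBdd (f : LaurentSeries K) : Prop :=
  ∃ (c : ℕ) (t w : LaurentSeries R), D.red t ≠ 0 ∧ D.ϖE ^ c * D.inc t * f = D.inc w

variable {D}

lemma IsBdd.add {f g : LaurentSeries K} (hf : IsBdd D f) (hg : IsBdd D g) : IsBdd D (f + g) := by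
  obtain ⟨c, t, w, ht, h⟩ := hf
  obtain ⟨c', t', w', ht', h'⟩ := hg
  refine ⟨c + c', t * t', D.ϖW ^ c' * t' * w + D.ϖW ^ c * t * w', ?_, ?_⟩
  · rw [map_mul]; exact mul_ne_zero ht ht'
  · simp only [map_add, map_mul, map_pow, D.inc_ϖW, ← h, ← h']
    ring

lemma IsBdd.mul {f g : LaurentSeries K} (hf : IsBdd D f) (hg : IsBdd D g) : IsBdd D (f * g) := by
  obtain ⟨c, t, w, ht, h⟩ := hf
  obtain ⟨c', t', w', ht', h'⟩ := hg
  refine ⟨c + c', t * t', w * w', ?_, ?_⟩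
  · rw [map_mul]; exact mul_ne_zero ht ht'
  · simp only [map_mul, ← h, ← h']
    ring

lemma IsBdd.inc (w : LaurentSeries R) : IsBdd D (D.inc w) :=
  ⟨0, 1, w, by rw [map_one]; exact one_ne_zero, by rw [pow_zero, map_one, one_mul, one_mul]⟩

lemma IsBdd.zero : IsBdd D 0 := by
  have := IsBdd.inc (D := D) 0
  rwa [map_zero] at this

lemma IsBdd.one : IsBdd D 1 := by
  have := IsBdd.inc (D := D) 1
  rwa [map_one] at this

lemma IsBdd.pow {f : LaurentSeries K} (hf : IsBdd D f) (n : ℕ) : IsBdd D (f ^ n) := by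
  induction n with
  | zero => rw [pow_zero]; exact IsBdd.one
  | succ n ih => rw [pow_succ]; exact ih.mul hf

lemma IsBdd.sum {ι : Type*} (s : Finset ι) (f : ι → LaurentSeries K)
    (h : ∀ i ∈ s, IsBdd D (f i)) : IsBdd D (∑ i ∈ s, f i) := by
  classical
  induction s using Finset.induction_on with
  | empty => rw [Finset.sum_empty]; exact IsBdd.zero
  | insert a s ha ih =>
    rw [Finset.sum_insert ha]
    exact (h a (Finset.mem_insert_self a s)).add
      (ih fun i hi => h i (Finset.mem_insert_of_mem hi))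

lemma IsBdd.of_mem_F0 {f : LaurentSeries K} (hf : f ∈ D.F0) : IsBdd D f := by
  by_cases hf0 : f = 0
  · rw [hf0]; exact IsBdd.zero
  obtain ⟨a, c, s, r, hs, -, h⟩ := D.exists_normal_form hf hf0
  exact ⟨a, evS (jqModC R) s, D.ϖW ^ c * D.mW r, D.red_evS_j_ne_zero hs, by
    rw [h, map_mul, map_pow, D.inc_ϖW]⟩

lemma inc_qExpand (q : ℕ) [NeZero q] (w : LaurentSeries R) :
    D.inc (qExpand R q w) = qExpand K q (D.inc w) := coeffMap_qExpand _ _ _

lemma red_qExpand (q : ℕ) [NeZero q] (w : LaurentSeries R) :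
    D.red (qExpand R q w) = qExpand k q (D.red w) := coeffMap_qExpand _ _ _

lemma qExpand_ϖE (q : ℕ) [NeZero q] : qExpand K q D.ϖE = D.ϖE := qExpand_C _ _

lemma red_qExpand_ne_zero (q : ℕ) [NeZero q] {t : LaurentSeries R} (ht : D.red t ≠ 0) :
    D.red (qExpand R q t) ≠ 0 := by
  rw [red_qExpand]
  intro h
  exact ht (qExpand_injective q (by rw [h, map_zero]))

lemma IsBdd.qExpand (q : ℕ) [NeZero q] {f : LaurentSeries K} (hf : IsBdd D f) :
    IsBdd D (qExpand K q f) := by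
  obtain ⟨c, t, w, ht, h⟩ := hf
  refine ⟨c, ModularCurve.qExpand R q t, ModularCurve.qExpand R q w, red_qExpand_ne_zero q ht, ?_⟩
  rw [inc_qExpand, inc_qExpand, ← h, map_mul, map_mul, map_pow, qExpand_ϖE]

/-- the normal form of a nonzero bounded series. -/
theorem IsBdd.isFrac_or {f : LaurentSeries K} (hf : IsBdd D f) (hf0 : f ≠ 0) :
    (∃ (e : ℕ) (t w : LaurentSeries R), D.red t ≠ 0 ∧ D.red w ≠ 0 ∧
      D.inc t * f = D.ϖE ^ (e + 1) * D.inc w) ∨
    (∃ (e : ℕ) (t w : LaurentSeries R), D.red t ≠ 0 ∧ D.red w ≠ 0 ∧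
      D.ϖE ^ e * D.inc t * f = D.inc w) := by
  obtain ⟨a, t, w, ht, h⟩ := hf
  have ht0 : D.inc t ≠ 0 := by
    intro h0
    have : t = 0 := D.inc_injective (by rw [h0, map_zero])
    exact ht (by rw [this, map_zero])
  have hw0 : w ≠ 0 := by
    rintro rfl
    rw [map_zero] at h
    exact (mul_ne_zero (mul_ne_zero (pow_ne_zero a D.ϖE_ne_zero) ht0) hf0) h
  obtain ⟨c, w', hw', rfl⟩ := exists_prim D hw0
  rw [map_mul, map_pow, D.inc_ϖW] at h
  rcases lt_or_ge a c with hac | hac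
  · left
    obtain ⟨e, rfl⟩ := Nat.exists_eq_add_of_lt hac
    refine ⟨e, t, w', ht, hw', ?_⟩
    apply mul_left_cancel₀ (pow_ne_zero a D.ϖE_ne_zero)
    rw [← mul_assoc, h, ← mul_assoc, ← pow_add]
    congr 2
  · right
    obtain ⟨e, rfl⟩ := Nat.exists_eq_add_of_le hac
    refine ⟨e, t, w', ht, hw', ?_⟩
    apply mul_left_cancel₀ (pow_ne_zero c D.ϖE_ne_zero)
    rw [← h, pow_add]
    ring

/-- bounded series which are integral over `R((T))` are in `Λ`. -/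
theorem IsBdd.mem_LamRing_of_isIntegralElem {f : LaurentSeries K} (hf : IsBdd D f)
    (hint : D.inc.IsIntegralElem f) : f ∈ D.LamRing := by
  by_cases hf0 : f = 0
  · rw [hf0]; exact Subring.zero_mem _
  rcases hf.isFrac_or hf0 with ⟨e, t, w, ht, hw, h⟩ | ⟨e, t, w, ht, hw, h⟩
  · exact ⟨t, D.ϖW ^ (e + 1) * w, ht, by rw [map_mul, map_pow, D.inc_ϖW]; exact h⟩
  · cases e with
    | zero => exact ⟨t, w, ht, by rw [← h, pow_zero, one_mul]⟩
    | succ e =>
      exfalso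
      apply hw
      have hg : D.inc.IsIntegralElem (D.inc (D.ϖW ^ e * t) * f) :=
        (D.inc.isIntegralElem_map).mul _ hint
      refine S28.Lam.map_eq_zero_of_isIntegralElem D.inc D.inc_injective D.red D.red_ϖW hg ?_
      rw [← h, map_mul, map_pow, D.inc_ϖW, pow_succ]
      ring

/-- The valuation subring attached to an embedding with bounded image. -/
def valOf {F : Type*} [Field F] (e : F →+* LaurentSeries K) (hb : ∀ f, IsBdd D (e f)) :
    ValuationSubring F where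
  toSubring := D.LamRing.comap e
  mem_or_inv_mem' := by
    intro f
    by_cases hf0 : f = 0
    · left
      rw [hf0]
      exact Subring.zero_mem _
    have hf0' : e f ≠ 0 := (map_ne_zero e).mpr hf0
    rcases (hb f).isFrac_or hf0' with ⟨c, t, w, ht, hw, h⟩ | ⟨c, t, w, ht, hw, h⟩
    · left
      exact ⟨t, D.ϖW ^ (c + 1) * w, ht, by rw [map_mul, map_pow, D.inc_ϖW]; exact h⟩
    · right
      refine ⟨w, D.ϖW ^ c * t, hw, ?_⟩
      rw [map_mul, map_pow, D.inc_ϖW, ← h, map_inv₀]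
      field_simp

lemma mem_valOf {F : Type*} [Field F] (e : F →+* LaurentSeries K) (hb : ∀ f, IsBdd D (e f))
    {f : F} : f ∈ valOf e hb ↔ e f ∈ D.LamRing := Iff.rfl

/-- discreteness, in a precise form -/
theorem valOf_discrete {F : Type*} [Field F] (e : F →+* LaurentSeries K)
    (hb : ∀ f, IsBdd D (e f)) (ϖ : F) (hϖ : e ϖ = D.ϖE) (x : F) (hx : x ≠ 0) :
    ∃ a : ℤ, x * ϖ ^ a ∈ valOf e hb ∧ (x * ϖ ^ a)⁻¹ ∈ valOf e hb := by
  have hx' : e x ≠ 0 := (map_ne_zero e).mpr hx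
  have hE := D.ϖE_ne_zero
  have hinc : ∀ {t : LaurentSeries R}, D.red t ≠ 0 → D.inc t ≠ 0 := by
    intro t ht h0
    have : t = 0 := D.inc_injective (by rw [h0, map_zero])
    exact ht (by rw [this, map_zero])
  rcases (hb x).isFrac_or hx' with ⟨c, t, w, ht, hw, h⟩ | ⟨c, t, w, ht, hw, h⟩
  · refine ⟨-((c + 1 : ℕ) : ℤ), ⟨t, w, ht, ?_⟩, ⟨w, t, hw, ?_⟩⟩
    · rw [map_mul, map_zpow₀, hϖ, zpow_neg, zpow_natCast, ← mul_assoc, h]
      field_simp
    · have h1 := hinc ht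
      have h2 := hinc hw
      rw [map_inv₀, map_mul, map_zpow₀, hϖ, zpow_neg, zpow_natCast]
      have : e x = D.ϖE ^ (c + 1) * D.inc w / D.inc t := by
        rw [← h]; field_simp
      rw [this]
      field_simp
  · refine ⟨(c : ℤ), ⟨t, w, ht, ?_⟩, ⟨w, t, hw, ?_⟩⟩
    · rw [map_mul, map_zpow₀, hϖ, zpow_natCast, ← h]
      ring
    · have h1 := hinc ht
      have h2 := hinc hw
      rw [map_inv₀, map_mul, map_zpow₀, hϖ, zpow_natCast]
      have : e x = D.inc w / (D.ϖE ^ c * D.inc t) := by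
        rw [← h]; field_simp
      rw [this]
      field_simp

theorem valOf_isUnif {F : Type*} [Field F] (e : F →+* LaurentSeries K)
    (hb : ∀ f, IsBdd D (e f)) (ϖ : F) (hϖ : e ϖ = D.ϖE) : IsUnif (valOf e hb) ϖ where
  ne_zero := by
    rintro rfl
    rw [map_zero] at hϖ
    exact D.ϖE_ne_zero hϖ.symm
  mem := by
    rw [mem_valOf, hϖ, ← D.inc_ϖW]
    exact QData.inc_mem_LamRing _
  inv_notMem := by
    rw [mem_valOf, map_inv₀, hϖ]
    rintro ⟨t, w, ht, h⟩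
    apply ht
    rw [D.red_eq_zero_iff]
    refine ⟨w, D.inc_injective ?_⟩
    rw [map_mul, D.inc_ϖW, ← h]
    field_simp [D.ϖE_ne_zero]
  gen := by
    intro x hx hx'
    have hϖ0 : ϖ ≠ 0 := by
      rintro rfl
      rw [map_zero] at hϖ
      exact D.ϖE_ne_zero hϖ.symm
    have hx0 : x ≠ 0 := by
      rintro rfl
      apply hx'
      rw [inv_zero]
      exact (valOf e hb).zero_mem
    have hx0' : e x ≠ 0 := (map_ne_zero e).mpr hx0
    rcases (hb x).isFrac_or hx0' with ⟨c, t, w, ht, hw, h⟩ | ⟨c, t, w, ht, hw, h⟩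
    · refine ⟨ϖ⁻¹ * x, ?_, ?_⟩
      · rw [mem_valOf]
        refine ⟨t, D.ϖW ^ c * w, ht, ?_⟩
        rw [map_mul e, map_inv₀, hϖ, map_mul, map_pow, D.inc_ϖW, mul_left_comm, h, pow_succ]
        field_simp [D.ϖE_ne_zero]
      · rw [pow_one, mul_inv_cancel_left₀ hϖ0]
    · exfalso
      apply hx'
      rw [mem_valOf]
      refine ⟨w, D.ϖW ^ c * t, hw, ?_⟩
      rw [map_mul, map_pow, D.inc_ϖW, ← h, map_inv₀]
      field_simp

end NVal

namespace Two

open NVal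

variable {D : QData R K k} {q : ℕ} [NeZero q] (T : Two D q)

lemma e1_ϖF : T.e1 T.ϖF = D.ϖE := T.coe_ϖF

omit T in
lemma isBdd_jq : IsBdd D (qExpand K q (jqModC K)) := (IsBdd.of_mem_F0 D.j_mem).qExpand q

lemma isBdd_e1 (f : T.F) : IsBdd D (T.e1 f) := by
  obtain ⟨a, ha, h⟩ := T.span f f.2
  show IsBdd D (f : LaurentSeries K)
  rw [h]
  exact IsBdd.sum _ _ fun i _ => (IsBdd.of_mem_F0 (ha i)).mul (isBdd_jq.pow _)

/-- `j(T^q)` as an element of `T.F`. -/
def jq : T.F := T.be ⟨jqModC K, D.j_mem⟩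

lemma coe_jq : (T.jq : LaurentSeries K) = qExpand K q (jqModC K) := rfl

lemma e2_jq : T.e2 T.jq = jqModC K := T.e2_be _

/-- the decomposition `f = ∑ α(a i) j_q ^ i`. -/
lemma exists_decomp (f : T.F) : ∃ a : Fin (q + 1) → D.F0, f = ∑ i, T.al (a i) * T.jq ^ (i : ℕ) := by
  obtain ⟨a, ha, h⟩ := T.span f f.2
  refine ⟨fun i => ⟨a i, ha i⟩, Subtype.ext ?_⟩
  rw [h]
  have : ((∑ i, T.al ⟨a i, ha i⟩ * T.jq ^ (i : ℕ) : T.F) : LaurentSeries K)
      = ∑ i, ((T.al ⟨a i, ha i⟩ * T.jq ^ (i : ℕ) : T.F) : LaurentSeries K) :=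
    map_sum (algebraMap T.F (LaurentSeries K)) _ _
  rw [this]
  rfl

lemma isBdd_e2 (f : T.F) : IsBdd D (T.e2 f) := by
  obtain ⟨a, rfl⟩ := T.exists_decomp f
  rw [map_sum]
  refine IsBdd.sum _ _ fun i _ => ?_
  rw [map_mul, map_pow, T.e2_al, T.e2_jq]
  exact ((IsBdd.of_mem_F0 (a i).2).qExpand q).mul ((IsBdd.of_mem_F0 D.j_mem).pow _)

lemma V1_eq : T.V1 = valOf T.e1 T.isBdd_e1 := by
  have h : ∀ f : T.F, f ∈ T.O1 ∨ f⁻¹ ∈ T.O1 := (valOf T.e1 T.isBdd_e1).mem_or_inv_mem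
  rw [V1, dif_pos h]
  rfl

lemma V2_eq : T.V2 = valOf T.e2 T.isBdd_e2 := by
  have h : ∀ f : T.F, f ∈ T.O2 ∨ f⁻¹ ∈ T.O2 := (valOf T.e2 T.isBdd_e2).mem_or_inv_mem
  rw [V2, dif_pos h]
  rfl

lemma V1_toSubring : T.V1.toSubring = T.O1 := by rw [V1_eq]; rfl

lemma V2_toSubring : T.V2.toSubring = T.O2 := by rw [V2_eq]; rfl

lemma mem_V1 {f : T.F} : f ∈ T.V1 ↔ f ∈ T.O1 := by rw [V1_eq]; rfl

lemma mem_V2 {f : T.F} : f ∈ T.V2 ↔ f ∈ T.O2 := by rw [V2_eq]; rfl

lemma O_eq : T.O = T.V1.toSubring ⊓ T.V2.toSubring := by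
  rw [V1_toSubring, V2_toSubring]; rfl

theorem isUnif1 : IsUnif T.V1 T.ϖF := by rw [V1_eq]; exact valOf_isUnif _ _ _ T.e1_ϖF

theorem isUnif2 : IsUnif T.V2 T.ϖF := by rw [V2_eq]; exact valOf_isUnif _ _ _ T.e2_ϖF

theorem discrete1 (x : T.F) (hx : x ≠ 0) :
    ∃ a : ℤ, x * T.ϖF ^ a ∈ T.V1 ∧ (x * T.ϖF ^ a)⁻¹ ∈ T.V1 := by
  rw [V1_eq]; exact valOf_discrete _ _ _ T.e1_ϖF x hx

theorem discrete2 (x : T.F) (hx : x ≠ 0) :
    ∃ a : ℤ, x * T.ϖF ^ a ∈ T.V2 ∧ (x * T.ϖF ^ a)⁻¹ ∈ T.V2 := by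
  rw [V2_eq]; exact valOf_discrete _ _ _ T.e2_ϖF x hx

/-- **[G1]** -/
theorem isSemi : IsSemi T.O T.ϖF := by rw [O_eq]; exact IsSemi.inf T.isUnif1 T.isUnif2

lemma divS_O_iff_val (n : ℕ) (x : T.F) :
    DivS T.O T.ϖF n x ↔ DivO T.V1 T.ϖF n x ∧ DivO T.V2 T.ϖF n x := by
  rw [O_eq]; exact divS_inf_iff (O1 := T.V1) (O2 := T.V2) T.ϖF_ne_zero n x

end Two

end Fermat.Agent.S34
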