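import Fermat.Agent.S34.SGlue
import Fermat.Agent.S34.LocDefs

/-!
# S34, abstract block : S-ABS (step (3) of the blueprint)

`τ` an automorphism of `F` preserving `O`, the charts, and trivial modulo `ϖ O`.  If `u` is locally
(on the tube of every maximal ideal `n ∋ ϖ` of the two charts) of the form `b1 * G ^ m` with `b1` a
unit of `B_n[1/ϖ]`, then the second difference `w' = τ (τ u) * u / (τ u) ^ 2` is, up to an element
of `B1 ∩ B2`, an `m`-th power.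
-/

set_option autoImplicit false

namespace Fermat.Agent.S34

open Fermat.Agent.ES.Model (MM mem_MM)

variable {F : Type*} [Field F]

/-- the hypotheses on the automorphism `τ` ("inertia") with respect to one chart -/
structure IsInert (O : Subring F) (ϖ : F) (τ : F ≃+* F) : Prop where
  map_mem : ∀ x ∈ O, τ x ∈ O
  cong : ∀ x ∈ O, DivS O ϖ 1 (τ x - x)
  quot_mem : ∀ x : F, x ≠ 0 → τ x / x ∈ O

namespace IsInert

variable {O : Subring F} {ϖ : F} {τ : F ≃+* F}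

theorem quot_inv_mem (h : IsInert O ϖ τ) {x : F} (hx : x ≠ 0) : x / τ x ∈ O := by
  have := h.quot_mem x⁻¹ (inv_ne_zero hx)
  rw [map_inv₀] at this
  have e : (τ x)⁻¹ / x⁻¹ = x / τ x := by
    rw [div_eq_mul_inv, inv_inv, div_eq_mul_inv, mul_comm]
  rwa [e] at this

/-- `τ y / y ≡ 1` for a unit `y` of `O`. -/
theorem quot_oneUnit (h : IsInert O ϖ τ) {y : F} (hy0 : y ≠ 0) (hy : y ∈ O) (hyi : y⁻¹ ∈ O) :
    DivS O ϖ 1 (τ y / y - 1) := by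
  have : τ y / y - 1 = (τ y - y) * y⁻¹ := by field_simp
  rw [this]
  exact (h.cong y hy).mul_right hyi

end IsInert

theorem sabs_aux1 (a a1 a2 B0 B1 B2 : F) (ha : a ≠ 0) (ha1 : a1 ≠ 0) (ha2 : a2 ≠ 0)
    (h0 : B0 ≠ 0) (h1 : B1 ≠ 0) (m : ℕ) :
    ((a1 / a2) / (a / a1)) ^ m * ((B2 * a2 ^ m) * (B0 * a ^ m) / (B1 * a1 ^ m) ^ 2)
      = (B2 / B1) / (B1 / B0) := by
  rw [div_pow, div_pow, div_pow]
  field_simp

theorem sabs_aux2 (t e te d1 : F) (he : e ≠ 0) (j : ℕ) :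
    (t * (d1 * e)) ^ (j + 1) * (te / e) = (t * (d1 * e)) ^ j * (t * te * d1) := by
  rw [pow_succ]
  field_simp

/-- The local step: from `u = b1 * G ^ m` on the tube of `n` to a local generator `≡ 1` of
`MM m w' B`. -/
theorem local_step {O : Subring F} {ϖ : F} (hO : IsSemi O ϖ) {m : ℕ} (hm : 0 < m)
    {B : Subring F} (hB : IsChartS O ϖ m B) (τ : F ≃+* F) (hτ : IsInert O ϖ τ)
    (hτB : ∀ x ∈ B, τ x ∈ B)
    (hτϖ : ∃ c ∈ B, c⁻¹ ∈ B ∧ τ ϖ = c * ϖ)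
    (u : F) (hu : u ≠ 0) (n : Ideal B) (hn : n.IsMaximal) (hϖn : (⟨ϖ, hB.unif_mem⟩ : B) ∈ n)
    (hlp : ∃ G b1 : F, G ≠ 0 ∧ u = b1 * G ^ m ∧ InTube (⟨ϖ, hB.unif_mem⟩ : B) n b1 ∧
      InTube (⟨ϖ, hB.unif_mem⟩ : B) n b1⁻¹) :
    ∃ f ∈ MM m (τ (τ u) * u / (τ u) ^ 2) B, ∃ b : B, b ∉ n ∧ DivS O ϖ 1 (f - (b : F)) := by
  obtain ⟨G, b1, hG, hub, ⟨s, hs, k, b, hb⟩, ⟨s', hs', k', b', hb'⟩⟩ := hlp
  obtain ⟨c, hc, hci, hcϖ⟩ := hτϖ
  have hϖ0 := hO.ne_zero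
  have hb10 : b1 ≠ 0 := by
    rintro rfl
    rw [zero_mul] at hub
    exact hu hub
  have hprime : n.IsPrime := hn.isPrime
  -- `τ` preserves the complement of `n`
  have hτn : ∀ x : B, x ∉ n → ∀ hx : τ (x : F) ∈ B, (⟨τ (x : F), hx⟩ : B) ∉ n := by
    intro x hx hx' hmem
    obtain ⟨y, hy, e⟩ := hB.sat _ (B.sub_mem hx' x.2) (hτ.cong _ (hB.le _ x.2))
    apply hx
    have : x = (⟨τ (x : F), hx'⟩ : B) - (⟨ϖ, hB.unif_mem⟩ : B) * ⟨y, hy⟩ := by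
      apply Subtype.ext
      push_cast
      rw [← e]; ring
    rw [this]
    exact n.sub_mem hmem (n.mul_mem_right _ hϖn)
  have hcn : (⟨c, hc⟩ : B) ∉ n := by
    intro h
    apply hn.ne_top
    rw [Ideal.eq_top_iff_one]
    have hc0 : c ≠ 0 := by
      rintro rfl
      rw [zero_mul] at hcϖ
      exact hϖ0 ((map_eq_zero τ).mp hcϖ)
    have : (1 : B) = (⟨c, hc⟩ : B) * ⟨c⁻¹, hci⟩ := by
      apply Subtype.ext
      push_cast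
      rw [mul_inv_cancel₀ hc0]
    rw [this]
    exact n.mul_mem_right _ h
  replace hb : (s : F) * ϖ ^ k * b1 = b := hb
  replace hb' : (s' : F) * ϖ ^ k' * b1⁻¹ = b' := hb'
  -- general statement : for `e` with numerator/denominator data, `τ e / e` is in `B_n`
  have key : ∀ (e : F) (s s' b b' : B) (k k' : ℕ), e ≠ 0 → s ∉ n → s' ∉ n →
      (s : F) * ϖ ^ k * e = b → (s' : F) * ϖ ^ k' * e⁻¹ = b' →
      ∃ d : B, d ∉ n ∧ (d : F) * (τ e / e) ∈ B := by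
    intro e s s' b b' k k' he hs hs' hb hb'
    have hτs : τ (s : F) ∈ B := hτB _ s.2
    refine ⟨⟨τ (s : F), hτs⟩ * s' * ⟨c, hc⟩ ^ k, ?_, ?_⟩
    · intro h
      rcases hprime.mem_or_mem h with h | h
      · rcases hprime.mem_or_mem h with h | h
        · exact hτn s hs hτs h
        · exact hs' h
      · exact hcn (hprime.mem_of_pow_mem _ h)
    · push_cast
      have h1 : τ (b : F) * b' = ϖ ^ (k + k') * (τ (s : F) * s' * c ^ k * (τ e / e)) := by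
        rw [← hb, ← hb', map_mul, map_mul, map_pow, hcϖ]
        field_simp
        ring
      have h2 : τ (s : F) * s' * c ^ k * (τ e / e) ∈ O :=
        O.mul_mem (O.mul_mem (O.mul_mem (hB.le _ hτs) (hB.le _ s'.2)) (O.pow_mem (hB.le _ hc) _))
          (hτ.quot_mem e he)
      obtain ⟨y, hy, hy'⟩ := hB.sat_pow hϖ0 (k + k') (B.mul_mem (hτB _ b.2) b'.2) ⟨_, h2, h1⟩
      have : τ (s : F) * s' * c ^ k * (τ e / e) = y := by
        apply mul_left_cancel₀ (pow_ne_zero (k + k') hϖ0)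
        rw [← h1, hy']
      rw [this]
      exact hy
  -- `ε = τ b1 / b1` is a unit of `B_n`
  set ε : F := τ b1 / b1 with hε
  have hτb10 : τ b1 ≠ 0 := (map_ne_zero τ).mpr hb10
  have hε0 : ε ≠ 0 := div_ne_zero hτb10 hb10
  obtain ⟨d1, hd1, hd1'⟩ := key b1 s s' b b' k k' hb10 hs hs' hb hb'
  obtain ⟨d2, hd2, hd2'⟩ := key b1⁻¹ s' s b' b k' k (inv_ne_zero hb10) hs' hs hb'
    (by rw [inv_inv]; exact hb)
  have hd2'' : (d2 : F) * ε⁻¹ ∈ B := by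
    have : τ b1⁻¹ / b1⁻¹ = ε⁻¹ := by
      rw [hε, map_inv₀]
      field_simp
    rwa [this] at hd2'
  set β : B := ⟨(d1 : F) * ε, hd1'⟩ with hβ
  set β' : B := ⟨(d2 : F) * ε⁻¹, hd2''⟩ with hβ'
  have hββ' : β * β' = d1 * d2 := by
    apply Subtype.ext
    push_cast
    simp only [hβ, hβ']
    field_simp
  have hβn : β ∉ n := by
    intro h
    have : d1 * d2 ∈ n := by rw [← hββ']; exact n.mul_mem_right _ h
    rcases hprime.mem_or_mem this with h | h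
    · exact hd1 h
    · exact hd2 h
  -- the second difference
  have hτd1 : τ (d1 : F) ∈ B := hτB _ d1.2
  set d : B := ⟨τ (d1 : F), hτd1⟩ * β with hd
  have hdn : d ∉ n := by
    intro h
    rcases hprime.mem_or_mem h with h | h
    · exact hτn d1 hd1 hτd1 h
    · exact hβn h
  set f : F := G / τ G with hf
  have hτG : τ G ≠ 0 := (map_ne_zero τ).mpr hG
  have hf0 : f ≠ 0 := div_ne_zero hG hτG
  have hfO : f ∈ O := hτ.quot_inv_mem hG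
  have hfiO : f⁻¹ ∈ O := by
    have : f⁻¹ = τ G / G := by rw [hf, inv_div]
    rw [this]
    exact hτ.quot_mem G hG
  have hf1 : DivS O ϖ 1 (τ f / f - 1) := hτ.quot_oneUnit hf0 hfO hfiO
  have hd10 : (d1 : F) ≠ 0 := by
    intro h
    apply hd1
    have : d1 = 0 := Subtype.ext h
    rw [this]; exact n.zero_mem
  refine ⟨d * (τ f / f), ?_, d, hdn, ?_⟩
  · rw [mem_MM]
    have hτu : τ u = τ b1 * τ G ^ m := by rw [hub, map_mul, map_pow]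
    have hττu : τ (τ u) = τ (τ b1) * τ (τ G) ^ m := by rw [hτu, map_mul, map_pow]
    have hττG : τ (τ G) ≠ 0 := (map_ne_zero τ).mpr hτG
    have hττb : τ (τ b1) ≠ 0 := (map_ne_zero τ).mpr hτb10
    have e1 : (τ f / f) ^ m * (τ (τ u) * u / (τ u) ^ 2) = τ ε / ε := by
      rw [hττu, hτu, hf, hε, map_div₀, map_div₀]
      conv_lhs => rw [hub]
      exact sabs_aux1 G (τ G) (τ (τ G)) b1 (τ b1) (τ (τ b1)) hG hτG hττG hb10 hτb10 m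
    have e2 : ((d : F) * (τ f / f)) ^ m * (τ (τ u) * u / (τ u) ^ 2)
        = (d : F) ^ (m - 1) * (τ ((β : B) : F) * d1) := by
      obtain ⟨j, rfl⟩ : ∃ j, m = j + 1 := ⟨m - 1, by omega⟩
      rw [mul_pow, mul_assoc, e1]
      have hdF : (d : F) = τ (d1 : F) * ((d1 : F) * ε) := rfl
      have hβF : ((β : B) : F) = (d1 : F) * ε := rfl
      rw [Nat.add_sub_cancel, hdF, hβF, map_mul]
      exact sabs_aux2 (τ (d1 : F)) ε (τ ε) d1 hε0 j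
    rw [e2]
    exact B.mul_mem (B.pow_mem d.2 _) (B.mul_mem (hτB _ β.2) d1.2)
  · have : (d : F) * (τ f / f) - d = d * (τ f / f - 1) := by ring
    rw [this]
    exact hf1.mul_left (hB.le _ d.2)

/-- the second difference is a one-unit -/
theorem second_diff_oneUnit {O : Subring F} {ϖ : F} {τ : F ≃+* F} (hτ : IsInert O ϖ τ) {u : F}
    (hu : u ≠ 0) : DivS O ϖ 1 (τ (τ u) * u / (τ u) ^ 2 - 1) := by
  have hτu : τ u ≠ 0 := (map_ne_zero τ).mpr hu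
  have h := hτ.quot_oneUnit (y := τ u / u) (div_ne_zero hτu hu) (hτ.quot_mem u hu)
    (by rw [inv_div]; exact hτ.quot_inv_mem hu)
  have e : τ (τ u / u) / (τ u / u) = τ (τ u) * u / (τ u) ^ 2 := by
    rw [map_div₀]
    field_simp
  rwa [e] at h

/-- **S-ABS** : the abstract form of claim (U). -/
theorem uni_abs (O : Subring F) (ϖ : F) (hO : IsSemi O ϖ) (m : ℕ) (hm : 0 < m)
    (R B1 B2 B12 : Subring F) [IsNoetherianRing R] (hR1 : R ≤ B1) (hR2 : R ≤ B2) (hϖR : ϖ ∈ R)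
    (h1 : IsChartS O ϖ m B1) (h2 : IsChartS O ϖ m B2)
    (h12 : IsChartS O ϖ m B12) (h1le : B1 ≤ B12) (h2le : B2 ≤ B12)
    (t : F) (ht : t ≠ 0) (ht1 : t ∈ B1) (ht2 : t⁻¹ ∈ B2)
    (h12a : ∀ x ∈ B12, ∃ n : ℕ, t ^ n * x ∈ B1) (h12b : ∀ x ∈ B12, ∃ n : ℕ, t⁻¹ ^ n * x ∈ B2)
    (hfin : ∃ S : Finset F, ∀ x ∈ B1,
      x ∈ Submodule.span (Subring.closure ((R : Set F) ∪ {t})) (S : Set F))
    (hfrac : ∀ x : F, ∃ s ∈ B1, s ≠ 0 ∧ s * x ∈ B1)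
    (τ : F ≃+* F) (hτ : IsInert O ϖ τ) (hτB1 : ∀ x ∈ B1, τ x ∈ B1) (hτB2 : ∀ x ∈ B2, τ x ∈ B2)
    (hτϖ : ∃ c ∈ R, c⁻¹ ∈ R ∧ τ ϖ = c * ϖ)
    (u : F) (hu : u ≠ 0)
    (hlp1 : ∀ n : Ideal B1, n.IsMaximal → (⟨ϖ, h1.unif_mem⟩ : B1) ∈ n →
      ∃ G b1 : F, G ≠ 0 ∧ u = b1 * G ^ m ∧ InTube (⟨ϖ, h1.unif_mem⟩ : B1) n b1 ∧
        InTube (⟨ϖ, h1.unif_mem⟩ : B1) n b1⁻¹)
    (hlp2 : ∀ n : Ideal B2, n.IsMaximal → (⟨ϖ, h2.unif_mem⟩ : B2) ∈ n →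
      ∃ G b1 : F, G ≠ 0 ∧ u = b1 * G ^ m ∧ InTube (⟨ϖ, h2.unif_mem⟩ : B2) n b1 ∧
        InTube (⟨ϖ, h2.unif_mem⟩ : B2) n b1⁻¹) :
    ∃ z : F, z ≠ 0 ∧ z ^ m * (τ (τ u) * u / (τ u) ^ 2) ∈ B1 ∧
      z ^ m * (τ (τ u) * u / (τ u) ^ 2) ∈ B2 ∧ DivS O ϖ 1 (z - 1) := by
  obtain ⟨c, hc, hci, hcϖ⟩ := hτϖ
  have hτu : τ u ≠ 0 := (map_ne_zero τ).mpr hu
  have hττu : τ (τ u) ≠ 0 := (map_ne_zero τ).mpr hτu
  refine abs_semi_local O ϖ hO m hm R B1 B2 B12 hR1 hR2 hϖR h1 h2 h12 h1le h2le t ht ht1 ht2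
    h12a h12b hfin _ (div_ne_zero (mul_ne_zero hττu hu) (pow_ne_zero 2 hτu))
    (second_diff_oneUnit hτ hu) (hfrac _) ?_ ?_
  · intro n hn hϖn
    exact local_step hO hm h1 τ hτ hτB1 ⟨c, hR1 hc, hR1 hci, hcϖ⟩ u hu n hn hϖn (hlp1 n hn hϖn)
  · intro n hn hϖn
    exact local_step hO hm h2 τ hτ hτB2 ⟨c, hR2 hc, hR2 hci, hcϖ⟩ u hu n hn hϖn (hlp2 n hn hϖn)

/-- `IsInert` for the intersection of two discrete valuation rings. -/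
theorem IsInert.inf {O1 O2 : ValuationSubring F} {ϖ : F} (hϖ : ϖ ≠ 0) (τ : F ≃+* F)
    (m1 : ∀ x ∈ O1, τ x ∈ O1) (m2 : ∀ x ∈ O2, τ x ∈ O2)
    (c1 : ∀ x ∈ O1, Fermat.Agent.ES.Model.DivO O1 ϖ 1 (τ x - x))
    (c2 : ∀ x ∈ O2, Fermat.Agent.ES.Model.DivO O2 ϖ 1 (τ x - x))
    (d1 : ∀ x : F, x ≠ 0 → ∃ a : ℤ, x * ϖ ^ a ∈ O1 ∧ (x * ϖ ^ a)⁻¹ ∈ O1)
    (d2 : ∀ x : F, x ≠ 0 → ∃ a : ℤ, x * ϖ ^ a ∈ O2 ∧ (x * ϖ ^ a)⁻¹ ∈ O2)
    (hc : ∃ c : F, c ∈ O1 ∧ c⁻¹ ∈ O1 ∧ c ∈ O2 ∧ c⁻¹ ∈ O2 ∧ τ ϖ = c * ϖ) :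
    IsInert (O1.toSubring ⊓ O2.toSubring) ϖ τ where
  map_mem := fun x hx => ⟨m1 x hx.1, m2 x hx.2⟩
  cong := fun x hx => (divS_inf_iff hϖ 1 _).mpr ⟨c1 x hx.1, c2 x hx.2⟩
  quot_mem := by
    obtain ⟨c, hc1, hc1', hc2, hc2', hcϖ⟩ := hc
    have hc0 : c ≠ 0 := by
      rintro rfl
      rw [zero_mul] at hcϖ
      exact hϖ ((map_eq_zero τ).mp hcϖ)
    have key : ∀ (O : ValuationSubring F), (∀ x ∈ O, τ x ∈ O) → c ∈ O → c⁻¹ ∈ O →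
        (∀ x : F, x ≠ 0 → ∃ a : ℤ, x * ϖ ^ a ∈ O ∧ (x * ϖ ^ a)⁻¹ ∈ O) →
        ∀ x : F, x ≠ 0 → τ x / x ∈ O := by
      intro O hm hc hc' hd x hx
      obtain ⟨a, ha, ha'⟩ := hd x hx
      have hcz : ∀ a : ℤ, c ^ a ∈ O := by
        intro a
        obtain ⟨j, rfl | rfl⟩ := a.eq_nat_or_neg
        · rw [zpow_natCast]; exact O.pow_mem hc j
        · rw [zpow_neg, zpow_natCast, ← inv_pow]; exact O.pow_mem hc' j
      have e : τ x / x = τ (x * ϖ ^ a) * (x * ϖ ^ a)⁻¹ * c ^ (-a) := by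
        rw [map_mul, map_zpow₀, hcϖ, mul_zpow, zpow_neg]
        have h1 : ϖ ^ a ≠ 0 := zpow_ne_zero a hϖ
        have h2 : c ^ a ≠ 0 := zpow_ne_zero a hc0
        field_simp
      rw [e]
      exact O.mul_mem _ _ (O.mul_mem _ _ (hm _ ha) ha') (hcz _)
    intro x hx
    exact ⟨key O1 m1 hc1 hc1' d1 x hx, key O2 m2 hc2 hc2' d2 x hx⟩

end Fermat.Agent.S34
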