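import Fermat.Agent.S34.NOrth
import Fermat.Agent.S34.SAbs
import Fermat.Agent.S34.NVal

/-!
# S34, modular block, the `τ`-block (abstract part)

Properties of a coefficientwise automorphism `S : TAut T`.
-/

set_option autoImplicit false
set_option linter.unusedSectionVars false

noncomputable section

namespace Fermat.Agent.S34

open ModularCurve Polynomial Finset
open Fermat.Agent.ES.QE Fermat.Agent.ES.Model

variable {R K k : Type*} [CommRing R] [IsDomain R] [IsNoetherianRing R] [IsIntegrallyClosed R]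
  [Field K] [Algebra R K] [IsFractionRing R K] [Field k]

namespace TAut

variable {D : QData R K k} {q : ℕ} [NeZero q] {T : Two D q} (S : TAut T)

/-- the action on `K((T))`. -/
abbrev cK : LaurentSeries K →+* LaurentSeries K := coeffMap (S.sK : K →+* K)

/-- the action on `R((T))`. -/
abbrev cR : LaurentSeries R →+* LaurentSeries R := coeffMap (S.sR : R →+* R)

/-- the action on `k((T))`. -/
abbrev ck : LaurentSeries k →+* LaurentSeries k := coeffMap (S.sk : k →+* k)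

lemma cK_inc (w : LaurentSeries R) : S.cK (D.inc w) = D.inc (S.cR w) := by
  ext n
  simp only [QData.inc, coeffMap_coeff]
  exact S.hK _

lemma ck_red (w : LaurentSeries R) : S.ck (D.red w) = D.red (S.cR w) := by
  ext n
  simp only [QData.red, coeffMap_coeff]
  exact S.hk _

lemma ck_injective : Function.Injective S.ck :=
  Fermat.Agent.ES.QE.coeffMap_injective S.sk.injective

lemma cK_injective : Function.Injective S.cK :=
  Fermat.Agent.ES.QE.coeffMap_injective S.sK.injective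

lemma isFrac_map {f : LaurentSeries K} {t w : LaurentSeries R} (h : D.IsFrac f t w) :
    D.IsFrac (S.cK f) (S.cR t) (S.cR w) := by
  refine ⟨?_, ?_⟩
  · rw [← S.ck_red]
    intro h0
    exact h.1 (S.ck_injective (by rw [h0, map_zero]))
  · rw [← S.cK_inc, ← S.cK_inc, ← map_mul, h.2]

theorem map_mem_LamRing {f : LaurentSeries K} (hf : f ∈ D.LamRing) : S.cK f ∈ D.LamRing := by
  obtain ⟨t, w, h⟩ := hf
  exact ⟨_, _, S.isFrac_map h⟩

theorem rho_map {f : LaurentSeries K} (hf : f ∈ D.LamRing) :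
    D.rho ⟨S.cK f, S.map_mem_LamRing hf⟩ = S.ck (D.rho ⟨f, hf⟩) := by
  obtain ⟨t, w, h⟩ := hf
  rw [QData.rho_eq (f := ⟨S.cK f, _⟩) (S.isFrac_map h), QData.rho_eq (f := ⟨f, _⟩) h,
    ← S.ck_red, ← S.ck_red, map_div₀]

lemma cK_qExpand (f : LaurentSeries K) : S.cK (qExpand K q f) = qExpand K q (S.cK f) :=
  coeffMap_qExpand _ _ _

lemma cK_j : S.cK (jqModC K) = jqModC K := coeffMap_jqModC _

lemma toF_al (a : D.F0) : S.toF (T.al a) = T.al (S.toF0 a) := rfl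

lemma toF_be (a : D.F0) : S.toF (T.be a) = T.be (S.toF0 a) :=
  Subtype.ext (S.cK_qExpand _)

lemma toF0_jF : S.toF0 D.jF = D.jF := Subtype.ext S.cK_j

/-- the second expansion commutes with the coefficientwise action. -/
theorem e2_toF (f : T.F) : T.e2 (S.toF f) = S.cK (T.e2 f) := by
  obtain ⟨a, rfl⟩ := T.exists_rep f
  have h1 : S.toF (∑ i, T.al (a i) * T.be D.jF ^ (i : ℕ))
      = ∑ i, T.al (S.toF0 (a i)) * T.be D.jF ^ (i : ℕ) := by
    rw [map_sum]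
    refine Finset.sum_congr rfl fun i _ => ?_
    rw [map_mul, map_pow, toF_al, toF_be, toF0_jF]
  rw [h1, Two.e2_sum, Two.e2_sum, map_sum]
  refine Finset.sum_congr rfl fun i _ => ?_
  rw [map_mul, map_pow, S.cK_qExpand, S.cK_j]
  rfl

theorem toF_mem_O1 {f : T.F} (hf : f ∈ T.O1) : S.toF f ∈ T.O1 := S.map_mem_LamRing hf

theorem toF_mem_O2 {f : T.F} (hf : f ∈ T.O2) : S.toF f ∈ T.O2 := by
  show T.e2 (S.toF f) ∈ D.LamRing
  rw [e2_toF]
  exact S.map_mem_LamRing hf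

theorem toF_mem_O {f : T.F} (hf : f ∈ T.O) : S.toF f ∈ T.O :=
  ⟨S.toF_mem_O1 hf.1, S.toF_mem_O2 hf.2⟩

/-- `ρ₁ (τ f) = τ̄ (ρ₁ f)`. -/
theorem rho1_toF (f : T.O1) : T.rho1 ⟨S.toF f, S.toF_mem_O1 f.2⟩ = S.ck (T.rho1 f) :=
  S.rho_map f.2

/-- `ρ₂ (τ f) = τ̄ (ρ₂ f)`. -/
theorem rho2_toF (f : T.O2) : T.rho2 ⟨S.toF f, S.toF_mem_O2 f.2⟩ = S.ck (T.rho2 f) := by
  have h := S.rho_map (f := T.e2 f) f.2
  show D.rho ⟨T.e2 (S.toF f), _⟩ = S.ck (D.rho ⟨T.e2 f, f.2⟩)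
  rw [← h]
  congr 1
  exact Subtype.ext (S.e2_toF f)

end TAut

namespace Two

variable {D : QData R K k} {q : ℕ} [NeZero q] (T : Two D q)

/-- the kernel of `ρ₁`. -/
theorem rho1_eq_zero_iff (f : T.O1) : T.rho1 f = 0 ↔ DivS T.O1 T.ϖF 1 (f : T.F) := by
  have e : T.rho1 f = D.rho ⟨((f : T.F) : LaurentSeries K), f.2⟩ := rfl
  rw [e, QData.rho_eq_zero_iff_exists]
  constructor
  · rintro ⟨g, hg, h⟩
    refine ⟨T.ϖF⁻¹ * f, ?_, by rw [pow_one, mul_inv_cancel_left₀ T.ϖF_ne_zero]⟩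
    rw [mem_O1, IntermediateField.coe_mul, IntermediateField.coe_inv, T.coe_ϖF]
    have h' : ((f : T.F) : LaurentSeries K) = D.ϖE * g := h
    rw [h', inv_mul_cancel_left₀ D.ϖE_ne_zero]
    exact hg
  · rintro ⟨y, hy, h⟩
    refine ⟨y, hy, ?_⟩
    show ((f : T.F) : LaurentSeries K) = _
    rw [h, pow_one, IntermediateField.coe_mul, T.coe_ϖF]

/-- the kernel of `ρ₂`. -/
theorem rho2_eq_zero_iff (f : T.O2) : T.rho2 f = 0 ↔ DivS T.O2 T.ϖF 1 (f : T.F) := by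
  have e : T.rho2 f = D.rho ⟨T.e2 f, f.2⟩ := rfl
  rw [e, QData.rho_eq_zero_iff_exists]
  constructor
  · rintro ⟨g, hg, h⟩
    refine ⟨T.ϖF⁻¹ * f, ?_, by rw [pow_one, mul_inv_cancel_left₀ T.ϖF_ne_zero]⟩
    rw [mem_O2, map_mul, map_inv₀, T.e2_ϖF]
    have h' : T.e2 f = D.ϖE * g := h
    rw [h', inv_mul_cancel_left₀ D.ϖE_ne_zero]
    exact hg
  · rintro ⟨y, hy, h⟩
    refine ⟨T.e2 y, hy, ?_⟩
    show T.e2 f = _
    rw [h, pow_one, map_mul, T.e2_ϖF]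

end Two

namespace TAut

variable {D : QData R K k} {q : ℕ} [NeZero q] {T : Two D q} (S : TAut T)

lemma ck_eq_id (hsk : ∀ c, S.sk c = c) (y : LaurentSeries k) : S.ck y = y := by
  ext n
  rw [coeffMap_coeff]
  exact hsk _

/-- inertia acts trivially modulo `ϖ O₁`. -/
theorem cong1 (hsk : ∀ c, S.sk c = c) {f : T.F} (hf : f ∈ T.O1) :
    DivS T.O1 T.ϖF 1 (S.toF f - f) := by
  have h := T.rho1_eq_zero_iff (⟨S.toF f, S.toF_mem_O1 hf⟩ - ⟨f, hf⟩)
  refine h.1 ?_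
  rw [map_sub, S.rho1_toF ⟨f, hf⟩, S.ck_eq_id hsk, sub_self]

/-- inertia acts trivially modulo `ϖ O₂`. -/
theorem cong2 (hsk : ∀ c, S.sk c = c) {f : T.F} (hf : f ∈ T.O2) :
    DivS T.O2 T.ϖF 1 (S.toF f - f) := by
  have h := T.rho2_eq_zero_iff (⟨S.toF f, S.toF_mem_O2 hf⟩ - ⟨f, hf⟩)
  refine h.1 ?_
  rw [map_sub, S.rho2_toF ⟨f, hf⟩, S.ck_eq_id hsk, sub_self]

/-- `τ ϖ = c ϖ` in `R`. -/
theorem exists_sR_ϖ : ∃ c c' : R, c * c' = 1 ∧ S.sR D.ϖ = c * D.ϖ := by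
  have h1 : D.ϖ ∣ S.sR D.ϖ := by
    rw [← D.res_eq_zero_iff, ← S.hk, D.res_ϖ, map_zero]
  have h2 : D.ϖ ∣ S.sR.symm D.ϖ := by
    rw [← D.res_eq_zero_iff]
    apply S.sk.injective
    rw [S.hk, RingEquiv.apply_symm_apply, D.res_ϖ, map_zero]
  obtain ⟨c, hc⟩ := h1
  obtain ⟨c', hc'⟩ := h2
  refine ⟨c, S.sR c', ?_, by rw [hc, mul_comm]⟩
  have h3 : D.ϖ = D.ϖ * (c * S.sR c') := by
    conv_lhs => rw [← S.sR.apply_symm_apply D.ϖ, hc', map_mul, hc]
    ring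
  exact (mul_left_cancel₀ D.ϖ_ne (by rw [mul_one]; exact h3)).symm

lemma toF_algebraMap (r : R) :
    S.toF (algebraMap K T.F (algebraMap R K r)) = algebraMap K T.F (algebraMap R K (S.sR r)) := by
  apply Subtype.ext
  rw [coe_toF]
  show coeffMap _ (algebraMap K (LaurentSeries K) _) = algebraMap K (LaurentSeries K) _
  rw [coeffMap_algebraMap]
  congr 1
  exact S.hK r

/-- [T3] : `τ ϖ = c ϖ` with `c ∈ Rˣ`. -/
theorem toF_ϖF : ∃ c ∈ T.RF, c⁻¹ ∈ T.RF ∧ S.toF T.ϖF = c * T.ϖF := by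
  obtain ⟨c, c', hcc, hc⟩ := S.exists_sR_ϖ
  refine ⟨algebraMap K T.F (algebraMap R K c), ⟨c, rfl⟩, ?_, ?_⟩
  · refine ⟨c', ?_⟩
    symm
    apply inv_eq_of_mul_eq_one_right
    show algebraMap K T.F (algebraMap R K c) * algebraMap K T.F (algebraMap R K c') = 1
    rw [← map_mul, ← map_mul, hcc, map_one, map_one]
  · show S.toF (algebraMap K T.F (algebraMap R K D.ϖ)) = _ * algebraMap K T.F (algebraMap R K D.ϖ)
    rw [toF_algebraMap, hc, map_mul, map_mul]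

lemma RF_le_O : T.RF ≤ T.O := by
  rintro _ ⟨r, rfl⟩
  have : (algebraMap K T.F).comp (algebraMap R K) r
      = T.al (algebraMap K D.F0 (algebraMap R K r)) := rfl
  rw [this]
  apply T.al_mem_O
  rw [D.mem_gaussO]
  have : ((algebraMap K D.F0 (algebraMap R K r) : D.F0) : LaurentSeries K)
      = D.inc (HahnSeries.C r) := by
    show algebraMap K (LaurentSeries K) _ = _
    rw [algebraMap_eq_C]
    exact (coeffMap_C _ _).symm
  rw [this]
  exact QData.inc_mem_LamRing _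

/-- [T2] : `τ` preserves the chart of a coordinate with `τ`-fixed coefficients. -/
theorem toF_mem_chart (X : D.Coord) (hx : S.cR X.xW = X.xW) {f : T.F} (hf : f ∈ T.chart X) :
    S.toF f ∈ T.chart X := by
  obtain ⟨p, hp, h⟩ := hf
  refine ⟨p.map (mapRingHom (S.sR : R →+* R)), hp.map _, ?_⟩
  have hcomm : S.cK.comp X.phi = X.phi.comp (mapRingHom (S.sR : R →+* R)) := by
    apply Polynomial.ringHom_ext
    · intro a
      simp only [RingHom.comp_apply, X.phi_apply, evS_C, coe_mapRingHom, map_C]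
      rw [S.cK_inc, coeffMap_C]
    · simp only [RingHom.comp_apply, X.phi_apply, evS_X, coe_mapRingHom, map_X]
      rw [S.cK_inc, hx]
  rw [eval₂_map, ← hcomm, coe_toF, ← hom_eval₂, h, map_zero]

/-- [T1] : inertia. -/
theorem isInert (hsk : ∀ c, S.sk c = c) : IsInert T.O T.ϖF S.toF := by
  rw [T.O_eq]
  obtain ⟨c, hc, hc', hcϖ⟩ := S.toF_ϖF
  refine IsInert.inf T.ϖF_ne_zero S.toF
    (fun x hx => T.mem_V1.2 (S.toF_mem_O1 (T.mem_V1.1 hx)))
    (fun x hx => T.mem_V2.2 (S.toF_mem_O2 (T.mem_V2.1 hx)))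
    (fun x hx => ?_) (fun x hx => ?_) T.discrete1 T.discrete2
    ⟨c, T.mem_V1.2 (RF_le_O hc).1, T.mem_V1.2 (RF_le_O hc').1, T.mem_V2.2 (RF_le_O hc).2,
      T.mem_V2.2 (RF_le_O hc').2, hcϖ⟩
  · obtain ⟨y, hy, h⟩ := S.cong1 hsk (T.mem_V1.1 hx)
    exact ⟨y, T.mem_V1.2 hy, h⟩
  · obtain ⟨y, hy, h⟩ := S.cong2 hsk (T.mem_V2.1 hx)
    exact ⟨y, T.mem_V2.2 hy, h⟩

end TAut

end Fermat.Agent.S34
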