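import Fermat.Agent.ES.InstUp

/-!
# S34, modular block : descent of linear spans from `ℚ̄` to a number field

`span_descent` : if `g, h i ∈ K0((T))` and `g = ∑ a i * h i` with `a i ∈ FF M`, then the `a i` can be
chosen in `F0 K0 M`.
-/

set_option autoImplicit false

noncomputable section

namespace Fermat.Agent.S34

open ModularCurve AlgebraicCurve
open Fermat.Agent.S24 Fermat.Agent.S28 Fermat.Agent.ES.QE Fermat.Agent.ES.Inst

namespace SpanDesc

variable {K L : Type*} [Field K] [Field L] [Algebra K L]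

/-- coefficientwise application of a `K`-linear form. -/
def lam (φ : L →ₗ[K] K) (z : LaurentSeries L) : LaurentSeries K := z.map φ

@[simp] lemma lam_coeff (φ : L →ₗ[K] K) (z : LaurentSeries L) (n : ℤ) :
    (lam φ z).coeff n = φ (z.coeff n) := rfl

lemma lam_zero (φ : L →ₗ[K] K) : lam φ 0 = 0 := by
  ext n
  simp

lemma lam_add (φ : L →ₗ[K] K) (y z : LaurentSeries L) : lam φ (y + z) = lam φ y + lam φ z := by
  ext n
  simp

lemma lam_sum (φ : L →ₗ[K] K) {ι : Type*} (s : Finset ι) (z : ι → LaurentSeries L) :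
    lam φ (∑ i ∈ s, z i) = ∑ i ∈ s, lam φ (z i) := by
  classical
  induction s using Finset.induction_on with
  | empty => simp [lam_zero]
  | insert a s ha ih => rw [Finset.sum_insert ha, Finset.sum_insert ha, lam_add, ih]

lemma support_lam (φ : L →ₗ[K] K) (z : LaurentSeries L) : (lam φ z).support ⊆ z.support := by
  intro n hn h
  apply hn
  rw [lam_coeff, h, map_zero]

lemma support_coeffMap (h : LaurentSeries K) :
    (coeffMap (algebraMap K L) h).support ⊆ h.support := by
  intro n hn h0
  apply hn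
  rw [coeffMap_coeff, h0, map_zero]

lemma lam_mul (φ : L →ₗ[K] K) (h : LaurentSeries K) (z : LaurentSeries L) :
    lam φ (coeffMap (algebraMap K L) h * z) = h * lam φ z := by
  ext n
  rw [lam_coeff, HahnSeries.coeff_mul_left' h.isPWO_support (support_coeffMap h),
    HahnSeries.coeff_mul_right' z.isPWO_support (support_lam φ z), map_sum]
  refine Finset.sum_congr rfl fun ij _ => ?_
  rw [coeffMap_coeff, lam_coeff, ← Algebra.smul_def, map_smul, smul_eq_mul]

lemma lam_C (φ : L →ₗ[K] K) (c : L) : lam φ (HahnSeries.C c) = HahnSeries.C (φ c) := by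
  ext n
  rw [lam_coeff, HahnSeries.C_apply, HahnSeries.C_apply, HahnSeries.coeff_single,
    HahnSeries.coeff_single]
  split_ifs
  · rfl
  · exact map_zero φ

lemma lam_coeffMap (φ : L →ₗ[K] K) (hφ : ∀ a : K, φ (algebraMap K L a) = a) (g : LaurentSeries K) :
    lam φ (coeffMap (algebraMap K L) g) = g := by
  ext n
  rw [lam_coeff, coeffMap_coeff, hφ]

/-- the field generated by `E0` and the constants of `L`. -/
def bigField (E0 : IntermediateField K (LaurentSeries K)) : Subfield (LaurentSeries L) :=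
  Subfield.closure ((coeffMap (algebraMap K L)) '' (E0 : Set (LaurentSeries K)) ∪
    Set.range (HahnSeries.C : L → LaurentSeries L))

theorem lam_mem [Algebra.IsAlgebraic K L] (φ : L →ₗ[K] K)
    (E0 : IntermediateField K (LaurentSeries K)) {z : LaurentSeries L}
    (hz : z ∈ bigField (L := L) E0) : lam φ z ∈ E0 := by
  let ψ : E0 →+* LaurentSeries L :=
    (coeffMap (algebraMap K L)).comp (algebraMap E0 (LaurentSeries K))
  let _ : Algebra E0 (LaurentSeries L) := ψ.toAlgebra
  set S : Set (LaurentSeries L) := Set.range (HahnSeries.C : L → LaurentSeries L) with hS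
  have halg : ∀ x ∈ S, IsAlgebraic E0 x := by
    rintro _ ⟨c, rfl⟩
    obtain ⟨p, hp0, hp⟩ := Algebra.IsAlgebraic.isAlgebraic (R := K) c
    refine ⟨p.map (algebraMap K E0), (Polynomial.map_ne_zero_iff (algebraMap K E0).injective).2 hp0,
      ?_⟩
    rw [Polynomial.aeval_def, Polynomial.eval₂_map]
    have e : (algebraMap E0 (LaurentSeries L)).comp (algebraMap K E0)
        = (HahnSeries.C : L →+* LaurentSeries L).comp (algebraMap K L) := by
      ext a : 1
      show coeffMap (algebraMap K L) (algebraMap K (LaurentSeries K) a) = _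
      rw [algebraMap_eq_C, coeffMap_C]
      rfl
    rw [e, ← Polynomial.hom_eval₂, ← Polynomial.aeval_def, hp, map_zero]
  have h1 : z ∈ IntermediateField.adjoin E0 S := by
    have hle : bigField (L := L) E0 ≤ (IntermediateField.adjoin E0 S).toSubfield := by
      rw [bigField, Subfield.closure_le]
      rintro x (⟨y, hy, rfl⟩ | hx)
      · exact (IntermediateField.adjoin E0 S).algebraMap_mem ⟨y, hy⟩
      · exact IntermediateField.subset_adjoin E0 S hx
    exact hle hz
  have h2 : z ∈ Algebra.adjoin E0 S := by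
    rw [← IntermediateField.adjoin_toSubalgebra_of_isAlgebraic halg]
    exact h1
  have h3 : z ∈ Submodule.span E0 (Submonoid.closure S : Set (LaurentSeries L)) := by
    rw [← Algebra.adjoin_eq_span]
    exact h2
  have hcl : ∀ x ∈ Submonoid.closure S, ∃ c : L, x = HahnSeries.C c := by
    intro x hx
    induction hx using Submonoid.closure_induction with
    | mem y hy => obtain ⟨c, rfl⟩ := hy; exact ⟨c, rfl⟩
    | one => exact ⟨1, (map_one _).symm⟩
    | mul a b _ _ ha hb =>
      obtain ⟨c, rfl⟩ := ha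
      obtain ⟨d, rfl⟩ := hb
      exact ⟨c * d, (map_mul _ _ _).symm⟩
  clear h2 h1 hz
  induction h3 using Submodule.span_induction with
  | mem x hx =>
    obtain ⟨c, rfl⟩ := hcl x hx
    rw [lam_C, ← algebraMap_eq_C]
    exact E0.algebraMap_mem _
  | zero => rw [lam_zero]; exact zero_mem _
  | add x y _ _ hx hy => rw [lam_add]; exact add_mem hx hy
  | smul a x _ hx =>
    have : a • x = coeffMap (algebraMap K L) (a : LaurentSeries K) * x := Algebra.smul_def a x
    rw [this, lam_mul]
    exact mul_mem a.2 hx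

theorem exists_form : ∃ φ : L →ₗ[K] K, ∀ a : K, φ (algebraMap K L a) = a := by
  obtain ⟨g, hg⟩ := (Algebra.linearMap K L).exists_leftInverse_of_injective
    (LinearMap.ker_eq_bot.2 (algebraMap K L).injective)
  exact ⟨g, fun a => DFunLike.congr_fun hg a⟩

/-- abstract form of the descent. -/
theorem span_descent_abs [Algebra.IsAlgebraic K L] (E0 : IntermediateField K (LaurentSeries K))
    {n : ℕ} (g : LaurentSeries K) (h : Fin n → LaurentSeries K) (a : Fin n → LaurentSeries L)
    (ha : ∀ i, a i ∈ bigField (L := L) E0)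
    (hg : coeffMap (algebraMap K L) g = ∑ i, a i * coeffMap (algebraMap K L) (h i)) :
    ∃ a' : Fin n → LaurentSeries K, (∀ i, a' i ∈ E0) ∧ g = ∑ i, a' i * h i := by
  obtain ⟨φ, hφ⟩ := exists_form (K := K) (L := L)
  refine ⟨fun i => lam φ (a i), fun i => lam_mem φ E0 (ha i), ?_⟩
  have := congrArg (lam φ) hg
  rw [lam_coeffMap φ hφ, lam_sum] at this
  rw [this]
  refine Finset.sum_congr rfl fun i _ => ?_
  rw [mul_comm, lam_mul, mul_comm]

end SpanDesc

open SpanDesc

theorem FF_mem_bigField (K0 : IntermediateField ℚ Kb) (M : ℕ) [NeZero M] (a : FF M) :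
    (a : LaurentSeries Kb) ∈ bigField (L := Kb) (F0 K0 M) := by
  refine FF_map_mem M (modularFunctionFieldBar M).val.toRingHom (bigField (L := Kb) (F0 K0 M))
    ?_ ?_ a
  · intro c
    apply Subfield.subset_closure
    right
    exact ⟨c, (algebraMap_eq_C c).symm⟩
  · intro d _ hd
    apply Subfield.subset_closure
    left
    refine ⟨gen K0 M (false, ⟨d, Nat.mem_divisors.2 ⟨hd, NeZero.ne M⟩⟩),
      IntermediateField.subset_adjoin _ _ ⟨_, rfl⟩, ?_⟩
    have h1 := InstUp.bc_gen K0 M (false, ⟨d, Nat.mem_divisors.2 ⟨hd, NeZero.ne M⟩⟩)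
    have h2 := InstUp.jdL_eq_gen (N := M) hd (NeZero.ne M)
    show bc K0 _ = ((jd M d hd : FF M) : LaurentSeries Kb)
    rw [h1, coe_jd, h2]

/-- **Descent of linear spans.** -/
theorem span_descent (K0 : IntermediateField ℚ Kb) (M : ℕ) [NeZero M] {n : ℕ}
    (g : LaurentSeries K0) (h : Fin n → LaurentSeries K0) (a : Fin n → FF M)
    (hg : bc K0 g = ∑ i, (a i : LaurentSeries Kb) * bc K0 (h i)) :
    ∃ a' : Fin n → LaurentSeries K0, (∀ i, a' i ∈ F0 K0 M) ∧ g = ∑ i, a' i * h i := by
  have halg : Algebra.IsAlgebraic ℚ Kb := AlgebraicClosure.isAlgebraic ℚ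
  have : Algebra.IsAlgebraic K0 Kb := Algebra.IsAlgebraic.tower_top (K := ℚ) K0
  exact span_descent_abs (F0 K0 M) g h (fun i => (a i : LaurentSeries Kb))
    (fun i => FF_mem_bigField K0 M (a i)) hg

end Fermat.Agent.S34
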