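import Fermat.Agent.S34.NSpan
import Fermat.Agent.S34.NJq
import Fermat.Agent.S34.SpanDesc

/-!
# S34, modular block, package N-TWO : the structure `Two` at level `M₀ q`
-/

set_option autoImplicit false

noncomputable section

namespace Fermat.Agent.S34

open ModularCurve AlgebraicCurve Polynomial
open Fermat.Agent.S24 Fermat.Agent.S28 Fermat.Agent.ES Fermat.Agent.ES.QE Fermat.Agent.ES.Inst
  Fermat.Agent.ES.IDvr

variable (M0 q : ℕ) [NeZero M0] [NeZero q]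

/-- the span statement over a number field. -/
theorem span_K0 (hq : q.Prime) (hqM : ¬ q ∣ M0) (K0 : IntermediateField ℚ Kb)
    {f : LaurentSeries K0} (hf : f ∈ F0 K0 (M0 * q)) :
    ∃ a : Fin (q + 1) → LaurentSeries K0, (∀ i, a i ∈ F0 K0 M0) ∧
      f = ∑ i, a i * qExpand K0 q (jqModC K0) ^ (i : ℕ) := by
  obtain ⟨a, ha⟩ := span_Kb M0 q hq hqM ⟨bc K0 f, bc_mem K0 (M0 * q) hf⟩
  refine span_descent K0 M0 f (fun i => qExpand K0 q (jqModC K0) ^ (i : ℕ)) a ?_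
  have := congrArg Subtype.val ha
  rw [IntermediateField.coe_sum] at this
  change bc K0 f = _ at this
  rw [this]
  refine Finset.sum_congr rfl fun i _ => ?_
  rw [map_pow, bc_qExpand, bc_jq, IntermediateField.coe_mul, IntermediateField.coe_pow,
    coe_heckeAlphaBar, coe_heckeBetaBar, coe_jF']

theorem exists_two (hq : q.Prime) (hqM : ¬ q ∣ M0) (A : ValuationSubring Kb)
    (W : FF (M0 * q) ≃ₐ[Kb] FF (M0 * q))
    (hWα : ∀ y : FF M0, W (heckeAlphaBar Kb M0 q y) = heckeBetaBar Kb M0 q y)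
    (hWβ : ∀ y : FF M0, W (heckeBetaBar Kb M0 q y) = heckeAlphaBar Kb M0 q y) :
    ∃ K1 : IntermediateField ℚ Kb, FiniteDimensional ℚ K1 ∧
      ∀ K0 : IntermediateField ℚ Kb, FiniteDimensional ℚ K0 → K1 ≤ K0 →
        ∀ [IsDiscreteValuationRing (R0 K0 A)] (D : QData (R0 K0 A) K0 (kA A)), D.F0 = F0 K0 M0 →
          ∃ T : Two D q, T.F = F0 K0 (M0 * q) ∧
            ∀ (f : T.F) (hf : bc K0 (f : LaurentSeries K0) ∈ modularFunctionFieldBar (M0 * q)),
              bc K0 (T.e2 f) = ((W ⟨_, hf⟩ : FF (M0 * q)) : LaurentSeries Kb) := by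
  obtain ⟨K1, hK1, hjq⟩ := exists_K1_jq q A
  refine ⟨K1, hK1, fun K0 hK0 hle _ D hF => ?_⟩
  have hqK : (q : K0) ≠ 0 := Nat.cast_ne_zero.2 (NeZero.ne q)
  -- the embedding into `FF (M0 * q)`
  let ι : F0 K0 (M0 * q) →+* FF (M0 * q) :=
    ((bc K0).comp (algebraMap (F0 K0 (M0 * q)) (LaurentSeries K0))).codRestrict
      (modularFunctionFieldBar (M0 * q)) (fun f => bc_mem K0 (M0 * q) f.2)
  let ψ : F0 K0 (M0 * q) →+* LaurentSeries Kb :=
    (modularFunctionFieldBar (M0 * q)).val.toRingHom.comp ((W : FF (M0 * q) →+* FF (M0 * q)).comp ι)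
  have hια : ∀ (u : LaurentSeries K0) (hu : u ∈ F0 K0 M0),
      ι ⟨u, F0_le M0 q K0 hu⟩ = heckeAlphaBar Kb M0 q ⟨bc K0 u, bc_mem K0 M0 hu⟩ :=
    fun u hu => Subtype.ext (bc_alpha M0 q K0 hu).symm
  have hιβ : ∀ (u : LaurentSeries K0) (hu : u ∈ F0 K0 M0),
      ι ⟨qExpand K0 q u, V_mem_F0 M0 q K0 hqK hu⟩
        = heckeBetaBar Kb M0 q ⟨bc K0 u, bc_mem K0 M0 hu⟩ :=
    fun u hu => Subtype.ext (bc_beta M0 q K0 hu).symm
  have hψα : ∀ (u : LaurentSeries K0) (hu : u ∈ F0 K0 M0),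
      ψ ⟨u, F0_le M0 q K0 hu⟩ = bc K0 (qExpand K0 q u) := by
    intro u hu
    show ((W (ι ⟨u, F0_le M0 q K0 hu⟩) : FF (M0 * q)) : LaurentSeries Kb) = _
    rw [hια u hu, hWα, bc_beta M0 q K0 hu]
  have hψβ : ∀ (u : LaurentSeries K0) (hu : u ∈ F0 K0 M0),
      ψ ⟨qExpand K0 q u, V_mem_F0 M0 q K0 hqK hu⟩ = bc K0 u := by
    intro u hu
    show ((W (ι ⟨qExpand K0 q u, V_mem_F0 M0 q K0 hqK hu⟩) : FF (M0 * q)) : LaurentSeries Kb) = _
    rw [hιβ u hu, hWβ, bc_alpha M0 q K0 hu]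
  have hj : jqModC K0 ∈ F0 K0 M0 := hF ▸ D.j_mem
  have hmem : ∀ f : F0 K0 (M0 * q), ψ f ∈ (bc K0).fieldRange := by
    intro f
    obtain ⟨a, ha, hf⟩ := span_K0 M0 q hq hqM K0 f.2
    have e : f = ∑ i, (⟨a i, F0_le M0 q K0 (ha i)⟩ : F0 K0 (M0 * q))
        * (⟨qExpand K0 q (jqModC K0), V_mem_F0 M0 q K0 hqK hj⟩ : F0 K0 (M0 * q)) ^ (i : ℕ) := by
      apply Subtype.ext
      rw [IntermediateField.coe_sum, hf]
      rfl
    rw [e, map_sum]
    refine sum_mem fun i _ => ?_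
    rw [map_mul, map_pow, hψα _ (ha i), hψβ _ hj]
    have hr : ∀ z : LaurentSeries K0, bc K0 z ∈ (bc K0).fieldRange := fun z => ⟨z, rfl⟩
    exact mul_mem (hr _) (pow_mem (hr _) _)
  let e2 : F0 K0 (M0 * q) →+* LaurentSeries K0 :=
    ((bc K0).rangeRestrictFieldEquiv.symm : (bc K0).fieldRange →+* LaurentSeries K0).comp
      (ψ.codRestrict (bc K0).fieldRange hmem)
  have he2 : ∀ f, bc K0 (e2 f) = ψ f := fun f =>
    (bc K0).rangeRestrictFieldEquiv_apply_symm_apply _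
  refine ⟨{ F := F0 K0 (M0 * q)
            le := hF ▸ F0_le M0 q K0
            V_mem := fun u hu => V_mem_F0 M0 q K0 hqK (hF ▸ hu)
            e2 := e2
            e2_alpha := fun u hu => bc_injective K0 (by rw [he2]; exact hψα u (hF ▸ hu))
            e2_beta := fun u hu => bc_injective K0 (by rw [he2]; exact hψβ u (hF ▸ hu))
            span := fun f hf => by
              obtain ⟨a, ha, h⟩ := span_K0 M0 q hq hqM K0 hf
              exact ⟨a, fun i => hF ▸ ha i, h⟩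
            jq_int := hjq K0 hK0 hle }, rfl, fun f hf => he2 f⟩

end Fermat.Agent.S34
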