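import Fermat.Agent.ES.HauptW3

/-!
# S34, modular block, [N-WX] : the coordinates `t₂`, `t₃` of level `M₀` at level `M₀ q`
-/

set_option autoImplicit false

namespace Fermat.Agent.S34

open ModularCurve AlgebraicCurve
open Fermat.Agent.S24 Fermat.Agent.ES Fermat.Agent.ES.CuspOrd Fermat.Agent.ES.T23

/-- the properties of the coordinate `x = t_r` of level `M₀` (`r ∣ M₀`) at level `M₀ q`. -/
structure WGood (M0 q : ℕ) [NeZero M0] [NeZero q] (x : FF M0) : Prop where
  /-- same sign, and comparison of the orders, at every place -/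
  pos : ∀ v : Place Kb (FF (M0 * q)), 0 ≤ v.ord (heckeAlphaBar Kb M0 q x) →
    0 ≤ v.ord (heckeBetaBar Kb M0 q x) ∧
      v.ord (heckeAlphaBar Kb M0 q x) ≤ q * v.ord (heckeBetaBar Kb M0 q x)
  neg : ∀ v : Place Kb (FF (M0 * q)), v.ord (heckeAlphaBar Kb M0 q x) ≤ 0 →
    v.ord (heckeBetaBar Kb M0 q x) ≤ 0 ∧
      q * v.ord (heckeBetaBar Kb M0 q x) ≤ v.ord (heckeAlphaBar Kb M0 q x)
  /-- the cusps are the zeros and poles of `x` -/
  cusp : ∀ v : Place Kb (FF (M0 * q)), v.ord (jF (M0 * q)) < 0 →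
    v.ord (heckeAlphaBar Kb M0 q x) ≠ 0

/-- the same for the coordinate `1 / x` -/
theorem WGood.inv {M0 q : ℕ} [NeZero M0] [NeZero q] {x : FF M0} (h : WGood M0 q x) :
    WGood M0 q x⁻¹ where
  pos v hv := by
    rw [map_inv₀, Place.ord_inv] at hv ⊢
    rw [map_inv₀, Place.ord_inv]
    have := h.neg v (by omega)
    constructor
    · omega
    · rw [mul_neg]
      omega
  neg v hv := by
    rw [map_inv₀, Place.ord_inv] at hv ⊢
    rw [map_inv₀, Place.ord_inv]
    have := h.pos v (by omega)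
    constructor
    · omega
    · rw [mul_neg]
      omega
  cusp v hv := by
    rw [map_inv₀, Place.ord_inv]
    have := h.cusp v hv
    omega

/-- **[N-WX]** for `t₂` -/
theorem wGood_t2F (M0 q : ℕ) [NeZero M0] [NeZero q] (h2 : 2 ∣ M0) (hq : Nat.Coprime 2 q) :
    WGood M0 q (t2F M0 h2) := by
  have key := wx_core 2 M0 q Nat.prime_two h2 hq B2n qHom_B2n B2n_coe (t2F M0 h2) rfl
    (fun v φ => by
      apply jRel_two v
      have := congrArg φ (jF_mul_t2F M0 h2)
      simpa only [map_mul, map_pow, map_add, map_ofNat] using this)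
  exact ⟨fun v => (key v).1, fun v => (key v).2.1, fun v => (key v).2.2⟩

/-- **[N-WX]** for `t₃` -/
theorem wGood_t3F (M0 q : ℕ) [NeZero M0] [NeZero q] (h3 : 3 ∣ M0) (hq : Nat.Coprime 3 q) :
    WGood M0 q (t3F M0 h3) := by
  have key := wx_core 3 M0 q Nat.prime_three h3 hq B3n qHom_B3n B3n_coe (t3F M0 h3) rfl
    (fun v φ => by
      apply jRel_three v
      have := congrArg φ (jF_mul_t3F M0 h3)
      simpa only [map_mul, map_pow, map_add, map_ofNat] using this)
  exact ⟨fun v => (key v).1, fun v => (key v).2.1, fun v => (key v).2.2⟩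

end Fermat.Agent.S34
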