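import Fermat.Agent.ES.InstGY
import Fermat.Agent.ES.InstPl
import Fermat.Agent.ES.ResField
import Fermat.Agent.ES.FkEmb
import Fermat.Agent.S37.KT

/-!
# S34, modular block, package N-XU : the modular unit `H_q = q^12 Δ(q z) / Δ(z)`

* `ord_HqF` : `H_q` has neither zero nor pole outside the cusps;
* `W_HqF`   : `W (H_q) * H_q = q^12` for the Atkin-Lehner involution.
-/

set_option autoImplicit false

noncomputable section

namespace Fermat.Agent.S34

open ModularCurve AlgebraicCurve Polynomial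
open Fermat.Agent.S24 Fermat.Agent.S28 Fermat.Agent.ES Fermat.Agent.ES.Inst

namespace NXu

theorem neZero_mul (M0 q : ℕ) [NeZero M0] [NeZero q] : NeZero (M0 * q) :=
  ⟨mul_ne_zero (NeZero.ne M0) (NeZero.ne q)⟩

/-- the modular equation and the unit equation over `ℚ̄`. -/
theorem exists_zetaKb (N : ℕ) [NeZero N] :
    ∃ ζ : Kbˣ, ζ ^ N = 1 ∧ ModEq Kb ζ N ∧ UnitEq Kb ζ N := by
  obtain ⟨ζ₁, hζ₁⟩ := ResField.exists_zetaQ N
  have hN : N ≠ 0 := NeZero.ne N
  have hpow : ζ₁ ^ N = 1 := by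
    apply ResField.iot.injective
    rw [map_pow, hζ₁, map_one]
    exact (IsPrimitiveRoot.coe_units_iff.mpr (Degree.isPrimitiveRoot_zetaC N)).pow_eq_one
  have h0 : ζ₁ ≠ 0 := by
    rintro rfl
    rw [zero_pow hN] at hpow
    exact zero_ne_one hpow
  have h := ResField.transfer ResField.iot ResField.iot.injective N (Units.mk0 ζ₁ h0) (by
    ext
    exact hζ₁)
  refine ⟨Units.mk0 ζ₁ h0, ?_, h.1, h.2⟩
  ext
  simpa using hpow

/-- the generator `H_d` as an element of `FF N`. -/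
def HF (N : ℕ) [NeZero N] (d : ℕ) (hd : d ∈ N.divisors) : FF N :=
  ⟨gen Kb N (true, ⟨d, hd⟩), gen_mem_FF _ _⟩

/-- the evaluation `ℚ̄[X] → FF N`, `X ↦ j`. -/
def evJ (N : ℕ) : Kb[X] →+* FF N := (aeval (jF N) : Kb[X] →ₐ[Kb] FF N).toRingHom

theorem coe_evJ (N : ℕ) (p : Kb[X]) :
    ((evJ N p : FF N) : LaurentSeries Kb) = aeval (jqModC Kb) p := by
  have h := aeval_algHom_apply (IsScalarTower.toAlgHom Kb (FF N) (LaurentSeries Kb)) (jF N) p
  have h2 : (IsScalarTower.toAlgHom Kb (FF N) (LaurentSeries Kb)) (jF N) = jqModC Kb := coe_jF' N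
  rw [h2] at h
  exact h.symm

theorem exists_unitPoly (N : ℕ) [NeZero N] (d : ℕ) (hd : d ∈ N.divisors) :
    ∃ P : Kb[X][X], P.Monic ∧ eval₂ (evJ N) (HF N d hd) P = 0 ∧
      ∃ c : Kb, c ≠ 0 ∧ P.coeff 0 = C c := by
  classical
  obtain ⟨ζ, hζ, h1, h2⟩ := exists_zetaKb N
  set x : Gen N := (true, ⟨d, hd⟩) with hx
  obtain ⟨P, hP⟩ := h1 (MvPolynomial.X x)
  obtain ⟨c, hc⟩ := h2 d (Nat.dvd_of_mem_divisors hd)
  set φ : Kb[X] →+* LaurentSeries Kb := (aeval (Jt Kb N)).toRingHom with hφ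
  have hφinj : Function.Injective φ := by
    rw [injective_iff_map_eq_zero]
    intro p hp
    exact (transcendental_iff.mp (transcendental_Jt Kb N)) p hp
  have hev : ∀ i : Cos N, ev Kb ζ N (rep i) (MvPolynomial.X x) = cY Kb ζ N (rep i) d := by
    intro i
    simp [ev, cgen, hx]
  have hNk : (N : Kb) ≠ 0 := by exact_mod_cast NeZero.ne N
  have hmon : P.Monic := by
    apply Polynomial.monic_of_injective hφinj
    rw [hP]
    exact monic_prod_of_monic _ _ (fun i _ => monic_X_sub_C _)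
  have hmem : rep ((1 : Matrix.SpecialLinearGroup (Fin 2) ℤ) : Cos N)
      ∈ CongruenceSubgroup.Gamma0 N := (rep_mem_Gamma0_iff _).mpr rfl
  have hroot : eval₂ φ (qExp Kb N (gen Kb N x)) P = 0 := by
    rw [← eval_map, hP, eval_prod]
    apply Finset.prod_eq_zero (Finset.mem_univ ((1 : Matrix.SpecialLinearGroup (Fin 2) ℤ) : Cos N))
    rw [eval_sub, eval_X, eval_C, ev_of_mem_Gamma0 ζ hζ hmem, ev0, MvPolynomial.aeval_X, sub_self]
  have hφ2 : φ = (qExp Kb N).comp (aeval (jqModC Kb) : Kb[X] →ₐ[Kb] LaurentSeries Kb).toRingHom := by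
    apply RingHom.ext
    intro p
    rw [RingHom.comp_apply]
    exact (DegL.qExp_aeval N (jqModC Kb) p).symm
  refine ⟨P, hmon, ?_, (-1) ^ Fintype.card (Cos N) * c, ?_, ?_⟩
  · apply Subtype.ext
    apply Ord.qExp_injective (R := Kb) N
    rw [hφ2, ← hom_eval₂] at hroot
    rw [ZeroMemClass.coe_zero, map_zero, ← hroot]
    congr 1
    have := hom_eval₂ P (evJ N) (algebraMap (FF N) (LaurentSeries Kb)) (HF N d hd)
    refine this.trans ?_
    congr 1
    apply RingHom.ext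
    intro p
    exact coe_evJ N p
  · apply mul_ne_zero (pow_ne_zero _ (by norm_num))
    rintro rfl
    rw [map_zero, Finset.prod_eq_zero_iff] at hc
    obtain ⟨i, -, hi⟩ := hc
    exact cY_ne_zero ζ hNk _ (Nat.dvd_of_mem_divisors hd) hi
  · apply hφinj
    have h3 : φ (P.coeff 0) = (P.map φ).coeff 0 := (coeff_map _ _).symm
    rw [h3, hP, coeff_zero_eq_eval_zero, eval_prod]
    simp only [eval_sub, eval_X, eval_C, zero_sub, hev]
    rw [Finset.prod_neg, hc, Finset.card_univ, hφ]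
    simp [HahnSeries.algebraMap_apply']

theorem isIntegral_evJ (N : ℕ) (p : Kb[X]) : IsIntegral (Algebra.adjoin Kb {jF N}) (evJ N p) := by
  have hmem : evJ N p ∈ Algebra.adjoin Kb {jF N} := by
    rw [Algebra.adjoin_singleton_eq_range_aeval]
    exact ⟨p, rfl⟩
  exact isIntegral_algebraMap (x := (⟨_, hmem⟩ : Algebra.adjoin Kb {jF N}))

theorem isIntegral_eval₂ (N : ℕ) {H : FF N} (hH : IsIntegral (Algebra.adjoin Kb {jF N}) H)
    (P : Kb[X][X]) : IsIntegral (Algebra.adjoin Kb {jF N}) (eval₂ (evJ N) H P) := by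
  rw [eval₂_eq_sum_range]
  exact IsIntegral.sum _ fun i _ => (isIntegral_evJ N _).mul (hH.pow i)

/-- the modular units `H_d` have neither zero nor pole outside the cusps. -/
theorem ord_HF (N : ℕ) [NeZero N] (d : ℕ) (hd : d ∈ N.divisors) (v : Place Kb (FF N))
    (hv : 0 ≤ v.ord (jF N)) : v.ord (HF N d hd) = 0 := by
  obtain ⟨P, hmon, hroot, c, hc, hP0⟩ := exists_unitPoly N d hd
  set H := HF N d hd with hH
  have hint : IsIntegral (Algebra.adjoin Kb {jF N}) H := by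
    have h1 : (evJ N).IsIntegralElem H := ⟨P, hmon, hroot⟩
    have h2 : (algebraMap (Algebra.adjoin Kb {jF N}) (FF N)).IsIntegralElem H := by
      refine Lam.isIntegralElem_of_range _ _ ?_ h1
      intro r
      have hmem : evJ N r ∈ Algebra.adjoin Kb {jF N} := by
        rw [Algebra.adjoin_singleton_eq_range_aeval]
        exact ⟨r, rfl⟩
      exact ⟨⟨_, hmem⟩, rfl⟩
    exact h2
  set G := eval₂ (evJ N) H (divX P) with hG
  have hGint : IsIntegral (Algebra.adjoin Kb {jF N}) G := isIntegral_eval₂ N hint _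
  have hrel : G * H = algebraMap Kb (FF N) (-c) := by
    have h := divX_mul_X_add P
    rw [← h, eval₂_add, eval₂_mul, eval₂_X, eval₂_C, hP0] at hroot
    have h2 : evJ N (C c) = algebraMap Kb (FF N) c := by
      rw [evJ]
      exact aeval_C _ _
    rw [h2] at hroot
    rw [map_neg]
    exact eq_neg_of_add_eq_zero_left hroot
  have hne : algebraMap Kb (FF N) (-c) ≠ 0 := by
    rw [Ne, map_eq_zero, neg_eq_zero]
    exact hc
  have hG0 : G ≠ 0 := by
    rintro h
    rw [h, zero_mul] at hrel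
    exact hne hrel.symm
  have hH0 : H ≠ 0 := by
    rintro h
    rw [h, mul_zero] at hrel
    exact hne hrel.symm
  have h1 := ord_nonneg_of_isIntegral N (jF N) H hint v hv
  have h2 := ord_nonneg_of_isIntegral N (jF N) G hGint v hv
  have h3 := congrArg v.ord hrel
  rw [Place.ord_mul v hG0 hH0, FF.ord_algebraMap] at h3
  omega

/-! ### the Atkin-Lehner involution -/

section W

open UpperHalfPlane ModularForm CongruenceSubgroup Matrix.SpecialLinearGroup
open Fermat.Agent.S21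
open P2MW.S_ModularForm_heckeT_slash_eq_self_of_mem_Gamma0.ModularForm.HeckeSlashInvariance
open scoped MatrixGroups Manifold

/-- `Δ` as a holomorphic function. -/
def DB : Hol := niceIncl 1 Dn

/-- `Δ(d z)` as a holomorphic function. -/
def DA (d : ℕ) [NeZero d] : Hol := niceIncl 1 (scale d Dn)

theorem DB_apply (τ : ℍ) : (DB : ℍ → ℂ) τ = discriminant τ := rfl

theorem DA_apply (d : ℕ) [NeZero d] (τ : ℍ) :
    (DA d : ℍ → ℂ) τ = discriminant (S23.Prim.Dm d • τ) := by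
  change (scale d Dn : ℍ → ℂ) τ = _
  rw [scale, utNice_apply, utZ_eq_Dm]
  rfl

/-- `Δ(q^d) / Δ(q)` in the modular function field, and its image in `Mer`. -/
theorem quot_spec (N : ℕ) [NeZero N] (d : ℕ) [NeZero d] (hd : d ∣ N) :
    ∃ x : FF N, (x : LaurentSeries Kb) = qExp Kb d (deltaS Kb) * deltaInvS Kb ∧
      Psi N x * toMer DB = toMer (DA d) := by
  set s : LaurentSeries Kb := qExp Kb d (deltaS Kb) * deltaInvS Kb with hs
  let A : Hol := niceIncl 1 (scale d Dn)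
  let B : Hol := niceIncl 1 Dn
  have hA : IsMF (Gamma0 N) 12 A.1 := by
    have h1 := isMF_comp_Dm N d hd isCF_Delta.isMF
    have e : A.1 = fun τ => discriminant (S23.Prim.Dm d • τ) := by
      funext τ
      exact DA_apply d τ
    rw [e]
    exact h1
  have hB : IsMF (Gamma0 N) 12 B.1 := isCF_Delta.isMF.of_top
  have hB0 : B ≠ 0 := fun h => Dn_ne_zero (niceIncl_injective 1 (by rw [map_zero]; exact h))
  have hsC : coeffMap iotaC s = qExp ℂ d (deltaS ℂ) * deltaInvS ℂ := by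
    rw [hs, map_mul, Ord.coeffMap_qExp, Ord.coeffMap_deltaS, Ord.coeffMap_deltaInvS]
  have hqB : HahnSeries.ofPowerSeries ℤ ℂ (qExpansion 1 B.1) = deltaS ℂ := by
    rw [← InstGY.ofPowerSeries_qHom_Dn]
    simp [B]
  have hqA : HahnSeries.ofPowerSeries ℤ ℂ (qExpansion 1 A.1) = qExp ℂ d (deltaS ℂ) := by
    rw [qExp_eq, ← InstGY.ofPowerSeries_qHom_Dn, ← ofPowerSeries_qHom_scale]
    simp [A]
  have hrel : coeffMap iotaC s * HahnSeries.ofPowerSeries ℤ ℂ (qExpansion 1 B.1)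
      = HahnSeries.ofPowerSeries ℤ ℂ (qExpansion 1 A.1) := by
    rw [hsC, hqB, hqA, mul_assoc, mul_comm (deltaInvS ℂ), InstGY.deltaS_mul_deltaInvS, mul_one]
  obtain ⟨x, hx⟩ := exists_Psi_mul_eq_of_laurent N 12 A B hA hB hB0 s hrel
  have hA'M : niceToMer 1 (toFr 1 (scale d Dn)) = toMer A := by
    rw [toFr, niceToMer_algebraMap]
  have hB'M : niceToMer 1 (toFr 1 Dn) = toMer B := by
    rw [toFr, niceToMer_algebraMap]
  have hAB' : Psi1 N x * toFr 1 Dn = toFr 1 (scale d Dn) := by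
    apply (niceToMer 1).injective
    rw [map_mul, hA'M, hB'M, ← Psi_apply, hx]
  have h2 := congrArg (niceToLaurent 1) hAB'
  rw [map_mul, niceToLaurent_Psi1, toFr, toFr, niceToLaurent_algebraMap, niceToLaurent_algebraMap,
    ofPowerSeries_qHom_scale, InstGY.ofPowerSeries_qHom_Dn, ← qExp_eq] at h2
  have h3 : iotaL N x = coeffMap iotaC s := by
    apply mul_right_cancel₀ InstGY.deltaS_ne_zero
    rw [h2, hsC, mul_assoc, mul_comm (deltaInvS ℂ), InstGY.deltaS_mul_deltaInvS, mul_one]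
  rw [iotaL_apply] at h3
  have h4 : (x : LaurentSeries Kb) = s := by
    ext n
    have := congrArg (fun z : LaurentSeries ℂ => z.coeff n) h3
    simp only [coeffMap_coeff] at this
    exact iotaC.injective this
  exact ⟨x, h4, hx⟩

theorem Wmer_toMer (ℓ : ℕ) (γ : SL(2, ℤ)) (F : Hol) :
    S37.KT.Wmer ℓ γ (toMer F) = toMer (compHom (heckeDiagMatrix ℓ) (det_heckeDiagMatrix_pos ℓ)
      (compHom (mapGL ℝ γ) (KEmb.det_mapGL_pos γ) F)) := by
  rw [S37.KT.Wmer, RingHom.comp_apply, KEmb.act_eq_merMap, merMap_toMer, merMap_toMer]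

/-- the key identity. -/
theorem key (M0 q : ℕ) [NeZero q] (γ : SL(2, ℤ)) (h10 : γ 1 0 = M0) (h11 : γ 1 1 = q) :
    (q : Mer) ^ 12 * (S37.KT.Wmer q γ (toMer (DA q)) * toMer (DA q))
      = S37.KT.Wmer q γ (toMer DB) * toMer DB := by
  have hq0 : q ≠ 0 := NeZero.ne q
  have hqC : (q : ℂ) ≠ 0 := by exact_mod_cast hq0
  rw [Wmer_toMer, Wmer_toMer]
  have hcast : (q : Mer) = toMer (q : Hol) := (map_natCast (algebraMap Hol Mer) q).symm
  rw [hcast]
  simp only [toMer, ← map_pow, ← map_mul]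
  apply congrArg (algebraMap Hol Mer)
  apply Subtype.ext
  funext τ
  set z : ℍ := heckeDiagMatrix q • τ with hz
  have hzc : (z : ℂ) = (q : ℂ) * τ := coe_heckeDiagMatrix_smul hq0 τ
  have hDz : S23.Prim.Dm q • τ = z := by
    apply UpperHalfPlane.ext
    rw [S23.Prim.coe_Dm_smul, hzc]
  have hdet : γ 0 0 * γ 1 1 - γ 0 1 * γ 1 0 = 1 := by
    have := γ.det_coe
    rwa [Matrix.det_fin_two] at this
  let γ' : SL(2, ℤ) := ⟨!![γ 0 0 * q, γ 0 1; M0, 1], by
    rw [Matrix.det_fin_two_of]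
    rw [h10, h11] at hdet
    linear_combination hdet⟩
  have hden : denom γ z = (q : ℂ) * denom γ' τ := by
    rw [ModularGroup.denom_apply, ModularGroup.denom_apply, hzc, h10, h11]
    simp only [γ', Matrix.of_apply, Matrix.cons_val_zero,
      Matrix.cons_val_one, Matrix.cons_val', Matrix.cons_val_fin_one]
    push_cast
    ring
  have hsm : S23.Prim.Dm q • (γ • z) = γ' • τ := by
    apply UpperHalfPlane.ext
    have hden1 : denom γ z ≠ 0 := denom_ne_zero γ z
    have hden2 : denom γ' τ ≠ 0 := denom_ne_zero γ' τ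
    rw [S23.Prim.coe_Dm_smul, coe_specialLinearGroup_apply, coe_specialLinearGroup_apply]
    rw [ModularGroup.denom_apply] at hden1 hden2
    rw [ModularGroup.denom_apply, ModularGroup.denom_apply] at hden
    simp only [algebraMap_int_eq, eq_intCast, Complex.ofReal_intCast]
    rw [mul_div_assoc', div_eq_div_iff hden1 hden2, hden, hzc]
    simp only [γ', Matrix.of_apply, Matrix.cons_val_zero,
      Matrix.cons_val_one, Matrix.cons_val', Matrix.cons_val_fin_one]
    push_cast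
    ring
  have e1 : (compHom (heckeDiagMatrix q) (det_heckeDiagMatrix_pos q)
      (compHom (mapGL ℝ γ) (KEmb.det_mapGL_pos γ) (DA q)) : ℍ → ℂ) τ
      = denom γ' τ ^ 12 * discriminant τ := by
    rw [compHom_apply, compHom_apply, DA_apply]
    change discriminant (S23.Prim.Dm q • (γ • z)) = _
    rw [hsm, AnConj.discriminant_smul]
  have e2 : (compHom (heckeDiagMatrix q) (det_heckeDiagMatrix_pos q)
      (compHom (mapGL ℝ γ) (KEmb.det_mapGL_pos γ) DB) : ℍ → ℂ) τ
      = denom γ z ^ 12 * discriminant z := by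
    rw [compHom_apply, compHom_apply, DB_apply]
    change discriminant (γ • z) = _
    rw [AnConj.discriminant_smul]
  change (q : ℂ) ^ 12 * ((compHom (heckeDiagMatrix q) (det_heckeDiagMatrix_pos q)
      (compHom (mapGL ℝ γ) (KEmb.det_mapGL_pos γ) (DA q)) : ℍ → ℂ) τ * (DA q : ℍ → ℂ) τ)
      = (compHom (heckeDiagMatrix q) (det_heckeDiagMatrix_pos q)
      (compHom (mapGL ℝ γ) (KEmb.det_mapGL_pos γ) DB) : ℍ → ℂ) τ * (DB : ℍ → ℂ) τ
  rw [e1, e2, DA_apply, DB_apply, hDz, hden]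
  ring

end W

end NXu

/-- `H_q = q^12 Δ(q z) / Δ(z)`. -/
def HqF (M0 q : ℕ) [NeZero M0] [NeZero q] : FF (M0 * q) :=
  haveI := NXu.neZero_mul M0 q
  ⟨gen Kb (M0 * q) (true, ⟨q, Nat.mem_divisors.2 ⟨dvd_mul_left q M0, NeZero.ne _⟩⟩),
    gen_mem_FF _ _⟩

theorem ord_HqF {M0 q : ℕ} [NeZero M0] [NeZero q] (v : Place Kb (FF (M0 * q)))
    (hv : 0 ≤ v.ord (jF (M0 * q))) : v.ord (HqF M0 q) = 0 :=
  haveI := NXu.neZero_mul M0 q
  NXu.ord_HF (M0 * q) q _ v hv

theorem W_HqF {M0 q : ℕ} [NeZero M0] [NeZero q] (hq : q.Prime) (hqM : ¬ q ∣ M0)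
    (W : FF (M0 * q) ≃ₐ[Kb] FF (M0 * q))
    (hWα : ∀ y : FF M0, W (heckeAlphaBar Kb M0 q y) = heckeBetaBar Kb M0 q y)
    (hWβ : ∀ y : FF M0, W (heckeBetaBar Kb M0 q y) = heckeAlphaBar Kb M0 q y) :
    W (HqF M0 q) * HqF M0 q = (q : FF (M0 * q)) ^ 12 := by
  have := NXu.neZero_mul M0 q
  have : Fact q.Prime := ⟨hq⟩
  obtain ⟨γ, h10, h11⟩ := S37.KT.exists_gamma M0 q hqM
  obtain ⟨x, hx, hxΨ⟩ := NXu.quot_spec (M0 * q) q (dvd_mul_left q M0)
  set Ψ : FF (M0 * q) →+* Mer := Psi (M0 * q) with hΨ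
  have hW : ∀ y, Ψ (W y) = S37.KT.Wmer q γ (Ψ y) := by
    have : Ψ.comp (W : FF (M0 * q) →+* FF (M0 * q)) = (S37.KT.Wmer q γ).comp Ψ := by
      apply S37.KT.ringHom_ext M0 q
      · intro y
        rw [RingHom.comp_apply, RingHom.comp_apply, hΨ, S37.KT.Wmer_alpha h10]
        exact congrArg _ (hWα y)
      · intro y
        rw [RingHom.comp_apply, RingHom.comp_apply, hΨ, S37.KT.Wmer_beta h10 h11]
        exact congrArg _ (hWβ y)
    exact fun y => DFunLike.congr_fun this y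
  have hH : HqF M0 q = (q : FF (M0 * q)) ^ 12 * x := by
    apply Subtype.ext
    change gen Kb (M0 * q) (true, ⟨q, _⟩) = _
    rw [MulMemClass.coe_mul, hx, ← mul_assoc]
    rfl
  have hkey := NXu.key M0 q γ h10 h11
  have hB0 : toMer NXu.DB ≠ 0 := by
    intro h
    have : NXu.DB = 0 := toMer_injective (by rw [h]; exact (map_zero (algebraMap Hol Mer)).symm)
    have h2 := congrFun (congrArg Subtype.val this) UpperHalfPlane.I
    exact ModularForm.discriminant_ne_zero _ h2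
  have hA0 : toMer (NXu.DA q) ≠ 0 := by
    intro h
    have : NXu.DA q = 0 := toMer_injective (by rw [h]; exact (map_zero (algebraMap Hol Mer)).symm)
    have h2 := congrFun (congrArg Subtype.val this) UpperHalfPlane.I
    rw [NXu.DA_apply] at h2
    exact ModularForm.discriminant_ne_zero _ h2
  have hWA0 : S37.KT.Wmer q γ (toMer (NXu.DA q)) ≠ 0 := by
    rw [Ne, map_eq_zero]
    exact hA0
  have h1 : S37.KT.Wmer q γ (Ψ x) * S37.KT.Wmer q γ (toMer NXu.DB)
      = S37.KT.Wmer q γ (toMer (NXu.DA q)) := by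
    rw [← map_mul, hxΨ]
  have h2 : (q : Mer) ^ 12 * (S37.KT.Wmer q γ (Ψ x) * Ψ x) = 1 := by
    apply mul_right_cancel₀ (mul_ne_zero hWA0 hA0)
    rw [one_mul]
    calc (q : Mer) ^ 12 * (S37.KT.Wmer q γ (Ψ x) * Ψ x)
          * (S37.KT.Wmer q γ (toMer (NXu.DA q)) * toMer (NXu.DA q))
        = (S37.KT.Wmer q γ (Ψ x) * Ψ x) * ((q : Mer) ^ 12
          * (S37.KT.Wmer q γ (toMer (NXu.DA q)) * toMer (NXu.DA q))) := by ring
      _ = (S37.KT.Wmer q γ (Ψ x) * S37.KT.Wmer q γ (toMer NXu.DB)) * (Ψ x * toMer NXu.DB) := by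
          rw [hkey]; ring
      _ = _ := by rw [h1, hxΨ]
  apply Ψ.injective
  simp only [hH, map_mul, map_pow, map_natCast, hW]
  calc (q : Mer) ^ 12 * S37.KT.Wmer q γ (Ψ x) * ((q : Mer) ^ 12 * Ψ x)
      = (q : Mer) ^ 12 * ((q : Mer) ^ 12 * (S37.KT.Wmer q γ (Ψ x) * Ψ x)) := by ring
    _ = _ := by rw [h2, mul_one]

end Fermat.Agent.S34
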