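import Fermat.Agent.S34.QChart
import Fermat.Agent.S34.NXu
import Fermat.Agent.ES.InstGY
import Fermat.Agent.ES.InstUp
import Fermat.Agent.S34.NOrth
import Fermat.Agent.S34.NDesc
import Fermat.Agent.ES.InstPl
import Fermat.Agent.ES.ResField
import Fermat.Agent.S37.HI

/-!
# S34, modular block : [N-XY]

The functions `β(x)`, `θ = β(x)^q / x`, `X_u = (q^12 / H_q) x^e`, `Y_u = η⁻¹ H_q x^e` lie in the
chart `T.chart X`.
-/

set_option autoImplicit false
set_option linter.unusedSectionVars false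
set_option linter.unusedVariables false

noncomputable section

namespace Fermat.Agent.S34

open ModularCurve AlgebraicCurve Polynomial IntermediateField
open Fermat.Agent.S24 Fermat.Agent.S28 Fermat.Agent.ES Fermat.Agent.ES.QE Fermat.Agent.ES.Model
  Fermat.Agent.ES.IDvr Fermat.Agent.ES.Inst

namespace NXy

section Abstract

variable {R K k : Type*} [CommRing R] [IsDomain R] [IsNoetherianRing R] [IsIntegrallyClosed R]
  [Field K] [Algebra R K] [IsFractionRing R K] [Field k]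
  {D : QData R K k} {q : ℕ} [NeZero q] (T : Two D q)

lemma mem_O_of_inc {f : T.F} {w1 w2 : LaurentSeries R} (h1 : (f : LaurentSeries K) = D.inc w1)
    (h2 : T.e2 f = D.inc w2) : f ∈ T.O :=
  (Two.mem_O T).2 ⟨h1 ▸ QData.inc_mem_LamRing w1, h2 ▸ QData.inc_mem_LamRing w2⟩

lemma not_divS_O1 {f : T.F} {w : LaurentSeries R} (h1 : (f : LaurentSeries K) = D.inc w)
    (hw : D.red w ≠ 0) : ¬ DivS T.O1 T.ϖF 1 f := by
  rintro ⟨g, hg, h⟩
  apply hw
  rw [← QData.rho_inc, QData.rho_eq_zero_iff_exists]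
  refine ⟨(g : LaurentSeries K), hg, ?_⟩
  show D.inc w = _
  rw [← h1, h, pow_one, IntermediateField.coe_mul, Two.coe_ϖF]

lemma divS_O2 {f : T.F} {w : LaurentSeries R} (h2 : T.e2 f = D.ϖE * D.inc w) :
    DivS T.O2 T.ϖF 1 f := by
  have h0 := Two.ϖF_ne_zero T
  refine ⟨f / T.ϖF, ?_, ?_⟩
  · rw [Two.mem_O2, map_div₀, h2, Two.e2_ϖF, mul_div_cancel_left₀ _ D.ϖE_ne_zero]
    exact QData.inc_mem_LamRing w
  · rw [pow_one, mul_div_cancel₀ _ h0]

/-- the constants. -/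
def cst (r : R) : T.F := algebraMap K T.F (algebraMap R K r)

lemma coe_cst (r : R) : (cst T r : LaurentSeries K) = D.inc (HahnSeries.C r) := by
  rw [QData.inc, QE.coeffMap_C]
  exact algebraMap_eq_C _

lemma e2_cst (r : R) : T.e2 (cst T r) = D.inc (HahnSeries.C r) := by
  have h : cst T r = T.al (algebraMap K D.F0 (algebraMap R K r)) := rfl
  rw [h, Two.e2_al]
  have h2 : ((algebraMap K D.F0 (algebraMap R K r) : D.F0) : LaurentSeries K)
      = HahnSeries.C (algebraMap R K r) := algebraMap_eq_C _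
  rw [h2, qExpand_C, QData.inc, QE.coeffMap_C]

lemma cst_mul (r s : R) : cst T (r * s) = cst T r * cst T s := by
  rw [cst, cst, cst, map_mul, map_mul]

lemma cst_pow (r : R) (n : ℕ) : cst T (r ^ n) = cst T r ^ n := by
  rw [cst, cst, map_pow, map_pow]

lemma cst_ϖ : cst T D.ϖ = T.ϖF := rfl

lemma cst_ne_zero {r : R} (hr : r ≠ 0) : cst T r ≠ 0 := by
  rw [cst, Ne, map_eq_zero, IsFractionRing.to_map_eq_zero_iff]
  exact hr

variable (X : D.Coord) (y : LaurentSeries R) (hy : X.xW * y = 1)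

lemma coe_x : (T.x X : LaurentSeries K) = D.inc X.xW := rfl

lemma e2_x : T.e2 (T.x X) = D.inc (qExpand R q X.xW) := by
  rw [Two.x, Two.e2_al, NOrth.inc_qExpand]
  rfl

lemma coe_be_x : (T.be X.x : LaurentSeries K) = D.inc (qExpand R q X.xW) := by
  rw [Two.coe_be, NOrth.inc_qExpand]
  rfl

lemma e2_be_x : T.e2 (T.be X.x) = D.inc X.xW := by
  rw [Two.e2_be]
  rfl

include hy in
lemma x_ne_zero : T.x X ≠ 0 := by
  intro h
  have h1 : D.inc X.xW = 0 := by rw [← coe_x T X, h]; rfl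
  have h2 := congrArg D.inc hy
  rw [map_mul, h1, zero_mul, map_one] at h2
  exact zero_ne_one h2

include hy in
lemma coe_x_inv : ((T.x X)⁻¹ : T.F) = (D.inc y : LaurentSeries K) := by
  rw [IntermediateField.coe_inv, coe_x]
  apply inv_eq_of_mul_eq_one_right
  rw [← map_mul, hy, map_one]

include hy in
lemma e2_x_inv : T.e2 (T.x X)⁻¹ = D.inc (qExpand R q y) := by
  rw [map_inv₀, e2_x]
  apply inv_eq_of_mul_eq_one_right
  rw [← map_mul, ← map_mul, hy, map_one, map_one]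

/-- `θ = β(x)^q / x`. -/
def θ : T.F := T.be X.x ^ q * (T.x X)⁻¹

include hy in
lemma θ_mul : θ T X * T.x X = T.be X.x ^ q := by
  rw [θ, mul_assoc, inv_mul_cancel₀ (x_ne_zero T X y hy), mul_one]

include hy in
lemma θ_mem_O : θ T X ∈ T.O := by
  apply mem_O_of_inc T (w1 := qExpand R q X.xW ^ q * y) (w2 := X.xW ^ q * qExpand R q y)
  · rw [θ, IntermediateField.coe_mul, IntermediateField.coe_pow, coe_be_x, coe_x_inv T X y hy,
      map_mul, map_pow]
  · rw [θ, map_mul, map_pow, e2_be_x, e2_x_inv T X y hy, map_mul, map_pow]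

lemma be_x_mem_O : T.be X.x ∈ T.O :=
  mem_O_of_inc T (coe_be_x T X) (e2_be_x T X)

/-! the functions `X_u`, `Y_u` -/

variable (H0 : T.F) (U U' : LaurentSeries R) (hU : U * U' = 1) (n : R) (hn : n ≠ 0)
  (h1 : (H0 : LaurentSeries K) = D.inc (HahnSeries.C n * U)) (h2 : T.e2 H0 = D.inc U')

include hU hn h1 in
lemma H0_ne_zero : H0 ≠ 0 := by
  intro h
  have h3 : D.inc (HahnSeries.C n * U) = 0 := by rw [← h1, h]; rfl
  have h4 : HahnSeries.C n * U = 0 := D.inc_injective (by rw [h3, map_zero])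
  have h5 : (HahnSeries.C n : LaurentSeries R) = 0 := by
    calc (HahnSeries.C n : LaurentSeries R) = HahnSeries.C n * U * U' := by
          rw [mul_assoc, hU, mul_one]
      _ = 0 := by rw [h4, zero_mul]
  have h6 : (HahnSeries.C n : LaurentSeries R) = HahnSeries.C 0 := by rw [h5, map_zero]
  exact hn (HahnSeries.C_injective h6)

/-- `X_u = (n / H₀) x^e`. -/
def Xu (e : ℕ) : T.F := cst T n * H0⁻¹ * T.x X ^ e

/-- `Y_u = η H₀ x^e`. -/
def Yu (η : R) (e : ℕ) : T.F := cst T η * H0 * T.x X ^ e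

include hU hn h1 in
lemma coe_Xu (e : ℕ) : (Xu T X H0 n e : LaurentSeries K) = D.inc (U' * X.xW ^ e) := by
  have hC : D.inc (HahnSeries.C n) ≠ 0 := by
    rw [← coe_cst T]
    intro h
    exact cst_ne_zero T hn (Subtype.ext h)
  have hUU : D.inc U * D.inc U' = 1 := by rw [← map_mul, hU, map_one]
  have hU0 : D.inc U ≠ 0 := left_ne_zero_of_mul_eq_one hUU
  rw [Xu, IntermediateField.coe_mul, IntermediateField.coe_mul, IntermediateField.coe_pow,
    IntermediateField.coe_inv, coe_cst, h1, coe_x, map_mul, map_mul, map_pow]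
  congr 1
  rw [mul_inv, ← mul_assoc, mul_inv_cancel₀ hC, one_mul]
  exact inv_eq_of_mul_eq_one_right hUU

include hU h2 in
lemma e2_Xu (e : ℕ) :
    T.e2 (Xu T X H0 n e) = D.inc (HahnSeries.C n * (U * qExpand R q X.xW ^ e)) := by
  have hUU : D.inc U' * D.inc U = 1 := by rw [← map_mul, mul_comm, hU, map_one]
  rw [Xu, map_mul, map_mul, map_pow, map_inv₀, e2_cst, h2, e2_x, map_mul, map_mul, map_pow,
    inv_eq_of_mul_eq_one_right hUU, mul_assoc]

include h1 in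
lemma coe_Yu (η : R) (e : ℕ) : (Yu T X H0 η e : LaurentSeries K)
    = D.inc (HahnSeries.C η * (HahnSeries.C n * U) * X.xW ^ e) := by
  rw [Yu, IntermediateField.coe_mul, IntermediateField.coe_mul, IntermediateField.coe_pow,
    coe_cst, h1, coe_x]
  simp only [map_mul, map_pow]

include h2 in
lemma e2_Yu (η : R) (e : ℕ) : T.e2 (Yu T X H0 η e)
    = D.inc (HahnSeries.C η * U' * qExpand R q X.xW ^ e) := by
  rw [Yu, map_mul, map_mul, map_pow, e2_cst, h2, e2_x, map_mul, map_mul, map_pow]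

include hU hn h1 h2 in
lemma Xu_mem_O (e : ℕ) : Xu T X H0 n e ∈ T.O :=
  mem_O_of_inc T (coe_Xu T X H0 U U' hU n hn h1 e) (e2_Xu T X H0 U U' hU n h2 e)

include h1 h2 in
lemma Yu_mem_O (η : R) (e : ℕ) : Yu T X H0 η e ∈ T.O :=
  mem_O_of_inc T (coe_Yu T X H0 U n h1 η e) (e2_Yu T X H0 U' h2 η e)

include hU hn h1 in
lemma Xu_mul_Yu (η : R) (c : ℕ) (hη : η * n = D.ϖ ^ c) (e : ℕ) :
    Xu T X H0 n e * Yu T X H0 η e = T.ϖF ^ c * T.x X ^ (e + e) := by
  have h0 := H0_ne_zero T H0 U U' hU n hn h1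
  rw [← cst_ϖ, ← cst_pow, ← hη, cst_mul, Xu, Yu, pow_add]
  field_simp

include hy hU hn h1 in
lemma Xu_not_divS (e : ℕ) : ¬ DivS T.O1 T.ϖF 1 (Xu T X H0 n e) := by
  apply not_divS_O1 T (coe_Xu T X H0 U U' hU n hn h1 e)
  intro h
  have h3 : (U' * X.xW ^ e) * (U * y ^ e) = 1 := by
    calc (U' * X.xW ^ e) * (U * y ^ e) = (U * U') * (X.xW * y) ^ e := by rw [mul_pow]; ring
      _ = 1 := by rw [hU, hy, one_pow, one_mul]
  have h4 := congrArg D.red h3
  rw [map_mul, h, zero_mul, map_one] at h4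
  exact zero_ne_one h4

include hU h2 in
lemma Xu_divS (n' : R) (hn' : n = D.ϖ * n') (e : ℕ) : DivS T.O2 T.ϖF 1 (Xu T X H0 n e) := by
  apply divS_O2 T (w := HahnSeries.C n' * (U * qExpand R q X.xW ^ e))
  rw [e2_Xu T X H0 U U' hU n h2 e, hn', map_mul HahnSeries.C, mul_assoc, map_mul D.inc,
    ← D.inc_ϖW]
  rfl

end Abstract

/-! ### orders -/

section Ord

variable {F : Type*} [Field F] [Algebra Kb F] [HasPrincipalDivisors Kb F]

theorem exists_pow_bound (H x : F) (hH : H ≠ 0) (hx : x ≠ 0)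
    (h : ∀ v : Place Kb F, 0 ≤ v.ord x → v.ord H ≠ 0 → v.ord x ≠ 0) :
    ∃ e : ℕ, ∀ v : Place Kb F, 0 ≤ v.ord x →
      0 ≤ v.ord (H * x ^ e) ∧ 0 ≤ v.ord (H⁻¹ * x ^ e) := by
  obtain ⟨Dv, hD, -⟩ := HasPrincipalDivisors.exists_divisor (K := Kb) H hH
  refine ⟨∑ v ∈ Dv.support, (Dv v).natAbs, fun v hv => ?_⟩
  set e := ∑ v ∈ Dv.support, (Dv v).natAbs with he
  have hxe : x ^ e ≠ 0 := pow_ne_zero _ hx
  rw [Place.ord_mul v hH hxe, Place.ord_mul v (inv_ne_zero hH) hxe, Place.ord_inv, FF.ord_pow]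
  by_cases h0 : v.ord H = 0
  · rw [h0]
    have : 0 ≤ (e : ℤ) * v.ord x := by positivity
    omega
  · have h1 : 1 ≤ v.ord x := by
      have := h v hv h0
      omega
    have h2 : (v.ord H).natAbs ≤ e := by
      rw [← hD v]
      apply Finset.single_le_sum (f := fun v => (Dv v).natAbs) (fun _ _ => Nat.zero_le _)
      rw [Finsupp.mem_support_iff, hD v]
      exact h0
    have h3 : (e : ℤ) ≤ (e : ℤ) * v.ord x := by nlinarith
    omega

end Ord


/-! ### instantiation -/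

section Inst

variable {M0 q : ℕ} [NeZero M0] [NeZero q] {K0 : IntermediateField ℚ Kb} {A : ValuationSubring Kb}
  [IsDiscreteValuationRing (R0 K0 A)]
  {D : QData (R0 K0 A) K0 (kA A)} (T : Two D q) (hT : T.F = F0 K0 (M0 * q))

/-- the embedding of `T.F` into `FF (M₀ q)`. -/
def iota : T.F →+* FF (M0 * q) :=
  ((bc K0).comp (algebraMap T.F (LaurentSeries K0))).codRestrict (modularFunctionFieldBar (M0 * q))
    (fun f => bc_mem K0 (M0 * q) (hT ▸ f.2))

lemma coe_iota (f : T.F) :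
    ((iota T hT f : FF (M0 * q)) : LaurentSeries Kb) = bc K0 (f : LaurentSeries K0) := rfl

lemma bc_qExpand (u : LaurentSeries K0) : bc K0 (qExpand K0 q u) = qExpand Kb q (bc K0 u) :=
  coeffMap_qExpand _ _ _

variable (X : D.Coord) (xF : FF M0) (hx : bc K0 (X.x : LaurentSeries K0) = (xF : LaurentSeries Kb))

include hx in
lemma iota_x : iota T hT (T.x X) = heckeAlphaBar Kb M0 q xF := by
  apply Subtype.ext
  rw [coe_iota, coe_heckeAlphaBar, ← hx]
  rfl

include hx in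
lemma iota_be_x : iota T hT (T.be X.x) = heckeBetaBar Kb M0 q xF := by
  apply Subtype.ext
  rw [coe_iota, coe_heckeBetaBar, ← hx, Two.coe_be, bc_qExpand]

lemma iota_cst (r : R0 K0 A) : iota T hT (cst T r)
    = algebraMap Kb (FF (M0 * q)) ((algebraMap (R0 K0 A) K0 r : K0) : Kb) :=
  Subtype.ext (InstUp.bc_algebraMap K0 _)

include hx in
/-- **the criterion (C)**. -/
theorem mem_chart_of (hq : q.Prime) (hA : A.LiesOverPrime q)
    (htr : Transcendental Kb (heckeAlphaBar Kb M0 q xF))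
    [FiniteDimensional Kb⟮heckeAlphaBar Kb M0 q xF⟯ (FF (M0 * q))]
    (f : T.F) (hO : f ∈ T.O)
    (hreg : ∀ v : Place Kb (FF (M0 * q)), 0 ≤ v.ord (heckeAlphaBar Kb M0 q xF) →
      0 ≤ v.ord (iota T hT f)) : f ∈ T.chart X := by
  have hchar : CharP (kA A) q := ResField.charP hq hA
  have hint := Inst.isIntegral_of_ord (M0 * q) (heckeAlphaBar Kb M0 q xF) htr (iota T hT f) hreg
  rw [← iota_x T hT X xF hx] at hint
  obtain ⟨c, hc⟩ := (isIntK_iff_series (M0 * q) D X (f : LaurentSeries K0)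
    (iota T hT (T.x X)).2 (iota T hT f).2).2 hint
  refine mem_chart_of_pow_mul T X hq hO c ?_
  rw [Two.mem_chart, IntermediateField.coe_mul, IntermediateField.coe_pow, Two.coe_ϖF]
  exact hc

end Inst

/-! ### the series `Δ(T^q) / Δ(T)` -/

section Us

variable (R : Type*) [CommRing R] (q : ℕ)

/-- `Δ(T^q) / Δ(T)`. -/
def Us : LaurentSeries R := qExp R q (deltaS R) * deltaInvS R

/-- `Δ(T) / Δ(T^q)`. -/
def Us' : LaurentSeries R := qExp R q (deltaInvS R) * deltaS R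

lemma Us_mul : Us R q * Us' R q = 1 := by
  have h := InstGY.deltaS_mul_deltaInvS R
  calc Us R q * Us' R q = qExp R q (deltaS R * deltaInvS R) * (deltaS R * deltaInvS R) := by
        rw [Us, Us', map_mul]; ring
    _ = 1 := by rw [h, map_one, one_mul]

variable {R} in
lemma coeffMap_Us {S : Type*} [CommRing S] (f : R →+* S) : coeffMap f (Us R q) = Us S q := by
  rw [Us, Us, map_mul, Ord.coeffMap_qExp, Ord.coeffMap_deltaS, Ord.coeffMap_deltaInvS]

variable {R} in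
lemma coeffMap_Us' {S : Type*} [CommRing S] (f : R →+* S) : coeffMap f (Us' R q) = Us' S q := by
  rw [Us', Us', map_mul, Ord.coeffMap_qExp, Ord.coeffMap_deltaS, Ord.coeffMap_deltaInvS]

lemma gY_eq : gY R q = HahnSeries.C ((q : R) ^ 12) * Us R q := by
  rw [gY, Us, map_pow, map_natCast, mul_assoc]

end Us

section Ord2

variable {F : Type*} [Field F] [Algebra Kb F]

lemma ord_const_mul (v : Place Kb F) (c : Kb) (f : F) (h : 0 ≤ v.ord f) :
    0 ≤ v.ord (algebraMap Kb F c * f) := by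
  rcases eq_or_ne c 0 with rfl | hc
  · rw [map_zero, zero_mul, Place.ord_zero]
  rcases eq_or_ne f 0 with rfl | hf
  · rw [mul_zero, Place.ord_zero]
  rw [Place.ord_mul v ((_root_.map_ne_zero _).2 hc) hf, FF.ord_algebraMap, zero_add]
  exact h

end Ord2

end NXy

open NXy in
/-- **[N-XY]**, with the properties of `H_q` as hypotheses. -/
theorem exists_xy_of {M0 q : ℕ} [NeZero M0] [NeZero q] (hq : q.Prime)
    {K0 : IntermediateField ℚ Kb} {A : ValuationSubring Kb} (hA : A.LiesOverPrime q)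
    [IsDiscreteValuationRing (R0 K0 A)]
    (D : QData (R0 K0 A) K0 (kA A))
    (T : Two D q) (hT : T.F = F0 K0 (M0 * q))
    (W : FF (M0 * q) ≃ₐ[Kb] FF (M0 * q))
    (hTW : ∀ (f : T.F) (hf : bc K0 (f : LaurentSeries K0) ∈ modularFunctionFieldBar (M0 * q)),
      bc K0 (T.e2 f) = ((W ⟨_, hf⟩ : FF (M0 * q)) : LaurentSeries Kb))
    (X : D.Coord) (y : LaurentSeries (R0 K0 A)) (hy : X.xW * y = 1)
    (xF : FF M0) (hx : bc K0 (X.x : LaurentSeries K0) = (xF : LaurentSeries Kb))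
    (htr : Transcendental Kb (heckeAlphaBar Kb M0 q xF))
    [FiniteDimensional Kb⟮heckeAlphaBar Kb M0 q xF⟯ (FF (M0 * q))]
    (hpos : ∀ v : Place Kb (FF (M0 * q)), 0 ≤ v.ord (heckeAlphaBar Kb M0 q xF) →
      0 ≤ v.ord (heckeBetaBar Kb M0 q xF) ∧
        v.ord (heckeAlphaBar Kb M0 q xF) ≤ q * v.ord (heckeBetaBar Kb M0 q xF))
    (hcusp : ∀ v : Place Kb (FF (M0 * q)), v.ord (jF (M0 * q)) < 0 →
      v.ord (heckeAlphaBar Kb M0 q xF) ≠ 0)
    (HF : FF (M0 * q)) (hHF : (HF : LaurentSeries Kb) = gY Kb q)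
    (hWH : W HF * HF = (q : FF (M0 * q)) ^ 12)
    (hord : ∀ v : Place Kb (FF (M0 * q)), 0 ≤ v.ord (jF (M0 * q)) → v.ord HF = 0) :
    X.phi.IsIntegralElem (qExpand K0 q (D.inc X.xW)) ∧
    (∃ θ : T.chart X, (θ : T.F) * T.x X = T.be X.x ^ q) ∧
    ∃ (Xu Yu : T.chart X) (c e : ℕ), (Xu : T.F) * Yu = T.ϖF ^ c * T.x X ^ e ∧
      ¬ DivS T.O1 T.ϖF 1 (Xu : T.F) ∧ DivS T.O2 T.ϖF 1 (Xu : T.F) := by
  classical
  have hchar : CharP (kA A) q := ResField.charP hq hA
  have hpd : HasPrincipalDivisors Kb (FF (M0 * q)) := S37.hasPrincipalDivisors_FF (M0 * q)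
  set α := heckeAlphaBar Kb M0 q xF with hα
  set β := heckeBetaBar Kb M0 q xF with hβ
  have hα0 : α ≠ 0 := fun h => htr (h ▸ isAlgebraic_zero)
  have hxF0 : xF ≠ 0 := by
    rintro rfl
    exact hα0 (map_zero _)
  have hβ0 : β ≠ 0 := (_root_.map_ne_zero _).2 hxF0
  have hιx := iota_x T hT X xF hx
  have hιb := iota_be_x T hT X xF hx
  have crit := mem_chart_of T hT X xF hx hq hA htr
  -- `β(x)`
  have hbe : T.be X.x ∈ T.chart X := by
    refine crit _ (be_x_mem_O T X) fun v hv => ?_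
    rw [hιb]
    exact (hpos v hv).1
  -- `θ`
  have hθ : θ T X ∈ T.chart X := by
    refine crit _ (θ_mem_O T X y hy) fun v hv => ?_
    rw [θ, map_mul, map_pow, map_inv₀, hιb, hιx, Place.ord_mul v (pow_ne_zero _ hβ0)
      (inv_ne_zero hα0), Place.ord_inv, FF.ord_pow]
    have := (hpos v hv).2
    omega
  refine ⟨hbe, ⟨⟨θ T X, hθ⟩, θ_mul T X y hy⟩, ?_⟩
  -- `H₀`
  have hqd : q ∈ (M0 * q).divisors :=
    Nat.mem_divisors.2 ⟨dvd_mul_left q M0, NeZero.ne _⟩
  have hgen : ∀ (S : Type) [CommRing S], gen S (M0 * q) (true, ⟨q, hqd⟩) = gY S q :=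
    fun S _ => rfl
  have hH0mem : gY K0 q ∈ T.F := by
    rw [hT, ← hgen K0]
    exact IntermediateField.subset_adjoin _ _ ⟨_, rfl⟩
  set H0 : T.F := ⟨gY K0 q, hH0mem⟩ with hH0
  set n : R0 K0 A := (q : R0 K0 A) ^ 12 with hn
  have hq0 : (q : R0 K0 A) ≠ 0 := by
    intro h
    have h2 := congrArg (algebraMap (R0 K0 A) K0) h
    rw [map_natCast, map_zero] at h2
    exact hq.ne_zero (Nat.cast_eq_zero.mp h2)
  have hn0 : n ≠ 0 := pow_ne_zero _ hq0
  have hU := Us_mul (R0 K0 A) q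
  have h1 : (H0 : LaurentSeries K0) = D.inc (HahnSeries.C n * Us (R0 K0 A) q) := by
    rw [← gY_eq]
    exact (Ord.coeffMap_gY _ q).symm
  have hιH : iota T hT H0 = HF := by
    apply Subtype.ext
    rw [coe_iota, hHF]
    exact Ord.coeffMap_gY _ q
  have hHF0 : HF ≠ 0 := by
    intro h
    rw [h, mul_zero] at hWH
    exact pow_ne_zero 12 (Nat.cast_ne_zero.mpr hq.ne_zero) hWH.symm
  have h2 : T.e2 H0 = D.inc (Us' (R0 K0 A) q) := by
    apply QE.coeffMap_injective (algebraMap K0 Kb).injective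
    have e1 : coeffMap (algebraMap K0 Kb) (T.e2 H0) = ((W HF : FF (M0 * q)) : LaurentSeries Kb) := by
      rw [← hιH]
      exact hTW H0 (iota T hT H0).2
    have e2 : coeffMap (algebraMap K0 Kb) (D.inc (Us' (R0 K0 A) q)) = Us' Kb q := by
      rw [QData.inc, coeffMap_Us', coeffMap_Us']
    rw [e1, e2]
    have e3 := congrArg (fun z : FF (M0 * q) => (z : LaurentSeries Kb)) hWH
    simp only [IntermediateField.coe_mul, IntermediateField.coe_pow, hHF] at e3
    rw [gY_eq, map_pow, map_natCast] at e3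
    have e4 : (((q : FF (M0 * q)) : FF (M0 * q)) : LaurentSeries Kb) = (q : LaurentSeries Kb) :=
      map_natCast (algebraMap (FF (M0 * q)) (LaurentSeries Kb)) q
    rw [e4] at e3
    have hq1 : ((q : LaurentSeries Kb)) ^ 12 ≠ 0 := by
      apply pow_ne_zero
      rw [← map_natCast (algebraMap Kb (LaurentSeries Kb)) q]
      exact (_root_.map_ne_zero _).2 (Nat.cast_ne_zero.mpr hq.ne_zero)
    have e5 : ((W HF : FF (M0 * q)) : LaurentSeries Kb) * Us Kb q = 1 := by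
      apply mul_left_cancel₀ hq1
      linear_combination e3
    calc ((W HF : FF (M0 * q)) : LaurentSeries Kb)
        = ((W HF : FF (M0 * q)) : LaurentSeries Kb) * (Us Kb q * Us' Kb q) := by
          rw [Us_mul, mul_one]
      _ = Us' Kb q := by rw [← mul_assoc, e5, one_mul]
  -- the exponent
  obtain ⟨e, he⟩ := exists_pow_bound HF α hHF0 hα0 (fun v hv h0 => by
    apply hcusp v
    by_contra hj
    exact h0 (hord v (not_lt.mp hj)))
  -- the constants
  obtain ⟨c, u, hu⟩ := IsDiscreteValuationRing.eq_unit_mul_pow_irreducible hn0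
    D.prime_ϖ.irreducible
  have hη : ((u⁻¹ : (R0 K0 A)ˣ) : R0 K0 A) * n = D.ϖ ^ c := by
    rw [hu, ← mul_assoc, Units.inv_mul, one_mul]
  obtain ⟨r, hr⟩ : D.ϖ ∣ (q : R0 K0 A) := by
    rw [← D.res_eq_zero_iff, map_natCast]
    exact CharP.cast_eq_zero (kA A) q
  have hn' : n = D.ϖ * (r * (q : R0 K0 A) ^ 11) := by
    rw [hn, pow_succ' (q : R0 K0 A) 11]
    nth_rewrite 1 [hr]
    ring
  have hXu : Xu T X H0 n e ∈ T.chart X := by
    refine crit _ (Xu_mem_O T X H0 _ _ hU n hn0 h1 h2 e) fun v hv => ?_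
    rw [Xu, map_mul, map_mul, map_pow, map_inv₀, hιH, hιx, iota_cst, mul_assoc]
    exact ord_const_mul v _ _ (he v hv).2
  have hYu : Yu T X H0 ((u⁻¹ : (R0 K0 A)ˣ) : R0 K0 A) e ∈ T.chart X := by
    refine crit _ (Yu_mem_O T X H0 _ _ n h1 h2 _ e) fun v hv => ?_
    rw [Yu, map_mul, map_mul, map_pow, hιH, hιx, iota_cst, mul_assoc]
    exact ord_const_mul v _ _ (he v hv).1
  exact ⟨⟨_, hXu⟩, ⟨_, hYu⟩, c, e + e, Xu_mul_Yu T X H0 _ _ hU n hn0 h1 _ c hη e,
    Xu_not_divS T X y hy H0 _ _ hU n hn0 h1 e, Xu_divS T X H0 _ _ hU n h2 _ hn' e⟩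

/-- **[N-XY]** (verbatim `NPlan`). -/
theorem exists_xy {M0 q : ℕ} [NeZero M0] [NeZero q] (hq : q.Prime) (hqM : ¬ q ∣ M0)
    {K0 : IntermediateField ℚ Kb} {A : ValuationSubring Kb} (hA : A.LiesOverPrime q)
    [IsDiscreteValuationRing (R0 K0 A)]
    (D : QData (R0 K0 A) K0 (kA A)) (hF : D.F0 = F0 K0 M0) (hres : D.res = res0 K0 A)
    (T : Two D q) (hT : T.F = F0 K0 (M0 * q))
    (W : FF (M0 * q) ≃ₐ[Kb] FF (M0 * q))
    (hWα : ∀ y : FF M0, W (heckeAlphaBar Kb M0 q y) = heckeBetaBar Kb M0 q y)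
    (hWβ : ∀ y : FF M0, W (heckeBetaBar Kb M0 q y) = heckeAlphaBar Kb M0 q y)
    (hTW : ∀ (f : T.F) (hf : bc K0 (f : LaurentSeries K0) ∈ modularFunctionFieldBar (M0 * q)),
      bc K0 (T.e2 f) = ((W ⟨_, hf⟩ : FF (M0 * q)) : LaurentSeries Kb))
    (X : D.Coord) (y : LaurentSeries (R0 K0 A)) (hy : X.xW * y = 1)
    (xF : FF M0) (hx : bc K0 (X.x : LaurentSeries K0) = (xF : LaurentSeries Kb))
    (htr : Transcendental Kb (heckeAlphaBar Kb M0 q xF))
    [FiniteDimensional Kb⟮heckeAlphaBar Kb M0 q xF⟯ (FF (M0 * q))]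
    (hpos : ∀ v : Place Kb (FF (M0 * q)), 0 ≤ v.ord (heckeAlphaBar Kb M0 q xF) →
      0 ≤ v.ord (heckeBetaBar Kb M0 q xF) ∧
        v.ord (heckeAlphaBar Kb M0 q xF) ≤ q * v.ord (heckeBetaBar Kb M0 q xF))
    (hcusp : ∀ v : Place Kb (FF (M0 * q)), v.ord (jF (M0 * q)) < 0 →
      v.ord (heckeAlphaBar Kb M0 q xF) ≠ 0) :
    X.phi.IsIntegralElem (qExpand K0 q (D.inc X.xW)) ∧
    (∃ θ : T.chart X, (θ : T.F) * T.x X = T.be X.x ^ q) ∧
    ∃ (Xu Yu : T.chart X) (c e : ℕ), (Xu : T.F) * Yu = T.ϖF ^ c * T.x X ^ e ∧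
      ¬ DivS T.O1 T.ϖF 1 (Xu : T.F) ∧ DivS T.O2 T.ϖF 1 (Xu : T.F) :=
  exists_xy_of hq hA D T hT W hTW X y hy xF hx htr hpos hcusp (HqF M0 q) rfl
    (W_HqF hq hqM W hWα hWβ) (fun v hv => ord_HqF v hv)

end Fermat.Agent.S34
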