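import Fermat.Agent.S34.QVal
import Fermat.Agent.ES.QEChart2

/-!
# S34, modular block : [Q-CHART] : the chart `T.chart X` (statements of `NPlan`, verbatim)
-/

set_option autoImplicit false
set_option linter.unusedSectionVars false

noncomputable section

namespace Fermat.Agent.S34

open ModularCurve Polynomial
open Fermat.Agent.ES.QE Fermat.Agent.ES.Model

variable {R K k : Type*} [CommRing R] [IsDomain R] [IsNoetherianRing R] [IsIntegrallyClosed R]
  [Field K] [Algebra R K] [IsFractionRing R K] [Field k]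
  {D : QData R K k} {q : ℕ} [NeZero q] (T : Two D q) (X : D.Coord)

/-- evaluation at `x`, with values in `T.F`. -/
def phiT : R[X] →+* T.F := T.al.comp X.phiF

lemma coe_phiT (σ : R[X]) : ((phiT T X σ : T.F) : LaurentSeries K) = X.phi σ := rfl

lemma e1_comp_phiT : T.e1.comp (phiT T X) = X.phi := rfl

lemma e2_phiT (σ : R[X]) :
    T.e2 (phiT T X σ) = D.inc (qExpand R q (evS X.xW σ)) := by
  rw [NVal.inc_qExpand]
  exact T.e2_al (X.phiF σ)

lemma e2_comp_phiT : T.e2.comp (phiT T X) = D.inc.comp ((qExpand R q).comp (evS X.xW)) :=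
  RingHom.ext fun σ => e2_phiT T X σ

lemma mem_chart_iff {f : T.F} : f ∈ T.chart X ↔ (phiT T X).IsIntegralElem f := by
  rw [T.mem_chart]
  constructor
  · rintro ⟨P, hP, h⟩
    refine ⟨P, hP, Subtype.ext ?_⟩
    have : ((eval₂ (phiT T X) f P : T.F) : LaurentSeries K) = T.e1 (eval₂ (phiT T X) f P) := rfl
    rw [this, hom_eval₂, e1_comp_phiT]
    exact h
  · rintro ⟨P, hP, h⟩
    refine ⟨P, hP, ?_⟩
    have := congrArg T.e1 h
    rw [hom_eval₂, e1_comp_phiT, map_zero] at this
    exact this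

theorem chart_le_V1 : ∀ f ∈ T.chart X, f ∈ T.V1 := by
  intro f hf
  rw [mem_V1]
  exact (T.isBdd_e1 f).mem_LamRing_of_isIntegralElem (RingHom.IsIntegralElem.of_comp hf)

theorem chart_le_V2 : ∀ f ∈ T.chart X, f ∈ T.V2 := by
  intro f hf
  rw [mem_V2]
  refine (T.isBdd_e2 f).mem_LamRing_of_isIntegralElem ?_
  obtain ⟨P, hP, h⟩ := (mem_chart_iff T X).1 hf
  have h2 := congrArg T.e2 h
  rw [hom_eval₂, e2_comp_phiT, map_zero] at h2
  exact RingHom.IsIntegralElem.of_comp (f := (qExpand R q).comp (evS X.xW)) ⟨P, hP, h2⟩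

theorem chart_le_O : ∀ f ∈ T.chart X, f ∈ T.O := fun f hf =>
  ⟨(mem_V1 T).1 (chart_le_V1 T X f hf), (mem_V2 T).1 (chart_le_V2 T X f hf)⟩

lemma phiT_mem_chart (σ : R[X]) : phiT T X σ ∈ T.chart X := X.phi.isIntegralElem_map

/-- every element of `O` has a primitive denominator. -/
theorem exists_mul_mem_chart (hq : q.Prime) [CharP k q] {g : T.F} (hg : g ∈ T.O) :
    ∃ σ : R[X], ¬ C D.ϖ ∣ σ ∧ T.al (X.phiF σ) * g ∈ T.chart X := by
  classical
  obtain ⟨a, rfl⟩ := exists_rep T g
  have ha := (mem_O_iff T hq a).1 hg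
  have h1 : ∀ i, ∃ σ : R[X], ¬ C D.ϖ ∣ σ ∧ X.phi.IsIntegralElem (X.phi σ * (a i : LaurentSeries K)) :=
    fun i => X.exists_mul_isIntegralElem (a i).2 (ha i)
  choose σ hσ hint using h1
  obtain ⟨m, hm⟩ := X.exists_pow_mul_isIntegralElem T.jq_int
  refine ⟨(∏ i, σ i) * X.Q ^ (m * q), ?_, ?_⟩
  · intro hd
    rcases D.prime_C_ϖ.dvd_or_dvd hd with h | h
    · obtain ⟨i, -, hi⟩ := (D.prime_C_ϖ.dvd_finsetProd_iff _).1 h
      exact hσ i hi
    · exact X.Q_prim (D.prime_C_ϖ.dvd_of_dvd_pow h)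
  · rw [Finset.mul_sum]
    refine Subring.sum_mem _ fun i _ => ?_
    have hi : (i : ℕ) ≤ q := Nat.lt_succ_iff.mp i.2
    have e1 : T.al (X.phiF ((∏ i, σ i) * X.Q ^ (m * q))) * (T.al (a i) * T.be D.jF ^ (i : ℕ))
        = phiT T X ((∏ l ∈ Finset.univ.erase i, σ l) * X.Q ^ (m * (q - i)))
          * ((phiT T X (σ i) * T.al (a i)) * (phiT T X X.Q ^ m * T.be D.jF) ^ (i : ℕ)) := by
      have e2 : (∏ i, σ i) = σ i * ∏ l ∈ Finset.univ.erase i, σ l :=
        (Finset.mul_prod_erase _ _ (Finset.mem_univ i)).symm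
      have e3 : X.Q ^ (m * q) = X.Q ^ (m * (q - i)) * (X.Q ^ m) ^ (i : ℕ) := by
        rw [← pow_mul, ← pow_add, ← mul_add, Nat.sub_add_cancel hi]
      show phiT T X _ * _ = _
      rw [e2, e3]
      simp only [map_mul, map_pow]
      ring
    rw [e1]
    refine Subring.mul_mem _ (phiT_mem_chart T X _) (Subring.mul_mem _ ?_ (Subring.pow_mem _ ?_ _))
    · exact hint i
    · exact hm

lemma phiT_C_ϖ : phiT T X (C D.ϖ) = T.ϖF := by
  show T.al (X.phiF (C D.ϖ)) = _
  rw [X.phiF_C_ϖ]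
  rfl

/-- (I1') saturation. -/
theorem chart_sat (hq : q.Prime) [CharP k q] {f : T.F} (hf : f ∈ T.chart X) {y : T.F}
    (hy : y ∈ T.O) (h : f = T.ϖF * y) : y ∈ T.chart X := by
  obtain ⟨σ, hσ, hint⟩ := exists_mul_mem_chart T X hq hy
  refine isIntegralElem_of_prime_mul X.phi X.phi_injective D.prime_C_ϖ hσ ?_ hint
  have : X.phi (C D.ϖ) * (y : LaurentSeries K) = (f : LaurentSeries K) := by
    rw [h, ← phiT_C_ϖ T X]
    rfl
  rw [this]
  exact hf

theorem chart_root {m : ℕ} (hm : 0 < m) {f : T.F} (hf : f ^ m ∈ T.chart X) : f ∈ T.chart X := by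
  rw [T.mem_chart, IntermediateField.coe_pow] at hf
  exact isIntegralElem_of_pow _ hm hf

theorem isChartS (hq : q.Prime) [CharP k q] {m : ℕ} (hm : IsUnit (m : R)) :
    IsChartS (OO T.V1 T.V2) T.ϖF m (T.chart X) where
  le := fun f hf => ⟨chart_le_V1 T X f hf, chart_le_V2 T X f hf⟩
  unif_mem := T.ϖF_mem_chart X
  m_ne := by
    have h := (X.isChart hm).m_ne
    intro h0
    apply h
    apply T.al.injective
    rw [map_natCast, map_zero]
    exact h0
  inv_mem := by
    have h := T.al_mem_chart X (X.isChart hm).inv_mem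
    rwa [map_inv₀, map_natCast] at h
  sat := by
    rintro f hf ⟨y, hy, h⟩
    rw [pow_one] at h
    rw [OO_eq] at hy
    exact ⟨y, chart_sat T X hq hf hy h, h⟩
  root := by
    intro f hf
    refine chart_root T X (Nat.pos_of_ne_zero ?_) hf
    rintro rfl
    rw [Nat.cast_zero] at hm
    exact not_isUnit_zero hm

/-- the same with `T.O`. -/
theorem isChartS' (hq : q.Prime) [CharP k q] {m : ℕ} (hm : IsUnit (m : R)) :
    IsChartS T.O T.ϖF m (T.chart X) := by
  rw [← OO_eq]
  exact isChartS T X hq hm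

theorem RF_le_chart : T.RF ≤ T.chart X := by
  rintro _ ⟨a, rfl⟩
  exact T.al_mem_chart X (X.RF_le_chart ⟨a, rfl⟩)

theorem ϖF_mem_RF : T.ϖF ∈ T.RF := ⟨D.ϖ, rfl⟩

theorem isNoetherianRing_RF : IsNoetherianRing T.RF := by
  unfold Two.RF
  infer_instance

/-- saturation, iterated. -/
theorem mem_chart_of_pow_mul (hq : q.Prime) [CharP k q] {f : T.F} (hf : f ∈ T.O) (c : ℕ)
    (h : T.ϖF ^ c * f ∈ T.chart X) : f ∈ T.chart X := by
  induction c with
  | zero => rwa [pow_zero, one_mul] at h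
  | succ c ih =>
    apply ih
    refine chart_sat T X hq h (T.O.mul_mem (T.O.pow_mem T.isSemi.mem c) hf) ?_
    rw [pow_succ]; ring

/-- `β` maps the chart of level `M₀` to the chart of level `N` (W-stability). -/
theorem be_mem_chart (hVx : X.phi.IsIntegralElem (qExpand K q (D.inc X.xW))) {b : D.F0}
    (hb : b ∈ X.chart) : T.be b ∈ T.chart X := by
  rw [T.mem_chart, T.coe_be]
  obtain ⟨P, hP, h⟩ := hb
  let _ := X.phi.toAlgebra
  show IsIntegral R[X] (qExpand K q (b : LaurentSeries K))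
  have hcoef : ∀ σ : R[X], IsIntegral R[X] (qExpand K q (X.phi σ)) := by
    intro σ
    induction σ using Polynomial.induction_on' with
    | add p r hp hr => rw [map_add, map_add]; exact hp.add hr
    | monomial n a =>
      rw [← C_mul_X_pow_eq_monomial, map_mul, map_pow, map_mul, map_pow]
      refine IsIntegral.mul ?_ (IsIntegral.pow ?_ n)
      · have : qExpand K q (X.phi (C a)) = algebraMap R[X] (LaurentSeries K) (C a) := by
          show _ = X.phi (C a)
          rw [X.phi_apply, evS_C]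
          have : D.inc (HahnSeries.C a) = HahnSeries.C (algebraMap R K a) := coeffMap_C _ _
          rw [this, qExpand_C]
        rw [this]
        exact isIntegral_algebraMap
      · rw [X.phi_apply, evS_X]
        exact hVx
  have hev : eval (qExpand K q (b : LaurentSeries K)) (P.map ((qExpand K q).comp X.phi)) = 0 := by
    rw [eval_map, ← hom_eval₂, h, map_zero]
  refine IsIntegral.of_aeval_monic_of_isIntegral_coeff (p := P.map ((qExpand K q).comp X.phi))
    (hP.map _) ?_ (by rw [hev]; exact isIntegral_zero) ?_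
  · rw [hP.natDegree_map]
    intro h0
    have h1 : P = 1 := hP.natDegree_eq_zero.mp h0
    rw [h1, Polynomial.map_one, eval_one] at hev
    exact one_ne_zero hev
  · intro i
    rw [coeff_map]
    exact hcoef _

end Fermat.Agent.S34
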