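import Fermat.Agent.S34.QChart

/-!
# S34, modular block : [Q-CHART2] : the two charts (statements of `NPlan`, verbatim)
-/

set_option autoImplicit false
set_option linter.unusedSectionVars false

noncomputable section

namespace Fermat.Agent.S34

open ModularCurve Polynomial
open Fermat.Agent.ES.QE Fermat.Agent.ES.Model

variable {R K k : Type*} [CommRing R] [IsDomain R] [IsNoetherianRing R] [IsIntegrallyClosed R]
  [Field K] [Algebra R K] [IsFractionRing R K] [Field k]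
  {D : QData R K k} {q : ℕ} [NeZero q] (T : Two D q) (X : D.Coord)
  (y : LaurentSeries R) (hy : X.xW * y = 1)

include hy in
theorem x_ne_zero : T.x X ≠ 0 := by
  intro h
  exact X.x_ne_zero y hy (T.al.injective (by rw [map_zero]; exact h))

theorem x_inv : T.x (X.inv y hy) = (T.x X)⁻¹ := by
  show T.al (X.inv y hy).x = (T.al X.x)⁻¹
  rw [X.inv_x y hy, map_inv₀]

theorem x_mem_chart : T.x X ∈ T.chart X := T.al_mem_chart X X.x_mem_chart

theorem chart_le_chart12 : T.chart X ≤ T.chart12 X :=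
  fun f hf => ⟨0, by rw [pow_zero, one_mul]; exact hf⟩

/-- integral over `R[x]` implies integral over `R[1/x]` up to a power of `1/x`. -/
theorem exists_pow_mul_mem_inv {f : T.F} (hf : f ∈ T.chart X) :
    ∃ n : ℕ, (T.x X)⁻¹ ^ n * f ∈ T.chart (X.inv y hy) := by
  have hxy : D.inc X.xW * D.inc y = 1 := by rw [← map_mul, hy, map_one]
  have e1 : X.phi = eval₂RingHom (D.inc.comp HahnSeries.C) (D.inc X.xW) := by
    refine ringHom_ext' ?_ ?_
    · ext a
      simp [QData.Coord.phi]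
    · simp [QData.Coord.phi]
  have e2 : (X.inv y hy).phi = eval₂RingHom (D.inc.comp HahnSeries.C) (D.inc y) := by
    refine ringHom_ext' ?_ ?_
    · ext a
      simp [QData.Coord.phi]
    · simp [QData.Coord.phi, QData.Coord.inv]
  rw [T.mem_chart, e1] at hf
  obtain ⟨n, hn⟩ := S28.Lam.exists_pow_mul_isIntegralElem _ hxy hf
  refine ⟨n, ?_⟩
  rw [Two.mem_chart, e2, IntermediateField.coe_mul, IntermediateField.coe_pow,
    ← x_inv T X y hy]
  exact hn

theorem exists_pow_mul_mem_of_inv {f : T.F} (hf : f ∈ T.chart (X.inv y hy)) :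
    ∃ n : ℕ, T.x X ^ n * f ∈ T.chart X := by
  obtain ⟨n, hn⟩ := exists_pow_mul_mem_inv T (X.inv y hy) X.xW (by rw [mul_comm]; exact hy) hf
  refine ⟨n, ?_⟩
  rw [x_inv T X y hy, inv_inv] at hn
  exact hn

theorem inv_chart_le_chart12 : T.chart (X.inv y hy) ≤ T.chart12 X :=
  fun _ hf => exists_pow_mul_mem_of_inv T X y hy hf

theorem h12a {f : T.F} (hf : f ∈ T.chart12 X) : ∃ n : ℕ, T.x X ^ n * f ∈ T.chart X := hf

theorem x_inv_mem_inv_chart : (T.x X)⁻¹ ∈ T.chart (X.inv y hy) := by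
  rw [← x_inv T X y hy]; exact x_mem_chart T (X.inv y hy)

theorem h12b {f : T.F} (hf : f ∈ T.chart12 X) :
    ∃ n : ℕ, (T.x X)⁻¹ ^ n * f ∈ T.chart (X.inv y hy) := by
  obtain ⟨n, hn⟩ := hf
  obtain ⟨m, hm⟩ := exists_pow_mul_mem_inv T X y hy hn
  refine ⟨m, ?_⟩
  have hx := x_ne_zero T X y hy
  have : (T.x X)⁻¹ ^ m * f = (T.x X)⁻¹ ^ n * ((T.x X)⁻¹ ^ m * (T.x X ^ n * f)) := by
    have e : (T.x X)⁻¹ ^ n * T.x X ^ n = 1 := by rw [← mul_pow, inv_mul_cancel₀ hx, one_pow]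
    calc (T.x X)⁻¹ ^ m * f = ((T.x X)⁻¹ ^ n * T.x X ^ n) * ((T.x X)⁻¹ ^ m * f) := by
          rw [e, one_mul]
      _ = _ := by ring
  rw [this]
  exact mul_mem (pow_mem (x_inv_mem_inv_chart T X y hy) n) hm

include hy in
theorem isChartS12 (hq : q.Prime) [CharP k q] {m : ℕ} (hm : IsUnit (m : R)) :
    IsChartS (OO T.V1 T.V2) T.ϖF m (T.chart12 X) := by
  have h1 := isChartS T X hq hm
  have hx := x_ne_zero T X y hy
  have hxi : (T.x X)⁻¹ ∈ OO T.V1 T.V2 :=
    (isChartS T (X.inv y hy) hq hm).le _ (x_inv_mem_inv_chart T X y hy)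
  have hxO : T.x X ∈ OO T.V1 T.V2 := h1.le _ (x_mem_chart T X)
  refine ⟨?_, chart_le_chart12 T X h1.unif_mem, h1.m_ne, chart_le_chart12 T X h1.inv_mem, ?_, ?_⟩
  · rintro f ⟨n, hn⟩
    have : f = (T.x X)⁻¹ ^ n * (T.x X ^ n * f) := by
      rw [← mul_assoc, ← mul_pow, inv_mul_cancel₀ hx, one_pow, one_mul]
    rw [this]
    exact Subring.mul_mem _ (Subring.pow_mem _ hxi n) (h1.le _ hn)
  · rintro f ⟨n, hn⟩ ⟨z, hz, h⟩
    rw [pow_one] at h
    refine ⟨z, ⟨n, ?_⟩, h⟩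
    have hz' : T.x X ^ n * z ∈ T.O := by
      rw [← OO_eq]
      exact Subring.mul_mem _ (Subring.pow_mem _ hxO n) hz
    refine chart_sat T X hq hn hz' ?_
    rw [h]; ring
  · rintro f ⟨n, hn⟩
    refine ⟨n, h1.root _ ?_⟩
    have hm0 : m ≠ 0 := by
      rintro rfl
      rw [Nat.cast_zero] at hm
      exact not_isUnit_zero hm
    obtain ⟨e, rfl⟩ := Nat.exists_eq_succ_of_ne_zero hm0
    have : (T.x X ^ n * f) ^ (e + 1) = (T.x X ^ n) ^ e * (T.x X ^ n * f ^ (e + 1)) := by ring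
    rw [this]
    exact mul_mem (pow_mem (pow_mem (x_mem_chart T X) n) e) hn

end Fermat.Agent.S34
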