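import Fermat.Agent.S34.NVal

/-!
# S34, modular block, package Q-NODE : nodes are not cusps; the field `xy` of `NodeData`
-/

set_option autoImplicit false
set_option linter.unusedSectionVars false
set_option linter.unusedVariables false

noncomputable section

namespace Fermat.Agent.S34

open ModularCurve Polynomial
open Fermat.Agent.ES.QE Fermat.Agent.ES.Model

variable {R K k : Type*} [CommRing R] [IsDomain R] [IsNoetherianRing R] [IsIntegrallyClosed R]
  [Field K] [Algebra R K] [IsFractionRing R K] [Field k]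
  {D : QData R K k} {q : ℕ} [NeZero q]

namespace QNode

variable (T : Two D q) (X : D.Coord)

/-- the structure map `R[X] → T.F`. -/
def phiT : R[X] →+* T.F := T.al.comp X.phiF

lemma coe_phiT (σ : R[X]) : ((phiT T X σ : T.F) : LaurentSeries K) = X.phi σ := rfl

lemma e2_phiT (σ : R[X]) : T.e2 (phiT T X σ) = D.inc (qExpand R q (evS X.xW σ)) := by
  rw [phiT, RingHom.comp_apply, T.e2_al, NOrth.inc_qExpand]
  rfl

lemma eval₂_phiT {f : T.F} {p : R[X][X]} (h : eval₂ X.phi (f : LaurentSeries K) p = 0) :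
    eval₂ (phiT T X) f p = 0 := by
  apply Subtype.ext
  have h1 := hom_eval₂ p (phiT T X) (algebraMap T.F (LaurentSeries K)) f
  have h2 : (algebraMap T.F (LaurentSeries K)).comp (phiT T X) = X.phi :=
    RingHom.ext fun σ => rfl
  rw [h2] at h1
  exact h1.trans h

theorem chart_le_O1 {f : T.F} (hf : f ∈ T.chart X) : f ∈ T.O1 :=
  (T.isBdd_e1 f).mem_LamRing_of_isIntegralElem (RingHom.IsIntegralElem.of_comp hf)

theorem chart_le_O2 {f : T.F} (hf : f ∈ T.chart X) : f ∈ T.O2 := by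
  refine (T.isBdd_e2 f).mem_LamRing_of_isIntegralElem ?_
  obtain ⟨p, hp, h⟩ := hf
  have h1 := eval₂_phiT T X h
  refine ⟨p.map ((qExpand R q).comp (evS X.xW)), hp.map _, ?_⟩
  rw [eval₂_map]
  have h2 : D.inc.comp ((qExpand R q).comp (evS X.xW)) = T.e2.comp (phiT T X) :=
    RingHom.ext fun σ => (e2_phiT T X σ).symm
  rw [h2, ← hom_eval₂, h1, map_zero]

/-- `ϖ O₁` is the kernel of `rho1`. -/
theorem divS_O1_iff (f : T.O1) : DivS T.O1 T.ϖF 1 (f : T.F) ↔ T.rho1 f = 0 := by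
  have h0 : T.rho1 f = D.rho ⟨((f : T.F) : LaurentSeries K), f.2⟩ := rfl
  rw [h0, QData.rho_eq_zero_iff_exists]
  constructor
  · rintro ⟨y, hy, h⟩
    refine ⟨(y : LaurentSeries K), hy, ?_⟩
    show ((f : T.F) : LaurentSeries K) = _
    rw [h, pow_one, IntermediateField.coe_mul, T.coe_ϖF]
  · rintro ⟨g, hg, h⟩
    have h1 : (((f : T.F) / T.ϖF : T.F) : LaurentSeries K) = g := by
      rw [IntermediateField.coe_div, T.coe_ϖF]
      change ((f : T.F) : LaurentSeries K) = _ at h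
      rw [h, mul_div_cancel_left₀ _ D.ϖE_ne_zero]
    refine ⟨(f : T.F) / T.ϖF, ?_, ?_⟩
    · show (((f : T.F) / T.ϖF : T.F) : LaurentSeries K) ∈ D.LamRing
      rw [h1]; exact hg
    · rw [pow_one, mul_div_cancel₀ _ T.ϖF_ne_zero]

/-- `ϖ O₂` is the kernel of `rho2`. -/
theorem divS_O2_iff (f : T.O2) : DivS T.O2 T.ϖF 1 (f : T.F) ↔ T.rho2 f = 0 := by
  have h0 : T.rho2 f = D.rho ⟨T.e2 (f : T.F), f.2⟩ := rfl
  rw [h0, QData.rho_eq_zero_iff_exists]
  constructor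
  · rintro ⟨y, hy, h⟩
    refine ⟨T.e2 y, hy, ?_⟩
    show T.e2 (f : T.F) = _
    rw [h, pow_one, map_mul, T.e2_ϖF]
  · rintro ⟨g, hg, h⟩
    have h1 : T.e2 ((f : T.F) / T.ϖF) = g := by
      rw [map_div₀, T.e2_ϖF]
      change T.e2 (f : T.F) = _ at h
      rw [h, mul_div_cancel_left₀ _ D.ϖE_ne_zero]
    refine ⟨(f : T.F) / T.ϖF, ?_, ?_⟩
    · show T.e2 ((f : T.F) / T.ϖF) ∈ D.LamRing
      rw [h1]; exact hg
    · rw [pow_one, mul_div_cancel₀ _ T.ϖF_ne_zero]

/-- reduction of the chart on the first component. -/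
def r1 : T.chart X →+* LaurentSeries k :=
  T.rho1.comp (Subring.inclusion fun _ hf => chart_le_O1 T X hf)

/-- reduction of the chart on the second component. -/
def r2 : T.chart X →+* LaurentSeries k :=
  T.rho2.comp (Subring.inclusion fun _ hf => chart_le_O2 T X hf)

theorem divS_iff_r1 (b : T.chart X) : DivS T.O1 T.ϖF 1 (b : T.F) ↔ r1 T X b = 0 :=
  divS_O1_iff T ⟨(b : T.F), chart_le_O1 T X b.2⟩

theorem divS_iff_r2 (b : T.chart X) : DivS T.O2 T.ϖF 1 (b : T.F) ↔ r2 T X b = 0 :=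
  divS_O2_iff T ⟨(b : T.F), chart_le_O2 T X b.2⟩

theorem mem_p1 (b : T.chart X) : b ∈ T.p1 X ↔ DivS T.O1 T.ϖF 1 (b : T.F) := by
  constructor
  · intro hb
    have h : T.p1 X ≤ RingHom.ker (r1 T X) := by
      rw [Two.p1, Ideal.span_le]
      intro c hc
      exact (divS_iff_r1 T X c).mp hc
    exact (divS_iff_r1 T X b).mpr (h hb)
  · intro hb
    exact Ideal.subset_span hb

theorem mem_p2 (b : T.chart X) : b ∈ T.p2 X ↔ DivS T.O2 T.ϖF 1 (b : T.F) := by
  constructor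
  · intro hb
    have h : T.p2 X ≤ RingHom.ker (r2 T X) := by
      rw [Two.p2, Ideal.span_le]
      intro c hc
      exact (divS_iff_r2 T X c).mp hc
    exact (divS_iff_r2 T X b).mpr (h hb)
  · intro hb
    exact Ideal.subset_span hb

theorem mem_p1_iff (b : T.chart X) : b ∈ T.p1 X ↔ r1 T X b = 0 :=
  (mem_p1 T X b).trans (divS_iff_r1 T X b)

theorem mem_p2_iff (b : T.chart X) : b ∈ T.p2 X ↔ r2 T X b = 0 :=
  (mem_p2 T X b).trans (divS_iff_r2 T X b)

/-- the coordinate as an element of the chart. -/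
def xB : T.chart X := ⟨T.x X, X.x_mem_chart⟩

theorem r1_eq (b : T.chart X) (h : ((b : T.F) : LaurentSeries K) ∈ D.LamRing) :
    r1 T X b = D.rho ⟨((b : T.F) : LaurentSeries K), h⟩ := rfl

theorem r2_eq (b : T.chart X) (h : T.e2 (b : T.F) ∈ D.LamRing) :
    r2 T X b = D.rho ⟨T.e2 (b : T.F), h⟩ := rfl

theorem r1_xB : r1 T X (xB T X) = D.red X.xW :=
  QData.rho_inc X.xW

theorem r2_xB : r2 T X (xB T X) = qExpand k q (D.red X.xW) := by
  have h1 : T.e2 ((xB T X : T.chart X) : T.F) = qExpand K q (D.inc X.xW) := T.e2_al X.x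
  have h2 := NOrth.rho_qExpand q (QData.inc_mem_LamRing (D := D) X.xW)
  rw [QData.rho_inc] at h2
  rw [← h2, r2_eq T X _ (chart_le_O2 T X (xB T X).2)]
  congr 1
  exact Subtype.ext h1

theorem red_xW_ne_zero : D.red X.xW ≠ 0 := by
  have := X.trans Polynomial.X Polynomial.X_ne_zero
  rwa [evS_X] at this

end QNode

open QNode

/-- [Q-NODE], final shape (`T.p1`, `T.p2` of `NDefs`): the field `xy` of `NodeData`. -/
theorem xy_of (T : Two D q) (X : D.Coord) (hq : q.Prime) [CharP k q]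
    (hxq : qExpand k q (D.red X.xW) = D.red X.xW ^ q)
    (θ : T.chart X) (hθx : (θ : T.F) * T.x X = T.be X.x ^ q)
    (Xu Yu : T.chart X) (c e : ℕ) (hXY : (Xu : T.F) * Yu = T.ϖF ^ c * T.x X ^ e)
    (hX1 : ¬ DivS T.O1 T.ϖF 1 (Xu : T.F)) (hX2 : DivS T.O2 T.ϖF 1 (Xu : T.F)) :
    ∀ n : Ideal (T.chart X), n.IsMaximal → T.p1 X ≤ n → T.p2 X ≤ n →
      ∃ (X' Y' s0 : T.chart X) (c : ℕ), X' * Y' = T.ϖB X ^ c * s0 ∧ s0 ∉ n ∧ X' ∉ T.p1 X ∧
        X' ∈ T.p2 X := by
  intro n hn h1 h2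
  have hx0 := red_xW_ne_zero X
  have hq1 : 1 ≤ q ^ 2 - 1 := by
    have : 2 ^ 2 ≤ q ^ 2 := Nat.pow_le_pow_left hq.two_le 2
    omega
  -- the element `β(x)` of the two Gauss rings
  have hb1 : ((T.be X.x : T.F) : LaurentSeries K) ∈ D.LamRing :=
    NOrth.mem_LamRing_of_qExpand_inc q X.xW
  have hb2 : T.e2 (T.be X.x) ∈ D.LamRing := by
    rw [T.e2_be]; exact QData.inc_mem_LamRing X.xW
  have hrb1 : T.rho1 ⟨T.be X.x, hb1⟩ = D.red X.xW ^ q := by
    have h3 := NOrth.rho_qExpand q (QData.inc_mem_LamRing (D := D) X.xW)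
    rw [QData.rho_inc, hxq] at h3
    exact h3
  have hrb2 : T.rho2 ⟨T.be X.x, hb2⟩ = D.red X.xW := by
    have h3 := QData.rho_inc (D := D) X.xW
    rw [← h3]
    show D.rho ⟨T.e2 (T.be X.x), hb2⟩ = _
    congr 1
    exact Subtype.ext (T.e2_be X.x)
  -- reductions of `θ`
  have e1 : r1 T X θ * D.red X.xW = (D.red X.xW ^ q) ^ q := by
    have h3 : r1 T X (θ * xB T X) = T.rho1 (⟨T.be X.x, hb1⟩ ^ q) := by
      show T.rho1 _ = T.rho1 _
      congr 1
      exact Subtype.ext hθx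
    rw [map_mul, r1_xB, map_pow, hrb1] at h3
    exact h3
  have e2 : r2 T X θ * D.red X.xW ^ q = D.red X.xW ^ q := by
    have h3 : r2 T X (θ * xB T X) = T.rho2 (⟨T.be X.x, hb2⟩ ^ q) := by
      show T.rho2 _ = T.rho2 _
      congr 1
      exact Subtype.ext hθx
    rw [map_mul, r2_xB, map_pow, hrb2, hxq] at h3
    exact h3
  have m1 : θ - xB T X ^ (q ^ 2 - 1) ∈ T.p1 X := by
    rw [mem_p1_iff, map_sub, map_pow, r1_xB, sub_eq_zero]
    apply mul_right_cancel₀ hx0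
    rw [e1, ← pow_mul, ← pow_succ]
    congr 1
    rw [← sq]
    omega
  have m2 : θ - 1 ∈ T.p2 X := by
    rw [mem_p2_iff, map_sub, map_one, sub_eq_zero]
    apply mul_right_cancel₀ (pow_ne_zero q hx0)
    rw [e2, one_mul]
  have hxn : xB T X ∉ n := by
    intro hx
    apply hn.ne_top
    rw [Ideal.eq_top_iff_one]
    have h3 : xB T X ^ (q ^ 2 - 1) ∈ n := Ideal.pow_mem_of_mem n hx _ (by omega)
    have h4 := n.sub_mem (n.add_mem (h1 m1) h3) (h2 m2)
    have h5 : θ - xB T X ^ (q ^ 2 - 1) + xB T X ^ (q ^ 2 - 1) - (θ - 1) = 1 := by ring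
    rwa [h5] at h4
  refine ⟨Xu, Yu, xB T X ^ e, c, Subtype.ext hXY, ?_, ?_, ?_⟩
  · intro h3
    exact hxn (hn.isPrime.mem_of_pow_mem e h3)
  · rw [mem_p1]; exact hX1
  · rw [mem_p2]; exact hX2

end Fermat.Agent.S34
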