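import Fermat.Agent.S34.NVal
import Fermat.Agent.S34.ADefs

/-!
# S34, modular block : [Q-LAM] + [Q-VAL] : the statements of `NPlan`, verbatim
-/

set_option autoImplicit false
set_option linter.unusedSectionVars false

noncomputable section

namespace Fermat.Agent.S34

open ModularCurve Polynomial
open Fermat.Agent.ES.QE Fermat.Agent.ES.Model

variable {R K k : Type*} [CommRing R] [IsDomain R] [IsNoetherianRing R] [IsIntegrallyClosed R]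
  [Field K] [Algebra R K] [IsFractionRing R K] [Field k]
  {D : QData R K k} {q : ℕ} [NeZero q]

/-! ### [Q-LAM] -/

theorem exists_prim (D : QData R K k) (w : LaurentSeries R) (hw : w ≠ 0) :
    ∃ (a : ℕ) (w' : LaurentSeries R), w = D.ϖW ^ a * w' ∧ D.red w' ≠ 0 := by
  obtain ⟨a, w', h1, h2⟩ := NVal.exists_prim D hw
  exact ⟨a, w', h2, h1⟩

/-- series with bounded denominators -/
def Bdd (D : QData R K k) : Subring (LaurentSeries K) where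
  carrier := {f | ∃ (c : ℕ) (t w : LaurentSeries R), D.red t ≠ 0 ∧
    D.ϖE ^ c * D.inc t * f = D.inc w}
  mul_mem' := fun {_ _} ha hb => NVal.IsBdd.mul ha hb
  one_mem' := NVal.IsBdd.one
  add_mem' := fun {_ _} ha hb => NVal.IsBdd.add ha hb
  zero_mem' := NVal.IsBdd.zero
  neg_mem' := fun {a} ha => by
    have h : NVal.IsBdd D ((-1) * a) := by
      have h1 : NVal.IsBdd D (-1 : LaurentSeries K) := by
        have := NVal.IsBdd.inc (D := D) (-1)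
        rwa [map_neg, map_one] at this
      exact h1.mul ha
    rw [neg_one_mul] at h
    exact h

theorem mem_Bdd_iff {f : LaurentSeries K} : f ∈ Bdd D ↔ NVal.IsBdd D f := Iff.rfl

theorem mem_Bdd_of_mem_F0 {f : LaurentSeries K} (hf : f ∈ D.F0) : f ∈ Bdd D :=
  NVal.IsBdd.of_mem_F0 hf

theorem qExpand_mem_Bdd {f : LaurentSeries K} (hf : f ∈ Bdd D) : qExpand K q f ∈ Bdd D :=
  NVal.IsBdd.qExpand q hf

/-- normal form: `f = ϖ ^ a * (unit of Λ)`. -/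
theorem Bdd_normal {f : LaurentSeries K} (hf : f ∈ Bdd D) (hf0 : f ≠ 0) :
    ∃ (a : ℤ) (g : LaurentSeries K), g ∈ D.LamRing ∧ g⁻¹ ∈ D.LamRing ∧ f = D.ϖE ^ a * g := by
  have hE := D.ϖE_ne_zero
  have hinc : ∀ {t : LaurentSeries R}, D.red t ≠ 0 → D.inc t ≠ 0 := by
    intro t ht h0
    have : t = 0 := D.inc_injective (by rw [h0, map_zero])
    exact ht (by rw [this, map_zero])
  rcases NVal.IsBdd.isFrac_or hf hf0 with ⟨c, t, w, ht, hw, h⟩ | ⟨c, t, w, ht, hw, h⟩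
  · have h1 := hinc ht
    have h2 := hinc hw
    refine ⟨((c + 1 : ℕ) : ℤ), D.inc w / D.inc t, ⟨t, w, ht, by field_simp⟩,
      ⟨w, t, hw, by field_simp⟩, ?_⟩
    rw [zpow_natCast]
    field_simp
    rw [← h]; ring
  · have h1 := hinc ht
    have h2 := hinc hw
    refine ⟨-(c : ℤ), D.inc w / D.inc t, ⟨t, w, ht, by field_simp⟩,
      ⟨w, t, hw, by field_simp⟩, ?_⟩
    rw [zpow_neg, zpow_natCast]
    field_simp
    rw [← h]; ring

theorem qExpand_mem_LamRing {f : LaurentSeries K} (hf : f ∈ D.LamRing) :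
    qExpand K q f ∈ D.LamRing := NOrth.qExpand_mem_LamRing q hf

theorem rho_qExpand (f : D.LamRing) :
    D.rho ⟨qExpand K q (f : LaurentSeries K), qExpand_mem_LamRing f.2⟩ = qExpand k q (D.rho f) :=
  NOrth.rho_qExpand q f.2

theorem qExpand_jqModC_eq_pow (hq : q.Prime) [CharP k q] :
    qExpand k q (jqModC k) = jqModC k ^ q := by
  have := Fact.mk hq
  exact NOrth.qExpand_jq_char q k

/-! ### [Q-ORTH] : wrappers with `hq : q.Prime` -/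

variable (T : Two D q)

theorem exists_rep (f : T.F) :
    ∃ a : Fin (q + 1) → D.F0, f = ∑ i, T.al (a i) * T.be D.jF ^ (i : ℕ) := T.exists_rep f

theorem mem_O_iff (hq : q.Prime) [CharP k q] (a : Fin (q + 1) → D.F0) :
    ∑ i, T.al (a i) * T.be D.jF ^ (i : ℕ) ∈ T.O ↔ ∀ i, a i ∈ D.gaussO := by
  have := Fact.mk hq
  exact T.mem_O_iff a

/-! ### [Q-VAL] -/

theorem e1_mem_Bdd (f : T.F) : T.e1 f ∈ Bdd D := T.isBdd_e1 f
theorem e2_mem_Bdd (f : T.F) : T.e2 f ∈ Bdd D := T.isBdd_e2 f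
theorem mem_V1 {f : T.F} : f ∈ T.V1 ↔ f ∈ T.O1 := T.mem_V1
theorem mem_V2 {f : T.F} : f ∈ T.V2 ↔ f ∈ T.O2 := T.mem_V2
theorem OO_eq : OO T.V1 T.V2 = T.O := T.O_eq.symm
theorem isUnif_V1 : IsUnif T.V1 T.ϖF := T.isUnif1
theorem isUnif_V2 : IsUnif T.V2 T.ϖF := T.isUnif2
theorem disc_V1 (x : T.F) (hx : x ≠ 0) :
    ∃ a : ℤ, x * T.ϖF ^ a ∈ T.V1 ∧ (x * T.ϖF ^ a)⁻¹ ∈ T.V1 := T.discrete1 x hx
theorem disc_V2 (x : T.F) (hx : x ≠ 0) :
    ∃ a : ℤ, x * T.ϖF ^ a ∈ T.V2 ∧ (x * T.ϖF ^ a)⁻¹ ∈ T.V2 := T.discrete2 x hx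

/-- the kernel of the reduction, for a general embedding. -/
theorem rho_eq_zero_iff_divO {F : Type*} [Field F] (e : F →+* LaurentSeries K)
    (V : ValuationSubring F) (hV : ∀ f, f ∈ V ↔ e f ∈ D.LamRing) (ϖ : F) (hϖ : e ϖ = D.ϖE)
    (f : F) (hf : e f ∈ D.LamRing) : D.rho ⟨e f, hf⟩ = 0 ↔ DivO V ϖ 1 f := by
  have hϖ0 : ϖ ≠ 0 := by
    rintro rfl
    rw [map_zero] at hϖ
    exact D.ϖE_ne_zero hϖ.symm
  rw [QData.rho_eq_zero_iff_exists]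
  constructor
  · rintro ⟨g, hg, h⟩
    refine ⟨ϖ⁻¹ * f, ?_, by rw [pow_one, mul_inv_cancel_left₀ hϖ0]⟩
    rw [hV, map_mul, map_inv₀, hϖ]
    have h' : e f = D.ϖE * g := h
    rw [h', inv_mul_cancel_left₀ D.ϖE_ne_zero]
    exact hg
  · rintro ⟨y, hy, h⟩
    refine ⟨e y, (hV y).1 hy, ?_⟩
    show e f = _
    rw [h, pow_one, map_mul, hϖ]

theorem rho1_eq_zero_iff (f : T.O1) : T.rho1 f = 0 ↔ DivO T.V1 T.ϖF 1 (f : T.F) :=
  rho_eq_zero_iff_divO T.e1 T.V1 (fun _ => T.mem_V1) T.ϖF T.e1_ϖF f f.2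

theorem rho2_eq_zero_iff (f : T.O2) : T.rho2 f = 0 ↔ DivO T.V2 T.ϖF 1 (f : T.F) :=
  rho_eq_zero_iff_divO T.e2 T.V2 (fun _ => T.mem_V2) T.ϖF T.e2_ϖF f f.2

theorem al_mem_O {u : D.F0} (hu : u ∈ D.gaussO) : T.al u ∈ T.O := T.al_mem_O hu
theorem be_mem_O {u : D.F0} (hu : u ∈ D.gaussO) : T.be u ∈ T.O := T.be_mem_O hu

theorem rho1_al (u : D.gaussO) : T.rho1 ⟨T.al u, (al_mem_O T u.2).1⟩ = D.rhoO u := rfl

theorem rho_congr {f g : LaurentSeries K} (hf : f ∈ D.LamRing) (h : f = g) :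
    D.rho ⟨f, hf⟩ = D.rho ⟨g, h ▸ hf⟩ := by
  subst h; rfl

theorem rho2_al (u : D.gaussO) :
    T.rho2 ⟨T.al u, (al_mem_O T u.2).2⟩ = qExpand k q (D.rhoO u) := by
  have hm : T.e2 (T.al u) ∈ D.LamRing := (al_mem_O T u.2).2
  have h1 : T.rho2 ⟨T.al u, (al_mem_O T u.2).2⟩ = D.rho ⟨T.e2 (T.al u), hm⟩ := rfl
  exact h1.trans ((rho_congr hm (T.e2_al u)).trans (NOrth.rho_qExpand q u.2))

theorem rho1_be (u : D.gaussO) :
    T.rho1 ⟨T.be u, (be_mem_O T u.2).1⟩ = qExpand k q (D.rhoO u) :=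
  NOrth.rho_qExpand q u.2

theorem rho2_be (u : D.gaussO) : T.rho2 ⟨T.be u, (be_mem_O T u.2).2⟩ = D.rhoO u := by
  have hm : T.e2 (T.be u) ∈ D.LamRing := (be_mem_O T u.2).2
  have h1 : T.rho2 ⟨T.be u, (be_mem_O T u.2).2⟩ = D.rho ⟨T.e2 (T.be u), hm⟩ := rfl
  exact h1.trans (rho_congr hm (T.e2_be u))

end Fermat.Agent.S34
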