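import Fermat.Agent.S34.SMod

/-!
# S34, abstract block (semilocal copy of `ES/MFin`) : the final step (Newton iteration in each chart, comparison, formal functions)
-/

set_option autoImplicit false

namespace Fermat.Agent.S34

open Fermat.Agent.ES.Model (MM mem_MM)

variable {F : Type*} [Field F]

/-- `(1 + x) ^ m = 1 + m x + x ^ 2 P` with `P` in the subring. -/
theorem exists_one_add_pow (B : Subring F) {x : F} (hx : x ∈ B) (m : ℕ) :
    ∃ P ∈ B, (1 + x) ^ m = 1 + m * x + x ^ 2 * P := by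
  induction m with
  | zero => exact ⟨0, B.zero_mem, by simp⟩
  | succ m ih =>
    obtain ⟨P, hP, h⟩ := ih
    refine ⟨P * (1 + x) + m, B.add_mem (B.mul_mem hP (B.add_mem B.one_mem hx)) (natCast_mem B m), ?_⟩
    rw [pow_succ, h]
    push_cast
    ring

/-- Newton iteration inside one chart. -/
theorem newtonS {O : Subring F} {ϖ : F} (hO : IsSemi O ϖ) {m : ℕ} (hm : 0 < m)
    {B : Subring F} (hB : IsChartS O ϖ m B) {w : F} (hw1 : DivS O ϖ 1 (w - 1))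
    {f : F} (hf : f ∈ MM m w B) (hf' : DivS O ϖ 1 (f - 1)) (n : ℕ) :
    ∃ g ∈ MM m w B, DivS O ϖ 1 (g - 1) ∧ ∃ y ∈ B, g ^ m * w = 1 + ϖ ^ (n + 1) * y := by
  induction n with
  | zero =>
    refine ⟨f, hf, hf', ?_⟩
    have h1 : DivS O ϖ 1 (f ^ m * w - 1) := oneUnit_mul hO.mem (oneUnit_pow hO.mem hf' m) hw1
    obtain ⟨y, hy, h⟩ := hB.sat _ (B.sub_mem hf B.one_mem) h1
    exact ⟨y, hy, by rw [zero_add, pow_one, ← h]; ring⟩
  | succ n ih =>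
    obtain ⟨g, hg, hg', y, hy, h⟩ := ih
    set z : F := ϖ ^ (n + 1) * y with hz
    have hzB : z ∈ B := B.mul_mem (B.pow_mem hB.unif_mem _) hy
    have hxB : -((m : F)⁻¹ * z) ∈ B := B.neg_mem (B.mul_mem hB.inv_mem hzB)
    obtain ⟨P, hP, hPe⟩ := exists_one_add_pow B hxB m
    have hcB : 1 + -((m : F)⁻¹ * z) ∈ B := B.add_mem B.one_mem hxB
    refine ⟨(1 + -((m : F)⁻¹ * z)) * g, MM_smul w hcB hg, ?_, ?_⟩
    · have : (1 + -((m : F)⁻¹ * z)) * g - 1 = (g - 1) - ϖ * (ϖ ^ n * y * (m : F)⁻¹ * g) := by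
        rw [hz]; ring
      rw [this]
      refine hg'.sub (divS_one_mul ?_)
      exact O.mul_mem (O.mul_mem (O.mul_mem (O.pow_mem hO.mem n) (hB.le _ hy))
        (hB.le _ hB.inv_mem)) (oneUnit_mem hO.mem hg')
    · refine ⟨ϖ ^ n * y ^ 2 * ((m : F)⁻¹ ^ 2 * P * (1 + z) - 1), ?_, ?_⟩
      · exact B.mul_mem (B.mul_mem (B.pow_mem hB.unif_mem _) (B.pow_mem hy 2))
          (B.sub_mem (B.mul_mem (B.mul_mem (B.pow_mem hB.inv_mem 2) hP)
            (B.add_mem B.one_mem hzB)) B.one_mem)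
      · have hm0 := hB.m_ne
        have e1 : ((1 + -((m : F)⁻¹ * z)) * g) ^ m * w
            = (1 + -((m : F)⁻¹ * z)) ^ m * (g ^ m * w) := by rw [mul_pow]; ring
        have e2 : (m : F) * -((m : F)⁻¹ * z) = -z := by field_simp
        rw [e1, h, hPe, e2]
        have e3 : (1 + -z + (-((m : F)⁻¹ * z)) ^ 2 * P) * (1 + z)
            = 1 + z ^ 2 * ((m : F)⁻¹ ^ 2 * P * (1 + z) - 1) := by ring
        have e4 : z ^ 2 = ϖ ^ (n + 1 + 1) * (ϖ ^ n * y ^ 2) := by rw [hz]; ring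
        rw [e3, e4]
        ring

theorem finS (O : Subring F) (ϖ : F) (hO : IsSemi O ϖ) (m : ℕ) (hm : 0 < m)
    (B1 B2 B12 : Subring F) (h1 : IsChartS O ϖ m B1) (h2 : IsChartS O ϖ m B2)
    (h12 : IsChartS O ϖ m B12) (h1le : B1 ≤ B12) (h2le : B2 ≤ B12)
    (w : F) (hw : w ≠ 0) (hw1 : DivS O ϖ 1 (w - 1))
    (f1 f2 : F) (hf1 : f1 ∈ MM m w B1) (hf1' : DivS O ϖ 1 (f1 - 1))
    (hf2 : f2 ∈ MM m w B2) (hf2' : DivS O ϖ 1 (f2 - 1))
    (c : ℕ) (hc : ∀ h ∈ MM m w B12, ∀ n : ℕ,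
      (∃ a1 ∈ MM m w B1, ∃ a2 ∈ MM m w B2, ϖ ^ n * h = a1 + a2) →
      ∃ b1 ∈ MM m w B1, ∃ b2 ∈ MM m w B2, ϖ ^ c * h = b1 + b2) :
    ∃ u : F, u ≠ 0 ∧ u ^ m * w ∈ B1 ∧ u ^ m * w ∈ B2 ∧ DivS O ϖ 1 (u - 1) := by
  have hwO : w ∈ O := oneUnit_mem hO.mem hw1
  have hwi : w⁻¹ ∈ O := hO.oneUnit_inv_mem hw1
  obtain ⟨g1, hg1, hg1', y1, hy1, e1⟩ := newtonS hO hm h1 hw1 hf1 hf1' c
  obtain ⟨g2, hg2, hg2', y2, hy2, e2⟩ := newtonS hO hm h2 hw1 hf2 hf2' c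
  have hg1O : g1 ∈ O := oneUnit_mem hO.mem hg1'
  have hg2O : g2 ∈ O := oneUnit_mem hO.mem hg2'
  -- the geometric sum is a unit
  set S : F := ∑ i ∈ Finset.range m, g1 ^ i * g2 ^ (m - 1 - i) with hS
  have hSm : DivS O ϖ 1 (S - m) := by
    have : S - m = ∑ i ∈ Finset.range m, (g1 ^ i * g2 ^ (m - 1 - i) - 1) := by
      rw [Finset.sum_sub_distrib]; simp [hS]
    rw [this]
    have key : ∀ (T : Finset ℕ), DivS O ϖ 1 (∑ i ∈ T, (g1 ^ i * g2 ^ (m - 1 - i) - 1)) := by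
      intro T
      induction T using Finset.induction_on with
      | empty => exact ⟨0, O.zero_mem, by simp⟩
      | insert a T ha ih =>
        rw [Finset.sum_insert ha]
        exact (oneUnit_mul hO.mem (oneUnit_pow hO.mem hg1' _) (oneUnit_pow hO.mem hg2' _)).add ih
    exact key _
  have hmO : (m : F) ∈ O := natCast_mem O m
  have hSO : S ∈ O := by
    have : S = (S - m) + m := by ring
    rw [this]; exact O.add_mem (hSm.mem hO.mem) hmO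
  have hmi : (m : F)⁻¹ ∈ O := h1.le _ h1.inv_mem
  have hSone : DivS O ϖ 1 ((m : F)⁻¹ * S - 1) := by
    have : (m : F)⁻¹ * S - 1 = (m : F)⁻¹ * (S - m) := by
      have := h1.m_ne
      field_simp
    rw [this]
    exact hSm.mul_left hmi
  have hSi : S⁻¹ ∈ O := by
    have h3 := hO.oneUnit_inv_mem hSone
    have : S⁻¹ = (m : F)⁻¹ * ((m : F)⁻¹ * S)⁻¹ := by
      have := h1.m_ne
      rw [mul_inv, inv_inv, ← mul_assoc, inv_mul_cancel₀ this, one_mul]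
    rw [this]
    exact O.mul_mem hmi h3
  have hS0 : S ≠ 0 := by
    rintro h0
    have := hO.oneUnit_ne_zero hSone
    rw [h0, mul_zero] at this
    exact this rfl
  have hgeom : S * (g1 - g2) = g1 ^ m - g2 ^ m := by
    rw [hS]; exact (Commute.all g1 g2).geom_sum₂_mul m
  have hdiff : g1 - g2 = ϖ ^ (c + 1) * ((y1 - y2) * S⁻¹ * w⁻¹) := by
    have h3 : (g1 ^ m - g2 ^ m) * w = ϖ ^ (c + 1) * (y1 - y2) := by
      rw [sub_mul, e1, e2]; ring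
    rw [← hgeom] at h3
    field_simp
    rw [← h3]; ring
  have hdivd : DivS O ϖ (c + 1) (g1 - g2) :=
    ⟨(y1 - y2) * S⁻¹ * w⁻¹, O.mul_mem (O.mul_mem
      (O.sub_mem (h1.le _ hy1) (h2.le _ hy2)) hSi) hwi, hdiff⟩
  have hmem12 : g1 - g2 ∈ MM m w B12 :=
    MM_sub h12 hm w (MM_mono h1le w hg1) (MM_mono h2le w hg2)
  obtain ⟨h, hh, hhe⟩ := MM_div h12 hO.ne_zero hwO (c + 1) hmem12 hdivd
  obtain ⟨b1, hb1, b2, hb2, hb⟩ := hc h hh (c + 1)
    ⟨g1, hg1, -g2, MM_neg w hg2, by rw [← hhe]; ring⟩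
  have hb1O : b1 ∈ O := MM_mem_O hO h1 hm hw hwi hb1
  have hu2 : g1 - ϖ * b1 = g2 + ϖ * b2 := by
    have : g1 - g2 = ϖ * (b1 + b2) := by rw [hhe, ← hb]; ring
    linear_combination this
  have hu1 : DivS O ϖ 1 (g1 - ϖ * b1 - 1) := by
    have : g1 - ϖ * b1 - 1 = (g1 - 1) - ϖ * b1 := by ring
    rw [this]
    exact hg1'.sub (divS_one_mul hb1O)
  refine ⟨g1 - ϖ * b1, hO.oneUnit_ne_zero hu1, ?_, ?_, hu1⟩
  · exact MM_sub h1 hm w hg1 (MM_smul w h1.unif_mem hb1)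
  · rw [hu2]
    exact MM_add h2 hm w hg2 (MM_smul w h2.unif_mem hb2)

end Fermat.Agent.S34
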