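import Fermat.Agent.S34.SFin
import Fermat.Agent.S34.SH1

/-!
# S34, abstract block : local to global, and the output `abs_semi` of S-MOD / S-FIN / S-H1
-/

set_option autoImplicit false

namespace Fermat.Agent.S34

open Fermat.Agent.ES.Model (MM mem_MM)

variable {F : Type*} [Field F]

/-- the ideal `{b ∈ B : ∃ f ∈ MM m w B, f ≡ b mod ϖ O}` -/
def glueIdeal {O : Subring F} {ϖ : F} {m : ℕ} {B : Subring F} (hB : IsChartS O ϖ m B)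
    (hm : 0 < m) (w : F) : Ideal B where
  carrier := {b | ∃ f ∈ MM m w B, DivS O ϖ 1 (f - (b : F))}
  add_mem' := by
    rintro a b ⟨f, hf, hfa⟩ ⟨g, hg, hgb⟩
    refine ⟨f + g, MM_add hB hm w hf hg, ?_⟩
    have : f + g - ((a + b : B) : F) = (f - a) + (g - b) := by push_cast; ring
    rw [this]
    exact hfa.add hgb
  zero_mem' := ⟨0, MM_zero hm w B, ⟨0, O.zero_mem, by simp⟩⟩
  smul_mem' := by
    rintro c b ⟨f, hf, hfb⟩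
    refine ⟨c * f, MM_smul w c.2 hf, ?_⟩
    have : (c : F) * f - ((c • b : B) : F) = c * (f - b) := by
      rw [smul_eq_mul]; push_cast; ring
    rw [this]
    exact hfb.mul_left (hB.le _ c.2)

theorem mem_glueIdeal {O : Subring F} {ϖ : F} {m : ℕ} {B : Subring F} (hB : IsChartS O ϖ m B)
    (hm : 0 < m) (w : F) (b : B) :
    b ∈ glueIdeal hB hm w ↔ ∃ f ∈ MM m w B, DivS O ϖ 1 (f - (b : F)) := Iff.rfl

theorem unif_mem_glueIdeal {O : Subring F} {ϖ : F} {m : ℕ} {B : Subring F}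
    (hB : IsChartS O ϖ m B) (hm : 0 < m) (w : F) :
    (⟨ϖ, hB.unif_mem⟩ : B) ∈ glueIdeal hB hm w :=
  ⟨0, MM_zero hm w B, ⟨-1, O.neg_mem O.one_mem, by simp⟩⟩

/-- **S-GLUE** (local ⟹ global): only the maximal ideals containing `ϖ` matter. -/
theorem exists_oneUnitS {O : Subring F} {ϖ : F} {m : ℕ} {B : Subring F} (hB : IsChartS O ϖ m B)
    (hm : 0 < m) (w : F)
    (h : ∀ n : Ideal B, n.IsMaximal → (⟨ϖ, hB.unif_mem⟩ : B) ∈ n →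
      ∃ f ∈ MM m w B, ∃ b : B, b ∉ n ∧ DivS O ϖ 1 (f - (b : F))) :
    ∃ f ∈ MM m w B, DivS O ϖ 1 (f - 1) := by
  by_cases htop : glueIdeal hB hm w = ⊤
  · have h1 : (1 : B) ∈ glueIdeal hB hm w := by rw [htop]; exact Submodule.mem_top
    obtain ⟨f, hf, hf1⟩ := h1
    exact ⟨f, hf, by simpa using hf1⟩
  · exfalso
    obtain ⟨n, hn, hle⟩ := Ideal.exists_le_maximal _ htop
    obtain ⟨f, hf, b, hb, hfb⟩ := h n hn (hle (unif_mem_glueIdeal hB hm w))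
    exact hb (hle ⟨f, hf, hfb⟩)

/-- **S-ABS0** : the output of S-MOD / S-FIN / S-H1. -/
theorem abs_semi (O : Subring F) (ϖ : F) (hO : IsSemi O ϖ) (m : ℕ) (hm : 0 < m)
    (R B1 B2 B12 : Subring F) [IsNoetherianRing R] (hR1 : R ≤ B1) (hR2 : R ≤ B2) (hϖR : ϖ ∈ R)
    (h1 : IsChartS O ϖ m B1) (h2 : IsChartS O ϖ m B2)
    (h12 : IsChartS O ϖ m B12) (h1le : B1 ≤ B12) (h2le : B2 ≤ B12)
    (t : F) (ht : t ≠ 0) (ht1 : t ∈ B1) (ht2 : t⁻¹ ∈ B2)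
    (h12a : ∀ x ∈ B12, ∃ n : ℕ, t ^ n * x ∈ B1) (h12b : ∀ x ∈ B12, ∃ n : ℕ, t⁻¹ ^ n * x ∈ B2)
    (hfin : ∃ S : Finset F, ∀ x ∈ B1,
      x ∈ Submodule.span (Subring.closure ((R : Set F) ∪ {t})) (S : Set F))
    (w : F) (hw : w ≠ 0) (hw1 : DivS O ϖ 1 (w - 1))
    (hwfrac : ∃ s ∈ B1, s ≠ 0 ∧ s * w ∈ B1)
    (f1 f2 : F) (hf1 : f1 ∈ MM m w B1) (hf1' : DivS O ϖ 1 (f1 - 1))
    (hf2 : f2 ∈ MM m w B2) (hf2' : DivS O ϖ 1 (f2 - 1)) :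
    ∃ u : F, u ≠ 0 ∧ u ^ m * w ∈ B1 ∧ u ^ m * w ∈ B2 ∧ DivS O ϖ 1 (u - 1) := by
  have hwfrac' : ∃ a ∈ B1, ∃ b ∈ B1, b ≠ 0 ∧ a ≠ 0 ∧ w = a / b := by
    obtain ⟨s, hs, hs0, hsw⟩ := hwfrac
    exact ⟨s * w, hsw, s, hs, hs0, mul_ne_zero hs0 hw, by field_simp⟩
  obtain ⟨c, hc⟩ := bounded_torsionS O ϖ m hm R B1 B2 B12 hR1 hR2 hϖR h1 h2 h12 h1le h2le t ht ht1
    ht2 h12a h12b hfin w hwfrac'
  exact finS O ϖ hO m hm B1 B2 B12 h1 h2 h12 h1le h2le w hw hw1 f1 f2 hf1 hf1' hf2 hf2' c hc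

/-- **S-ABS1** : `abs_semi` with local data at the maximal ideals of the two charts. -/
theorem abs_semi_local (O : Subring F) (ϖ : F) (hO : IsSemi O ϖ) (m : ℕ) (hm : 0 < m)
    (R B1 B2 B12 : Subring F) [IsNoetherianRing R] (hR1 : R ≤ B1) (hR2 : R ≤ B2) (hϖR : ϖ ∈ R)
    (h1 : IsChartS O ϖ m B1) (h2 : IsChartS O ϖ m B2)
    (h12 : IsChartS O ϖ m B12) (h1le : B1 ≤ B12) (h2le : B2 ≤ B12)
    (t : F) (ht : t ≠ 0) (ht1 : t ∈ B1) (ht2 : t⁻¹ ∈ B2)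
    (h12a : ∀ x ∈ B12, ∃ n : ℕ, t ^ n * x ∈ B1) (h12b : ∀ x ∈ B12, ∃ n : ℕ, t⁻¹ ^ n * x ∈ B2)
    (hfin : ∃ S : Finset F, ∀ x ∈ B1,
      x ∈ Submodule.span (Subring.closure ((R : Set F) ∪ {t})) (S : Set F))
    (w : F) (hw : w ≠ 0) (hw1 : DivS O ϖ 1 (w - 1))
    (hwfrac : ∃ s ∈ B1, s ≠ 0 ∧ s * w ∈ B1)
    (hl1 : ∀ n : Ideal B1, n.IsMaximal → (⟨ϖ, h1.unif_mem⟩ : B1) ∈ n →
      ∃ f ∈ MM m w B1, ∃ b : B1, b ∉ n ∧ DivS O ϖ 1 (f - (b : F)))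
    (hl2 : ∀ n : Ideal B2, n.IsMaximal → (⟨ϖ, h2.unif_mem⟩ : B2) ∈ n →
      ∃ f ∈ MM m w B2, ∃ b : B2, b ∉ n ∧ DivS O ϖ 1 (f - (b : F))) :
    ∃ u : F, u ≠ 0 ∧ u ^ m * w ∈ B1 ∧ u ^ m * w ∈ B2 ∧ DivS O ϖ 1 (u - 1) := by
  obtain ⟨f1, hf1, hf1'⟩ := exists_oneUnitS h1 hm w hl1
  obtain ⟨f2, hf2, hf2'⟩ := exists_oneUnitS h2 hm w hl2
  exact abs_semi O ϖ hO m hm R B1 B2 B12 hR1 hR2 hϖR h1 h2 h12 h1le h2le t ht ht1 ht2 h12a h12b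
    hfin w hw hw1 hwfrac f1 f2 hf1 hf1' hf2 hf2'

end Fermat.Agent.S34
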