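import Fermat.Agent.S34.NFrob
import Fermat.Agent.S34.QNode
import Fermat.Agent.S34.QChart
import Fermat.Agent.S34.NOrth

/-!
# S34, modular block : all the ring theoretic data of one chart `T.chart X` ([C3], [C4], [C5])
-/

set_option autoImplicit false
set_option linter.unusedSectionVars false
set_option linter.unusedVariables false

noncomputable section

namespace Fermat.Agent.S34

open ModularCurve Polynomial
open Fermat.Agent.ES Fermat.Agent.ES.QE Fermat.Agent.ES.Model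

variable {R K k : Type*} [CommRing R] [IsDomain R] [IsNoetherianRing R] [IsIntegrallyClosed R]
  [Field K] [Algebra R K] [IsFractionRing R K] [Field k]

namespace UChart

variable {D : QData R K k} {q : ℕ} [NeZero q] (T : Two D q) (X : D.Coord)

/-- **[C3] + [C4] + [C5]** for the chart `T.chart X`. -/
theorem chartData (hq : q.Prime) [CharP k q]
    (hded : IsDedekindDomain (X.chart ⧸ Ideal.span {Inst.ϖB X}))
    (hxq : qExpand k q (D.red X.xW) = D.red X.xW ^ q)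
    (Φ : TAut T) (hΦ : ∀ c, Φ.sk c = c ^ q)
    (hΦx : coeffMap (Φ.sR : R →+* R) X.xW = X.xW)
    (hVx : X.phi.IsIntegralElem (qExpand K q (D.inc X.xW)))
    (θ : T.chart X) (hθx : (θ : T.F) * T.x X = T.be X.x ^ q)
    (Xu Yu : T.chart X) (c e : ℕ) (hXY : (Xu : T.F) * Yu = T.ϖF ^ c * T.x X ^ e)
    (hX1 : ¬ DivS T.O1 T.ϖF 1 (Xu : T.F)) (hX2 : DivS T.O2 T.ϖF 1 (Xu : T.F)) :
    (T.p1 X).IsPrime ∧ (T.p2 X).IsPrime ∧ T.p1 X ⊓ T.p2 X = Ideal.span {T.ϖB X} ∧
      IsDedekindDomain (T.chart X ⧸ T.p1 X) ∧ IsDedekindDomain (T.chart X ⧸ T.p2 X) ∧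
      NodeData (T.ϖB X) (T.p1 X) (T.p2 X) := by
  haveI : Fact q.Prime := ⟨hq⟩
  haveI : IsDedekindDomain (X.chart ⧸ Ideal.span {X.ϖC}) := hded
  have hO : NRed.HOrth T := fun f hf => T.exists_rep_of_mem_O hf
  have hjq := NOrth.qExpand_jq_char q k
  have hle := chart_le_O T X
  have hsat : ∀ x ∈ T.chart X, DivS T.O T.ϖF 1 x → ∃ y ∈ T.chart X, x = T.ϖF * y := by
    rintro x hx ⟨y, hy, h⟩
    rw [pow_one] at h
    exact ⟨y, chart_sat T X hq hx hy h, h⟩
  have hbx : T.be X.x ∈ T.chart X := hVx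
  have hbe := NRed.be_mem_chart X T hbx
  obtain ⟨d1, pr1⟩ := NRed.dedekind1 X T hO hjq hle
  obtain ⟨d2, pr2⟩ := NRed.dedekind2 X T hO hjq hxq hle hbe
  refine ⟨pr1, pr2, NRed.p1_inf_p2 X T hle hsat, d1, d2, ?_⟩
  exact NAdm.nodeData X T hq.two_le hO hjq hxq hle hsat hbx (NFrob.hFrob_of_tAut X Φ hΦ hΦx)
    (xy_of T X hq hxq θ hθx Xu Yu c e hXY hX1 hX2)

end UChart

end Fermat.Agent.S34
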