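import Fermat.Agent.S34.NGen
import Fermat.Agent.S34.NDesc
import Fermat.Agent.ES.HDiv

/-!
# S34, final assembly : [U-HDIV]
the hypotheses `hdiv1`, `hdiv2` of `uni_asm` for the generic fibre `T.away X` of the chart
`T.chart X`, from the witnesses over `ℚ̄` (`HDiv.exists_witness`).
-/

set_option autoImplicit false

noncomputable section

namespace Fermat.Agent.S34

open ModularCurve AlgebraicCurve Polynomial IntermediateField
open Fermat.Agent.S24 Fermat.Agent.S28 Fermat.Agent.ES Fermat.Agent.ES.QE Fermat.Agent.ES.IDvr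
  Fermat.Agent.ES.Inst

namespace UHdiv

variable {K0 : IntermediateField ℚ Kb} {A : ValuationSubring Kb}
  [IsDiscreteValuationRing (R0 K0 A)] {D : QData (R0 K0 A) K0 (kA A)} {q : ℕ} [NeZero q]

/-- membership in the generic fibre `B[1/ϖ]` = integrality over `ℚ̄[x]`. -/
theorem mem_away_iff_isIntegral (N : ℕ) (T : Two D q) (X : D.Coord) (ι : T.F →+* FF N)
    (hι : ∀ f : T.F, ((ι f : FF N) : LaurentSeries Kb) = bc K0 (f : LaurentSeries K0)) (f : T.F) :
    f ∈ T.away X ↔ IsIntegral (Algebra.adjoin Kb {ι (T.x X)}) (ι f) := by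
  have hx : bc K0 (X.x : LaurentSeries K0) ∈ modularFunctionFieldBar N := by
    have := (ι (T.x X)).2
    rw [hι] at this
    exact this
  have hf : bc K0 (f : LaurentSeries K0) ∈ modularFunctionFieldBar N := by
    have := (ι f).2
    rw [hι] at this
    exact this
  have e1 : ι (T.x X) = (⟨_, hx⟩ : FF N) := Subtype.ext (hι _)
  have e2 : ι f = (⟨_, hf⟩ : FF N) := Subtype.ext (hι _)
  rw [e1, e2, ← isIntK_iff_series N D X (f : LaurentSeries K0) hx hf]
  have hϖ : ((T.ϖF : T.F) : LaurentSeries K0) = D.ϖE := algebraMap_eq_C _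
  constructor
  · rintro ⟨c, hc⟩
    refine ⟨c, ?_⟩
    rw [T.mem_chart, IntermediateField.coe_mul, IntermediateField.coe_pow, hϖ] at hc
    exact hc
  · rintro ⟨c, hc⟩
    refine ⟨c, ?_⟩
    rw [T.mem_chart, IntermediateField.coe_mul, IntermediateField.coe_pow, hϖ]
    exact hc

/-- **[U-HDIV]**, from witnesses which are defined over `K0`. -/
theorem hdiv_of_witness (N : ℕ) (T : Two D q) (X : D.Coord) (ι : T.F →+* FF N)
    (hι : ∀ f : T.F, ((ι f : FF N) : LaurentSeries Kb) = bc K0 (f : LaurentSeries K0))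
    (m : ℕ) (u : T.F) (n : ℕ) (g g' : Fin n → FF N)
    (hg : ∀ i, IsIntegral (Algebra.adjoin Kb {ι (T.x X)}) (g i ^ m * ι u))
    (hg' : ∀ i, IsIntegral (Algebra.adjoin Kb {ι (T.x X)}) (g' i ^ m * (ι u)⁻¹))
    (hs : ∑ i, g i * g' i = 1)
    (hl : ∀ i, ∃ f : T.F, ι f = g i) (hl' : ∀ i, ∃ f : T.F, ι f = g' i) :
    ∃ (J : Type) (_ : Fintype J) (g g' : J → T.F),
      (∀ i, ∃ d : T.away X, algebraMap (T.away X) T.F d = g i ^ m * u) ∧
      (∀ i, ∃ d : T.away X, algebraMap (T.away X) T.F d = g' i ^ m * u⁻¹) ∧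
      ∑ i, g i * g' i = 1 := by
  choose G hG using hl
  choose G' hG' using hl'
  refine ⟨Fin n, inferInstance, G, G', fun i => ?_, fun i => ?_, ι.injective ?_⟩
  · refine ⟨⟨G i ^ m * u, ?_⟩, rfl⟩
    rw [mem_away_iff_isIntegral N T X ι hι, map_mul, map_pow, hG]
    exact hg i
  · refine ⟨⟨G' i ^ m * u⁻¹, ?_⟩, rfl⟩
    rw [mem_away_iff_isIntegral N T X ι hι, map_mul, map_pow, map_inv₀, hG']
    exact hg' i
  · rw [map_sum, map_one, ← hs]
    exact Finset.sum_congr rfl fun i _ => by rw [map_mul, hG, hG']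

/-- the same in the shape of `uni_core`. -/
theorem hdiv_mem_of_witness (N : ℕ) (T : Two D q) (X : D.Coord) (ι : T.F →+* FF N)
    (hι : ∀ f : T.F, ((ι f : FF N) : LaurentSeries Kb) = bc K0 (f : LaurentSeries K0))
    (m : ℕ) (u : T.F) (n : ℕ) (g g' : Fin n → FF N)
    (hg : ∀ i, IsIntegral (Algebra.adjoin Kb {ι (T.x X)}) (g i ^ m * ι u))
    (hg' : ∀ i, IsIntegral (Algebra.adjoin Kb {ι (T.x X)}) (g' i ^ m * (ι u)⁻¹))
    (hs : ∑ i, g i * g' i = 1)
    (hl : ∀ i, ∃ f : T.F, ι f = g i) (hl' : ∀ i, ∃ f : T.F, ι f = g' i) :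
    ∃ (n : ℕ) (g g' : Fin n → T.F), (∀ i, g i ^ m * u ∈ T.away X) ∧
      (∀ i, g' i ^ m * u⁻¹ ∈ T.away X) ∧ ∑ i, g i * g' i = 1 := by
  choose G hG using hl
  choose G' hG' using hl'
  refine ⟨n, G, G', fun i => ?_, fun i => ?_, ι.injective ?_⟩
  · rw [mem_away_iff_isIntegral N T X ι hι, map_mul, map_pow, hG]
    exact hg i
  · rw [mem_away_iff_isIntegral N T X ι hι, map_mul, map_pow, map_inv₀, hG']
    exact hg' i
  · rw [map_sum, map_one, ← hs]
    exact Finset.sum_congr rfl fun i _ => by rw [map_mul, hG, hG']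

/-- from the shape of `uni_core` to the shape of `uni_asm`. -/
theorem hdiv_asm_of_mem {F : Type*} [Field F] (B : Subring F) (m : ℕ) (u : F)
    (h : ∃ (n : ℕ) (g g' : Fin n → F), (∀ i, g i ^ m * u ∈ B) ∧
      (∀ i, g' i ^ m * u⁻¹ ∈ B) ∧ ∑ i, g i * g' i = 1) :
    ∃ (J : Type) (_ : Fintype J) (g g' : J → F),
      (∀ i, ∃ d : B, algebraMap B F d = g i ^ m * u) ∧
      (∀ i, ∃ d : B, algebraMap B F d = g' i ^ m * u⁻¹) ∧ ∑ i, g i * g' i = 1 := by
  obtain ⟨n, g, g', h1, h2, h3⟩ := h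
  exact ⟨Fin n, inferInstance, g, g', fun i => ⟨⟨_, h1 i⟩, rfl⟩, fun i => ⟨⟨_, h2 i⟩, rfl⟩, h3⟩

end UHdiv

/-- **[U-HDIV]**, in the shape of `uni_core`. -/
theorem exists_hdiv_mem (N m : ℕ) (xF : FF N) (hxt : Transcendental Kb xF)
    [FiniteDimensional Kb⟮xF⟯ (FF N)] (u : FF N) (hu : IsPDiv m N u) :
    ∃ S : Finset (FF N), ∀ (K0 : IntermediateField ℚ Kb) (A : ValuationSubring Kb)
      [IsDiscreteValuationRing (R0 K0 A)] (D : QData (R0 K0 A) K0 (kA A)) (q : ℕ) [NeZero q]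
      (T : Two D q) (X : D.Coord) (ι : T.F →+* FF N),
      (∀ f : T.F, ((ι f : FF N) : LaurentSeries Kb) = bc K0 (f : LaurentSeries K0)) →
      ι (T.x X) = xF → (∀ f ∈ S, ∃ f0 : T.F, ι f0 = f) → ∀ u0 : T.F, ι u0 = u →
      ∃ (n : ℕ) (g g' : Fin n → T.F), (∀ i, g i ^ m * u0 ∈ T.away X) ∧
        (∀ i, g' i ^ m * u0⁻¹ ∈ T.away X) ∧ ∑ i, g i * g' i = 1 := by
  classical
  obtain ⟨n, g, g', h1, h2, h3⟩ := HDiv.exists_witness hxt m u hu.1 hu.2
  refine ⟨Finset.univ.image g ∪ Finset.univ.image g', ?_⟩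
  intro K0 A _ D q _ T X ι hι hx hS u0 hu0
  refine UHdiv.hdiv_mem_of_witness N T X ι hι m u0 n g g' ?_ ?_ h3 (fun i => hS _ (by simp))
    (fun i => hS _ (by simp))
  · rw [hx, hu0]; exact h1
  · rw [hx, hu0]; exact h2

/-- **[U-HDIV]**: for `u ∈ FF N` with `m ∣ div u` and a transcendental `xF ∈ FF N` there is a finite
set `S ⊆ FF N` such that, as soon as the elements of `S` are defined over `K0` (i.e. lie in the image
of `ι : T.F → FF N`), the hypothesis `hdiv` of `uni_asm` holds for the chart `T.chart X` with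
`ι (T.x X) = xF`. -/
theorem exists_hdiv (N m : ℕ) (xF : FF N) (hxt : Transcendental Kb xF)
    [FiniteDimensional Kb⟮xF⟯ (FF N)] (u : FF N) (hu : IsPDiv m N u) :
    ∃ S : Finset (FF N), ∀ (K0 : IntermediateField ℚ Kb) (A : ValuationSubring Kb)
      [IsDiscreteValuationRing (R0 K0 A)] (D : QData (R0 K0 A) K0 (kA A)) (q : ℕ) [NeZero q]
      (T : Two D q) (X : D.Coord) (ι : T.F →+* FF N),
      (∀ f : T.F, ((ι f : FF N) : LaurentSeries Kb) = bc K0 (f : LaurentSeries K0)) →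
      ι (T.x X) = xF → (∀ f ∈ S, ∃ f0 : T.F, ι f0 = f) → ∀ u0 : T.F, ι u0 = u →
      ∃ (J : Type) (_ : Fintype J) (g g' : J → T.F),
        (∀ i, ∃ d : T.away X, algebraMap (T.away X) T.F d = g i ^ m * u0) ∧
        (∀ i, ∃ d : T.away X, algebraMap (T.away X) T.F d = g' i ^ m * u0⁻¹) ∧
        ∑ i, g i * g' i = 1 := by
  classical
  obtain ⟨n, g, g', h1, h2, h3⟩ := HDiv.exists_witness hxt m u hu.1 hu.2
  refine ⟨Finset.univ.image g ∪ Finset.univ.image g', ?_⟩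
  intro K0 A _ D q _ T X ι hι hx hS u0 hu0
  refine UHdiv.hdiv_of_witness N T X ι hι m u0 n g g' ?_ ?_ h3 (fun i => hS _ (by simp))
    (fun i => hS _ (by simp))
  · rw [hx, hu0]; exact h1
  · rw [hx, hu0]; exact h2

end Fermat.Agent.S34
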