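import Fermat.Agent.S34.NDefs
import Fermat.Agent.ES.InstDed2
import Fermat.Agent.S37.RatSec

/-!
# S34, assembly, package U-IOTA : the embedding `T.F → FF (M₀ q)` (extension of the coefficients)
-/

set_option autoImplicit false
set_option linter.unusedSectionVars false

noncomputable section

namespace Fermat.Agent.S34

open ModularCurve AlgebraicCurve Polynomial
open Fermat.Agent.S24 Fermat.Agent.S28 Fermat.Agent.ES Fermat.Agent.ES.QE Fermat.Agent.ES.IDvr
  Fermat.Agent.ES.Inst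

variable {M0 q : ℕ} [NeZero M0] [NeZero q] {A : ValuationSubring Kb}
  {K0 : IntermediateField ℚ Kb} [IsDiscreteValuationRing (R0 K0 A)]
  {D : QData (R0 K0 A) K0 (kA A)}

/-- the embedding `T.F = F0 K0 (M₀ q) → FF (M₀ q)`. -/
def iotaT (T : Two D q) (hT : T.F = F0 K0 (M0 * q)) : T.F →+* FF (M0 * q) :=
  ((bc K0).comp (algebraMap T.F (LaurentSeries K0))).codRestrict
    (modularFunctionFieldBar (M0 * q)) fun f => bc_mem K0 (M0 * q) (hT ▸ f.2)

variable (T : Two D q) (hT : T.F = F0 K0 (M0 * q))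

theorem coe_iotaT (f : T.F) :
    ((iotaT T hT f : FF (M0 * q)) : LaurentSeries Kb) = bc K0 (f : LaurentSeries K0) := rfl

theorem iotaT_eq (f : T.F) (hf : bc K0 (f : LaurentSeries K0) ∈ modularFunctionFieldBar (M0 * q)) :
    iotaT T hT f = ⟨bc K0 (f : LaurentSeries K0), hf⟩ := rfl

theorem iotaT_injective : Function.Injective (iotaT T hT) := (iotaT T hT).injective

theorem iotaT_al (hF : D.F0 = F0 K0 M0) (u : D.F0) :
    iotaT T hT (T.al u) = heckeAlphaBar Kb M0 q (iotaF D hF u) := by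
  apply Subtype.ext
  rw [coe_heckeAlphaBar, coe_iotaT, coe_iotaF, Two.coe_al]

theorem iotaT_be (hF : D.F0 = F0 K0 M0) (u : D.F0) :
    iotaT T hT (T.be u) = heckeBetaBar Kb M0 q (iotaF D hF u) := by
  apply Subtype.ext
  rw [coe_heckeBetaBar, coe_iotaT, coe_iotaF, Two.coe_be]
  exact coeffMap_qExpand _ _ _

theorem iotaT_algebraMap (c : K0) :
    iotaT T hT (algebraMap K0 T.F c) = algebraMap Kb (FF (M0 * q)) (c : Kb) :=
  Subtype.ext (InstUp.bc_algebraMap K0 c)

/-- the constants of `R`. -/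
theorem iotaT_const (r : R0 K0 A) :
    iotaT T hT (algebraMap K0 T.F (algebraMap (R0 K0 A) K0 r)) = S37.Rat.cstR (M0 * q) K0 A r :=
  iotaT_algebraMap T hT _

theorem iotaT_ϖF : iotaT T hT T.ϖF = S37.Rat.cstR (M0 * q) K0 A D.ϖ := iotaT_const T hT D.ϖ

/-- `hfix` of `Hrat.hrat`. -/
theorem gal_iotaT_of_fix (f : T.F) (σ : GQ) (hσ : ∀ x ∈ K0, σ x = x) :
    gal (M0 * q) σ (iotaT T hT f) = iotaT T hT f :=
  S37.Rat.gal_eq_of_bc (M0 * q) K0 _ (f : LaurentSeries K0) (coe_iotaT T hT f) σ hσ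

/-- compatibility of a coefficientwise automorphism with `gal`. -/
theorem iotaT_toF (S : TAut T) (σ : GQ) (hS : ∀ x : K0, ((S.sK x : K0) : Kb) = σ (x : Kb))
    (f : T.F) : iotaT T hT (S.toF f) = gal (M0 * q) σ (iotaT T hT f) := by
  apply Subtype.ext
  rw [coe_arithmeticRingAut_apply, coe_iotaT, coe_iotaT, TAut.coe_toF, bc, coeffMap_coeffMap,
    coeffMap_coeffMap]
  exact coeffMap_congr (RingHom.ext fun a : K0 => hS a) _

end Fermat.Agent.S34
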