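import Fermat.Agent.S34.UCore
import Fermat.Agent.S34.UHdiv
import Fermat.Agent.S34.UIota
import Fermat.Agent.S34.NTwo
import Fermat.Agent.S34.NGal
import Fermat.Agent.S34.NXy
import Fermat.Agent.S34.NWx
import Fermat.Agent.S34.NK0
import Fermat.Agent.S34.Level
import Fermat.Agent.ES.InstFinal
import Fermat.Agent.Lib.Frobenius

/-!
# S34 : claim (U) at level `N = M₀ q`
-/

set_option autoImplicit false

noncomputable section

namespace Fermat.Agent.S34

open ModularCurve AlgebraicCurve Polynomial IntermediateField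
open Fermat.Agent.S24 Fermat.Agent.S28 Fermat.Agent.ES Fermat.Agent.ES.QE Fermat.Agent.ES.Model
  Fermat.Agent.ES.IDvr Fermat.Agent.ES.Inst Fermat.Agent.S37.Rat
open Fermat.Agent.ES.Inst.InstFinal Fermat.Agent.ES.Inst.InstCoord

namespace UAux

theorem qExpand_zS (k : Type*) [Field k] (q : ℕ) [NeZero q] (hq : q.Prime) [CharP k q]
    (x : LaurentSeries ℤ) : qExpand k q (zS k x) = zS k x ^ q := by
  have : Fact q.Prime := ⟨hq⟩
  rw [KCong.pow_char q (zS k x), coeffMap_zS]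

theorem mem_decomposition_of_mem_inertia {A : ValuationSubring Kb} {τ : GQ}
    (hτ : τ ∈ A.inertiaSubgroupIn ℚ) : τ ∈ A.decompositionSubgroup ℚ := by
  obtain ⟨τ', -, rfl⟩ := hτ
  exact τ'.2

end UAux

open UAux

set_option maxHeartbeats 4000000 in
/-- **Claim (U)** at level `M₀ q` for a level `M₀` which carries a good coordinate. -/
theorem claimU_of_coord (m M0 q : ℕ) [NeZero M0] [NeZero q] (hq : q.Prime) (hqM : ¬ q ∣ M0)
    (hqm : ¬ q ∣ m) (A : ValuationSubring Kb) (hA : A.LiesOverPrime q) (Z : ZCoord M0 q)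
    (hU : Z.Unram) (hW : WGood M0 q Z.xF) : UNI m (M0 * q) A := by
  classical
  intro τ hτ u hu
  have hqF : Fact q.Prime := ⟨hq⟩
  have hm0 : 0 < m := Nat.pos_of_ne_zero (by rintro rfl; exact hqm (dvd_zero _))
  obtain ⟨W, hWα, hWβ⟩ := Fermat.Agent.S37.KT.exists_W M0 q hqM
  -- the coordinate at level `N`
  have hmemN : zS Kb Z.xZ ∈ modularFunctionFieldBar (M0 * q) := by
    have h := (heckeAlphaBar Kb M0 q Z.xF).2
    rwa [coe_heckeAlphaBar] at h
  obtain ⟨ZN, hZN⟩ : ∃ ZN : ZCoord (M0 * q) q, ZN.xF = heckeAlphaBar Kb M0 q Z.xF :=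
    ⟨{ Z with mem := hmemN }, Subtype.ext (coe_heckeAlphaBar M0 q Z.xF).symm⟩
  have hxt0 := transcendental_xF Z
  have hxt0' : Transcendental Kb Z.xF⁻¹ := FF.transcendental_inv hxt0
  have hfd0 := finiteDimensional_xF Z
  have hfd0' := finiteDimensional_xF_inv Z
  have hxt := transcendental_xF ZN
  have hxt' : Transcendental Kb ZN.xF⁻¹ := FF.transcendental_inv hxt
  have hfd := finiteDimensional_xF ZN
  have hfd' := finiteDimensional_xF_inv ZN
  obtain ⟨S1, hS1⟩ := exists_hdiv_mem (M0 * q) m ZN.xF hxt u hu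
  obtain ⟨S2, hS2⟩ := exists_hdiv_mem (M0 * q) m ZN.xF⁻¹ hxt' u hu
  -- the number field
  obtain ⟨K1, hK1, hQD⟩ := exists_QData M0 q hq hqM A hA
  obtain ⟨K2, hK2, hDed⟩ := hDed M0 q hq hqM A hA
  obtain ⟨K3, hK3, hTwo⟩ := exists_two M0 q hq hqM A W hWα hWβ
  obtain ⟨K4, hK4, hrat⟩ := Hrat.exists_field_rational u hu.1
  obtain ⟨K5, hK5, hle5, hS5⟩ := exists_K0 M0 (K1 ⊔ K2 ⊔ K3 ⊔ K4) {Z.xF}
  obtain ⟨K0, hK0, hnorm, hle, hS⟩ := exists_K0_normal (M0 * q) K5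
    (({u} : Finset (FF (M0 * q))) ∪ S1 ∪ S2)
  have hle1 : K1 ≤ K0 := (le_sup_left.trans (le_sup_left.trans le_sup_left)).trans (hle5.trans hle)
  have hle2 : K2 ≤ K0 := (le_sup_right.trans (le_sup_left.trans le_sup_left)).trans (hle5.trans hle)
  have hle3 : K3 ≤ K0 := (le_sup_right.trans le_sup_left).trans (hle5.trans hle)
  have hle4 : K4 ≤ K0 := le_sup_right.trans (hle5.trans hle)
  have hdvr := isDVR K0 A hq hA
  have hchar : CharP (kA A) q := ResField.charP hq hA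
  obtain ⟨D, hF, hres⟩ := hQD K0 hK0 hle1
  obtain ⟨T, hT, hTW⟩ := hTwo K0 hK0 hle3 D hF
  -- the embeddings into `FF M0` and `FF (M0 * q)`
  let ι0 : D.F0 →+* FF M0 :=
    ((bc K0).comp (algebraMap D.F0 (LaurentSeries K0))).codRestrict (modularFunctionFieldBar M0)
      (fun f => bc_mem K0 M0 (hF ▸ f.2))
  have hι0 : ∀ f : D.F0, ((ι0 f : FF M0) : LaurentSeries Kb) = bc K0 (f : LaurentSeries K0) :=
    fun _ => rfl
  set ι : T.F →+* FF (M0 * q) := iotaT T hT with hιdef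
  have hι : ∀ f : T.F, ((ι f : FF (M0 * q)) : LaurentSeries Kb) = bc K0 (f : LaurentSeries K0) :=
    fun _ => rfl
  have hιinj : Function.Injective ι := ι.injective
  have lift : ∀ f ∈ (({u} : Finset (FF (M0 * q))) ∪ S1 ∪ S2), ∃ f0 : T.F, ι f0 = f := by
    intro f hf
    obtain ⟨f0, hf0, h⟩ := hS f hf
    exact ⟨⟨f0, hT ▸ hf0⟩, Subtype.ext h⟩
  obtain ⟨u0, hu0⟩ := lift u (by simp)
  have hu00 : u0 ≠ 0 := by
    rintro rfl
    exact hu.1 (by rw [← hu0, map_zero])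
  -- the coordinate
  have hx : zS K0 Z.xZ ∈ D.F0 := by
    obtain ⟨x5, hx5, h5⟩ := hS5 Z.xF (Finset.mem_singleton_self _)
    obtain ⟨x0, hx0, h0⟩ := InstUp.IsDef.mono hle (⟨x5, hx5, h5⟩ : InstUp.IsDef M0 K5 _)
    have h1 : bc K0 x0 = bc K0 (zS K0 Z.xZ) := by
      rw [h0]
      exact (coeffMap_zS (algebraMap K0 Kb) Z.xZ).symm
    have h2 : x0 = zS K0 Z.xZ := QE.coeffMap_injective (algebraMap K0 Kb).injective h1
    rw [← h2, hF]
    exact hx0
  set X := toCoord Z D hx with hX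
  set y := zS (R0 K0 A) Z.yZ with hy
  have hxy : X.xW * y = 1 := toCoord_mul Z D hx
  have hι0x : ι0 X.x = Z.xF := by
    apply Subtype.ext
    rw [hι0, coe_toCoord_x]
    exact coeffMap_zS (algebraMap K0 Kb) Z.xZ
  have hι0x' : ι0 (X.inv y hxy).x = Z.xF⁻¹ := by rw [X.inv_x y hxy, map_inv₀, hι0x]
  have hιx : ι (T.x X) = ZN.xF := by
    rw [hZN]
    apply Subtype.ext
    rw [coe_heckeAlphaBar, ← hι0x]
    rfl
  have hm : IsUnit (m : R0 K0 A) := natCast_isUnit_R0 K0 A hq hA hqm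
  have ha0 : (Z.a : kA A) ≠ 0 := intCast_ne_zero (kA A) Z.a_prim
  -- normality at level `M0`
  have hded1 : IsDedekindDomain (X.chart ⧸ Ideal.span {Inst.ϖB X}) := by
    refine hDed K0 hK0 hle2 D hF hres X ι0 hι0 (by rw [hι0x]; exact hxt0)
      (by rw [hι0x]; exact hfd0) (gFin _ Z.a) (by rw [gFin_map]; exact separable_gFin _ _ ha0) ?_
    intro a ha v hv
    rw [gFin_map] at ha
    rw [hι0x] at hv ⊢
    exact unram_fin Z hU a ha v hv
  have hded2 : IsDedekindDomain ((X.inv y hxy).chart ⧸ Ideal.span {Inst.ϖB (X.inv y hxy)}) := by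
    refine hDed K0 hK0 hle2 D hF hres (X.inv y hxy) ι0 hι0
      (by rw [hι0x']; exact hxt0') (by rw [hι0x']; exact hfd0') (gInf _ Z.a)
      (by rw [gInf_map]; exact separable_gInf _ _) ?_
    intro a ha v hv
    rw [gInf_map] at ha
    rw [hι0x'] at hv ⊢
    exact unram_inf Z hU a ha v hv
  -- Frobenius congruences for the coordinate
  have hXW : X.xW = zS (R0 K0 A) Z.xZ := rfl
  have hxq : qExpand (kA A) q (D.red X.xW) = D.red X.xW ^ q := by
    rw [hXW, QData.red, coeffMap_zS]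
    exact qExpand_zS (kA A) q hq Z.xZ
  have hyq : qExpand (kA A) q (D.red y) = D.red y ^ q := by
    rw [hy, QData.red, coeffMap_zS]
    exact qExpand_zS (kA A) q hq Z.yZ
  -- the Frobenius and the inertia element
  obtain ⟨φ, hφ⟩ := Lib.Frobenius.exists_isFrobeniusAt A hq hA
  obtain ⟨Φ, hΦK, hΦk⟩ := exists_tAut φ hφ.mem_decompositionSubgroup D hF hres T hT
  have hΦ := sk_of_frobenius φ hφ Φ hΦk
  obtain ⟨τT, hτK, hτk⟩ := exists_tAut τ (mem_decomposition_of_mem_inertia hτ) D hF hres T hT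
  have hτT := sk_of_inertia τ hτ τT hτk
  -- the functions `θ`, `X_u`, `Y_u`
  have hαx : heckeAlphaBar Kb M0 q Z.xF = ZN.xF := hZN.symm
  have hαx' : heckeAlphaBar Kb M0 q Z.xF⁻¹ = ZN.xF⁻¹ := by rw [map_inv₀, hαx]
  have hfdα : FiniteDimensional Kb⟮heckeAlphaBar Kb M0 q Z.xF⟯ (FF (M0 * q)) := by
    rw [hαx]; exact hfd
  have hfdα' : FiniteDimensional Kb⟮heckeAlphaBar Kb M0 q Z.xF⁻¹⟯ (FF (M0 * q)) := by
    rw [hαx']; exact hfd'
  have hxy1 : XYData T X :=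
    exists_xy hq hqM hA D hF hres T hT W hWα hWβ hTW X y hxy Z.xF
      (by rw [← hι0x, hι0]) (by rw [hαx]; exact hxt) hW.pos hW.cusp
  have hxy2 : XYData T (X.inv y hxy) :=
    exists_xy hq hqM hA D hF hres T hT W hWα hWβ hTW (X.inv y hxy) X.xW
      (by rw [mul_comm]; exact hxy) Z.xF⁻¹
      (by rw [← hι0x', hι0]) (by rw [hαx']; exact hxt') hW.inv.pos hW.inv.cusp
  -- the local generators
  have hιx' : ι (T.x (X.inv y hxy)) = ZN.xF⁻¹ := by
    rw [← hιx, ← map_inv₀, x_inv T X y hxy]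
  have hdiv1 := hS1 K0 A D q T X ι hι hιx (fun f hf => lift f (by simp [hf])) u0 hu0
  have hdiv2 := hS2 K0 A D q T (X.inv y hxy) ι hι hιx' (fun f hf => lift f (by simp [hf])) u0 hu0
  have hK : ∀ P : Place Kb (FF (M0 * q)), P.ord (ι u0) ≠ 0 →
      ∀ σ : GQ, (∀ x ∈ K0, σ x = x) → galP (M0 * q) σ P = P := by
    intro P hP σ hσ
    rw [hu0] at hP
    exact hrat P hP σ (fun x hx => hσ x (hle4 hx))
  have hfdι : FiniteDimensional Kb⟮ι (T.x X)⟯ (FF (M0 * q)) := by rw [hιx]; exact hfd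
  have hfdι' : FiniteDimensional Kb⟮(ι (T.x X))⁻¹⟯ (FF (M0 * q)) := by rw [hιx]; exact hfd'
  obtain ⟨z, c, hz, hzc⟩ := uni_core hq D T X y hxy m hm hded1 hded2 hxq hyq Φ hΦ
    (sR_zS Φ Z.xZ) (sR_zS Φ Z.yZ) τT hτT (sR_zS τT Z.xZ) (sR_zS τT Z.yZ) hxy1 hxy2 (M0 * q) ι hι
    (by rw [hιx]; exact hxt) u0 hu00 hdiv1 hdiv2 hK
  -- the end
  have hιz : ι z ≠ 0 := (_root_.map_ne_zero ι).2 hz
  have hb0 : gal (M0 * q) τ u ≠ 0 := (_root_.map_ne_zero _).2 hu.1
  have h1 : ι (τT.toF u0) = gal (M0 * q) τ u := by rw [← hu0]; exact iotaT_toF T hT τT τ hτK u0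
  have h2 : ι (τT.toF (τT.toF u0)) = gal (M0 * q) τ (gal (M0 * q) τ u) := by
    rw [← h1]; exact iotaT_toF T hT τT τ hτK _
  have h3 : ι z ^ m * (gal (M0 * q) τ (gal (M0 * q) τ u) * u / (gal (M0 * q) τ u) ^ 2)
      = algebraMap Kb (FF (M0 * q)) (c : Kb) := by
    rw [← h2, ← h1, ← hu0, ← map_pow, ← map_pow, ← map_mul, ← map_div₀, ← map_mul]
    apply Subtype.ext
    rw [hι, hzc]
    have h4 : (HahnSeries.C c : LaurentSeries K0) = algebraMap K0 (LaurentSeries K0) c := by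
      rw [algebraMap_laurentSeries_eq_single]; rfl
    rw [h4]
    exact InstUp.bc_algebraMap K0 c
  obtain ⟨c', hc'⟩ := IsAlgClosed.exists_pow_nat_eq (c : Kb) hm0
  refine ⟨algebraMap Kb (FF (M0 * q)) c' / ι z, ?_⟩
  have h5 : (algebraMap Kb (FF (M0 * q)) c' / ι z) ^ m
      = gal (M0 * q) τ (gal (M0 * q) τ u) * u / (gal (M0 * q) τ u) ^ 2 := by
    rw [div_pow, ← map_pow (algebraMap Kb (FF (M0 * q))), hc', ← h3]
    field_simp
  rw [h5]
  field_simp

end Fermat.Agent.S34
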