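import Fermat.Agent.S34.NGen
import Fermat.Agent.ES.InstDesc

/-!
# S34, final assembly : shared definitions (`XYData`, `HRat`)
-/

set_option autoImplicit false
set_option linter.unusedSectionVars false
set_option linter.style.haveILetI false

noncomputable section

namespace Fermat.Agent.S34

open ModularCurve Polynomial IsDedekindDomain
open Fermat.Agent.ES Fermat.Agent.ES.QE Fermat.Agent.ES.Model

/-- the data at the cusps and at the nodes (= the conclusion of `exists_xy`). -/
def XYData {R K k : Type*} [CommRing R] [IsDomain R] [IsNoetherianRing R] [IsIntegrallyClosed R]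
    [Field K] [Algebra R K] [IsFractionRing R K] [Field k] {D : QData R K k} {q : ℕ} [NeZero q]
    (T : Two D q) (X : D.Coord) : Prop :=
  X.phi.IsIntegralElem (qExpand K q (D.inc X.xW)) ∧
    (∃ θ : T.chart X, (θ : T.F) * T.x X = T.be X.x ^ q) ∧
    ∃ (Xu Yu : T.chart X) (c e : ℕ), (Xu : T.F) * Yu = T.ϖF ^ c * T.x X ^ e ∧
      ¬ DivS T.O1 T.ϖF 1 (Xu : T.F) ∧ DivS T.O2 T.ϖF 1 (Xu : T.F)

/-- the hypothesis `hrat` of `uni_asm` for the chart `T.chart X` : the primes of the generic fibre
in the support of `u` are kernels of sections `B → R`. -/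
def HRat {R K k : Type*} [CommRing R] [IsDomain R] [IsDiscreteValuationRing R]
    [Field K] [Algebra R K] [IsFractionRing R K] [Field k] [CharZero K]
    {D : QData R K k} {q : ℕ} [NeZero q] (T : Two D q) (X : D.Coord) (u : T.F) : Prop :=
  letI := T.algRB X
  letI := T.algBD X
  haveI := T.isDedekindDomain_away X (Inst.InstDesc.isAway_of_dvr D)
  haveI := T.isFractionRing_away X (Inst.InstDesc.isAway_of_dvr D)
  ∀ n : Ideal (T.chart X), n ≠ ⊤ → algebraMap R (T.chart X) D.ϖ ∈ n →
    ∀ Q : HeightOneSpectrum (T.away X), Q.valuation T.F u ≠ 1 →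
      Q.asIdeal.comap (algebraMap (T.chart X) (T.away X)) ≤ n →
      ∃ φ : T.chart X →ₐ[R] R,
        RingHom.ker φ.toRingHom = Q.asIdeal.comap (algebraMap (T.chart X) (T.away X))

end Fermat.Agent.S34
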