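import Fermat.Agent.S34.URat
import Fermat.Agent.S34.UDefs

/-!
# S34, assembly : `HRat T X u` (the shape of `UDefs`)
-/

set_option autoImplicit false
set_option linter.unusedSectionVars false

noncomputable section

namespace Fermat.Agent.S34

open ModularCurve AlgebraicCurve Polynomial IsDedekindDomain IntermediateField
open Fermat.Agent.S24 Fermat.Agent.ES Fermat.Agent.ES.QE Fermat.Agent.ES.Model
  Fermat.Agent.ES.IDvr Fermat.Agent.ES.Inst Fermat.Agent.S37.Rat

theorem hRat {K0 : IntermediateField ℚ Kb} {A : ValuationSubring Kb}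
    [IsDiscreteValuationRing (R0 K0 A)] {q : ℕ} [NeZero q]
    {D : QData (R0 K0 A) K0 (kA A)} (T : Two D q) (X : D.Coord) (N : ℕ) [NeZero N]
    (ι : T.F →+* FF N)
    (hι : ∀ f : T.F, ((ι f : FF N) : LaurentSeries Kb) = bc K0 (f : LaurentSeries K0))
    (htr : Transcendental Kb (ι (T.x X))) [FiniteDimensional Kb⟮ι (T.x X)⟯ (FF N)]
    (u : T.F) (hu : u ≠ 0)
    (hK : ∀ P : Place Kb (FF N), P.ord (ι u) ≠ 0 →
      ∀ σ : GQ, (∀ x ∈ K0, σ x = x) → galP N σ P = P) : HRat T X u :=
  hrat_chart T X ι hι htr u hu hK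

end Fermat.Agent.S34
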