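import Fermat.Agent.S34.UGen
import Fermat.Agent.S34.Hrat
import Fermat.Agent.S34.NTau
import Fermat.Agent.S34.URat2

/-!
# S34 : application of the abstract theorem `uni_asm` to the charts of level `N = M₀ q`
-/

set_option autoImplicit false
set_option linter.unusedVariables false

noncomputable section

namespace Fermat.Agent.S34

open ModularCurve AlgebraicCurve Polynomial IntermediateField
open Fermat.Agent.S24 Fermat.Agent.S28 Fermat.Agent.ES Fermat.Agent.ES.QE Fermat.Agent.ES.Model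
  Fermat.Agent.ES.IDvr Fermat.Agent.ES.Inst Fermat.Agent.S37.Rat

/-- **U-CORE.** -/
theorem uni_core {K0 : IntermediateField ℚ Kb} {A : ValuationSubring Kb}
    [IsDiscreteValuationRing (R0 K0 A)] {q : ℕ} [NeZero q] (hq : q.Prime) [CharP (kA A) q]
    (D : QData (R0 K0 A) K0 (kA A)) (T : Two D q) (X : D.Coord)
    (y : LaurentSeries (R0 K0 A)) (hy : X.xW * y = 1) (m : ℕ) (hm : IsUnit (m : R0 K0 A))
    (hded1 : IsDedekindDomain (X.chart ⧸ Ideal.span {Inst.ϖB X}))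
    (hded2 : IsDedekindDomain ((X.inv y hy).chart ⧸ Ideal.span {Inst.ϖB (X.inv y hy)}))
    (hxq : qExpand (kA A) q (D.red X.xW) = D.red X.xW ^ q)
    (hyq : qExpand (kA A) q (D.red y) = D.red y ^ q)
    (Φ : TAut T) (hΦ : ∀ c, Φ.sk c = c ^ q)
    (hΦx : coeffMap (Φ.sR : R0 K0 A →+* R0 K0 A) X.xW = X.xW)
    (hΦy : coeffMap (Φ.sR : R0 K0 A →+* R0 K0 A) y = y)
    (τ : TAut T) (hτ : ∀ c, τ.sk c = c)
    (hτx : coeffMap (τ.sR : R0 K0 A →+* R0 K0 A) X.xW = X.xW)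
    (hτy : coeffMap (τ.sR : R0 K0 A →+* R0 K0 A) y = y)
    (hxy1 : XYData T X) (hxy2 : XYData T (X.inv y hy))
    (N : ℕ) [NeZero N] (ι : T.F →+* FF N)
    (hι : ∀ f : T.F, ((ι f : FF N) : LaurentSeries Kb) = bc K0 (f : LaurentSeries K0))
    (htr : Transcendental Kb (ι (T.x X))) [FiniteDimensional Kb⟮ι (T.x X)⟯ (FF N)]
    [FiniteDimensional Kb⟮(ι (T.x X))⁻¹⟯ (FF N)]
    (u : T.F) (hu : u ≠ 0)
    (hdiv1 : ∃ (n : ℕ) (g g' : Fin n → T.F), (∀ i, g i ^ m * u ∈ T.away X) ∧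
      (∀ i, g' i ^ m * u⁻¹ ∈ T.away X) ∧ ∑ i, g i * g' i = 1)
    (hdiv2 : ∃ (n : ℕ) (g g' : Fin n → T.F), (∀ i, g i ^ m * u ∈ T.away (X.inv y hy)) ∧
      (∀ i, g' i ^ m * u⁻¹ ∈ T.away (X.inv y hy)) ∧ ∑ i, g i * g' i = 1)
    (hK : ∀ P : Place Kb (FF N), P.ord (ι u) ≠ 0 →
      ∀ σ : GQ, (∀ x ∈ K0, σ x = x) → galP N σ P = P) :
    ∃ (z : T.F) (c : K0), z ≠ 0 ∧
      ((z ^ m * (τ.toF (τ.toF u) * u / (τ.toF u) ^ 2) : T.F) : LaurentSeries K0)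
        = HahnSeries.C c := by
  have hin : IsInert T.O T.ϖF τ.toF := τ.isInert hτ
  have hτB1 : ∀ x ∈ T.chart X, τ.toF x ∈ T.chart X := fun x hx => τ.toF_mem_chart X hτx hx
  have hτB2 : ∀ x ∈ T.chart (X.inv y hy), τ.toF x ∈ T.chart (X.inv y hy) :=
    fun x hx => τ.toF_mem_chart (X.inv y hy) hτy hx
  have hτϖ : ∃ c ∈ T.RF, c⁻¹ ∈ T.RF ∧ τ.toF T.ϖF = c * T.ϖF := τ.toF_ϖF
  have hrat1 : HRat T X u := hRat T X N ι hι htr u hu hK
  have hxi : ι (T.x (X.inv y hy)) = (ι (T.x X))⁻¹ := by rw [x_inv, map_inv₀]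
  have htr2 : Transcendental Kb (ι (T.x (X.inv y hy))) := by
    rw [hxi]
    exact FF.transcendental_inv htr
  have : FiniteDimensional Kb⟮ι (T.x (X.inv y hy))⟯ (FF N) := by
    rw [hxi]
    infer_instance
  have hrat2 : HRat T (X.inv y hy) u := hRat T (X.inv y hy) N ι hι htr2 u hu hK
  obtain ⟨z, c, hz, h⟩ := uni_gen hq D T X y hy m hm hded1 hded2 hxq hyq Φ hΦ hΦx hΦy τ.toF hin
    hτB1 hτB2 hτϖ hxy1 hxy2 u hu hdiv1 hdiv2 hrat1 hrat2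
  refine ⟨z, c, hz, ?_⟩
  rw [h]
  exact algebraMap_eq_C _

end Fermat.Agent.S34
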