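import Fermat.Agent.S34.NGen
import Fermat.Agent.S34.Hrat
import Fermat.Agent.ES.InstDesc
import Fermat.Agent.ES.InstUp

/-!
# S34, assembly : `hrat1`, `hrat2` of `uni_asm` for the charts `T.chart X` of level `M₀ q`

`Hrat.hrat` instantiated at `B = T.chart X`, `D = T.away X`, for any embedding
`ι : T.F →+* FF N` which is the extension of the coefficients on `q`-expansions.
-/

set_option autoImplicit false
set_option linter.unusedSectionVars false
set_option linter.style.haveILetI false

noncomputable section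

namespace Fermat.Agent.S34

open ModularCurve AlgebraicCurve Polynomial IsDedekindDomain IntermediateField
open Fermat.Agent.S24 Fermat.Agent.ES Fermat.Agent.ES.QE Fermat.Agent.ES.Model
  Fermat.Agent.ES.IDvr Fermat.Agent.ES.Inst Fermat.Agent.ES.HDivDesc Fermat.Agent.S37.Rat

variable {N q : ℕ} [NeZero N] [NeZero q] {K0 : IntermediateField ℚ Kb} {A : ValuationSubring Kb}
  [IsDiscreteValuationRing (R0 K0 A)] {D : QData (R0 K0 A) K0 (kA A)} (T : Two D q) (X : D.Coord)
  (ι : T.F →+* FF N)
  (hι : ∀ f : T.F, ((ι f : FF N) : LaurentSeries Kb) = bc K0 (f : LaurentSeries K0))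

namespace URat

theorem phiT_X : T.phiT X Polynomial.X = T.x X := by
  rw [Two.phiT, RingHom.comp_apply, X.phiF_X]
  rfl

theorem x_mem : T.x X ∈ T.chart X := by
  rw [T.mem_chart_iff, ← phiT_X]
  exact (T.phiT X).isIntegralElem_map

/-- the coordinate, in the chart. -/
def xB : T.chart X := ⟨T.x X, x_mem T X⟩

include hι

/-- functions defined over `K0` are fixed by `Gal(ℚ̄ / K0)`. -/
theorem gal_iota (f : T.F) (σ : GQ) (hσ : ∀ x ∈ K0, σ x = x) : gal N σ (ι f) = ι f := by
  apply Subtype.ext
  rw [coe_arithmeticRingAut_apply, hι, bc, coeffMap_coeffMap]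
  apply coeffMap_congr
  ext x
  exact hσ x x.2

/-- `ι` on the constants of `K0`. -/
theorem iota_algebraMap (c : K0) : ι (algebraMap K0 T.F c) = algebraMap Kb (FF N) (c : Kb) :=
  Subtype.ext ((hι _).trans (InstUp.bc_algebraMap K0 c))

/-- `ι` on the constants of `R`. -/
theorem iota_const (r : R0 K0 A) :
    ι (algebraMap K0 T.F (algebraMap (R0 K0 A) K0 r)) = cstR N K0 A r :=
  iota_algebraMap T ι hι _

theorem iota_comp_phiT : ι.comp (T.phiT X) = evR K0 A (ι (T.x X)) := by
  apply Polynomial.ringHom_ext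
  · intro a
    have h1 : T.phiT X (C a) = algebraMap K0 T.F (algebraMap (R0 K0 A) K0 a) := by
      rw [Two.phiT, RingHom.comp_apply, X.phiF_C]
      rfl
    rw [RingHom.comp_apply, h1, iota_const T ι hι, evR, coe_eval₂RingHom, eval₂_C]
  · rw [RingHom.comp_apply, phiT_X, evR, coe_eval₂RingHom, eval₂_X]

/-- the chart is integral over `R[x]` inside `FF N`. -/
theorem iota_isIntegralElem {b : T.F} (hb : b ∈ T.chart X) :
    (evR K0 A (ι (T.x X))).IsIntegralElem (ι b) := by
  rw [T.mem_chart_iff] at hb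
  obtain ⟨p, hp, h⟩ := hb
  refine ⟨p, hp, ?_⟩
  rw [← iota_comp_phiT T X ι hι, ← hom_eval₂, h, map_zero]

end URat

include hι in
/-- **`hrat1` / `hrat2`** of `uni_asm`. -/
theorem hrat_chart
    (htr : Transcendental Kb (ι (T.x X))) [FiniteDimensional Kb⟮ι (T.x X)⟯ (FF N)]
    (u : T.F) (hu : u ≠ 0)
    (hK : ∀ P : Place Kb (FF N), P.ord (ι u) ≠ 0 →
      ∀ σ : GQ, (∀ x ∈ K0, σ x = x) → galP N σ P = P) :
    letI : Algebra (T.chart X) T.F := Algebra.ofSubsemiring (T.chart X)
    letI : Algebra (T.away X) T.F := Algebra.ofSubsemiring (T.away X)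
    letI := T.algRB X
    letI := T.algBD X
    haveI := T.isDedekindDomain_away X (InstDesc.isAway_of_dvr D)
    haveI := T.isFractionRing_away X (InstDesc.isAway_of_dvr D)
    ∀ n : Ideal (T.chart X), n ≠ ⊤ → algebraMap (R0 K0 A) (T.chart X) D.ϖ ∈ n →
      ∀ Q : HeightOneSpectrum (T.away X), Q.valuation T.F u ≠ 1 →
        Q.asIdeal.comap (algebraMap (T.chart X) (T.away X)) ≤ n →
        ∃ φ : T.chart X →ₐ[R0 K0 A] R0 K0 A,
          RingHom.ker φ.toRingHom = Q.asIdeal.comap (algebraMap (T.chart X) (T.away X)) := by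
  letI : Algebra (T.chart X) T.F := Algebra.ofSubsemiring (T.chart X)
  letI : Algebra (T.away X) T.F := Algebra.ofSubsemiring (T.away X)
  letI := T.algRB X
  letI := T.algBD X
  haveI := T.isDedekindDomain_away X (InstDesc.isAway_of_dvr D)
  haveI := T.isFractionRing_away X (InstDesc.isAway_of_dvr D)
  haveI := T.isLocalization_away X
  haveI := T.tower_away X
  intro n hn hϖn
  have e : algebraMap (T.chart X) T.F (URat.xB T X) = T.x X := rfl
  have htr' : Transcendental Kb (ι (algebraMap (T.chart X) T.F (URat.xB T X))) := by rw [e]; exact htr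
  haveI hfd : FiniteDimensional Kb⟮ι (algebraMap (T.chart X) T.F (URat.xB T X))⟯ (FF N) := by
    rw [e]; infer_instance
  have hconst : ∀ r : R0 K0 A, ι (algebraMap (T.chart X) T.F (algebraMap (R0 K0 A) (T.chart X) r))
      = cstR N K0 A r := fun r => URat.iota_const T ι hι r
  have hint : ∀ b : T.chart X,
      (evR K0 A (ι (algebraMap (T.chart X) T.F (URat.xB T X)))).IsIntegralElem
      (ι (algebraMap (T.chart X) T.F b)) := by
    intro b
    rw [e]
    exact URat.iota_isIntegralElem T X ι hι b.2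
  exact Hrat.hrat (B := T.chart X) (F := T.F) (D := T.away X) ι
    (URat.gal_iota T ι hι) hconst (URat.xB T X) htr' hint D.ϖ D.prime_ϖ.irreducible n hn hϖn u hu hK

end Fermat.Agent.S34
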