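import Fermat.Agent.S37.KT
import Fermat.Agent.ES.InstGY
import Fermat.Agent.ES.InstUp

/-!
# S34, modular block, package W : the Atkin-Lehner involution over a number field

`N = M q`, `q ∤ M`.  `Wb` is the Atkin-Lehner involution of `FF (M q)` (over `ℚ̄`); it commutes with
the Galois action.  Over a number field `K0`: `alpha0, beta0 : F0 K0 M → F0 K0 (M q)` are the two
degeneracy maps (`f(T) ↦ f(T)`, `f(T) ↦ f(T^q)`), `bcF : F0 K0 N → FF N` the extension of the
constants, and for all sufficiently large `K0` the involution `Wb` descends to `F0 K0 (M q)`.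
-/

set_option autoImplicit false

noncomputable section

namespace Fermat.Agent.S34.WK

open ModularCurve AlgebraicCurve
open Fermat.Agent.S24 Fermat.Agent.S28 Fermat.Agent.ES Fermat.Agent.ES.Inst Fermat.Agent.ES.QE

/-! ### the involution over `ℚ̄` -/

section Wb

variable (M q : ℕ) [NeZero M] [Fact q.Prime]

/-- the Atkin-Lehner involution at `q` of `FF (M q)`. -/
def Wb (h : ¬ q ∣ M) : FF (M * q) ≃ₐ[Kb] FF (M * q) := Classical.choose (S37.KT.exists_W M q h)

theorem Wb_alpha (h : ¬ q ∣ M) (y : FF M) :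
    Wb M q h (heckeAlphaBar Kb M q y) = heckeBetaBar Kb M q y :=
  (Classical.choose_spec (S37.KT.exists_W M q h)).1 y

theorem Wb_beta (h : ¬ q ∣ M) (y : FF M) :
    Wb M q h (heckeBetaBar Kb M q y) = heckeAlphaBar Kb M q y :=
  (Classical.choose_spec (S37.KT.exists_W M q h)).2 y

theorem Wb_Wb (h : ¬ q ∣ M) (x : FF (M * q)) : Wb M q h (Wb M q h x) = x := by
  have : ((Wb M q h : FF (M * q) →+* FF (M * q)).comp (Wb M q h : FF (M * q) →+* FF (M * q)))
      = RingHom.id _ := by
    apply S37.KT.ringHom_ext M q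
    · intro y
      simp only [RingHom.comp_apply, RingHom.coe_coe, RingHom.id_apply, Wb_alpha, Wb_beta]
    · intro y
      simp only [RingHom.comp_apply, RingHom.coe_coe, RingHom.id_apply, Wb_alpha, Wb_beta]
  exact DFunLike.congr_fun this x

theorem gal_alpha (σ : GQ) (y : FF M) :
    gal (M * q) σ (heckeAlphaBar Kb M q y) = heckeAlphaBar Kb M q (gal M σ y) := by
  apply Subtype.ext
  rw [coe_arithmeticRingAut_apply, coe_heckeAlphaBar, coe_heckeAlphaBar,
    coe_arithmeticRingAut_apply]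

theorem gal_beta (σ : GQ) (y : FF M) :
    gal (M * q) σ (heckeBetaBar Kb M q y) = heckeBetaBar Kb M q (gal M σ y) := by
  apply Subtype.ext
  rw [coe_arithmeticRingAut_apply, coe_heckeBetaBar, coe_heckeBetaBar, coe_arithmeticRingAut_apply,
    coeffMap_qExpand]

/-- `W` commutes with the Galois action. -/
theorem gal_Wb (h : ¬ q ∣ M) (σ : GQ) (x : FF (M * q)) :
    gal (M * q) σ (Wb M q h x) = Wb M q h (gal (M * q) σ x) := by
  have : ((gal (M * q) σ : FF (M * q) →+* FF (M * q)).comp (Wb M q h : FF (M * q) →+* FF (M * q)))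
      = (Wb M q h : FF (M * q) →+* FF (M * q)).comp (gal (M * q) σ : FF (M * q) →+* FF (M * q)) := by
    apply S37.KT.ringHom_ext M q
    · intro y
      simp only [RingHom.comp_apply, RingHom.coe_coe, Wb_alpha, gal_alpha, gal_beta]
    · intro y
      simp only [RingHom.comp_apply, RingHom.coe_coe, Wb_beta, gal_alpha, gal_beta]
  exact DFunLike.congr_fun this x

end Wb

/-! ### the degeneracy maps over an arbitrary field of characteristic zero -/

section K

variable (K : Type*) [Field K] (M q : ℕ)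

theorem gen_mem_F0 (N : ℕ) (x : Gen N) : gen K N x ∈ F0 K N :=
  IntermediateField.subset_adjoin _ _ ⟨x, rfl⟩

theorem gX_mem_F0 {N d : ℕ} (hN : N ≠ 0) (hd : d ∣ N) : gX K d ∈ F0 K N :=
  gen_mem_F0 K N (false, ⟨d, Nat.mem_divisors.2 ⟨hd, hN⟩⟩)

theorem gY_mem_F0 {N d : ℕ} (hN : N ≠ 0) (hd : d ∣ N) : gY K d ∈ F0 K N :=
  gen_mem_F0 K N (true, ⟨d, Nat.mem_divisors.2 ⟨hd, hN⟩⟩)

theorem F0_mono {N N' : ℕ} (hN' : N' ≠ 0) (h : N ∣ N') : F0 K N ≤ F0 K N' := by
  rw [F0, IntermediateField.adjoin_le_iff]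
  rintro _ ⟨⟨b, d, hd⟩, rfl⟩
  have hd' : d ∣ N' := (Nat.dvd_of_mem_divisors hd).trans h
  cases b with
  | false => exact gX_mem_F0 K hN' hd'
  | true => exact gY_mem_F0 K hN' hd'

theorem qExp_gX {d : ℕ} (hq : q ≠ 0) (hd : d ≠ 0) : qExp K q (gX K d) = gX K (q * d) := by
  rw [gX, gX, Ord.qExp_qExp q d hq hd]

theorem qExp_gY_mul {d : ℕ} (hq : q ≠ 0) (hd : d ≠ 0) :
    qExp K q (gY K d) * gY K q = gY K (q * d) := by
  have h1 := InstGY.deltaS_mul_deltaInvS K
  have h2 : qExp K q (deltaS K) * qExp K q (deltaInvS K) = 1 := by rw [← map_mul, h1, map_one]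
  rw [gY, gY, gY, map_mul, map_mul, map_pow, map_natCast, Ord.qExp_qExp q d hq hd]
  push_cast
  linear_combination ((d : LaurentSeries K) ^ 12 * (q : LaurentSeries K) ^ 12 *
    qExp K (q * d) (deltaS K) * deltaInvS K) * h2

theorem gY_ne_zero [CharZero K] {d : ℕ} (hd : d ≠ 0) : gY K d ≠ 0 := by
  have h1 := InstGY.deltaS_mul_deltaInvS K
  have h2 : deltaS K ≠ 0 := left_ne_zero_of_mul_eq_one h1
  have h3 : deltaInvS K ≠ 0 := right_ne_zero_of_mul_eq_one h1
  rw [gY]
  have h4 : (d : LaurentSeries K) ≠ 0 := by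
    rw [← map_natCast (HahnSeries.C : K →+* LaurentSeries K)]
    exact (map_ne_zero_iff _ HahnSeries.C_injective).2 (Nat.cast_ne_zero.2 hd)
  refine mul_ne_zero (mul_ne_zero (pow_ne_zero _ h4) ?_) h3
  exact (map_ne_zero_iff _ (Ord.qExp_injective d)).2 h2

variable [CharZero K]

theorem qExp_mem_F0 (hM : M ≠ 0) (hq : q ≠ 0) {f : LaurentSeries K} (hf : f ∈ F0 K M) :
    qExp K q f ∈ F0 K (M * q) := by
  have hN : M * q ≠ 0 := mul_ne_zero hM hq
  induction hf using IntermediateField.adjoin_induction with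
  | mem y hy =>
    obtain ⟨⟨b, d, hd⟩, rfl⟩ := hy
    have hdM : d ∣ M := Nat.dvd_of_mem_divisors hd
    have hd0 : d ≠ 0 := fun h => hM (by rw [h, zero_dvd_iff] at hdM; exact hdM)
    have hqd : q * d ∣ M * q := by rw [mul_comm q d]; exact Nat.mul_dvd_mul_right hdM q
    cases b with
    | false =>
      show qExp K q (gX K d) ∈ _
      rw [qExp_gX K q hq hd0]
      exact gX_mem_F0 K hN hqd
    | true =>
      show qExp K q (gY K d) ∈ _
      have h := qExp_gY_mul K q hq hd0 (d := d)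
      have : qExp K q (gY K d) = gY K (q * d) * (gY K q)⁻¹ := by
        rw [← h, mul_assoc, mul_inv_cancel₀ (gY_ne_zero K hq), mul_one]
      rw [this]
      exact mul_mem (gY_mem_F0 K hN hqd) (inv_mem (gY_mem_F0 K hN (Dvd.intro_left M rfl)))
  | algebraMap c =>
    have : NeZero q := ⟨hq⟩
    rw [qExp_eq, algebraMap_laurentSeries_eq_single, qExpand_single, mul_zero,
      ← algebraMap_laurentSeries_eq_single]
    exact (F0 K (M * q)).algebraMap_mem _
  | add a b _ _ ha hb => rw [map_add]; exact add_mem ha hb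
  | inv a _ ha => rw [map_inv₀]; exact inv_mem ha
  | mul a b _ _ ha hb => rw [map_mul]; exact mul_mem ha hb

end K

/-! ### descent of a `ℚ̄`-automorphism to all large number fields -/

section Desc

open InstUp

/-- every `ℚ̄`-algebra endomorphism of `FF N` preserves `bc (F0 K0 N)` for all sufficiently large
number fields `K0`. -/
theorem exists_K1_map (N : ℕ) [NeZero N] (W : FF N →ₐ[Kb] FF N) :
    ∃ K1 : IntermediateField ℚ Kb, FiniteDimensional ℚ K1 ∧
      ∀ K0 : IntermediateField ℚ Kb, K1 ≤ K0 → ∀ (f : LaurentSeries K0) (hf : f ∈ F0 K0 N),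
        ∃ g ∈ F0 K0 N, bc K0 g = ((W ⟨bc K0 f, bc_mem K0 N hf⟩ : FF N) : LaurentSeries Kb) := by
  classical
  obtain ⟨K1, hK1, -, hS⟩ := exists_K0 N ⊥
    (Finset.univ.image fun x : Gen N => W ⟨gen Kb N x, gen_mem_FF N x⟩)
  refine ⟨K1, hK1, fun K0 hle => ?_⟩
  have key : ∀ (f : LaurentSeries K0), f ∈ F0 K0 N → ∀ hf' : bc K0 f ∈ modularFunctionFieldBar N,
      IsDef N K0 ((W ⟨bc K0 f, hf'⟩ : FF N) : LaurentSeries Kb) := by
    intro f hf
    induction hf using IntermediateField.adjoin_induction with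
    | mem y hy =>
      intro hf'
      obtain ⟨x, rfl⟩ := hy
      have h1 : IsDef N K1 ((W ⟨gen Kb N x, gen_mem_FF N x⟩ : FF N) : LaurentSeries Kb) :=
        hS _ (Finset.mem_image_of_mem _ (Finset.mem_univ x))
      have h2 : (⟨bc K0 (gen K0 N x), hf'⟩ : FF N) = ⟨gen Kb N x, gen_mem_FF N x⟩ :=
        Subtype.ext (bc_gen K0 N x)
      rw [h2]
      exact h1.mono hle
    | algebraMap c =>
      intro hf'
      have h2 : (⟨bc K0 (algebraMap K0 (LaurentSeries K0) c), hf'⟩ : FF N)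
          = algebraMap Kb (FF N) (c : Kb) := Subtype.ext (bc_algebraMap K0 c)
      rw [h2, AlgHom.commutes]
      exact isDef_const c.2
    | add a b ha hb iha ihb =>
      intro hf'
      have h2 : (⟨bc K0 (a + b), hf'⟩ : FF N)
          = ⟨bc K0 a, bc_mem K0 N ha⟩ + ⟨bc K0 b, bc_mem K0 N hb⟩ := Subtype.ext (map_add _ _ _)
      rw [h2, map_add]
      exact (iha _).add (ihb _)
    | inv a ha iha =>
      intro hf'
      have h2 : (⟨bc K0 a⁻¹, hf'⟩ : FF N) = (⟨bc K0 a, bc_mem K0 N ha⟩ : FF N)⁻¹ :=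
        Subtype.ext (map_inv₀ _ _)
      rw [h2, map_inv₀]
      exact (iha _).inv
    | mul a b ha hb iha ihb =>
      intro hf'
      have h2 : (⟨bc K0 (a * b), hf'⟩ : FF N)
          = ⟨bc K0 a, bc_mem K0 N ha⟩ * ⟨bc K0 b, bc_mem K0 N hb⟩ := Subtype.ext (map_mul _ _ _)
      rw [h2, map_mul]
      exact (iha _).mul (ihb _)
  intro f hf
  exact key f hf _

end Desc

end Fermat.Agent.S34.WK
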